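import Fermat.Agent.Density.Qbar_helper4

/-!
# Frobenius density theorem, open-normal-subgroup form (S56 leaf (G))

`exists_prime_frobenius_conj_open`: `N` an open normal subgroup of `Gal(L/ℚ)` (`L/ℚ` normal of
characteristic zero), `σ ∈ Gal(L/ℚ)`, `T` finite: there is a prime `q ∉ T` such that for every
valuation subring `P` of `L` over `q` the inertia group of `P` lies in `N` and every Frobenius
element `φ` at `P` generates, modulo `N`, the same subgroup as a conjugate of `σ`.
`exists_prime_frobenius_conj_algClosure` is the special case `L = AlgebraicClosure ℚ` in exactly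
the Prelude's types.
-/

open NumberField Pointwise MulAction Topology

namespace Fermat.Agent.Density

theorem zpowers_mk_eq_of_zpowers_map_eq {G H : Type*} [Group G] [Group H] (f : G →* H)
    (N : Subgroup G) [N.Normal] (hN : f.ker ≤ N) {a b : G}
    (h : Subgroup.zpowers (f a) = Subgroup.zpowers (f b)) :
    Subgroup.zpowers (QuotientGroup.mk' N a) = Subgroup.zpowers (QuotientGroup.mk' N b) := by
  have key : ∀ a b : G, f a ∈ Subgroup.zpowers (f b) →
      QuotientGroup.mk' N a ∈ Subgroup.zpowers (QuotientGroup.mk' N b) := by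
    intro a b hab
    obtain ⟨k, hk⟩ := Subgroup.mem_zpowers_iff.mp hab
    rw [Subgroup.mem_zpowers_iff]
    refine ⟨k, ?_⟩
    rw [← map_zpow]
    refine (QuotientGroup.eq (s := N)).mpr (hN ?_)
    rw [MonoidHom.mem_ker, map_mul, map_inv, map_zpow, hk, inv_mul_cancel]
  refine le_antisymm ?_ ?_
  · rw [Subgroup.zpowers_le]
    exact key a b (h ▸ Subgroup.mem_zpowers _)
  · rw [Subgroup.zpowers_le]
    exact key b a (h ▸ Subgroup.mem_zpowers _)

variable {L : Type*} [Field L] [CharZero L]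

theorem numberField_of_finiteDimensional (E : IntermediateField ℚ L) [FiniteDimensional ℚ E] :
    NumberField E := by
  have h : FiniteDimensional ℚ E := inferInstance
  exact { to_charZero := inferInstance
          to_finiteDimensional := by convert h }

/-- **Frobenius density theorem, open-normal-subgroup form.** -/
theorem exists_prime_frobenius_conj_open [Normal ℚ L] (N : Subgroup (L ≃ₐ[ℚ] L)) [N.Normal]
    (hN : IsOpen (N : Set (L ≃ₐ[ℚ] L))) (σ : L ≃ₐ[ℚ] L) (T : Finset ℕ) :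
    ∃ q : ℕ, q.Prime ∧ q ∉ T ∧ ∀ P : ValuationSubring L, P.LiesOverPrime q →
      P.inertiaSubgroupIn ℚ ≤ N ∧
      ∀ φ : L ≃ₐ[ℚ] L, P.IsFrobeniusAt φ q → ∃ τ : L ≃ₐ[ℚ] L,
        Subgroup.zpowers (QuotientGroup.mk' N φ) =
          Subgroup.zpowers (QuotientGroup.mk' N (τ * σ * τ⁻¹)) := by
  have h1 : (N : Set (L ≃ₐ[ℚ] L)) ∈ 𝓝 (1 : L ≃ₐ[ℚ] L) := hN.mem_nhds N.one_mem
  obtain ⟨E, hfin, hnorm, hE⟩ := (krullTopology_mem_nhds_one_iff_of_normal ℚ L _).mp h1
  have : NumberField E := numberField_of_finiteDimensional E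
  have : Normal ℚ E := hnorm
  have : IsGalois ℚ E := { to_normal := hnorm }
  have hker : (AlgEquiv.restrictNormalHom (F := ℚ) (K₁ := L) E).ker ≤ N := by
    have h2 := IntermediateField.restrictNormalHom_ker (K := ℚ) (L := L) E
    intro x hx
    refine hE ?_
    rw [← h2]
    exact hx
  obtain ⟨q, hq, hqT, -, hall⟩ := exists_prime_frobenius_conj E (AlgEquiv.restrictNormalHom E σ) T
  refine ⟨q, hq, hqT, fun P hP ↦ ⟨fun τ hτ ↦ ?_, fun φ hφ ↦ ?_⟩⟩
  · exact hker (MonoidHom.mem_ker.mpr ((hall P hP).1 τ hτ))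
  · obtain ⟨τ₀, hτ₀⟩ := (hall P hP).2 φ hφ
    obtain ⟨τ, rfl⟩ := AlgEquiv.restrictNormalHom_surjective (F := ℚ) (K₁ := E) L τ₀
    refine ⟨τ, zpowers_mk_eq_of_zpowers_map_eq (AlgEquiv.restrictNormalHom E) N hker ?_⟩
    rw [map_mul, map_mul, map_inv]
    exact hτ₀

theorem normal_algebraicClosure_rat : Normal ℚ (AlgebraicClosure ℚ) := by
  have : Algebra.IsAlgebraic ℚ (AlgebraicClosure ℚ) := AlgebraicClosure.isAlgebraic ℚ
  have : IsAlgClosure ℚ (AlgebraicClosure ℚ) := ⟨inferInstance, inferInstance⟩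
  exact IsAlgClosure.normal ℚ (AlgebraicClosure ℚ)

/-- **Frobenius density theorem for `G_ℚ`**, in the Prelude's types. -/
theorem exists_prime_frobenius_conj_algClosure
    (N : Subgroup (AlgebraicClosure ℚ ≃ₐ[ℚ] AlgebraicClosure ℚ)) [N.Normal]
    (hN : IsOpen (N : Set (AlgebraicClosure ℚ ≃ₐ[ℚ] AlgebraicClosure ℚ)))
    (σ : AlgebraicClosure ℚ ≃ₐ[ℚ] AlgebraicClosure ℚ) (T : Finset ℕ) :
    ∃ q : ℕ, q.Prime ∧ q ∉ T ∧
      ∀ P : ValuationSubring (AlgebraicClosure ℚ), P.LiesOverPrime q →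
        P.inertiaSubgroupIn ℚ ≤ N ∧
        ∀ φ : AlgebraicClosure ℚ ≃ₐ[ℚ] AlgebraicClosure ℚ, P.IsFrobeniusAt φ q →
          ∃ τ : AlgebraicClosure ℚ ≃ₐ[ℚ] AlgebraicClosure ℚ,
            Subgroup.zpowers (QuotientGroup.mk' N φ) =
              Subgroup.zpowers (QuotientGroup.mk' N (τ * σ * τ⁻¹)) := by
  have := normal_algebraicClosure_rat
  exact exists_prime_frobenius_conj_open N hN σ T

/-- two elements of a finite-order group generating the same cyclic subgroup are coprime powers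
of each other -/
theorem exists_coprime_pow_eq_of_zpowers_eq {G : Type*} [Group G] {a b : G}
    (hb : IsOfFinOrder b) (h : Subgroup.zpowers a = Subgroup.zpowers b) :
    ∃ k : ℕ, k.Coprime (orderOf b) ∧ a = b ^ k := by
  have ha : a ∈ Subgroup.zpowers b := h ▸ Subgroup.mem_zpowers a
  obtain ⟨k, hk⟩ := (hb.mem_powers_iff_mem_zpowers).mpr ha
  have hk' : b ^ k = a := hk
  refine ⟨k, ?_, hk'.symm⟩
  have hn : 0 < orderOf b := hb.orderOf_pos
  have h1 : orderOf a = orderOf b := by
    rw [← Nat.card_zpowers, ← Nat.card_zpowers, h]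
  have h2 : orderOf (b ^ k) = orderOf b / Nat.gcd (orderOf b) k :=
    IsOfFinOrder.orderOf_pow b k hb
  rw [hk', h1] at h2
  have h3 : Nat.gcd (orderOf b) k = 1 := by
    have hg : 0 < Nat.gcd (orderOf b) k := Nat.gcd_pos_of_pos_left _ hn
    have h4 : orderOf b / Nat.gcd (orderOf b) k * Nat.gcd (orderOf b) k = orderOf b :=
      Nat.div_mul_cancel (Nat.gcd_dvd_left _ _)
    rw [← h2] at h4
    have h5 : orderOf b * Nat.gcd (orderOf b) k = orderOf b * 1 := by rw [h4, mul_one]
    exact Nat.eq_of_mul_eq_mul_left hn h5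
  rw [Nat.coprime_comm]
  exact h3

end Fermat.Agent.Density
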