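import Mathlib

/-!
# Frobenius density (S56 leaf (G)): prime sums `∑_q c(q) q^(-s)` and subgroups of cyclic groups
-/

open Filter Topology Asymptotics

namespace Fermat.Agent.Density

/-- the Dirichlet-type sum over primes `∑_q c(q) q^(-s)` -/
noncomputable def mass (c : ℕ → ℝ) (s : ℝ) : ℝ :=
  ∑' q : Nat.Primes, c q * (((q : ℕ) : ℝ) ^ s)⁻¹

theorem summable_mass_of_bdd {c : ℕ → ℝ} {B : ℝ} (hc : ∀ q : Nat.Primes, |c q| ≤ B) {s : ℝ}
    (hs : 1 < s) : Summable fun q : Nat.Primes ↦ c q * (((q : ℕ) : ℝ) ^ s)⁻¹ := by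
  have h1 : Summable fun q : Nat.Primes ↦ B * (((q : ℕ) : ℝ) ^ s)⁻¹ := by
    have h2 : Summable fun n : ℕ ↦ ((n : ℝ) ^ s)⁻¹ := Real.summable_nat_rpow_inv.mpr hs
    exact (h2.subtype _).mul_left B
  refine Summable.of_norm_bounded h1 fun q ↦ ?_
  have hpos : (0 : ℝ) ≤ (((q : ℕ) : ℝ) ^ s)⁻¹ :=
    inv_nonneg.mpr (Real.rpow_nonneg (Nat.cast_nonneg _) _)
  rw [norm_mul, Real.norm_eq_abs, Real.norm_eq_abs, abs_of_nonneg hpos]
  exact mul_le_mul_of_nonneg_right (hc q) hpos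

theorem mass_add {c₁ c₂ : ℕ → ℝ} {s : ℝ}
    (h₁ : Summable fun q : Nat.Primes ↦ c₁ q * (((q : ℕ) : ℝ) ^ s)⁻¹)
    (h₂ : Summable fun q : Nat.Primes ↦ c₂ q * (((q : ℕ) : ℝ) ^ s)⁻¹) :
    mass (fun q ↦ c₁ q + c₂ q) s = mass c₁ s + mass c₂ s := by
  unfold mass
  rw [← h₁.tsum_add h₂]
  exact tsum_congr fun q ↦ by ring

theorem mass_sub {c₁ c₂ : ℕ → ℝ} {s : ℝ}
    (h₁ : Summable fun q : Nat.Primes ↦ c₁ q * (((q : ℕ) : ℝ) ^ s)⁻¹)
    (h₂ : Summable fun q : Nat.Primes ↦ c₂ q * (((q : ℕ) : ℝ) ^ s)⁻¹) :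
    mass (fun q ↦ c₁ q - c₂ q) s = mass c₁ s - mass c₂ s := by
  unfold mass
  rw [← h₁.tsum_sub h₂]
  exact tsum_congr fun q ↦ by ring

theorem mass_const_mul (a : ℝ) (c : ℕ → ℝ) (s : ℝ) :
    mass (fun q ↦ a * c q) s = a * mass c s := by
  unfold mass
  rw [← tsum_mul_left]
  exact tsum_congr fun q ↦ by ring

theorem mass_finset_sum {ι : Type*} (T : Finset ι) (c : ι → ℕ → ℝ) {s : ℝ}
    (h : ∀ i ∈ T, Summable fun q : Nat.Primes ↦ c i q * (((q : ℕ) : ℝ) ^ s)⁻¹) :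
    mass (fun q ↦ ∑ i ∈ T, c i q) s = ∑ i ∈ T, mass (c i) s := by
  unfold mass
  rw [← Summable.tsum_finsetSum h]
  exact tsum_congr fun q ↦ by rw [Finset.sum_mul]

theorem mass_sub_sum {ι : Type*} (T : Finset ι) (a : ℝ) (c₀ : ℕ → ℝ) (b : ι → ℝ)
    (c : ι → ℕ → ℝ) {s : ℝ}
    (h0 : Summable fun q : Nat.Primes ↦ c₀ q * (((q : ℕ) : ℝ) ^ s)⁻¹)
    (h : ∀ i ∈ T, Summable fun q : Nat.Primes ↦ c i q * (((q : ℕ) : ℝ) ^ s)⁻¹) :
    mass (fun q ↦ a * c₀ q - ∑ i ∈ T, b i * c i q) s =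
      a * mass c₀ s - ∑ i ∈ T, b i * mass (c i) s := by
  have hsum1 : Summable fun q : Nat.Primes ↦ (a * c₀ q) * (((q : ℕ) : ℝ) ^ s)⁻¹ :=
    (h0.mul_left a).congr fun q ↦ by ring
  have hsum2 : ∀ i ∈ T, Summable fun q : Nat.Primes ↦
      (b i * c i q) * (((q : ℕ) : ℝ) ^ s)⁻¹ :=
    fun i hi ↦ ((h i hi).mul_left (b i)).congr fun q ↦ by ring
  have hsum3 : Summable fun q : Nat.Primes ↦
      (∑ i ∈ T, b i * c i q) * (((q : ℕ) : ℝ) ^ s)⁻¹ := by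
    have h4 : Summable fun q : Nat.Primes ↦
      ∑ i ∈ T, (b i * c i q) * (((q : ℕ) : ℝ) ^ s)⁻¹ := summable_sum hsum2
    refine h4.congr fun q ↦ ?_
    rw [Finset.sum_mul]
  have e1 : mass (fun q ↦ a * c₀ q - ∑ i ∈ T, b i * c i q) s =
      mass (fun q ↦ a * c₀ q) s - mass (fun q ↦ ∑ i ∈ T, b i * c i q) s :=
    mass_sub hsum1 hsum3
  have e2 : mass (fun q ↦ ∑ i ∈ T, b i * c i q) s = ∑ i ∈ T, mass (fun q ↦ b i * c i q) s :=
    mass_finset_sum T (fun i q ↦ b i * c i q) hsum2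
  rw [e1, e2, mass_const_mul]
  congr 1
  exact Finset.sum_congr rfl fun i _ ↦ mass_const_mul _ _ _

/-- a coefficient function supported on finitely many primes has bounded mass -/
theorem mass_isBigO_of_support (c : ℕ → ℝ) (T : Finset ℕ)
    (hc : ∀ q : Nat.Primes, (q : ℕ) ∉ T → c q = 0) :
    (fun s ↦ mass c s) =O[𝓝[>] 1] (fun _ ↦ (1 : ℝ)) := by
  classical
  let T' : Finset Nat.Primes := T.subtype Nat.Prime
  refine IsBigO.of_bound (∑ q ∈ T', |c q|) ?_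
  filter_upwards [self_mem_nhdsWithin] with s hs
  have hs' : (1 : ℝ) < s := hs
  have h1 : mass c s = ∑ q ∈ T', c q * (((q : ℕ) : ℝ) ^ s)⁻¹ := by
    unfold mass
    refine tsum_eq_sum fun q hq ↦ ?_
    rw [hc q (fun hmem ↦ hq (Finset.mem_subtype.mpr hmem)), zero_mul]
  rw [h1, norm_one, mul_one, Real.norm_eq_abs]
  refine (Finset.abs_sum_le_sum_abs _ _).trans (Finset.sum_le_sum fun q _ ↦ ?_)
  rw [abs_mul]
  have hq1 : (1 : ℝ) ≤ ((q : ℕ) : ℝ) := by exact_mod_cast q.2.one_lt.le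
  have h2 : (1 : ℝ) ≤ ((q : ℕ) : ℝ) ^ s := Real.one_le_rpow hq1 (by linarith)
  have h3 : |(((q : ℕ) : ℝ) ^ s)⁻¹| ≤ 1 := by
    rw [abs_of_nonneg (by positivity)]
    exact inv_le_one_of_one_le₀ h2
  calc |c q| * |(((q : ℕ) : ℝ) ^ s)⁻¹| ≤ |c q| * 1 :=
        mul_le_mul_of_nonneg_left h3 (abs_nonneg _)
    _ = |c q| := mul_one _

/-- `log (s - 1)` is unbounded as `s → 1⁺` -/
theorem not_isBigO_log {a : ℝ} (ha : a ≠ 0) :
    ¬ (fun s : ℝ ↦ a * Real.log (s - 1)) =O[𝓝[>] 1] (fun _ ↦ (1 : ℝ)) := by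
  intro h
  have h1 : Tendsto (fun s : ℝ ↦ s - 1) (𝓝[>] 1) (𝓝[>] 0) := by
    refine tendsto_nhdsWithin_iff.mpr ⟨?_, ?_⟩
    · have : Tendsto (fun s : ℝ ↦ s - 1) (𝓝 1) (𝓝 (1 - 1)) :=
        (continuous_id.sub continuous_const).tendsto 1
      rw [sub_self] at this
      exact this.mono_left nhdsWithin_le_nhds
    · filter_upwards [self_mem_nhdsWithin] with s hs
      exact sub_pos.mpr (show (1 : ℝ) < s from hs)
  have h2 : Tendsto (fun s : ℝ ↦ Real.log (s - 1)) (𝓝[>] 1) atBot :=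
    Real.tendsto_log_nhdsGT_zero.comp h1
  have h3 : Tendsto (fun s : ℝ ↦ ‖a * Real.log (s - 1)‖) (𝓝[>] 1) atTop := by
    have h4 : Tendsto (fun s : ℝ ↦ |a| * |Real.log (s - 1)|) (𝓝[>] 1) atTop :=
      (tendsto_abs_atBot_atTop.comp h2).const_mul_atTop (abs_pos.mpr ha)
    refine h4.congr fun s ↦ ?_
    rw [Real.norm_eq_abs, abs_mul]
  obtain ⟨C, hC⟩ := h.bound
  have h5 := (h3.eventually (eventually_gt_atTop C)).and hC
  have : (𝓝[>] (1 : ℝ)).NeBot := inferInstance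
  obtain ⟨s, hs1, hs2⟩ := h5.exists
  rw [norm_one, mul_one] at hs2
  linarith

section cyclic
open Subgroup


/-- the subgroup of order `d` of the cyclic group generated by `σ` -/
theorem card_zpowers_pow_div {G : Type*} [Group G] [Finite G] (σ : G) {d : ℕ}
    (hd : d ∣ orderOf σ) : Nat.card (zpowers (σ ^ (orderOf σ / d))) = d := by
  have hn : 0 < orderOf σ := orderOf_pos σ
  have hd0 : 0 < d := Nat.pos_of_dvd_of_pos hd hn
  rw [Nat.card_zpowers, orderOf_pow_of_dvd (by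
    exact (Nat.div_pos (Nat.le_of_dvd hn hd) hd0).ne') (Nat.div_dvd_of_dvd hd)]
  exact Nat.div_div_self hd hn.ne'

theorem le_zpowers_pow_div_iff {G : Type*} [Group G] [Finite G] (σ : G) {d : ℕ}
    (hd : d ∣ orderOf σ) (D : Subgroup G) :
    D ≤ zpowers (σ ^ (orderOf σ / d)) ↔ D ≤ zpowers σ ∧ Nat.card D ∣ d := by
  have hn : 0 < orderOf σ := orderOf_pos σ
  have hd0 : 0 < d := Nat.pos_of_dvd_of_pos hd hn
  constructor
  · intro h
    refine ⟨h.trans ?_, ?_⟩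
    · rw [zpowers_le]
      exact Subgroup.pow_mem _ (mem_zpowers σ) _
    · have := Subgroup.card_dvd_of_le h
      rwa [card_zpowers_pow_div σ hd] at this
  · rintro ⟨h1, h2⟩ x hx
    obtain ⟨k, rfl⟩ := Subgroup.mem_zpowers_iff.mp (h1 hx)
    have hx1 : (σ ^ k) ^ d = 1 := by
      obtain ⟨m, hm⟩ := h2
      have h3 : (⟨σ ^ k, hx⟩ : D) ^ Nat.card D = 1 := pow_card_eq_one'
      have h4 : (σ ^ k) ^ Nat.card D = 1 := by
        have := congrArg (Subtype.val : D → G) h3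
        rwa [Subgroup.coe_pow, Subgroup.coe_one] at this
      rw [hm, pow_mul, h4, one_pow]
    rw [← zpow_natCast, ← zpow_mul, ← orderOf_dvd_iff_zpow_eq_one] at hx1
    have h5 : ((orderOf σ / d : ℕ) : ℤ) ∣ k := by
      have h6 : ((orderOf σ / d : ℕ) : ℤ) * (d : ℤ) = (orderOf σ : ℤ) := by
        exact_mod_cast Nat.div_mul_cancel hd
      rw [← h6] at hx1
      exact Int.dvd_of_mul_dvd_mul_right (by exact_mod_cast hd0.ne') hx1
    obtain ⟨m, rfl⟩ := h5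
    rw [zpow_mul, zpow_natCast]
    exact Subgroup.zpow_mem _ (mem_zpowers _) _


end cyclic

end Fermat.Agent.Density
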