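/-
[CHEBD] (a), part 1 (helper3): the Lipschitz lattice-point counting principle in coordinates.
For a bounded measurable `D ⊆ ℝ^ι` whose frontier is covered by finitely many Lipschitz images of
unit cubes `[0,1]^κ`, the number of points of `v + ℤ^ι` in `t • D` is
`vol(D) t^(card ι) + O(t^(card κ))`, uniformly in `v`.
-/
import Mathlib

set_option linter.unusedSectionVars false

open MeasureTheory Set Bornology
open scoped NNReal Pointwise

namespace Fermat.Agent.Density


variable {ι : Type*}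

/-- index of the unit cube (translated by `v`) containing `x`. -/
noncomputable def cubeIdx (v x : ι → ℝ) : ι → ℤ := fun i => ⌊x i - v i⌋

/-- the half-open unit cube `v + n + [0,1)^ι`. -/
def ucube (v : ι → ℝ) (n : ι → ℤ) : Set (ι → ℝ) := {x | cubeIdx v x = n}

theorem mem_ucube {v x : ι → ℝ} {n : ι → ℤ} : x ∈ ucube v n ↔ cubeIdx v x = n := Iff.rfl

theorem mem_ucube_cubeIdx (v x : ι → ℝ) : x ∈ ucube v (cubeIdx v x) := rfl

variable [Fintype ι]

theorem ucube_eq_pi (v : ι → ℝ) (n : ι → ℤ) :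
    ucube v n = Set.pi Set.univ (fun i => Set.Ico (v i + n i) (v i + n i + 1)) := by
  ext x
  simp only [ucube, Set.mem_ofPred_eq, Set.mem_pi, Set.mem_univ, true_implies, Set.mem_Ico]
  constructor
  · intro h i
    have hi : ⌊x i - v i⌋ = n i := congrFun h i
    rw [Int.floor_eq_iff] at hi
    constructor <;> linarith [hi.1, hi.2]
  · intro h
    funext i
    show ⌊x i - v i⌋ = n i
    rw [Int.floor_eq_iff]
    constructor <;> linarith [(h i).1, (h i).2]

theorem corner_mem_ucube (v : ι → ℝ) (n : ι → ℤ) : (v + fun i => (n i : ℝ)) ∈ ucube v n := by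
  funext i
  simp [cubeIdx]

theorem measurableSet_ucube (v : ι → ℝ) (n : ι → ℤ) : MeasurableSet (ucube v n) := by
  rw [ucube_eq_pi]
  exact MeasurableSet.univ_pi fun i => measurableSet_Ico

theorem volume_ucube (v : ι → ℝ) (n : ι → ℤ) : volume (ucube v n) = 1 := by
  rw [ucube_eq_pi, Real.volume_pi_Ico]
  simp

theorem convex_ucube (v : ι → ℝ) (n : ι → ℤ) : Convex ℝ (ucube v n) := by
  rw [ucube_eq_pi]
  exact convex_pi fun i _ => convex_Ico _ _

theorem ucube_disjoint (v : ι → ℝ) {n m : ι → ℤ} (h : n ≠ m) : Disjoint (ucube v n) (ucube v m) := by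
  rw [Set.disjoint_left]
  intro x hx hx'
  exact h (hx.symm.trans hx')

/-- A preconnected set that misses the frontier of `S` is inside `S` or disjoint from `S`. -/
theorem subset_or_disjoint_of_inter_frontier_eq_empty {X : Type*} [TopologicalSpace X]
    {C S : Set X} (hC : IsPreconnected C) (h : C ∩ frontier S = ∅) : C ⊆ S ∨ Disjoint C S := by
  have hcov : C ⊆ interior S ∪ (closure S)ᶜ := by
    intro x hx
    by_contra hx'
    rw [Set.mem_union, not_or, Set.mem_compl_iff, not_not] at hx'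
    have : x ∈ C ∩ frontier S := ⟨hx, hx'.2, hx'.1⟩
    rw [h] at this
    exact this
  by_cases h1 : (C ∩ interior S).Nonempty
  · by_cases h2 : (C ∩ (closure S)ᶜ).Nonempty
    · obtain ⟨x, -, hx1, hx2⟩ := hC _ _ isOpen_interior isClosed_closure.isOpen_compl hcov h1 h2
      exact absurd (subset_closure (interior_subset hx1)) hx2
    · left
      intro x hx
      rcases hcov hx with h3 | h3
      · exact interior_subset h3
      · exact absurd ⟨x, hx, h3⟩ h2
  · right
    rw [Set.disjoint_left]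
    intro x hx hxS
    rcases hcov hx with h3 | h3
    · exact h1 ⟨x, hx, h3⟩
    · exact h3 (subset_closure hxS)


theorem volume_real_ucube (v : ι → ℝ) (n : ι → ℤ) : volume.real (ucube v n) = 1 := by
  rw [measureReal_def, volume_ucube]; rfl

/-- cube comparison: the number of points of `v + ℤ^ι` in `S` differs from the volume of `S`
by at most the number of unit cubes meeting the frontier of `S`. -/
theorem abs_card_sub_volume_le (S : Set (ι → ℝ)) (hSm : MeasurableSet S) (v : ι → ℝ)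
    (A B : Finset (ι → ℤ))
    (hA : ∀ n, n ∈ A ↔ (v + fun i => (n i : ℝ)) ∈ S)
    (hB : ∀ n, (ucube v n ∩ frontier S).Nonempty → n ∈ B) :
    |(A.card : ℝ) - volume.real S| ≤ B.card := by
  classical
  -- cubes not in `B` are inside or outside
  have hdich : ∀ n, n ∉ B → (n ∈ A → ucube v n ⊆ S) ∧ (n ∉ A → Disjoint (ucube v n) S) := by
    intro n hn
    have hemp : ucube v n ∩ frontier S = ∅ := by
      by_contra hne
      exact hn (hB n (Set.nonempty_iff_ne_empty.mpr hne))
    rcases subset_or_disjoint_of_inter_frontier_eq_empty (convex_ucube v n).isPreconnected hemp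
      with h | h
    · refine ⟨fun _ => h, fun hnA => absurd ((hA n).mpr (h (corner_mem_ucube v n))) hnA⟩
    · refine ⟨fun hnA => ?_, fun _ => h⟩
      exact absurd ((hA n).mp hnA) (Set.disjoint_left.mp h (corner_mem_ucube v n))
  have hcover : S = ⋃ n ∈ A ∪ B, S ∩ ucube v n := by
    ext x
    simp only [Set.mem_iUnion, Set.mem_inter_iff, exists_and_left, exists_prop]
    constructor
    · intro hx
      refine ⟨hx, cubeIdx v x, ?_, mem_ucube_cubeIdx v x⟩
      by_cases hb : cubeIdx v x ∈ B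
      · exact Finset.mem_union_right _ hb
      · refine Finset.mem_union_left _ ?_
        by_contra ha
        exact Set.disjoint_left.mp ((hdich _ hb).2 ha) (mem_ucube_cubeIdx v x) hx
    · rintro ⟨hx, -⟩
      exact hx
  have hfin : ∀ n, volume (S ∩ ucube v n) ≠ ⊤ := fun n =>
    ne_top_of_le_ne_top (by rw [volume_ucube]; exact ENNReal.one_ne_top)
      (measure_mono Set.inter_subset_right)
  have hvol : volume.real S = ∑ n ∈ A ∪ B, volume.real (S ∩ ucube v n) := by
    conv_lhs => rw [hcover]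
    refine measureReal_biUnion_finset ?_ (fun n _ => hSm.inter (measurableSet_ucube v n))
      (fun n _ => hfin n)
    intro n _ m _ hnm
    exact (ucube_disjoint v hnm).mono Set.inter_subset_right Set.inter_subset_right
  have hsplit : A ∪ B = (A \ B) ∪ B := by
    ext n; simp only [Finset.mem_union, Finset.mem_sdiff]; tauto
  have hdisj : Disjoint (A \ B) B := Finset.sdiff_disjoint
  rw [hvol, hsplit, Finset.sum_union hdisj]
  have h1 : ∑ n ∈ A \ B, volume.real (S ∩ ucube v n) = ((A \ B).card : ℝ) := by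
    rw [Finset.card_eq_sum_ones, Nat.cast_sum]
    refine Finset.sum_congr rfl fun n hn => ?_
    rw [Finset.mem_sdiff] at hn
    rw [Set.inter_eq_right.mpr ((hdich n hn.2).1 hn.1), volume_real_ucube, Nat.cast_one]
  have h2 : 0 ≤ ∑ n ∈ B, volume.real (S ∩ ucube v n) := Finset.sum_nonneg fun _ _ => measureReal_nonneg
  have h3 : ∑ n ∈ B, volume.real (S ∩ ucube v n) ≤ B.card := by
    rw [Finset.card_eq_sum_ones, Nat.cast_sum]
    refine Finset.sum_le_sum fun n _ => ?_
    rw [Nat.cast_one, ← volume_real_ucube v n]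
    exact measureReal_mono Set.inter_subset_right (by rw [volume_ucube]; exact ENNReal.one_ne_top)
  have h4 : (A.card : ℝ) = ((A \ B).card : ℝ) + ((A ∩ B).card : ℝ) := by
    rw [← Nat.cast_add, Finset.card_sdiff_add_card_inter]
  have h5 : ((A ∩ B).card : ℝ) ≤ B.card := by
    exact_mod_cast Finset.card_le_card Finset.inter_subset_right
  have h6 : (0 : ℝ) ≤ ((A ∩ B).card : ℝ) := Nat.cast_nonneg _
  rw [h1, h4, abs_le]
  constructor <;> linarith


/-- a set of sup-diameter `≤ R` meets at most `(2R+1)^d` unit cubes. -/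
theorem exists_finset_cubes_of_diam_le (v : ι → ℝ) (P : Set (ι → ℝ)) (R : ℕ)
    (hP : ∀ x ∈ P, ∀ y ∈ P, ∀ i, |x i - y i| ≤ R) :
    ∃ T : Finset (ι → ℤ), T.card ≤ (2 * R + 1) ^ Fintype.card ι ∧
      ∀ n, (ucube v n ∩ P).Nonempty → n ∈ T := by
  classical
  rcases P.eq_empty_or_nonempty with rfl | ⟨x₀, hx₀⟩
  · exact ⟨∅, by simp, fun n hn => by simp at hn⟩
  refine ⟨Fintype.piFinset fun i => Finset.Icc (cubeIdx v x₀ i - R) (cubeIdx v x₀ i + R), ?_, ?_⟩
  · rw [Fintype.card_piFinset]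
    have : ∀ i, (Finset.Icc (cubeIdx v x₀ i - (R : ℤ)) (cubeIdx v x₀ i + R)).card = 2 * R + 1 := by
      intro i
      rw [Int.card_Icc]
      have : cubeIdx v x₀ i + (R : ℤ) + 1 - (cubeIdx v x₀ i - R) = ((2 * R + 1 : ℕ) : ℤ) := by
        push_cast; ring
      rw [this, Int.toNat_natCast]
    simp only [this, Finset.prod_const, Finset.card_univ, le_refl]
  · rintro n ⟨x, hxn, hxP⟩
    rw [Fintype.mem_piFinset]
    intro i
    have hni : n i = ⌊x i - v i⌋ := (congrFun hxn i).symm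
    have habs := abs_le.mp (hP x hxP x₀ hx₀ i)
    rw [Finset.mem_Icc, hni]
    constructor
    · have : cubeIdx v x₀ i - (R : ℤ) = ⌊x₀ i - v i - (R : ℝ)⌋ := by
        show ⌊x₀ i - v i⌋ - (R : ℤ) = _
        rw [← Int.floor_sub_natCast]
      rw [this]
      exact Int.floor_le_floor (by linarith [habs.1])
    · have : cubeIdx v x₀ i + (R : ℤ) = ⌊x₀ i - v i + (R : ℝ)⌋ := by
        show ⌊x₀ i - v i⌋ + (R : ℤ) = _
        rw [← Int.floor_add_natCast]
      rw [this]
      exact Int.floor_le_floor (by linarith [habs.2])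


/-- a Lipschitz patch, dilated by `t ≥ 1`, meets `O(t^(dim of the patch))` unit cubes. -/
theorem exists_finset_cubes_patch {κ : Type*} [Fintype κ] (φ : (κ → ℝ) → (ι → ℝ)) (M : ℝ≥0)
    (hφ : LipschitzOnWith M φ (Set.Icc 0 1)) (t : ℝ) (ht : 1 ≤ t) (v : ι → ℝ) :
    ∃ T : Finset (ι → ℤ),
      (T.card : ℝ) ≤ (2 * ⌈(M : ℝ)⌉₊ + 1 : ℕ) ^ Fintype.card ι * (2 * t) ^ Fintype.card κ ∧
      ∀ n, (ucube v n ∩ (t • (φ '' Set.Icc 0 1))).Nonempty → n ∈ T := by
  classical
  set m : ℕ := ⌈t⌉₊ with hm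
  have ht0 : 0 < t := lt_of_lt_of_le one_pos ht
  have htm : t ≤ m := Nat.le_ceil t
  have hm0 : (0 : ℝ) < m := lt_of_lt_of_le ht0 htm
  have hm1 : 1 ≤ m := by exact_mod_cast (Nat.one_le_cast (α := ℝ)).mp (le_trans ht htm)
  have hm2 : (m : ℝ) ≤ 2 * t := by
    have := (Nat.ceil_lt_add_one ht0.le).le
    linarith
  set R : ℕ := ⌈(M : ℝ)⌉₊ with hR
  have hMR : (M : ℝ) ≤ R := Nat.le_ceil _
  let C : (κ → ℕ) → Set (κ → ℝ) := fun c =>
    {p | p ∈ Set.Icc (0 : κ → ℝ) 1 ∧ ∀ k, (c k : ℝ) ≤ m * p k ∧ m * p k ≤ c k + 1}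
  have hdiam : ∀ c : κ → ℕ, ∀ x ∈ t • (φ '' C c), ∀ y ∈ t • (φ '' C c), ∀ i, |x i - y i| ≤ R := by
    rintro c _ ⟨_, ⟨p, hp, rfl⟩, rfl⟩ _ ⟨_, ⟨p', hp', rfl⟩, rfl⟩ i
    have hpp : dist p p' ≤ 1 / m := by
      rw [dist_pi_le_iff (by positivity)]
      intro k
      rw [Real.dist_eq, abs_le]
      have h1 := hp.2 k
      have h2 := hp'.2 k
      have hinv : (1 : ℝ) / m * m = 1 := by field_simp
      constructor
      · nlinarith [h1.1, h1.2, h2.1, h2.2]
      · nlinarith [h1.1, h1.2, h2.1, h2.2]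
    have h1 : dist (φ p) (φ p') ≤ M * (1 / m) :=
      (hφ.dist_le_mul p hp.1 p' hp'.1).trans (mul_le_mul_of_nonneg_left hpp M.2)
    have h2 : |φ p i - φ p' i| ≤ dist (φ p) (φ p') := by
      rw [← Real.dist_eq]; exact dist_le_pi_dist (φ p) (φ p') i
    have h3 : (t • φ p) i - (t • φ p') i = t * (φ p i - φ p' i) := by
      simp only [Pi.smul_apply, smul_eq_mul]; ring
    rw [h3, abs_mul, abs_of_pos ht0]
    calc t * |φ p i - φ p' i| ≤ m * (M * (1 / m)) :=
          mul_le_mul htm (h2.trans h1) (abs_nonneg _) hm0.le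
      _ = M := by field_simp
      _ ≤ R := hMR
  choose Tc hTc1 hTc2 using fun c : κ → ℕ =>
    exists_finset_cubes_of_diam_le v (t • (φ '' C c)) R (hdiam c)
  refine ⟨(Fintype.piFinset fun _ : κ => Finset.range m).biUnion Tc, ?_, ?_⟩
  · have h1 : ((Fintype.piFinset fun _ : κ => Finset.range m).biUnion Tc).card ≤
        m ^ Fintype.card κ * (2 * R + 1) ^ Fintype.card ι := by
      refine (Finset.card_biUnion_le_card_mul _ _ _ fun c _ => hTc1 c).trans ?_
      rw [Fintype.card_piFinset]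
      simp
    calc (((Fintype.piFinset fun _ : κ => Finset.range m).biUnion Tc).card : ℝ)
        ≤ ((m ^ Fintype.card κ * (2 * R + 1) ^ Fintype.card ι : ℕ) : ℝ) := by exact_mod_cast h1
      _ = ((2 * R + 1 : ℕ) : ℝ) ^ Fintype.card ι * (m : ℝ) ^ Fintype.card κ := by
          push_cast; ring
      _ ≤ ((2 * R + 1 : ℕ) : ℝ) ^ Fintype.card ι * (2 * t) ^ Fintype.card κ := by
          gcongr
  · rintro n ⟨x, hxn, _, ⟨p, hp, rfl⟩, rfl⟩
    rw [Finset.mem_biUnion]
    refine ⟨fun k => min ⌊(m : ℝ) * p k⌋₊ (m - 1), ?_, hTc2 _ n ⟨_, hxn, _, ⟨p, ⟨hp, fun k => ?_⟩, rfl⟩, rfl⟩⟩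
    · rw [Fintype.mem_piFinset]
      intro k
      rw [Finset.mem_range]
      exact lt_of_le_of_lt (min_le_right _ _) (by omega)
    · have hpk0 : 0 ≤ p k := hp.1 k
      have hpk1 : p k ≤ 1 := hp.2 k
      have hmp : 0 ≤ (m : ℝ) * p k := by positivity
      show ((min ⌊(m : ℝ) * p k⌋₊ (m - 1) : ℕ) : ℝ) ≤ m * p k ∧
        m * p k ≤ ((min ⌊(m : ℝ) * p k⌋₊ (m - 1) : ℕ) : ℝ) + 1
      constructor
      · exact (Nat.cast_le.mpr (min_le_left _ _)).trans (Nat.floor_le hmp)
      · by_cases hc : ⌊(m : ℝ) * p k⌋₊ ≤ m - 1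
        · rw [min_eq_left hc]
          exact (Nat.lt_floor_add_one _).le
        · rw [min_eq_right (not_le.mp hc).le]
          have : ((m - 1 : ℕ) : ℝ) = m - 1 := by
            rw [Nat.cast_sub hm1]; simp
          rw [this]
          nlinarith


theorem finite_int_vadd_mem (S : Set (ι → ℝ)) (hS : IsBounded S) (v : ι → ℝ) :
    {n : ι → ℤ | (v + fun i => (n i : ℝ)) ∈ S}.Finite := by
  classical
  obtain ⟨r, hr⟩ := hS.subset_closedBall 0
  refine Set.Finite.subset
    (Fintype.piFinset fun i => Finset.Icc ⌈-r - v i⌉ ⌊r - v i⌋).finite_toSet ?_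
  intro n hn
  have h1 : ‖v + fun i => (n i : ℝ)‖ ≤ r := by simpa using hr hn
  rw [Finset.mem_coe, Fintype.mem_piFinset]
  intro i
  have h2 : ‖(v + fun i => (n i : ℝ)) i‖ ≤ r := (norm_le_pi_norm _ i).trans h1
  rw [Pi.add_apply, Real.norm_eq_abs, abs_le] at h2
  rw [Finset.mem_Icc]
  exact ⟨Int.ceil_le.mpr (by linarith [h2.1]), Int.le_floor.mpr (by linarith [h2.2])⟩

theorem volume_real_smul_pi (t : ℝ) (ht : 0 ≤ t) (D : Set (ι → ℝ)) :
    volume.real (t • D) = volume.real D * t ^ Fintype.card ι := by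
  rw [measureReal_def, Measure.addHaar_smul_of_nonneg volume ht, ENNReal.toReal_mul,
    ENNReal.toReal_ofReal (pow_nonneg ht _), Module.finrank_fintype_fun_eq_card, measureReal_def,
    mul_comm]

/-- **Lipschitz counting principle in coordinates.** -/
theorem abs_card_sub_volume_smul_le {κ : Type*} [Fintype κ] {J : Type*} [Fintype J]
    (D : Set (ι → ℝ)) (hD : IsBounded D) (hDm : MeasurableSet D)
    (φ : J → (κ → ℝ) → (ι → ℝ)) (M : ℝ≥0) (hφ : ∀ j, LipschitzOnWith M (φ j) (Set.Icc 0 1))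
    (hfr : frontier D ⊆ ⋃ j, φ j '' Set.Icc 0 1) (t : ℝ) (ht : 1 ≤ t) (v : ι → ℝ) :
    |(Nat.card {n : ι → ℤ // (v + fun i => (n i : ℝ)) ∈ t • D} : ℝ)
        - volume.real D * t ^ Fintype.card ι|
      ≤ (Fintype.card J * (2 * ⌈(M : ℝ)⌉₊ + 1 : ℕ) ^ Fintype.card ι * 2 ^ Fintype.card κ)
          * t ^ Fintype.card κ := by
  classical
  have ht0 : 0 < t := lt_of_lt_of_le one_pos ht
  have hfin := finite_int_vadd_mem (t • D) (hD.smul₀ t) v
  have hcard : Nat.card {n : ι → ℤ // (v + fun i => (n i : ℝ)) ∈ t • D} = hfin.toFinset.card := by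
    rw [← Set.ncard_eq_toFinset_card _ hfin, ← Nat.card_coe_set_eq]
    rfl
  have hfront : frontier (t • D) = t • frontier D := by
    have := (Homeomorph.smulOfNeZero t ht0.ne').image_frontier D
    simpa [Set.image_smul] using this.symm
  choose T hT1 hT2 using fun j => exists_finset_cubes_patch (φ j) M (hφ j) t ht v
  have hB : ∀ n, (ucube v n ∩ frontier (t • D)).Nonempty → n ∈ Finset.univ.biUnion T := by
    rintro n ⟨x, hxn, hx⟩
    rw [hfront] at hx
    obtain ⟨y, hy, rfl⟩ := hx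
    obtain ⟨j, hj⟩ := Set.mem_iUnion.mp (hfr hy)
    rw [Finset.mem_biUnion]
    exact ⟨j, Finset.mem_univ _, hT2 j n ⟨_, hxn, Set.smul_mem_smul_set hj⟩⟩
  have hmain := abs_card_sub_volume_le (t • D) (hDm.const_smul₀ t) v hfin.toFinset
    (Finset.univ.biUnion T) (fun n => by rw [Set.Finite.mem_toFinset]; rfl) hB
  rw [hcard, ← volume_real_smul_pi t ht0.le]
  refine hmain.trans ?_
  calc ((Finset.univ.biUnion T).card : ℝ) ≤ ∑ j : J, ((T j).card : ℝ) := by
        exact_mod_cast Finset.card_biUnion_le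
    _ ≤ ∑ _j : J, ((2 * ⌈(M : ℝ)⌉₊ + 1 : ℕ) : ℝ) ^ Fintype.card ι * (2 * t) ^ Fintype.card κ :=
        Finset.sum_le_sum fun j _ => hT1 j
    _ = _ := by
        rw [Finset.sum_const, Finset.card_univ, nsmul_eq_mul, mul_pow]
        ring


end Fermat.Agent.Density
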