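/-
[CHEBD] (a), part 2 (helper3): the Lipschitz lattice-point counting principle for a general
`ℤ`-lattice `L` in a finite-dimensional real normed space with a Haar measure:
`#{x ∈ L | v + x ∈ t • D} = vol(D)/covol(L) · t^dim + O(t^(dim-1))` uniformly in `v`.
-/
import Fermat.Agent.Density.CHEBD_helper3_Cubes

set_option linter.unusedSectionVars false

open MeasureTheory Set Bornology Module
open scoped NNReal Pointwise

namespace Fermat.Agent.Density


section
variable {E : Type*} [NormedAddCommGroup E] [NormedSpace ℝ E] [FiniteDimensional ℝ E]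
  [MeasurableSpace E] [BorelSpace E] (μ : Measure E) [μ.IsAddHaarMeasure]
  (L : Submodule ℤ E) [DiscreteTopology L] [IsZLattice ℝ L]
  {ι : Type*} [Fintype ι] (b : Basis ι ℤ L)

/-- the coordinate map of a `ℤ`-basis of a lattice scales volumes by the covolume. -/
theorem measure_eq_covolume_mul_volume_image (D : Set E) :
    μ D = ENNReal.ofReal (ZLattice.covolume L μ) *
      volume ((b.ofZLatticeBasis ℝ L).equivFunL '' D) := by
  classical
  set b₀ := b.ofZLatticeBasis ℝ L with hb₀
  set e := b₀.equivFunL with he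
  set ν : Measure (ι → ℝ) := Measure.map e μ with hν
  have : ν.IsAddHaarMeasure := e.isAddHaarMeasure_map μ
  have hνeq : ν = ν (TopologicalSpace.PositiveCompacts.piIcc01 ι) • (volume : Measure (ι → ℝ)) := by
    conv_lhs => rw [Measure.addHaarMeasure_unique ν (TopologicalSpace.PositiveCompacts.piIcc01 ι)]
    rw [addHaarMeasure_eq_volume_pi]
  have hmap : ∀ s : Set (ι → ℝ), ν s = μ (e ⁻¹' s) := fun s =>
    e.toHomeomorph.toMeasurableEquiv.map_apply s
  have hD : μ D = ν (e '' D) := by
    rw [hmap, Set.preimage_image_eq _ e.injective]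
  have hQ : e ⁻¹' (Set.pi Set.univ fun _ : ι => Set.Ico (0 : ℝ) 1) = ZSpan.fundamentalDomain b₀ := by
    ext x
    simp [ZSpan.mem_fundamentalDomain, he]
  have hc : ν (TopologicalSpace.PositiveCompacts.piIcc01 ι) = μ (ZSpan.fundamentalDomain b₀) := by
    rw [← hQ, ← hmap]
    conv_rhs => rw [hνeq]
    rw [Measure.smul_apply, Real.volume_pi_Ico]
    simp
  have hcov : ENNReal.ofReal (ZLattice.covolume L μ) = μ (ZSpan.fundamentalDomain b₀) := by
    rw [ZLattice.covolume_eq_measure_fundamentalDomain L μ (ZLattice.isAddFundamentalDomain b μ),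
      measureReal_def, ENNReal.ofReal_toReal]
    exact (ZSpan.fundamentalDomain_isBounded b₀).measure_lt_top.ne
  rw [hD, hcov, ← hc]
  conv_lhs => rw [hνeq]
  rw [Measure.smul_apply, smul_eq_mul]

end

section
variable {E : Type*} [NormedAddCommGroup E] [NormedSpace ℝ E] [FiniteDimensional ℝ E]
  [MeasureSpace E] [BorelSpace E] [(volume : Measure E).IsAddHaarMeasure]
  (L : Submodule ℤ E) [DiscreteTopology L] [IsZLattice ℝ L]

/-- **Lipschitz counting principle for a general lattice**: if the frontier of the bounded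
measurable set `D` is covered by finitely many Lipschitz images of `[0,1]^κ`, then the number of
points of `v + L` in `t • D` is `vol(D)/covol(L) · t^dim + O(t^(card κ))`, uniformly in `v`. -/
theorem exists_card_vadd_mem_smul_sub_le {κ : Type*} [Fintype κ] {J : Type*} [Fintype J]
    (D : Set E) (hD : IsBounded D) (hDm : MeasurableSet D)
    (φ : J → (κ → ℝ) → E) (M : ℝ≥0) (hφ : ∀ j, LipschitzOnWith M (φ j) (Set.Icc 0 1))
    (hfr : frontier D ⊆ ⋃ j, φ j '' Set.Icc 0 1) :
    ∃ C : ℝ, ∀ t : ℝ, 1 ≤ t → ∀ v : E,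
      |(Nat.card {x : L // v + (x : E) ∈ t • D} : ℝ)
          - volume.real D / ZLattice.covolume L * t ^ finrank ℝ E| ≤ C * t ^ Fintype.card κ := by
  classical
  let ι := Module.Free.ChooseBasisIndex ℤ L
  let b : Basis ι ℤ L := Module.Free.chooseBasis ℤ L
  have hcardι : Fintype.card ι = finrank ℝ E := by
    rw [← ZLattice.rank ℝ L, Module.finrank_eq_card_chooseBasisIndex]
  set b₀ := b.ofZLatticeBasis ℝ L with hb₀
  set e := b₀.equivFunL with he
  have hcovpos := ZLattice.covolume_pos L (volume : Measure E)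
  -- transported data
  have hD' : IsBounded (e '' D) := e.lipschitz.isBounded_image hD
  have hDm' : MeasurableSet (e '' D) :=
    e.toHomeomorph.toMeasurableEquiv.measurableSet_image.mpr hDm
  have hφ' : ∀ j, LipschitzOnWith (‖(e : E →L[ℝ] (ι → ℝ))‖₊ * M) (e ∘ φ j) (Set.Icc 0 1) :=
    fun j => e.lipschitz.comp_lipschitzOnWith (hφ j)
  have hfr' : frontier (e '' D) ⊆ ⋃ j, (e ∘ φ j) '' Set.Icc 0 1 := by
    have h1 : frontier (e '' D) = e '' frontier D := (e.toHomeomorph.image_frontier D).symm
    rw [h1]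
    rintro _ ⟨x, hx, rfl⟩
    obtain ⟨j, hj⟩ := Set.mem_iUnion.mp (hfr hx)
    obtain ⟨p, hp, rfl⟩ := hj
    exact Set.mem_iUnion.mpr ⟨j, p, hp, rfl⟩
  have hvol : volume.real (e '' D) = volume.real D / ZLattice.covolume L := by
    have h := measure_eq_covolume_mul_volume_image (volume : Measure E) L b D
    rw [eq_div_iff hcovpos.ne', measureReal_def, measureReal_def, h, ENNReal.toReal_mul,
      ENNReal.toReal_ofReal hcovpos.le, mul_comm]
  refine ⟨Fintype.card J * (2 * ⌈((‖(e : E →L[ℝ] (ι → ℝ))‖₊ * M : ℝ≥0) : ℝ)⌉₊ + 1 : ℕ)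
    ^ finrank ℝ E * 2 ^ Fintype.card κ, fun t ht v => ?_⟩
  have hmain := abs_card_sub_volume_smul_le (e '' D) hD' hDm' (fun j => e ∘ φ j) _ hφ' hfr' t ht (e v)
  rw [hvol, hcardι] at hmain
  convert hmain using 4
  refine Nat.card_congr (b.equivFun.toEquiv.subtypeEquiv fun x => ?_)
  have hex : e (x : E) = fun i => ((b.equivFun x i : ℤ) : ℝ) := by
    funext i
    simp [he, hb₀, Basis.ofZLatticeBasis_repr_apply]
  have hinj : v + (x : E) ∈ t • D ↔ e (v + (x : E)) ∈ e '' (t • D) :=
    (e.injective.mem_set_image).symm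
  rw [hinj, map_add, hex, image_smul_set]
  rfl

end

end Fermat.Agent.Density
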