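/-
[CHEBD] (b) (helper3): the norm-`≤ 1` part of Mathlib's fundamental cone has a frontier covered by
finitely many Lipschitz images of the unit cube of dimension `finrank ℚ K - 1`; consequently the
number of points of a translated lattice in `t • (normLeOne K ∩ {sign of the norm = σ})` is
`vol/covol · t^d + O(t^(d-1))`, uniformly in the translation.
-/
import Fermat.Agent.Density.CHEBD_helper3_Lattice

set_option linter.unusedSectionVars false

open MeasureTheory Set Bornology Module
open NumberField NumberField.InfinitePlace NumberField.mixedEmbedding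
  NumberField.mixedEmbedding.fundamentalCone NumberField.Units NumberField.Units.dirichletUnitTheorem
open scoped NNReal Pointwise Real Classical

namespace Fermat.Agent.Density


variable (K : Type*) [Field K] [NumberField K]

/-- the parameter index of the faces of the norm-`≤ 1` part of the fundamental cone. -/
abbrev ConeParam := {w : InfinitePlace K // w ≠ w₀} ⊕ {w : InfinitePlace K // IsComplex w}

theorem card_coneParam_add_one : Fintype.card (ConeParam K) + 1 = finrank ℚ K := by
  classical
  rw [Fintype.card_sum, Fintype.card_subtype_compl, ← card_add_two_mul_card_eq_rank,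
    card_eq_nrRealPlaces_add_nrComplexPlaces]
  have h0 : Fintype.card {x : InfinitePlace K // x = w₀} = 1 := by
    rw [Fintype.card_eq_one_iff]
    exact ⟨⟨w₀, rfl⟩, fun y => Subtype.ext y.2⟩
  have h1 : 1 ≤ nrRealPlaces K + nrComplexPlaces K := by
    rw [← card_eq_nrRealPlaces_add_nrComplexPlaces]
    exact Fintype.card_pos
  have h2 : Fintype.card {w : InfinitePlace K // IsComplex w} = nrComplexPlaces K := rfl
  rw [h0]
  omega

variable {K}

/-- the polar-type map: signs `ε` at the real places, radius `τ`, logarithmic coordinates `y`,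
angles `θ` at the complex places. -/
noncomputable def coneMap (ε : {w : InfinitePlace K // IsReal w} → ℤˣ) (τ : ℝ) (y : realSpace K)
    (θ : {w : InfinitePlace K // IsComplex w} → ℝ) : mixedSpace K :=
  (fun w => ((ε w : ℤ) : ℝ) * (τ * expMapBasis y w.1),
   fun w => ((τ * expMapBasis y w.1 : ℝ) : ℂ) *
    ((Real.cos ((2 * θ w - 1) * π) : ℂ) + (Real.sin ((2 * θ w - 1) * π) : ℂ) * Complex.I))

theorem contDiff_expMapBasis_apply (w : InfinitePlace K) :
    ContDiff ℝ 1 (fun y : realSpace K => expMapBasis y w) := by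
  have h1 : (fun y : realSpace K => expMapBasis y w) =
      fun y => Real.exp ((w.mult : ℝ)⁻¹ * ((completeBasis K).equivFunL.symm y) w) := by
    funext y
    rw [expMapBasis_apply, expMap_apply]
    rfl
  rw [h1]
  exact Real.contDiff_exp.comp
    (contDiff_const.mul ((contDiff_apply ℝ ℝ w).comp (completeBasis K).equivFunL.symm.contDiff))

theorem contDiff_coneMap {P : Type*} [NormedAddCommGroup P] [NormedSpace ℝ P]
    (ε : {w : InfinitePlace K // IsReal w} → ℤˣ) {T : P → ℝ} {Y : P → realSpace K}
    {Θ : P → {w : InfinitePlace K // IsComplex w} → ℝ}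
    (hT : ContDiff ℝ 1 T) (hY : ContDiff ℝ 1 Y) (hΘ : ContDiff ℝ 1 Θ) :
    ContDiff ℝ 1 (fun p => coneMap ε (T p) (Y p) (Θ p)) := by
  unfold coneMap
  have hE : ∀ w : InfinitePlace K, ContDiff ℝ 1 (fun p => T p * expMapBasis (Y p) w) :=
    fun w => hT.mul ((contDiff_expMapBasis_apply w).comp hY)
  refine ContDiff.prodMk (contDiff_pi.mpr fun w => contDiff_const.mul (hE w.1))
    (contDiff_pi.mpr fun w => ?_)
  have hθ : ContDiff ℝ 1 (fun p => (2 * Θ p w - 1) * π) :=
    ((contDiff_const.mul ((contDiff_apply ℝ ℝ w).comp hΘ)).sub contDiff_const).mul contDiff_const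
  refine (Complex.ofRealCLM.contDiff.comp (hE w.1)).mul ?_
  exact (Complex.ofRealCLM.contDiff.comp (Real.contDiff_cos.comp hθ)).add
    ((Complex.ofRealCLM.contDiff.comp (Real.contDiff_sin.comp hθ)).mul contDiff_const)

theorem normAtAllPlaces_coneMap (ε : {w : InfinitePlace K // IsReal w} → ℤˣ) {τ : ℝ} (hτ : 0 ≤ τ)
    (y : realSpace K) (θ : {w : InfinitePlace K // IsComplex w} → ℝ) :
    normAtAllPlaces (coneMap ε τ y θ) = τ • expMapBasis y := by
  funext w
  have hpos : 0 ≤ τ * expMapBasis y w := mul_nonneg hτ (expMapBasis_pos y w).le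
  rw [normAtAllPlaces_apply, Pi.smul_apply, smul_eq_mul]
  obtain hw | hw := isReal_or_isComplex w
  · rw [normAtPlace_apply_of_isReal hw]
    simp only [coneMap]
    rw [norm_mul, Real.norm_of_nonneg hpos]
    rcases Int.units_eq_one_or (ε ⟨w, hw⟩) with h | h <;> simp [h]
  · rw [normAtPlace_apply_of_isComplex hw]
    simp only [coneMap]
    rw [norm_mul, Complex.norm_of_nonneg hpos]
    have : ‖((Real.cos ((2 * θ ⟨w, hw⟩ - 1) * π) : ℂ) +
        (Real.sin ((2 * θ ⟨w, hw⟩ - 1) * π) : ℂ) * Complex.I)‖ = 1 := by
      rw [Complex.ofReal_cos, Complex.ofReal_sin, ← Complex.exp_mul_I,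
        Complex.norm_exp_ofReal_mul_I]
    rw [this, mul_one]

/-- every point whose absolute values are `τ • expMapBasis y` is in the image of `coneMap`. -/
theorem exists_eq_coneMap {x : mixedSpace K} {τ : ℝ} {y : realSpace K}
    (hx : normAtAllPlaces x = τ • expMapBasis y) :
    ∃ (ε : {w : InfinitePlace K // IsReal w} → ℤˣ) (θ : {w : InfinitePlace K // IsComplex w} → ℝ),
      θ ∈ Set.Icc (0 : {w : InfinitePlace K // IsComplex w} → ℝ) 1 ∧ x = coneMap ε τ y θ := by
  classical
  refine ⟨fun w => if x.1 w < 0 then -1 else 1,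
    fun w => (Complex.arg (x.2 w) + π) / (2 * π), ⟨fun w => ?_, fun w => ?_⟩, ?_⟩
  · have := Complex.neg_pi_lt_arg (x.2 w)
    show (0 : ℝ) ≤ (Complex.arg (x.2 w) + π) / (2 * π)
    have hπ := Real.pi_pos
    exact div_nonneg (by linarith) (by positivity)
  · have := Complex.arg_le_pi (x.2 w)
    show (Complex.arg (x.2 w) + π) / (2 * π) ≤ (1 : ℝ)
    rw [div_le_one (by positivity)]
    linarith
  · have hx' : ∀ w, normAtPlace w x = τ * expMapBasis y w := fun w => by
      have := congrFun hx w
      rwa [normAtAllPlaces_apply, Pi.smul_apply, smul_eq_mul] at this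
    refine Prod.ext (funext fun w => ?_) (funext fun w => ?_)
    · have h1 := hx' w.1
      rw [normAtPlace_apply_of_isReal w.2, Real.norm_eq_abs] at h1
      show x.1 w = ((((if x.1 w < 0 then -1 else 1 : ℤˣ)) : ℤ) : ℝ) * (τ * expMapBasis y w.1)
      rw [← h1]
      split_ifs with h
      · rw [abs_of_neg h]; simp
      · rw [abs_of_nonneg (not_lt.mp h)]; simp
    · have h1 := hx' w.1
      rw [normAtPlace_apply_of_isComplex w.2] at h1
      show x.2 w = ((τ * expMapBasis y w.1 : ℝ) : ℂ) *
        ((Real.cos ((2 * ((Complex.arg (x.2 w) + π) / (2 * π)) - 1) * π) : ℂ) +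
          (Real.sin ((2 * ((Complex.arg (x.2 w) + π) / (2 * π)) - 1) * π) : ℂ) * Complex.I)
      have h2 : (2 * ((Complex.arg (x.2 w) + π) / (2 * π)) - 1) * π = Complex.arg (x.2 w) := by
        have hπ := Real.pi_pos.ne'
        field_simp
        ring
      rw [h2, ← h1, Complex.ofReal_cos, Complex.ofReal_sin]
      exact (Complex.norm_mul_cos_add_sin_mul_I (x.2 w)).symm


theorem coneMap_zero (ε : {w : InfinitePlace K // IsReal w} → ℤˣ) (y : realSpace K)
    (θ : {w : InfinitePlace K // IsComplex w} → ℝ) : coneMap ε 0 y θ = 0 := by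
  refine Prod.ext (funext fun w => ?_) (funext fun w => ?_) <;> simp [coneMap]

variable (K) in
/-- the faces: `none` is the origin, `some none` the face `τ = 1`, `some (some (w₁, a))` the
face `y w₁ = a` (`a = true` meaning `1`, `a = false` meaning `0`). -/
abbrev ConeFace := Option (Option ({w : InfinitePlace K // w ≠ w₀} × Bool))

/-- the logarithmic coordinates on a face. -/
noncomputable def faceY (j : Option ({w : InfinitePlace K // w ≠ w₀} × Bool))
    (p : ConeParam K → ℝ) : realSpace K := fun w =>
  if h : w = w₀ then 0 else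
    match j with
    | none => p (Sum.inl ⟨w, h⟩)
    | some (w₁, a) => if w = w₁.1 then (if a then 1 else 0) else p (Sum.inl ⟨w, h⟩)

/-- the radius on a face. -/
noncomputable def faceT (j : Option ({w : InfinitePlace K // w ≠ w₀} × Bool))
    (p : ConeParam K → ℝ) : ℝ :=
  match j with
  | none => 1
  | some (w₁, _) => p (Sum.inl w₁)

noncomputable def faceMap (ε : {w : InfinitePlace K // IsReal w} → ℤˣ) :
    ConeFace K → (ConeParam K → ℝ) → mixedSpace K
  | none => fun _ => 0
  | some j => fun p => coneMap ε (faceT j p) (faceY j p) (fun w => p (Sum.inr w))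

theorem contDiff_faceMap (ε : {w : InfinitePlace K // IsReal w} → ℤˣ) (j : ConeFace K) :
    ContDiff ℝ 1 (faceMap ε j) := by
  rcases j with _ | j
  · exact contDiff_const
  · refine contDiff_coneMap ε ?_ ?_ (contDiff_pi.mpr fun w => contDiff_apply ℝ ℝ _)
    · rcases j with _ | ⟨w₁, a⟩
      · exact contDiff_const
      · exact contDiff_apply ℝ ℝ _
    · refine contDiff_pi.mpr fun w => ?_
      unfold faceY
      by_cases h : w = w₀
      · simp only [h, dite_true]; exact contDiff_const
      · simp only [h, dite_false]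
        rcases j with _ | ⟨w₁, a⟩
        · exact contDiff_apply ℝ ℝ _
        · by_cases h' : w = w₁.1
          · simp only [h', if_true]; exact contDiff_const
          · simp only [h', if_false]; exact contDiff_apply ℝ ℝ _

theorem exists_lipschitzOnWith_faceMap (ε : {w : InfinitePlace K // IsReal w} → ℤˣ)
    (j : ConeFace K) : ∃ M : ℝ≥0, LipschitzOnWith M (faceMap ε j) (Set.Icc 0 1) :=
  (contDiff_faceMap ε j).contDiffOn.exists_lipschitzOnWith one_ne_zero (convex_Icc 0 1)
    isCompact_Icc


/-- description of the closure of `normLeOne` in polar-type coordinates. -/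
theorem exists_of_mem_closure_normLeOne {x : mixedSpace K} (hx : x ∈ closure (normLeOne K)) :
    ∃ c ∈ Set.Icc (0 : ℝ) 1, ∃ y : realSpace K, y w₀ = 0 ∧ (∀ w, w ≠ w₀ → y w ∈ Set.Icc (0 : ℝ) 1) ∧
      normAtAllPlaces x = c • expMapBasis y := by
  have h1 : normAtAllPlaces x ∈ compactSet K := closure_normLeOne_subset K hx
  obtain ⟨c, hc, _, ⟨y, hy, rfl⟩, hcy⟩ := h1
  refine ⟨c, hc, y, ?_, fun w hw => ?_, hcy.symm⟩
  · simpa using hy w₀ (Set.mem_univ _)
  · simpa [hw] using hy w (Set.mem_univ _)

/-- the frontier of `normLeOne K` is covered by the faces. -/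
theorem frontier_normLeOne_subset :
    frontier (normLeOne K) ⊆
      ⋃ i : ({w : InfinitePlace K // IsReal w} → ℤˣ) × ConeFace K,
        faceMap i.1 i.2 '' Set.Icc 0 1 := by
  intro x hx
  obtain ⟨c, hc, y, hy0, hy, hxy⟩ := exists_of_mem_closure_normLeOne (frontier_subset_closure hx)
  have hnotint : normAtAllPlaces x ∉ expMapBasis '' interior (paramSet K) :=
    fun h => hx.2 (subset_interior_normLeOne K h)
  obtain ⟨ε, θ, hθ, rfl⟩ := exists_eq_coneMap hxy
  rw [Set.mem_iUnion]
  by_cases hc0 : c = 0
  · refine ⟨⟨ε, none⟩, 0, ⟨le_refl _, zero_le_one⟩, ?_⟩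
    rw [hc0, coneMap_zero]
    rfl
  by_cases hc1 : c = 1
  · refine ⟨⟨ε, some none⟩, Sum.elim (fun w => y w.1) θ, ⟨?_, ?_⟩, ?_⟩
    · rintro (w | w)
      · exact (hy w.1 w.2).1
      · exact hθ.1 w
    · rintro (w | w)
      · exact (hy w.1 w.2).2
      · exact hθ.2 w
    · show coneMap ε (faceT none _) (faceY none _) _ = _
      have h1 : faceY none (Sum.elim (fun w : {w : InfinitePlace K // w ≠ w₀} => y w.1) θ) = y := by
        funext w
        unfold faceY
        by_cases h : w = w₀
        · simp [h, hy0]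
        · simp [h]
      rw [h1, hc1]
      rfl
  by_cases hside : ∃ w₁ : {w : InfinitePlace K // w ≠ w₀}, y w₁.1 = 0 ∨ y w₁.1 = 1
  · obtain ⟨w₁, hw₁⟩ := hside
    let a : Bool := decide (y w₁.1 = 1)
    have ha : (if a then (1 : ℝ) else 0) = y w₁.1 := by
      rcases hw₁ with h | h
      · have : ¬ y w₁.1 = 1 := by rw [h]; norm_num
        simp [a, h]
      · simp [a, h]
    refine ⟨⟨ε, some (some (w₁, a))⟩,
      Sum.elim (fun w => if w = w₁ then c else y w.1) θ, ⟨?_, ?_⟩, ?_⟩
    · rintro (w | w)
      · show (0 : ℝ) ≤ if w = w₁ then c else y w.1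
        split_ifs
        · exact hc.1
        · exact (hy w.1 w.2).1
      · exact hθ.1 w
    · rintro (w | w)
      · show (if w = w₁ then c else y w.1) ≤ (1 : ℝ)
        split_ifs
        · exact hc.2
        · exact (hy w.1 w.2).2
      · exact hθ.2 w
    · show coneMap ε (faceT (some (w₁, a)) _) (faceY (some (w₁, a)) _) _ = _
      have h1 : faceY (some (w₁, a))
          (Sum.elim (fun w : {w : InfinitePlace K // w ≠ w₀} => if w = w₁ then c else y w.1) θ)
            = y := by
        funext w
        unfold faceY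
        by_cases h : w = w₀
        · simp [h, hy0]
        · by_cases h' : w = w₁.1
          · subst h'
            simp [h, ha]
          · have : (⟨w, h⟩ : {w : InfinitePlace K // w ≠ w₀}) ≠ w₁ := fun e => h' (congrArg Subtype.val e)
            simp [h, h', this]
      have h2 : faceT (some (w₁, a))
          (Sum.elim (fun w : {w : InfinitePlace K // w ≠ w₀} => if w = w₁ then c else y w.1) θ)
            = c := by
        simp [faceT]
      rw [h1, h2]
      rfl
  · exfalso
    simp only [not_exists, not_or] at hside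
    have hcpos : 0 < c := lt_of_le_of_ne hc.1 (Ne.symm hc0)
    have hclt : c < 1 := lt_of_le_of_ne hc.2 hc1
    apply hnotint
    refine ⟨fun w => if w = w₀ then Real.log c else y w, ?_, ?_⟩
    · rw [interior_paramSet, Set.mem_univ_pi]
      intro w
      by_cases h : w = w₀
      · simp only [h, if_true]
        exact Real.log_neg hcpos hclt
      · simp only [h, if_false]
        have h1 := hy w h
        have h2 := hside ⟨w, h⟩
        exact ⟨lt_of_le_of_ne h1.1 (Ne.symm h2.1), lt_of_le_of_ne h1.2 h2.2⟩
    · rw [hxy, expMapBasis_apply'', if_pos rfl, Real.exp_log hcpos]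
      congr 2
      funext w
      by_cases h : w = w₀
      · simp [h, hy0]
      · simp [h]


end Fermat.Agent.Density
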