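/-
[CHEBD] (b), part 2 (helper3): the signed pieces `signedNormLeOne K σ` of the norm-`≤ 1` cone
(`σ = ±1` the sign of the product of the real coordinates, i.e. of the norm) and the lattice-point
count with error term in their dilates.
-/
import Fermat.Agent.Density.CHEBD_helper3_Cone

set_option linter.unusedSectionVars false

open MeasureTheory Set Bornology Module
open NumberField NumberField.InfinitePlace NumberField.mixedEmbedding
  NumberField.mixedEmbedding.fundamentalCone NumberField.Units NumberField.Units.dirichletUnitTheorem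
open scoped NNReal Pointwise Real Classical

namespace Fermat.Agent.Density


variable (K : Type*) [Field K] [NumberField K]

variable {K} in
/-- the product of the coordinates at the real places; its sign is the sign of the norm. -/
noncomputable def realSign (x : mixedSpace K) : ℝ := ∏ w : {w : InfinitePlace K // IsReal w}, x.1 w

theorem continuous_realSign : Continuous (realSign : mixedSpace K → ℝ) := by
  unfold realSign
  exact continuous_finsetProd _ fun w _ => (continuous_apply w).comp continuous_fst

variable {K} in
theorem realSign_smul (t : ℝ) (x : mixedSpace K) :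
    realSign (t • x) = t ^ nrRealPlaces K * realSign x := by
  unfold realSign
  simp only [Prod.smul_fst, Pi.smul_apply, smul_eq_mul, Finset.prod_mul_distrib,
    Finset.prod_const, Finset.card_univ]

/-- the part of `normLeOne K` where the norm has sign `σ`. -/
def signedNormLeOne (σ : ℤˣ) : Set (mixedSpace K) :=
  normLeOne K ∩ {x | 0 < ((σ : ℤ) : ℝ) * realSign x}

theorem isBounded_signedNormLeOne (σ : ℤˣ) : IsBounded (signedNormLeOne K σ) :=
  (isBounded_normLeOne K).subset Set.inter_subset_left

theorem measurableSet_signedNormLeOne (σ : ℤˣ) : MeasurableSet (signedNormLeOne K σ) :=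
  (measurableSet_normLeOne K).inter
    (measurableSet_lt measurable_const (continuous_const.mul (continuous_realSign K)).measurable)

variable {K} in
theorem eq_zero_of_mem_closure_of_realSign_eq_zero {x : mixedSpace K}
    (hx : x ∈ closure (normLeOne K)) (h0 : realSign x = 0) : x = 0 := by
  obtain ⟨c, hc, y, -, -, hxy⟩ := exists_of_mem_closure_normLeOne hx
  obtain ⟨w, -, hw⟩ := Finset.prod_eq_zero_iff.mp h0
  have h1 : normAtPlace w.1 x = 0 := by
    rw [normAtPlace_apply_of_isReal w.2, hw, norm_zero]
  have h2 : c * expMapBasis y w.1 = 0 := by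
    have := congrFun hxy w.1
    rw [normAtAllPlaces_apply, h1] at this
    simpa using this.symm
  have hc0 : c = 0 := by
    rcases mul_eq_zero.mp h2 with h | h
    · exact h
    · exact absurd h (expMapBasis_pos y w.1).ne'
  have h3 : ∀ w, normAtPlace w x = 0 := fun w => by
    have := congrFun hxy w
    rw [normAtAllPlaces_apply] at this
    rw [this, hc0, zero_smul]; rfl
  exact forall_normAtPlace_eq_zero_iff.mp h3

theorem frontier_signedNormLeOne_subset (σ : ℤˣ) :
    frontier (signedNormLeOne K σ) ⊆
      ⋃ i : ({w : InfinitePlace K // IsReal w} → ℤˣ) × ConeFace K,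
        faceMap i.1 i.2 '' Set.Icc 0 1 := by
  intro x hx
  rcases frontier_inter_subset _ _ hx with h | h
  · exact frontier_normLeOne_subset h.1
  · have h1 : realSign x = 0 := by
      have := frontier_lt_subset_eq continuous_const
        (continuous_const.mul (continuous_realSign K)) h.2
      simpa using this.symm
    have h2 := eq_zero_of_mem_closure_of_realSign_eq_zero h.1 h1
    rw [Set.mem_iUnion]
    exact ⟨⟨fun _ => 1, none⟩, 0, ⟨le_refl _, zero_le_one⟩, h2.symm⟩

/-- **Counting in the signed norm-`≤ 1` cone with error term.** -/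
theorem exists_card_signedNormLeOne_sub_le (σ : ℤˣ) (L : Submodule ℤ (mixedSpace K))
    [DiscreteTopology L] [IsZLattice ℝ L] :
    ∃ C : ℝ, ∀ t : ℝ, 1 ≤ t → ∀ v : mixedSpace K,
      |(Nat.card {x : L // v + (x : mixedSpace K) ∈ t • signedNormLeOne K σ} : ℝ)
          - volume.real (signedNormLeOne K σ) / ZLattice.covolume L * t ^ finrank ℚ K|
        ≤ C * t ^ (finrank ℚ K - 1) := by
  choose M hM using fun i : ({w : InfinitePlace K // IsReal w} → ℤˣ) × ConeFace K =>
    exists_lipschitzOnWith_faceMap i.1 i.2
  have hM' : ∀ i, LipschitzOnWith (Finset.univ.sup M)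
      ((fun i : ({w : InfinitePlace K // IsReal w} → ℤˣ) × ConeFace K => faceMap i.1 i.2) i)
      (Set.Icc 0 1) := fun i => (hM i).weaken (Finset.le_sup (Finset.mem_univ i))
  obtain ⟨C, hC⟩ := exists_card_vadd_mem_smul_sub_le L (signedNormLeOne K σ)
    (isBounded_signedNormLeOne K σ) (measurableSet_signedNormLeOne K σ)
    (fun i : ({w : InfinitePlace K // IsReal w} → ℤˣ) × ConeFace K => faceMap i.1 i.2)
    (Finset.univ.sup M) hM' (frontier_signedNormLeOne_subset K σ)
  refine ⟨C, fun t ht v => ?_⟩
  have := hC t ht v
  rw [mixedEmbedding.finrank] at this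
  have hcard : Fintype.card (ConeParam K) = finrank ℚ K - 1 := by
    have := card_coneParam_add_one K
    omega
  rwa [hcard] at this


variable {K} in
theorem mem_smul_signedNormLeOne {σ : ℤˣ} {t : ℝ} (ht : 0 < t) {x : mixedSpace K} :
    x ∈ t • signedNormLeOne K σ ↔ x ∈ fundamentalCone K ∧
      mixedEmbedding.norm x ≤ t ^ finrank ℚ K ∧ 0 < ((σ : ℤ) : ℝ) * realSign x := by
  have hti : 0 < t⁻¹ := inv_pos.mpr ht
  rw [Set.mem_smul_set_iff_inv_smul_mem₀ ht.ne', signedNormLeOne, Set.mem_inter_iff, mem_normLeOne,
    smul_mem_iff_mem hti.ne', Set.mem_ofPred_eq, realSign_smul, mixedEmbedding.norm_smul,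
    abs_of_pos hti, and_assoc]
  refine and_congr_right fun _ => and_congr ?_ ?_
  · rw [inv_pow, inv_mul_le_iff₀ (pow_pos ht _), mul_one]
  · rw [← mul_assoc, mul_comm _ (t⁻¹ ^ _), mul_assoc]
    exact mul_pos_iff_of_pos_left (pow_pos hti _)


end Fermat.Agent.Density
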