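/-
[CHEBD] (c), part 1 (helper3): cells. For an integral ideal `J` coprime to `m`, the points of
`idealSet K J` (fundamental cone ∩ lattice of `J`) are partitioned into cells indexed by a residue
class modulo `m` and the sign of the norm; each cell is a translate of the lattice of `m J`
intersected with a signed cone, on which the norm is constant modulo `m`; its points of norm `≤ y`
are counted with error term `O(y^(1-1/d))` and main term `cellConst σ * y / N(J)`.
-/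
import Fermat.Agent.Density.CHEBD_helper3_Signed

set_option linter.unusedSectionVars false

open MeasureTheory Set Bornology Module
open NumberField NumberField.InfinitePlace NumberField.mixedEmbedding
  NumberField.mixedEmbedding.fundamentalCone NumberField.Units NumberField.Units.dirichletUnitTheorem
open scoped NNReal Pointwise Real Classical ComplexConjugate nonZeroDivisors

namespace Fermat.Agent.Density

/-- cardinality of a finite type partitioned by a finite family of predicates. -/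
theorem card_eq_sum_card_of_partition {α ι : Type*} [Fintype ι] (P : α → Prop) (Q : ι → α → Prop)
    [Finite {a // P a}] (h1 : ∀ a, P a → ∃ i, Q i a) (h2 : ∀ i a, Q i a → P a)
    (h3 : ∀ i j a, Q i a → Q j a → i = j) :
    Nat.card {a // P a} = ∑ i, Nat.card {a // Q i a} := by
  have hfin : ∀ i, Finite {a // Q i a} := fun i =>
    Finite.of_injective (fun a : {a // Q i a} => (⟨a.1, h2 i a.1 a.2⟩ : {a // P a}))
      (fun a b h => Subtype.ext (by simpa using h))
  rw [← Nat.card_sigma]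
  refine (Nat.card_congr (Equiv.ofBijective
    (fun x : (Σ i, {a // Q i a}) => (⟨x.2.1, h2 x.1 x.2.1 x.2.2⟩ : {a // P a})) ⟨?_, ?_⟩)).symm
  · rintro ⟨i, a, ha⟩ ⟨j, b, hb⟩ h
    have hab : a = b := congrArg Subtype.val h
    subst hab
    have hij : i = j := h3 i j a ha hb
    subst hij
    rfl
  · rintro ⟨a, ha⟩
    obtain ⟨i, hi⟩ := h1 a ha
    exact ⟨⟨i, a, hi⟩, rfl⟩

theorem finite_lattice_vadd_mem {E : Type*} [NormedAddCommGroup E] [NormedSpace ℝ E]
    [FiniteDimensional ℝ E] (L : Submodule ℤ E) [DiscreteTopology L] {B : Set E}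
    (hB : IsBounded B) (v : E) : Finite {x : L // v + (x : E) ∈ B} := by
  have : ProperSpace E := FiniteDimensional.proper_real E
  have hcl : IsClosed (L : Set E) := by
    rw [← Submodule.coe_toAddSubgroup]
    exact @AddSubgroup.isClosed_of_discrete _ _ _ _ _ L.toAddSubgroup
      (inferInstanceAs (DiscreteTopology L))
  have hfin : ((-v +ᵥ B) ∩ (L : Set E)).Finite :=
    Metric.finite_isBounded_inter_isClosed DiscreteTopology.isDiscrete (hB.vadd (-v)) hcl
  have := hfin.to_subtype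
  refine Finite.of_injective
    (fun x : {x : L // v + (x : E) ∈ B} => (⟨(x.1 : E), ⟨?_, x.1.2⟩⟩ : ↥((-v +ᵥ B) ∩ (L : Set E)))) ?_
  · exact ⟨v + (x.1 : E), x.2, by simp⟩
  · intro x y h
    apply Subtype.ext
    apply Subtype.ext
    simpa using congrArg Subtype.val h


variable (K : Type*) [Field K] [NumberField K]


/-- the norm modulo `m` only depends on the residue class modulo `m`. -/
theorem norm_add_mul_cast_zmod (m : ℕ) (α β : 𝓞 K) :
    ((Algebra.norm ℤ (α + (m : 𝓞 K) * β) : ℤ) : ZMod m) = ((Algebra.norm ℤ α : ℤ) : ZMod m) := by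
  let b := Module.Free.chooseBasis ℤ (𝓞 K)
  rw [Algebra.norm_eq_matrix_det b, Algebra.norm_eq_matrix_det b]
  have h1 : Algebra.leftMulMatrix b (α + (m : 𝓞 K) * β) =
      Algebra.leftMulMatrix b α + (m : ℤ) • Algebra.leftMulMatrix b β := by
    have : (m : 𝓞 K) = algebraMap ℤ (𝓞 K) (m : ℤ) := by simp
    rw [map_add, map_mul, this, AlgHom.commutes, Algebra.algebraMap_eq_smul_one, smul_mul_assoc,
      one_mul]
  rw [Int.cast_det, Int.cast_det, h1]
  congr 1
  ext i j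
  rw [Matrix.map_apply, Matrix.map_apply, Matrix.add_apply, Matrix.smul_apply, Int.cast_add,
    smul_eq_mul, Int.cast_mul, Int.cast_natCast, ZMod.natCast_self, zero_mul, add_zero]


/-- the norm as a product over the real places times the squared absolute values at the complex
places. -/
theorem norm_eq_realSign_mul (x : K) :
    ((Algebra.norm ℚ x : ℚ) : ℝ) = realSign (mixedEmbedding K x) *
      ∏ w : {w : InfinitePlace K // IsComplex w}, ‖(mixedEmbedding K x).2 w‖ ^ 2 := by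
  apply Complex.ofReal_injective
  have h1 : ((((Algebra.norm ℚ x : ℚ) : ℝ)) : ℂ) = ∏ φ : K →+* ℂ, φ x := by
    have := Algebra.norm_eq_prod_embeddings ℚ ℂ x
    rw [show ((((Algebra.norm ℚ x : ℚ) : ℝ)) : ℂ) = algebraMap ℚ ℂ (Algebra.norm ℚ x) by simp, this]
    exact (Fintype.prod_equiv (RingHom.equivRatAlgHom K ℂ) (fun φ : K →+* ℂ => φ x)
      (fun σ : K →ₐ[ℚ] ℂ => σ x) (fun φ => rfl)).symm
  rw [h1, ← Fintype.prod_equiv (indexEquiv K) (fun i => (indexEquiv K i) x)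
    (fun φ : K →+* ℂ => φ x) (fun i => rfl), Fintype.prod_sum_type, Fintype.prod_prod_type,
    Complex.ofReal_mul, realSign, Complex.ofReal_prod, Complex.ofReal_prod]
  congr 1
  · refine Finset.prod_congr rfl fun w _ => ?_
    rw [indexEquiv_apply_isReal, mixedEmbedding_apply_isReal, embedding_of_isReal_apply]
  · refine Finset.prod_congr rfl fun w _ => ?_
    rw [Fin.prod_univ_two, indexEquiv_apply_isComplex_fst, indexEquiv_apply_isComplex_snd,
      mixedEmbedding_apply_isComplex, ComplexEmbedding.conjugate_coe_eq, Complex.mul_conj,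
      Complex.normSq_eq_norm_sq]


variable {K} in
/-- on the part of the mixed space where `σ * realSign` is positive, `|N α| = σ N α`. -/
theorem natAbs_norm_eq_of_realSign (α : 𝓞 K) (σ : ℤˣ)
    (h : 0 < ((σ : ℤ) : ℝ) * realSign (mixedEmbedding K (α : K))) :
    ((Algebra.norm ℤ α).natAbs : ℤ) = σ * Algebra.norm ℤ α := by
  have h1 : ((Algebra.norm ℤ α : ℤ) : ℝ) = realSign (mixedEmbedding K (α : K)) *
      ∏ w : {w : InfinitePlace K // IsComplex w}, ‖(mixedEmbedding K (α : K)).2 w‖ ^ 2 := by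
    rw [← norm_eq_realSign_mul, ← Algebra.coe_norm_int]
    simp
  have hP : 0 ≤ ∏ w : {w : InfinitePlace K // IsComplex w}, ‖(mixedEmbedding K (α : K)).2 w‖ ^ 2 :=
    Finset.prod_nonneg fun _ _ => by positivity
  rcases Int.units_eq_one_or σ with rfl | rfl
  · have h2 : 0 < realSign (mixedEmbedding K (α : K)) := by simpa using h
    have h3 : (0 : ℝ) ≤ ((Algebra.norm ℤ α : ℤ) : ℝ) := by rw [h1]; positivity
    have h4 : 0 ≤ Algebra.norm ℤ α := by exact_mod_cast h3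
    rw [Int.natAbs_of_nonneg h4]; simp
  · have h2 : realSign (mixedEmbedding K (α : K)) < 0 := by
      have : 0 < -realSign (mixedEmbedding K (α : K)) := by simpa using h
      linarith
    have h3 : ((Algebra.norm ℤ α : ℤ) : ℝ) ≤ 0 := by
      rw [h1]; exact mul_nonpos_of_nonpos_of_nonneg h2.le hP
    have h4 : Algebra.norm ℤ α ≤ 0 := by exact_mod_cast h3
    rw [Int.ofNat_natAbs_of_nonpos h4]; simp


variable (m : ℕ) [NeZero m]

/-- the ideal `(m)` of `𝓞 K` as a nonzero ideal. -/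
noncomputable def mIdeal : (Ideal (𝓞 K))⁰ :=
  ⟨Ideal.span {(m : 𝓞 K)}, mem_nonZeroDivisors_of_ne_zero (by
    rw [Ne, Ideal.zero_eq_bot, Ideal.span_singleton_eq_bot]
    exact_mod_cast NeZero.ne m)⟩

/-- the lattice of `m J` in the mixed space. -/
noncomputable abbrev cellLattice (J : (Ideal (𝓞 K))⁰) : Submodule ℤ (mixedSpace K) :=
  idealLattice K (FractionalIdeal.mk0 K (J * mIdeal K m))

variable {K m} in
theorem mem_cellLattice {J : (Ideal (𝓞 K))⁰} {β : 𝓞 K} :
    mixedEmbedding K (β : K) ∈ cellLattice K m J ↔ β ∈ (J : Ideal (𝓞 K)) * Ideal.span {(m : 𝓞 K)} := by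
  rw [mem_idealLattice]
  constructor
  · rintro ⟨y, hy, hyβ⟩
    have hyβ' : y = (β : K) := mixedEmbedding_injective K hyβ
    subst hyβ'
    rw [SetLike.mem_coe, FractionalIdeal.coe_mk0, FractionalIdeal.mem_coeIdeal] at hy
    obtain ⟨β', hβ', h⟩ := hy
    have : β' = β := RingOfIntegers.ext h
    subst this
    exact hβ'
  · intro h
    refine ⟨(β : K), ?_, rfl⟩
    rw [SetLike.mem_coe, FractionalIdeal.coe_mk0, FractionalIdeal.mem_coeIdeal]
    exact ⟨β, h, rfl⟩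

variable {K m} in
/-- every element of the cell lattice comes from an element of `m J`. -/
theorem exists_of_mem_cellLattice {J : (Ideal (𝓞 K))⁰} {x : mixedSpace K}
    (hx : x ∈ cellLattice K m J) :
    ∃ β : 𝓞 K, β ∈ (J : Ideal (𝓞 K)) * Ideal.span {(m : 𝓞 K)} ∧ mixedEmbedding K (β : K) = x := by
  rw [mem_idealLattice] at hx
  obtain ⟨y, hy, rfl⟩ := hx
  rw [SetLike.mem_coe, FractionalIdeal.coe_mk0, FractionalIdeal.mem_coeIdeal] at hy
  obtain ⟨β, hβ, rfl⟩ := hy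
  exact ⟨β, hβ, rfl⟩


/-- `J` is coprime to `m`. -/
def CoprimeTo (J : (Ideal (𝓞 K))⁰) : Prop :=
  IsCoprime (J : Ideal (𝓞 K)) (Ideal.span {(m : 𝓞 K)})

variable {K m}

theorem CoprimeTo.mem_mul_iff {J : (Ideal (𝓞 K))⁰} (hJ : CoprimeTo K m J) {β : 𝓞 K} :
    β ∈ (J : Ideal (𝓞 K)) * Ideal.span {(m : 𝓞 K)} ↔ β ∈ (J : Ideal (𝓞 K)) ∧ ∃ γ, β = (m : 𝓞 K) * γ := by
  rw [Ideal.mul_eq_inf_of_isCoprime hJ, Ideal.mem_inf, Ideal.mem_span_singleton']
  refine and_congr_right fun _ => ⟨fun ⟨γ, h⟩ => ⟨γ, by rw [← h, mul_comm]⟩,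
    fun ⟨γ, h⟩ => ⟨γ, by rw [h, mul_comm]⟩⟩

theorem CoprimeTo.exists_rep {J : (Ideal (𝓞 K))⁰} (hJ : CoprimeTo K m J) (r : 𝓞 K) :
    ∃ v ∈ (J : Ideal (𝓞 K)), ∃ γ, v = r + (m : 𝓞 K) * γ := by
  obtain ⟨i, hi, j, hj, hij⟩ := Ideal.isCoprime_iff_exists.mp hJ
  obtain ⟨γ, rfl⟩ := Ideal.mem_span_singleton'.mp hj
  refine ⟨r * i, Ideal.mul_mem_left _ _ hi, -(r * γ), ?_⟩
  have : i = 1 - γ * (m : 𝓞 K) := by rw [← hij]; ring
  rw [this]; ring


variable (K m) in
/-- the points of the cell `(v, σ)`: in the fundamental cone, congruent to `v` modulo `m J`,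
with norm of sign `σ`. -/
def cellPts (J : (Ideal (𝓞 K))⁰) (v : 𝓞 K) (σ : ℤˣ) : Set (mixedSpace K) :=
  {a | a ∈ fundamentalCone K ∧ a - mixedEmbedding K (v : K) ∈ cellLattice K m J ∧
    0 < ((σ : ℤ) : ℝ) * realSign a}

/-- points of a cell are images of elements `v + m γ` of `J`. -/
theorem exists_of_mem_cellPts {J : (Ideal (𝓞 K))⁰} (hJ : CoprimeTo K m J) {v : 𝓞 K}
    (hv : v ∈ (J : Ideal (𝓞 K))) {σ : ℤˣ} {a : mixedSpace K} (ha : a ∈ cellPts K m J v σ) :
    ∃ γ : 𝓞 K, v + (m : 𝓞 K) * γ ∈ (J : Ideal (𝓞 K)) ∧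
      a = mixedEmbedding K ((v + (m : 𝓞 K) * γ : 𝓞 K) : K) := by
  obtain ⟨β, hβ, hβa⟩ := exists_of_mem_cellLattice ha.2.1
  obtain ⟨hβJ, γ, rfl⟩ := hJ.mem_mul_iff.mp hβ
  refine ⟨γ, Ideal.add_mem _ hv hβJ, ?_⟩
  have : ((v + (m : 𝓞 K) * γ : 𝓞 K) : K) = (v : K) + (((m : 𝓞 K) * γ : 𝓞 K) : K) := by
    push_cast; ring
  rw [this, map_add, hβa]
  abel

theorem mem_idealSet_of_mem_cellPts {J : (Ideal (𝓞 K))⁰} (hJ : CoprimeTo K m J) {v : 𝓞 K}
    (hv : v ∈ (J : Ideal (𝓞 K))) {σ : ℤˣ} {a : mixedSpace K} (ha : a ∈ cellPts K m J v σ) :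
    a ∈ idealSet K J := by
  obtain ⟨γ, hγ, rfl⟩ := exists_of_mem_cellPts hJ hv ha
  exact mem_idealSet.mpr ⟨ha.1, _, hγ, rfl⟩

/-- the residue of the norm on a cell. -/
theorem natCast_eq_of_mem_cellPts {J : (Ideal (𝓞 K))⁰} (hJ : CoprimeTo K m J) {v : 𝓞 K}
    (hv : v ∈ (J : Ideal (𝓞 K))) {σ : ℤˣ} {a : mixedSpace K} (ha : a ∈ cellPts K m J v σ)
    {n : ℕ} (hn : mixedEmbedding.norm a = n) :
    (n : ZMod m) = ((σ : ℤ) : ZMod m) * ((Algebra.norm ℤ v : ℤ) : ZMod m) := by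
  obtain ⟨γ, hγ, rfl⟩ := exists_of_mem_cellPts hJ hv ha
  have h1 := natAbs_norm_eq_of_realSign (v + (m : 𝓞 K) * γ) σ ha.2.2
  have h2 : (n : ℝ) = ((Algebra.norm ℤ (v + (m : 𝓞 K) * γ)).natAbs : ℝ) := by
    rw [← hn, norm_eq_norm, ← Algebra.coe_norm_int, Nat.cast_natAbs]
    simp
  have h3 : n = (Algebra.norm ℤ (v + (m : 𝓞 K) * γ)).natAbs := by exact_mod_cast h2
  have h4 : ((n : ℤ) : ZMod m) = (((σ : ℤ) * Algebra.norm ℤ (v + (m : 𝓞 K) * γ) : ℤ) : ZMod m) := by
    rw [h3, h1]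
  rw [Int.cast_natCast, Int.cast_mul, norm_add_mul_cast_zmod] at h4
  exact h4


variable (K m) in
/-- the residue ring `𝓞 K / m`. -/
abbrev ResRing := 𝓞 K ⧸ Ideal.span {(m : 𝓞 K)}

variable (K m) in
noncomputable instance : Fintype (ResRing K m) :=
  @Fintype.ofFinite _ (Ideal.finiteQuotientOfFreeOfNeBot _ (by
    rw [Ne, Ideal.span_singleton_eq_bot]
    exact_mod_cast NeZero.ne m))

theorem exists_eq_add_mul_of_mk_eq {α β : 𝓞 K}
    (h : (Ideal.Quotient.mk (Ideal.span {(m : 𝓞 K)}) α) = Ideal.Quotient.mk _ β) :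
    ∃ γ, α = β + (m : 𝓞 K) * γ := by
  rw [Ideal.Quotient.eq, Ideal.mem_span_singleton'] at h
  obtain ⟨γ, hγ⟩ := h
  exact ⟨γ, by rw [mul_comm, hγ]; ring⟩

variable (K m) in
/-- the norm modulo `m` as a function on the residue ring. -/
noncomputable def resNorm (r : ResRing K m) : ZMod m :=
  ((Algebra.norm ℤ (Quotient.out r) : ℤ) : ZMod m)

theorem resNorm_mk (α : 𝓞 K) :
    resNorm K m (Ideal.Quotient.mk _ α) = ((Algebra.norm ℤ α : ℤ) : ZMod m) := by
  unfold resNorm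
  obtain ⟨γ, hγ⟩ := exists_eq_add_mul_of_mk_eq (m := m)
    (Ideal.Quotient.mk_out (Ideal.Quotient.mk (Ideal.span {(m : 𝓞 K)}) α))
  rw [hγ, norm_add_mul_cast_zmod]

/-- a system of representatives in `J` of the residue classes modulo `m`. -/
noncomputable def cellRep {J : (Ideal (𝓞 K))⁰} (hJ : CoprimeTo K m J) (r : ResRing K m) : 𝓞 K :=
  (hJ.exists_rep (Quotient.out r)).choose

theorem cellRep_mem {J : (Ideal (𝓞 K))⁰} (hJ : CoprimeTo K m J) (r : ResRing K m) :
    cellRep hJ r ∈ (J : Ideal (𝓞 K)) := (hJ.exists_rep (Quotient.out r)).choose_spec.1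

theorem mk_cellRep {J : (Ideal (𝓞 K))⁰} (hJ : CoprimeTo K m J) (r : ResRing K m) :
    Ideal.Quotient.mk _ (cellRep hJ r) = r := by
  obtain ⟨γ, hγ⟩ := (hJ.exists_rep (Quotient.out r)).choose_spec.2
  have : cellRep hJ r = Quotient.out r + (m : 𝓞 K) * γ := hγ
  rw [this, map_add, map_mul]
  have h0 : (Ideal.Quotient.mk (Ideal.span {(m : 𝓞 K)})) (m : 𝓞 K) = 0 :=
    Ideal.Quotient.eq_zero_iff_mem.mpr (Ideal.mem_span_singleton_self _)
  rw [h0, zero_mul, add_zero]
  exact Ideal.Quotient.mk_out r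

theorem resNorm_eq_cellRep {J : (Ideal (𝓞 K))⁰} (hJ : CoprimeTo K m J) (r : ResRing K m) :
    ((Algebra.norm ℤ (cellRep hJ r) : ℤ) : ZMod m) = resNorm K m r := by
  rw [← resNorm_mk, mk_cellRep]

/-- every point of `idealSet K J` lies in some cell. -/
theorem exists_mem_cellPts {J : (Ideal (𝓞 K))⁰} (hJ : CoprimeTo K m J) {a : mixedSpace K}
    (ha : a ∈ idealSet K J) :
    ∃ (r : ResRing K m) (σ : ℤˣ), a ∈ cellPts K m J (cellRep hJ r) σ := by
  obtain ⟨hcone, α, hα, rfl⟩ := mem_idealSet.mp ha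
  refine ⟨Ideal.Quotient.mk _ α, if 0 < realSign (mixedEmbedding K (α : K)) then 1 else -1,
    hcone, ?_, ?_⟩
  · obtain ⟨γ, hγ⟩ := exists_eq_add_mul_of_mk_eq (m := m)
      ((mk_cellRep hJ (Ideal.Quotient.mk _ α)).symm)
    have h1 : α - cellRep hJ (Ideal.Quotient.mk _ α) = (m : 𝓞 K) * γ := by
      rw [eq_sub_of_add_eq' hγ.symm]
    have h2 : mixedEmbedding K (α : K) - mixedEmbedding K ((cellRep hJ (Ideal.Quotient.mk _ α) : 𝓞 K) : K)
        = mixedEmbedding K ((α - cellRep hJ (Ideal.Quotient.mk _ α) : 𝓞 K) : K) := by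
      rw [← map_sub]; congr 1
    rw [h2, mem_cellLattice, hJ.mem_mul_iff]
    exact ⟨Ideal.sub_mem _ hα (cellRep_mem hJ _), γ, h1⟩
  · have hne : realSign (mixedEmbedding K (α : K)) ≠ 0 := by
      unfold realSign
      rw [Finset.prod_ne_zero_iff]
      intro w _ h0
      have := normAtPlace_pos_of_mem hcone w.1
      rw [normAtPlace_apply_of_isReal w.2, h0, norm_zero] at this
      exact lt_irrefl _ this
    split_ifs with h
    · simpa using h
    · have : realSign (mixedEmbedding K (α : K)) < 0 := lt_of_le_of_ne (not_lt.mp h) hne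
      simpa using this

/-- the cell of a point is unique. -/
theorem cellPts_unique {J : (Ideal (𝓞 K))⁰} (hJ : CoprimeTo K m J) {a : mixedSpace K}
    {r r' : ResRing K m} {σ σ' : ℤˣ} (h : a ∈ cellPts K m J (cellRep hJ r) σ)
    (h' : a ∈ cellPts K m J (cellRep hJ r') σ') : r = r' ∧ σ = σ' := by
  constructor
  · have h1 := (cellLattice K m J).sub_mem h'.2.1 h.2.1
    have h2 : a - mixedEmbedding K ((cellRep hJ r' : 𝓞 K) : K) - (a - mixedEmbedding K ((cellRep hJ r : 𝓞 K) : K))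
        = mixedEmbedding K ((cellRep hJ r - cellRep hJ r' : 𝓞 K) : K) := by
      have : ((cellRep hJ r - cellRep hJ r' : 𝓞 K) : K) = (cellRep hJ r : K) - (cellRep hJ r' : K) := by
        push_cast; ring
      rw [this, map_sub]; abel
    rw [h2, mem_cellLattice, hJ.mem_mul_iff] at h1
    obtain ⟨-, γ, hγ⟩ := h1
    rw [← mk_cellRep hJ r, ← mk_cellRep hJ r', Ideal.Quotient.eq, hγ]
    exact Ideal.mul_mem_right _ _ (Ideal.mem_span_singleton_self _)
  · have hs := h.2.2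
    have hs' := h'.2.2
    rcases Int.units_eq_one_or σ with rfl | rfl <;> rcases Int.units_eq_one_or σ' with rfl | rfl
    · rfl
    · exfalso; simp at hs hs'; linarith
    · exfalso; simp at hs hs'; linarith
    · rfl


/-- the points of a cell of norm `≤ y` correspond to the points of the translated cell lattice
in a dilate of the signed norm-`≤ 1` cone. -/
noncomputable def cellPtsEquiv (J : (Ideal (𝓞 K))⁰) (v : 𝓞 K) (σ : ℤˣ) {y t : ℝ} (ht : 0 < t)
    (hty : t ^ finrank ℚ K = y) :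
    {a : mixedSpace K // a ∈ cellPts K m J v σ ∧ mixedEmbedding.norm a ≤ y} ≃
      {x : cellLattice K m J // mixedEmbedding K (v : K) + (x : mixedSpace K) ∈
        t • signedNormLeOne K σ} where
  toFun a := ⟨⟨a.1 - mixedEmbedding K (v : K), a.2.1.2.1⟩, by
    rw [mem_smul_signedNormLeOne ht, hty]
    simpa using ⟨a.2.1.1, a.2.2, a.2.1.2.2⟩⟩
  invFun x := ⟨mixedEmbedding K (v : K) + (x.1 : mixedSpace K), by
    have := (mem_smul_signedNormLeOne ht).mp x.2
    rw [hty] at this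
    refine ⟨⟨this.1, ?_, this.2.2⟩, this.2.1⟩
    simp⟩
  left_inv a := by
    apply Subtype.ext
    simp
  right_inv x := by
    apply Subtype.ext
    apply Subtype.ext
    simp

theorem finite_cellPts_norm_le (J : (Ideal (𝓞 K))⁰) (v : 𝓞 K) (σ : ℤˣ) (y : ℝ) :
    Finite {a : mixedSpace K // a ∈ cellPts K m J v σ ∧ mixedEmbedding.norm a ≤ y} := by
  by_cases hy : 0 < y
  · have ht : 0 < y ^ ((finrank ℚ K : ℝ)⁻¹) := Real.rpow_pos_of_pos hy _
    have hty : (y ^ ((finrank ℚ K : ℝ)⁻¹)) ^ finrank ℚ K = y := by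
      rw [← Real.rpow_natCast, ← Real.rpow_mul hy.le,
        inv_mul_cancel₀ (Nat.cast_ne_zero.mpr finrank_pos.ne'), Real.rpow_one]
    have := finite_lattice_vadd_mem (cellLattice K m J)
      ((isBounded_signedNormLeOne K σ).smul₀ (y ^ ((finrank ℚ K : ℝ)⁻¹)))
      (mixedEmbedding K (v : K))
    exact Finite.of_equiv _ (cellPtsEquiv J v σ ht hty).symm
  · refine @Finite.of_subsingleton _ ⟨fun a => ?_⟩
    exfalso
    exact hy (lt_of_lt_of_le (norm_pos_of_mem a.2.1.1) a.2.2)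


variable (K m) in
/-- the constant (independent of `J`) in the main term of the cell counts. -/
noncomputable def cellConst (σ : ℤˣ) : ℝ :=
  volume.real (signedNormLeOne K σ) /
    ((Ideal.absNorm (mIdeal K m : Ideal (𝓞 K)) : ℝ) * ((2⁻¹) ^ nrComplexPlaces K * √|(discr K : ℝ)|))

theorem covolume_cellLattice (J : (Ideal (𝓞 K))⁰) :
    ZLattice.covolume (cellLattice K m J) =
      (Ideal.absNorm (J : Ideal (𝓞 K)) : ℝ) * ((Ideal.absNorm (mIdeal K m : Ideal (𝓞 K)) : ℝ) *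
        ((2⁻¹) ^ nrComplexPlaces K * √|(discr K : ℝ)|)) := by
  rw [covolume_idealLattice, FractionalIdeal.coe_mk0, FractionalIdeal.coeIdeal_absNorm,
    Submonoid.coe_mul, map_mul]
  push_cast
  ring

/-- **cell counts with error term.** -/
theorem exists_cellCount_sub_le (J : (Ideal (𝓞 K))⁰) (v : 𝓞 K) (σ : ℤˣ) :
    ∃ C : ℝ, ∀ y : ℝ, 1 ≤ y →
      |(Nat.card {a : mixedSpace K // a ∈ cellPts K m J v σ ∧ mixedEmbedding.norm a ≤ y} : ℝ)
          - cellConst K m σ * y / (Ideal.absNorm (J : Ideal (𝓞 K)) : ℝ)|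
        ≤ C * y ^ (1 - 1 / (finrank ℚ K : ℝ)) := by
  obtain ⟨C, hC⟩ := exists_card_signedNormLeOne_sub_le K σ (cellLattice K m J)
  refine ⟨C, fun y hy => ?_⟩
  have hd : (finrank ℚ K : ℝ) ≠ 0 := Nat.cast_ne_zero.mpr finrank_pos.ne'
  have hy0 : 0 < y := lt_of_lt_of_le one_pos hy
  set t : ℝ := y ^ ((finrank ℚ K : ℝ)⁻¹) with ht_def
  have ht : 0 < t := Real.rpow_pos_of_pos hy0 _
  have ht1 : 1 ≤ t := Real.one_le_rpow hy (inv_nonneg.mpr (Nat.cast_nonneg _))
  have hty : t ^ finrank ℚ K = y := by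
    rw [ht_def, ← Real.rpow_natCast, ← Real.rpow_mul hy0.le, inv_mul_cancel₀ hd, Real.rpow_one]
  have hty' : t ^ (finrank ℚ K - 1) = y ^ (1 - 1 / (finrank ℚ K : ℝ)) := by
    rw [ht_def, ← Real.rpow_natCast, ← Real.rpow_mul hy0.le]
    congr 1
    rw [Nat.cast_sub finrank_pos, Nat.cast_one]
    field_simp
  have h := hC t ht1 (mixedEmbedding K (v : K))
  rw [← Nat.card_congr (cellPtsEquiv J v σ ht hty), hty, hty', covolume_cellLattice] at h
  have hJ : (0 : ℝ) < (Ideal.absNorm (J : Ideal (𝓞 K)) : ℝ) :=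
    Nat.cast_pos.mpr (Ideal.absNorm_pos_of_nonZeroDivisors J)
  convert h using 3
  unfold cellConst
  field_simp


/-- the norm of a point of `idealSet K J` is a positive natural number. -/
theorem exists_norm_eq_natCast {J : (Ideal (𝓞 K))⁰} {a : mixedSpace K} (ha : a ∈ idealSet K J) :
    ∃ n : ℕ, 1 ≤ n ∧ mixedEmbedding.norm a = n := by
  obtain ⟨hcone, α, -, rfl⟩ := mem_idealSet.mp ha
  refine ⟨(Algebra.norm ℤ α).natAbs, ?_, ?_⟩
  · rw [Nat.one_le_iff_ne_zero, Int.natAbs_ne_zero]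
    intro h0
    have h1 : mixedEmbedding.norm (mixedEmbedding K (α : K)) = 0 := by
      rw [norm_eq_norm, ← Algebra.coe_norm_int, h0]; simp
    exact (norm_pos_of_mem hcone).ne' h1
  · rw [norm_eq_norm, ← Algebra.coe_norm_int, Nat.cast_natAbs]; simp

/-- the points of norm `≤ Y` of a cell, counted by their norm. -/
theorem card_cellPts_norm_le_eq_sum {J : (Ideal (𝓞 K))⁰} (hJ : CoprimeTo K m J) {v : 𝓞 K}
    (hv : v ∈ (J : Ideal (𝓞 K))) (σ : ℤˣ) (Y : ℕ) :
    Nat.card {a : mixedSpace K // a ∈ cellPts K m J v σ ∧ mixedEmbedding.norm a ≤ (Y : ℝ)} =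
      ∑ n ∈ Finset.Icc 1 Y,
        Nat.card {a : mixedSpace K // a ∈ cellPts K m J v σ ∧ mixedEmbedding.norm a = (n : ℝ)} := by
  have := finite_cellPts_norm_le (m := m) J v σ (Y : ℝ)
  rw [card_eq_sum_card_of_partition
    (fun a : mixedSpace K => a ∈ cellPts K m J v σ ∧ mixedEmbedding.norm a ≤ (Y : ℝ))
    (fun (n : Finset.Icc 1 Y) (a : mixedSpace K) =>
      a ∈ cellPts K m J v σ ∧ mixedEmbedding.norm a = ((n : ℕ) : ℝ))]
  · exact Finset.sum_coe_sort (Finset.Icc 1 Y) (fun n =>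
      Nat.card {a : mixedSpace K // a ∈ cellPts K m J v σ ∧ mixedEmbedding.norm a = (n : ℝ)})
  · rintro a ⟨ha, hle⟩
    obtain ⟨n, hn1, hn⟩ := exists_norm_eq_natCast (mem_idealSet_of_mem_cellPts hJ hv ha)
    have hnY : n ≤ Y := by
      rw [hn] at hle
      exact_mod_cast hle
    exact ⟨⟨n, Finset.mem_Icc.mpr ⟨hn1, hnY⟩⟩, ha, hn⟩
  · rintro ⟨n, hn⟩ a ⟨ha, hna⟩
    refine ⟨ha, ?_⟩
    rw [hna]
    exact_mod_cast (Finset.mem_Icc.mp hn).2
  · rintro ⟨n, hn⟩ ⟨n', hn'⟩ a ⟨-, h1⟩ ⟨-, h2⟩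
    apply Subtype.ext
    have : (n : ℝ) = (n' : ℝ) := h1.symm.trans h2
    show n = n'
    exact_mod_cast this

/-- the points of `idealSet K J` of norm `n`, counted by their cell. -/
theorem card_idealSet_norm_eq_sum {J : (Ideal (𝓞 K))⁰} (hJ : CoprimeTo K m J) (n : ℕ)
    [Finite {a : idealSet K J // mixedEmbedding.norm (a : mixedSpace K) = n}] :
    Nat.card {a : idealSet K J // mixedEmbedding.norm (a : mixedSpace K) = n} =
      ∑ i : ResRing K m × ℤˣ, Nat.card {a : mixedSpace K //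
        a ∈ cellPts K m J (cellRep hJ i.1) i.2 ∧ mixedEmbedding.norm a = (n : ℝ)} := by
  have e : {a : idealSet K J // mixedEmbedding.norm (a : mixedSpace K) = n} ≃
      {a : mixedSpace K // a ∈ idealSet K J ∧ mixedEmbedding.norm a = n} :=
    Equiv.subtypeSubtypeEquivSubtypeInter (fun a : mixedSpace K => a ∈ idealSet K J)
      (fun a => mixedEmbedding.norm a = n)
  have := Finite.of_equiv _ e
  rw [Nat.card_congr e]
  refine card_eq_sum_card_of_partition _ _ ?_ ?_ ?_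
  · rintro a ⟨ha, hn⟩
    obtain ⟨r, σ, h⟩ := exists_mem_cellPts hJ ha
    exact ⟨(r, σ), h, hn⟩
  · rintro ⟨r, σ⟩ a ⟨ha, hn⟩
    exact ⟨mem_idealSet_of_mem_cellPts hJ (cellRep_mem hJ r) ha, hn⟩
  · rintro ⟨r, σ⟩ ⟨r', σ'⟩ a ⟨h1, -⟩ ⟨h2, -⟩
    obtain ⟨rfl, rfl⟩ := cellPts_unique hJ h1 h2
    rfl


end Fermat.Agent.Density
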