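/-
[CHEBD] (c), part 2 (helper3): the dictionary ideals in a class ↔ principal ideals divisible by `J`
↔ points of `idealSet K J`, at fixed norm.
-/
import Fermat.Agent.Density.CHEBD_helper3_Cells

set_option linter.unusedSectionVars false

open MeasureTheory Set Bornology Module Ideal
open NumberField NumberField.InfinitePlace NumberField.mixedEmbedding
  NumberField.mixedEmbedding.fundamentalCone NumberField.Units NumberField.Units.dirichletUnitTheorem
open scoped NNReal Pointwise Real Classical ComplexConjugate nonZeroDivisors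

namespace Fermat.Agent.Density


variable (K : Type*) [Field K] [NumberField K]

/-- number of nonzero ideals of norm `n` in the class `C`. -/
noncomputable def classCount (C : ClassGroup (𝓞 K)) (n : ℕ) : ℕ :=
  Nat.card {I : (Ideal (𝓞 K))⁰ // absNorm (I : Ideal (𝓞 K)) = n ∧ ClassGroup.mk0 I = C}

/-- number of principal ideals of norm `n` divisible by `J`. -/
noncomputable def prinCount (J : (Ideal (𝓞 K))⁰) (n : ℕ) : ℕ :=
  Nat.card {I : (Ideal (𝓞 K))⁰ // (J : Ideal (𝓞 K)) ∣ I ∧ Submodule.IsPrincipal (I : Ideal (𝓞 K)) ∧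
    absNorm (I : Ideal (𝓞 K)) = n}

/-- number of points of norm `n` of `idealSet K J`. -/
noncomputable def ptCount (J : (Ideal (𝓞 K))⁰) (n : ℕ) : ℕ :=
  Nat.card {a : idealSet K J // mixedEmbedding.norm (a : mixedSpace K) = n}

theorem finite_nonZeroDivisors_absNorm_eq (n : ℕ) :
    Finite {I : (Ideal (𝓞 K))⁰ // absNorm (I : Ideal (𝓞 K)) = n} := by
  have := (Ideal.finite_setOfPred_absNorm_eq (S := 𝓞 K) n).to_subtype
  exact Finite.of_injective
    (fun I : {I : (Ideal (𝓞 K))⁰ // absNorm (I : Ideal (𝓞 K)) = n} =>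
      (⟨(I.1 : Ideal (𝓞 K)), I.2⟩ : {I : Ideal (𝓞 K) | absNorm I = n}))
    (fun I I' h => Subtype.ext (Subtype.ext (by simpa using h)))

/-- the ideals of norm `n ≠ 0`, counted by their class. -/
theorem card_absNorm_eq_sum_classCount {n : ℕ} (hn : n ≠ 0) :
    Nat.card {I : Ideal (𝓞 K) // absNorm I = n} = ∑ C : ClassGroup (𝓞 K), classCount K C n := by
  have e : {I : Ideal (𝓞 K) // absNorm I = n} ≃ {I : (Ideal (𝓞 K))⁰ // absNorm (I : Ideal (𝓞 K)) = n} :=
    { toFun := fun I => ⟨⟨I.1, mem_nonZeroDivisors_of_ne_zero (by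
        rintro h; apply hn; rw [← I.2, h]; simp)⟩, I.2⟩
      invFun := fun I => ⟨I.1.1, I.2⟩
      left_inv := fun I => rfl
      right_inv := fun I => rfl }
  rw [Nat.card_congr e]
  have := finite_nonZeroDivisors_absNorm_eq K n
  unfold classCount
  refine card_eq_sum_card_of_partition _ _ ?_ ?_ ?_
  · exact fun I hI => ⟨ClassGroup.mk0 I, hI, rfl⟩
  · exact fun C I hI => hI.1
  · exact fun C C' I h h' => h.2.symm.trans h'.2

variable {K}

/-- ideals of norm `n` in the class `C` correspond to principal ideals of norm `n N(J)`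
divisible by `J`, for `J` in the inverse class. -/
theorem classCount_eq_prinCount {C : ClassGroup (𝓞 K)} {J : (Ideal (𝓞 K))⁰}
    (hJ : ClassGroup.mk0 J = C⁻¹) (n : ℕ) :
    classCount K C n = prinCount K J (n * absNorm (J : Ideal (𝓞 K))) := by
  unfold classCount prinCount
  simp_rw [← nonZeroDivisors_dvd_iff_dvd_coe]
  refine Nat.card_congr ?_
  refine ((Equiv.dvd J).subtypeEquiv fun I ↦ ?_).trans
    (Equiv.subtypeSubtypeEquivSubtypeInter (fun I : (Ideal (𝓞 K))⁰ ↦ J ∣ I) _)
  rw [← ClassGroup.mk0_eq_one_iff (SetLike.coe_mem _)]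
  simp_rw [Equiv.dvd_apply, Submonoid.coe_mul, ← Submonoid.mul_def, _root_.map_mul, hJ,
    inv_mul_eq_one]
  have hJpos : 0 < absNorm (J : Ideal (𝓞 K)) := absNorm_pos_of_nonZeroDivisors J
  constructor
  · rintro ⟨h1, h2⟩
    exact ⟨h2.symm, by rw [h1, mul_comm]⟩
  · rintro ⟨h1, h2⟩
    refine ⟨?_, h1.symm⟩
    rw [mul_comm] at h2
    exact Nat.eq_of_mul_eq_mul_right hJpos h2

variable (K) in
theorem ptCount_eq (J : (Ideal (𝓞 K))⁰) (n : ℕ) :
    ptCount K J n = prinCount K J n * torsionOrder K := by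
  unfold ptCount prinCount
  rw [torsionOrder, ← Nat.card_prod]
  exact Nat.card_congr (idealSetEquivNorm K J n)

theorem dvd_of_prinCount_ne_zero {J : (Ideal (𝓞 K))⁰} {n : ℕ} (h : prinCount K J n ≠ 0) :
    absNorm (J : Ideal (𝓞 K)) ∣ n := by
  unfold prinCount at h
  have : Nonempty {I : (Ideal (𝓞 K))⁰ // (J : Ideal (𝓞 K)) ∣ I ∧ Submodule.IsPrincipal (I : Ideal (𝓞 K)) ∧
      absNorm (I : Ideal (𝓞 K)) = n} := by
    by_contra hne
    rw [not_nonempty_iff] at hne
    exact h Nat.card_of_isEmpty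
  obtain ⟨I, hI1, -, hI3⟩ := this
  rw [← hI3]
  exact Ideal.absNorm_dvd_absNorm_of_le (Ideal.dvd_iff_le.mp hI1)

theorem finite_ptCount (J : (Ideal (𝓞 K))⁰) (n : ℕ) :
    Finite {a : idealSet K J // mixedEmbedding.norm (a : mixedSpace K) = n} := by
  have h1 := finite_nonZeroDivisors_absNorm_eq K n
  have h2 : Finite {I : (Ideal (𝓞 K))⁰ // (J : Ideal (𝓞 K)) ∣ I ∧ Submodule.IsPrincipal (I : Ideal (𝓞 K)) ∧
      absNorm (I : Ideal (𝓞 K)) = n} :=
    Finite.of_injective (fun I => (⟨I.1, I.2.2.2⟩ : {I : (Ideal (𝓞 K))⁰ // absNorm (I : Ideal (𝓞 K)) = n}))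
      (fun I I' h => Subtype.ext (by simpa using h))
  exact Finite.of_equiv _ (idealSetEquivNorm K J n).symm


end Fermat.Agent.Density
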