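/-
[CHEBD] (c), part 3 (helper3): **the interface theorem (C)** `charSum_ideal_le`: for a Dirichlet
character `χ` mod `m` such that `χ ∘ N` is non-trivial on the ideals of a number field `E` of
degree `d`, `∑_{n ≤ N} χ(n) · #{I | N(I) = n} = O(N^(1-1/d))`.
-/
import Fermat.Agent.Density.CHEBD_helper3_Classes

set_option linter.unusedSectionVars false

open MeasureTheory Set Bornology Module Ideal Filter
open NumberField NumberField.InfinitePlace NumberField.mixedEmbedding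
  NumberField.mixedEmbedding.fundamentalCone NumberField.Units NumberField.Units.dirichletUnitTheorem
open scoped NNReal Pointwise Real Classical ComplexConjugate nonZeroDivisors

namespace Fermat.Agent.Density

/-- a linear function dominated by `N^(1 - 1/d)` vanishes. -/
theorem eq_zero_of_mul_le_rpow {a B : ℝ} (ha : 0 ≤ a) {d : ℕ} (hd : 0 < d)
    (h : ∀ N : ℕ, a * N ≤ B * (N : ℝ) ^ (1 - 1 / (d : ℝ))) : a = 0 := by
  by_contra hne
  have hapos : 0 < a := lt_of_le_of_ne ha (Ne.symm hne)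
  have hd' : (0 : ℝ) < 1 / (d : ℝ) := by positivity
  have htend : Tendsto (fun N : ℕ => (N : ℝ) ^ (1 / (d : ℝ))) atTop atTop :=
    (tendsto_rpow_atTop hd').comp tendsto_natCast_atTop_atTop
  obtain ⟨N, hN1, hN2⟩ := ((htend.eventually_gt_atTop (B / a)).and (eventually_ge_atTop 1)).exists
  have hNpos : (0 : ℝ) < N := by exact_mod_cast hN2
  have hsplit : (N : ℝ) = (N : ℝ) ^ (1 / (d : ℝ)) * (N : ℝ) ^ (1 - 1 / (d : ℝ)) := by
    rw [← Real.rpow_add hNpos]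
    simp
  have hpos : 0 < (N : ℝ) ^ (1 - 1 / (d : ℝ)) := Real.rpow_pos_of_pos hNpos _
  have h1 : a * (N : ℝ) ^ (1 / (d : ℝ)) * (N : ℝ) ^ (1 - 1 / (d : ℝ)) ≤
      B * (N : ℝ) ^ (1 - 1 / (d : ℝ)) := by
    rw [mul_assoc, ← hsplit]; exact h N
  have h2 : a * (N : ℝ) ^ (1 / (d : ℝ)) ≤ B := le_of_mul_le_mul_right h1 hpos
  rw [div_lt_iff₀ hapos] at hN1
  linarith


variable {K : Type*} [Field K] [NumberField K] {m : ℕ} [NeZero m]


/-- an ideal coprime to `(m)` has norm coprime to `m`. -/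
theorem CoprimeTo.coprime_absNorm {J : (Ideal (𝓞 K))⁰} (hJ : CoprimeTo K m J) :
    Nat.Coprime (absNorm (J : Ideal (𝓞 K))) m := by
  rw [Nat.coprime_iff_gcd_eq_one] 
  by_contra hne
  obtain ⟨p, hp, hpg⟩ := Nat.exists_prime_and_dvd hne
  have hpN : p ∣ absNorm (J : Ideal (𝓞 K)) := hpg.trans (Nat.gcd_dvd_left _ _)
  obtain ⟨k, hk⟩ := hpg.trans (Nat.gcd_dvd_right _ _)
  obtain ⟨i, hi, j, hj, hij⟩ := Ideal.isCoprime_iff_exists.mp hJ
  obtain ⟨γ, rfl⟩ := Ideal.mem_span_singleton'.mp hj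
  have hJne : (J : Ideal (𝓞 K)) ≠ ⊥ := nonZeroDivisors.coe_ne_zero J
  have : Finite (𝓞 K ⧸ (J : Ideal (𝓞 K))) := Ideal.finiteQuotientOfFreeOfNeBot _ hJne
  have : Fintype (𝓞 K ⧸ (J : Ideal (𝓞 K))) := Fintype.ofFinite _
  have : Fact p.Prime := ⟨hp⟩
  have hcard : p ∣ Fintype.card (𝓞 K ⧸ (J : Ideal (𝓞 K))) := by
    rw [← Nat.card_eq_fintype_card]
    have : absNorm (J : Ideal (𝓞 K)) = Nat.card (𝓞 K ⧸ (J : Ideal (𝓞 K))) := by
      rw [Ideal.absNorm_apply]; rfl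
    rwa [← this]
  obtain ⟨x, hx⟩ := exists_prime_addOrderOf_dvd_card p hcard
  obtain ⟨a, rfl⟩ := Ideal.Quotient.mk_surjective x
  have hpx : p • (Ideal.Quotient.mk (J : Ideal (𝓞 K)) a) = 0 := by
    rw [← hx]; exact addOrderOf_nsmul_eq_zero _
  have hpa : (p : 𝓞 K) * a ∈ (J : Ideal (𝓞 K)) := by
    rw [← Ideal.Quotient.eq_zero_iff_mem, map_mul, map_natCast, ← nsmul_eq_mul]
    exact hpx
  have ha : a ∈ (J : Ideal (𝓞 K)) := by
    have h1 : a = a * i + γ * (k : 𝓞 K) * ((p : 𝓞 K) * a) := by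
      have hm : (m : 𝓞 K) = (p : 𝓞 K) * (k : 𝓞 K) := by rw [hk]; push_cast; ring
      calc a = a * (i + γ * (m : 𝓞 K)) := by rw [hij, mul_one]
        _ = a * i + γ * (k : 𝓞 K) * ((p : 𝓞 K) * a) := by rw [hm]; ring
    rw [h1]
    exact Ideal.add_mem _ (Ideal.mul_mem_left _ _ hi) (Ideal.mul_mem_left _ _ hpa)
  have hx0 : Ideal.Quotient.mk (J : Ideal (𝓞 K)) a = 0 := Ideal.Quotient.eq_zero_iff_mem.mpr ha
  rw [hx0, addOrderOf_zero] at hx
  exact hp.one_lt.ne hx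


variable (K m) in
/-- every ideal class contains an integral ideal coprime to `m`. -/
theorem exists_coprimeTo_rep (C : ClassGroup (𝓞 K)) :
    ∃ J : (Ideal (𝓞 K))⁰, ClassGroup.mk0 J = C ∧ CoprimeTo K m J := by
  obtain ⟨I₀, hI₀⟩ := ClassGroup.mk0_surjective C⁻¹
  have hI₀ne : (I₀ : Ideal (𝓞 K)) ≠ 0 := nonZeroDivisors.coe_ne_zero I₀
  have hmne : (mIdeal K m : Ideal (𝓞 K)) ≠ 0 := nonZeroDivisors.coe_ne_zero _
  have hle : (I₀ : Ideal (𝓞 K)) * (mIdeal K m : Ideal (𝓞 K)) ≤ (I₀ : Ideal (𝓞 K)) := Ideal.mul_le_left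
  obtain ⟨a, ha⟩ := IsDedekindDomain.exists_sup_span_eq hle (mul_ne_zero hI₀ne hmne)
  have hdvd : (I₀ : Ideal (𝓞 K)) ∣ Ideal.span {a} := by
    rw [Ideal.dvd_iff_le, ← ha]; exact le_sup_right
  obtain ⟨J', hJ'⟩ := hdvd
  -- coprimality of `J'` and `(m)`
  have hcop : IsCoprime J' (Ideal.span {(m : 𝓞 K)}) := by
    rw [Ideal.isCoprime_iff_add]
    have h1 : (I₀ : Ideal (𝓞 K)) * ((mIdeal K m : Ideal (𝓞 K)) + J') = (I₀ : Ideal (𝓞 K)) * 1 := by
      rw [mul_add, ← hJ', Ideal.add_eq_sup, ha, mul_one]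
    have h2 := mul_left_cancel₀ hI₀ne h1
    rw [add_comm] at h2
    exact h2
  by_cases ha0 : a = 0
  · -- then `(m) = ⊤`
    obtain ⟨J, hJ⟩ := ClassGroup.mk0_surjective C
    refine ⟨J, hJ, ?_⟩
    have h1 : (I₀ : Ideal (𝓞 K)) * J' = 0 := by rw [← hJ', ha0]; simp
    have hJ'0 : J' = 0 := (mul_eq_zero.mp h1).resolve_left hI₀ne
    rw [hJ'0, Ideal.isCoprime_iff_add, zero_add] at hcop
    unfold CoprimeTo
    rw [hcop]
    exact isCoprime_one_right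
  · have hJ'ne : J' ≠ 0 := by
      rintro rfl
      rw [mul_zero, Ideal.zero_eq_bot, Ideal.span_singleton_eq_bot] at hJ'
      exact ha0 hJ'
    refine ⟨⟨J', mem_nonZeroDivisors_of_ne_zero hJ'ne⟩, ?_, hcop⟩
    have hspan : Ideal.span {a} ∈ (Ideal (𝓞 K))⁰ :=
      mem_nonZeroDivisors_of_ne_zero (by rwa [Ne, Ideal.zero_eq_bot, Ideal.span_singleton_eq_bot])
    have h1 : ClassGroup.mk0 (⟨Ideal.span {a}, hspan⟩ : (Ideal (𝓞 K))⁰) = 1 := by
      rw [ClassGroup.mk0_eq_one_iff]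
      exact ⟨⟨a, rfl⟩⟩
    have h2 : (⟨Ideal.span {a}, hspan⟩ : (Ideal (𝓞 K))⁰) =
        I₀ * ⟨J', mem_nonZeroDivisors_of_ne_zero hJ'ne⟩ := Subtype.ext hJ'
    rw [h2, map_mul, hI₀, inv_mul_eq_one] at h1
    exact h1.symm


/-- an ideal whose norm is prime to `m` is coprime to `(m)`. -/
theorem coprimeTo_of_coprime_absNorm {J : (Ideal (𝓞 K))⁰}
    (h : Nat.Coprime (absNorm (J : Ideal (𝓞 K))) m) : CoprimeTo K m J := by
  unfold CoprimeTo
  rw [Ideal.isCoprime_iff_exists]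
  obtain ⟨a, b, hab⟩ := Nat.Coprime.isCoprime h
  refine ⟨(a : 𝓞 K) * ((absNorm (J : Ideal (𝓞 K)) : ℕ) : 𝓞 K),
    Ideal.mul_mem_left _ _ (Ideal.absNorm_mem _), (b : 𝓞 K) * (m : 𝓞 K),
    Ideal.mul_mem_left _ _ (Ideal.mem_span_singleton_self _), ?_⟩
  have := congrArg (Int.cast : ℤ → 𝓞 K) hab
  push_cast at this
  exact this

theorem CoprimeTo.mul {J J' : (Ideal (𝓞 K))⁰} (h : CoprimeTo K m J) (h' : CoprimeTo K m J') :
    CoprimeTo K m (J * J') := by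
  unfold CoprimeTo at *
  rw [Submonoid.coe_mul]
  exact IsCoprime.mul_left h h'


variable (χ : DirichletCharacter ℂ m)


/-- the value of `χ` on the cell `i`. -/
noncomputable def cellChar (i : ResRing K m × ℤˣ) : ℂ :=
  χ (((i.2 : ℤ) : ZMod m) * resNorm K m i.1)

/-- the cell formula: the `χ`-weighted count of the points of `idealSet K J` of norm `≤ Y`. -/
theorem sum_char_ptCount_eq {J : (Ideal (𝓞 K))⁰} (hJ : CoprimeTo K m J) (Y : ℕ) :
    ∑ n ∈ Finset.Icc 1 Y, χ (n : ZMod m) * (ptCount K J n : ℂ) =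
      ∑ i : ResRing K m × ℤˣ, cellChar χ i *
        (Nat.card {a : mixedSpace K // a ∈ cellPts K m J (cellRep hJ i.1) i.2 ∧
          mixedEmbedding.norm a ≤ (Y : ℝ)} : ℂ) := by
  have h1 : ∀ n : ℕ, (ptCount K J n : ℂ) = ∑ i : ResRing K m × ℤˣ,
      (Nat.card {a : mixedSpace K // a ∈ cellPts K m J (cellRep hJ i.1) i.2 ∧
        mixedEmbedding.norm a = (n : ℝ)} : ℂ) := by
    intro n
    have := finite_ptCount J n
    unfold ptCount
    rw [card_idealSet_norm_eq_sum hJ n, Nat.cast_sum]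
  simp_rw [h1, Finset.mul_sum]
  rw [Finset.sum_comm]
  refine Finset.sum_congr rfl fun i _ => ?_
  rw [card_cellPts_norm_le_eq_sum hJ (cellRep_mem hJ i.1) i.2 Y, Nat.cast_sum, Finset.mul_sum]
  refine Finset.sum_congr rfl fun n _ => ?_
  by_cases h0 : Nat.card {a : mixedSpace K // a ∈ cellPts K m J (cellRep hJ i.1) i.2 ∧
      mixedEmbedding.norm a = (n : ℝ)} = 0
  · rw [h0]; simp
  · have : Nonempty {a : mixedSpace K // a ∈ cellPts K m J (cellRep hJ i.1) i.2 ∧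
        mixedEmbedding.norm a = (n : ℝ)} := by
      by_contra hne
      rw [not_nonempty_iff] at hne
      exact h0 Nat.card_of_isEmpty
    obtain ⟨a, ha, hn⟩ := this
    congr 1
    unfold cellChar
    rw [natCast_eq_of_mem_cellPts hJ (cellRep_mem hJ i.1) ha hn, resNorm_eq_cellRep]


variable (K) in
/-- the constant of the main term; it does not depend on the ideal class. -/
noncomputable def charConst : ℂ :=
  ((torsionOrder K : ℂ))⁻¹ * ∑ i : ResRing K m × ℤˣ, cellChar χ i * (cellConst K m i.2 : ℂ)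

theorem sum_char_prinCount_reindex (J : (Ideal (𝓞 K))⁰) (N : ℕ) :
    ∑ n ∈ Finset.Icc 1 N, χ ((n * absNorm (J : Ideal (𝓞 K)) : ℕ) : ZMod m) *
        (prinCount K J (n * absNorm (J : Ideal (𝓞 K))) : ℂ) =
      ∑ n' ∈ Finset.Icc 1 (N * absNorm (J : Ideal (𝓞 K))), χ (n' : ZMod m) * (prinCount K J n' : ℂ) := by
  set q := absNorm (J : Ideal (𝓞 K)) with hq
  have hqpos : 0 < q := absNorm_pos_of_nonZeroDivisors J
  have hinj : Set.InjOn (fun n : ℕ => n * q) (Finset.Icc 1 N : Set ℕ) :=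
    fun a _ b _ h => Nat.eq_of_mul_eq_mul_right hqpos h
  rw [← Finset.sum_image (f := fun n' : ℕ => χ (n' : ZMod m) * (prinCount K J n' : ℂ)) hinj]
  refine Finset.sum_subset ?_ ?_
  · intro n' hn'
    obtain ⟨n, hn, rfl⟩ := Finset.mem_image.mp hn'
    rw [Finset.mem_Icc] at hn ⊢
    exact ⟨Nat.mul_pos hn.1 hqpos, Nat.mul_le_mul_right q hn.2⟩
  · intro n' hn' hnot
    by_cases h0 : prinCount K J n' = 0
    · rw [h0]; simp
    · exfalso
      obtain ⟨n, rfl⟩ := dvd_of_prinCount_ne_zero h0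
      apply hnot
      rw [Finset.mem_image]
      rw [Finset.mem_Icc] at hn'
      refine ⟨n, Finset.mem_Icc.mpr ⟨?_, ?_⟩, mul_comm _ _⟩
      · rcases Nat.eq_zero_or_pos n with rfl | h
        · simp at hn'
        · exact h
      · rw [mul_comm] at hn'
        exact Nat.le_of_mul_le_mul_right hn'.2 hqpos


theorem CoprimeTo.char_ne_zero {J : (Ideal (𝓞 K))⁰} (hJ : CoprimeTo K m J) :
    χ ((absNorm (J : Ideal (𝓞 K)) : ℕ) : ZMod m) ≠ 0 :=
  (((ZMod.isUnit_iff_coprime _ _).mpr hJ.coprime_absNorm).map χ).ne_zero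

/-- exact formula for the `χ`-weighted count of the ideals of a class. -/
theorem classSum_eq {C : ClassGroup (𝓞 K)} {J : (Ideal (𝓞 K))⁰}
    (hJC : ClassGroup.mk0 J = C⁻¹) (hJ : CoprimeTo K m J) (N : ℕ) :
    ∑ n ∈ Finset.Icc 1 N, χ (n : ZMod m) * (classCount K C n : ℂ) =
      (χ ((absNorm (J : Ideal (𝓞 K)) : ℕ) : ZMod m))⁻¹ * ((torsionOrder K : ℂ))⁻¹ *
        ∑ i : ResRing K m × ℤˣ, cellChar χ i *
          (Nat.card {a : mixedSpace K // a ∈ cellPts K m J (cellRep hJ i.1) i.2 ∧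
            mixedEmbedding.norm a ≤ ((N * absNorm (J : Ideal (𝓞 K)) : ℕ) : ℝ)} : ℂ) := by
  set q := absNorm (J : Ideal (𝓞 K)) with hq
  have hu := hJ.char_ne_zero χ
  have hw : (torsionOrder K : ℂ) ≠ 0 := Nat.cast_ne_zero.mpr (torsionOrder_ne_zero K)
  rw [← sum_char_ptCount_eq χ hJ, mul_assoc, Finset.mul_sum, Finset.mul_sum]
  have h2 : ∀ n' : ℕ, (χ ((q : ℕ) : ZMod m))⁻¹ * (((torsionOrder K : ℂ))⁻¹ *
      (χ (n' : ZMod m) * (ptCount K J n' : ℂ))) =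
      (χ ((q : ℕ) : ZMod m))⁻¹ * (χ (n' : ZMod m) * (prinCount K J n' : ℂ)) := by
    intro n'
    rw [ptCount_eq, Nat.cast_mul]
    field_simp
  simp_rw [h2]
  rw [← Finset.mul_sum, ← sum_char_prinCount_reindex, Finset.mul_sum]
  refine Finset.sum_congr rfl fun n _ => ?_
  rw [classCount_eq_prinCount hJC, Nat.cast_mul, map_mul, ← hq]
  have hu' : χ ((q : ℕ) : ZMod m) ≠ 0 := hu
  field_simp


/-- **the `χ`-weighted count of the ideals of a class**: main term `χ(N J)⁻¹ κ N` with `κ`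
independent of the class, error `O(N^(1-1/d))`. -/
theorem exists_classSum_sub_le {C : ClassGroup (𝓞 K)} {J : (Ideal (𝓞 K))⁰}
    (hJC : ClassGroup.mk0 J = C⁻¹) (hJ : CoprimeTo K m J) :
    ∃ B : ℝ, 0 ≤ B ∧ ∀ N : ℕ,
      ‖∑ n ∈ Finset.Icc 1 N, χ (n : ZMod m) * (classCount K C n : ℂ) -
          (χ ((absNorm (J : Ideal (𝓞 K)) : ℕ) : ZMod m))⁻¹ * charConst K χ * N‖
        ≤ B * (N : ℝ) ^ (1 - 1 / (finrank ℚ K : ℝ)) := by
  set q := absNorm (J : Ideal (𝓞 K)) with hq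
  set e : ℝ := 1 - 1 / (finrank ℚ K : ℝ) with he
  have hqpos : 0 < q := absNorm_pos_of_nonZeroDivisors J
  have hqR : (0 : ℝ) < q := Nat.cast_pos.mpr hqpos
  have hwpos : (0 : ℝ) < (torsionOrder K : ℝ) := Nat.cast_pos.mpr (torsionOrder_pos K)
  choose Ci hCi using fun i : ResRing K m × ℤˣ =>
    exists_cellCount_sub_le (m := m) J (cellRep hJ i.1) i.2
  set u := χ ((q : ℕ) : ZMod m) with hu
  refine ⟨‖u⁻¹‖ * (torsionOrder K : ℝ)⁻¹ * (∑ i, |Ci i|) * (q : ℝ) ^ e, by positivity, fun N => ?_⟩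
  rcases Nat.eq_zero_or_pos N with rfl | hN
  · simp only [Finset.Icc_eq_empty_of_lt Nat.zero_lt_one, Finset.sum_empty, Nat.cast_zero,
      mul_zero, sub_zero, norm_zero]
    positivity
  have hNR : (1 : ℝ) ≤ N := by exact_mod_cast hN
  have hy : (1 : ℝ) ≤ ((N * q : ℕ) : ℝ) := by exact_mod_cast Nat.mul_pos hN hqpos
  rw [classSum_eq χ hJC hJ N]
  have hmain : u⁻¹ * charConst K χ * N = u⁻¹ * ((torsionOrder K : ℂ))⁻¹ *
      ∑ i : ResRing K m × ℤˣ, cellChar χ i * ((cellConst K m i.2 * N : ℝ) : ℂ) := by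
    unfold charConst
    rw [Finset.mul_sum, Finset.mul_sum, Finset.mul_sum, Finset.sum_mul]
    refine Finset.sum_congr rfl fun i _ => ?_
    push_cast; ring
  rw [hmain, ← mul_sub, ← Finset.sum_sub_distrib, norm_mul, norm_mul, norm_inv (torsionOrder K : ℂ),
    Complex.norm_natCast]
  have hsum : ‖∑ i : ResRing K m × ℤˣ, (cellChar χ i *
      (Nat.card {a : mixedSpace K // a ∈ cellPts K m J (cellRep hJ i.1) i.2 ∧
        mixedEmbedding.norm a ≤ ((N * q : ℕ) : ℝ)} : ℂ) -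
      cellChar χ i * ((cellConst K m i.2 * N : ℝ) : ℂ))‖ ≤
      (∑ i, |Ci i|) * ((q : ℝ) ^ e * (N : ℝ) ^ e) := by
    rw [Finset.sum_mul]
    refine (norm_sum_le _ _).trans (Finset.sum_le_sum fun i _ => ?_)
    rw [← mul_sub, norm_mul]
    have h1 : ‖cellChar χ i‖ ≤ 1 := DirichletCharacter.norm_le_one χ _
    have h2 := hCi i ((N * q : ℕ) : ℝ) hy
    have h3 : cellConst K m i.2 * ((N * q : ℕ) : ℝ) / (q : ℝ) = cellConst K m i.2 * N := by
      push_cast; field_simp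
    rw [h3] at h2
    have h4 : ((N * q : ℕ) : ℝ) ^ e = (q : ℝ) ^ e * (N : ℝ) ^ e := by
      push_cast
      rw [Real.mul_rpow (Nat.cast_nonneg _) (Nat.cast_nonneg _), mul_comm]
    have h5 : ‖((Nat.card {a : mixedSpace K // a ∈ cellPts K m J (cellRep hJ i.1) i.2 ∧
        mixedEmbedding.norm a ≤ ((N * q : ℕ) : ℝ)} : ℂ)) - ((cellConst K m i.2 * N : ℝ) : ℂ)‖ =
        |(Nat.card {a : mixedSpace K // a ∈ cellPts K m J (cellRep hJ i.1) i.2 ∧
        mixedEmbedding.norm a ≤ ((N * q : ℕ) : ℝ)} : ℝ) - cellConst K m i.2 * N| := by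
      rw [← Complex.ofReal_natCast, ← Complex.ofReal_sub, Complex.norm_real, Real.norm_eq_abs]
    rw [h5]
    calc ‖cellChar χ i‖ * |(Nat.card {a : mixedSpace K // a ∈ cellPts K m J (cellRep hJ i.1) i.2 ∧
          mixedEmbedding.norm a ≤ ((N * q : ℕ) : ℝ)} : ℝ) - cellConst K m i.2 * N|
        ≤ 1 * (Ci i * ((N * q : ℕ) : ℝ) ^ e) :=
          mul_le_mul h1 h2 (abs_nonneg _) zero_le_one
      _ ≤ |Ci i| * ((q : ℝ) ^ e * (N : ℝ) ^ e) := by
          rw [one_mul, h4]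
          exact mul_le_mul_of_nonneg_right (le_abs_self _) (by positivity)
  calc ‖u⁻¹‖ * (torsionOrder K : ℝ)⁻¹ * ‖∑ i : ResRing K m × ℤˣ, (cellChar χ i *
      (Nat.card {a : mixedSpace K // a ∈ cellPts K m J (cellRep hJ i.1) i.2 ∧
        mixedEmbedding.norm a ≤ ((N * q : ℕ) : ℝ)} : ℂ) -
      cellChar χ i * ((cellConst K m i.2 * N : ℝ) : ℂ))‖
      ≤ ‖u⁻¹‖ * (torsionOrder K : ℝ)⁻¹ * ((∑ i, |Ci i|) * ((q : ℝ) ^ e * (N : ℝ) ^ e)) :=
        mul_le_mul_of_nonneg_left hsum (by positivity)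
    _ = ‖u⁻¹‖ * (torsionOrder K : ℝ)⁻¹ * (∑ i, |Ci i|) * (q : ℝ) ^ e * (N : ℝ) ^ e := by ring


/-- the sum over all ideals as a sum over the classes. -/
theorem sum_char_idealCount_eq (N : ℕ) :
    ∑ n ∈ Finset.Icc 1 N, χ (n : ZMod m) * (Nat.card {I : Ideal (𝓞 K) // absNorm I = n} : ℂ) =
      ∑ C : ClassGroup (𝓞 K), ∑ n ∈ Finset.Icc 1 N, χ (n : ZMod m) * (classCount K C n : ℂ) := by
  rw [Finset.sum_comm]
  refine Finset.sum_congr rfl fun n hn => ?_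
  rw [card_absNorm_eq_sum_classCount K (by have := (Finset.mem_Icc.mp hn).1; omega), Nat.cast_sum,
    Finset.mul_sum]


/-- total sum with a system of coprime representatives. -/
theorem exists_totalSum_sub_le (J : ClassGroup (𝓞 K) → (Ideal (𝓞 K))⁰)
    (hJ1 : ∀ C, ClassGroup.mk0 (J C) = C⁻¹) (hJ2 : ∀ C, CoprimeTo K m (J C)) :
    ∃ B : ℝ, 0 ≤ B ∧ ∀ N : ℕ,
      ‖∑ n ∈ Finset.Icc 1 N, χ (n : ZMod m) * (Nat.card {I : Ideal (𝓞 K) // absNorm I = n} : ℂ) -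
          (∑ C, (χ ((absNorm (J C : Ideal (𝓞 K)) : ℕ) : ZMod m))⁻¹) * charConst K χ * N‖
        ≤ B * (N : ℝ) ^ (1 - 1 / (finrank ℚ K : ℝ)) := by
  choose B hB0 hB using fun C => exists_classSum_sub_le χ (hJ1 C) (hJ2 C)
  refine ⟨∑ C, B C, Finset.sum_nonneg fun C _ => hB0 C, fun N => ?_⟩
  rw [sum_char_idealCount_eq, Finset.sum_mul, Finset.sum_mul, ← Finset.sum_sub_distrib,
    Finset.sum_mul]
  exact (norm_sum_le _ _).trans (Finset.sum_le_sum fun C _ => hB C N)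

/-- **(C)** the `χ ∘ N`-twisted ideal counting function is `O(N^(1-1/d))` as soon as `χ ∘ N` is
non-trivial on the ideals. -/
theorem charSum_ideal_le (E : Type*) [Field E] [NumberField E] (m : ℕ) [NeZero m]
    (χ : DirichletCharacter ℂ m)
    (hχ : ∃ I : Ideal (𝓞 E), χ (Ideal.absNorm I) ≠ 0 ∧ χ (Ideal.absNorm I) ≠ 1) :
    ∃ C : ℝ, ∀ N : ℕ,
      ‖∑ n ∈ Finset.Icc 1 N, χ n * (Nat.card {I : Ideal (𝓞 E) // Ideal.absNorm I = n} : ℂ)‖ ≤
        C * (N : ℝ) ^ (1 - 1 / (Module.finrank ℚ E : ℝ)) := by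
  obtain ⟨c₀, h0, h1⟩ := hχ
  -- the norm of `c₀` is prime to `m`
  have hunit : IsUnit ((absNorm c₀ : ℕ) : ZMod m) := by
    by_contra hnu
    exact h0 (χ.map_nonunit hnu)
  have hcop : Nat.Coprime (absNorm c₀) m := (ZMod.isUnit_iff_coprime _ _).mp hunit
  have hc₀ne : c₀ ≠ ⊥ := by
    rintro rfl
    rw [Ideal.absNorm_bot, Nat.coprime_zero_left] at hcop
    subst hcop
    apply h1
    have : ((absNorm (⊥ : Ideal (𝓞 E)) : ℕ) : ZMod 1) = 1 := Subsingleton.elim _ _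
    rw [this, map_one]
  let c : (Ideal (𝓞 E))⁰ := ⟨c₀, mem_nonZeroDivisors_of_ne_zero hc₀ne⟩
  have hc : CoprimeTo E m c := coprimeTo_of_coprime_absNorm hcop
  set ω : ℂ := χ ((absNorm c₀ : ℕ) : ZMod m) with hω
  -- two systems of representatives
  choose J hJ1 hJ2 using fun C : ClassGroup (𝓞 E) => exists_coprimeTo_rep E m C⁻¹
  let g : ClassGroup (𝓞 E) := ClassGroup.mk0 c
  let J' : ClassGroup (𝓞 E) → (Ideal (𝓞 E))⁰ := fun C => J (C * g) * c
  have hJ'1 : ∀ C, ClassGroup.mk0 (J' C) = C⁻¹ := fun C => by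
    show ClassGroup.mk0 (J (C * g) * c) = C⁻¹
    rw [map_mul, hJ1]
    show (C * g)⁻¹ * g = C⁻¹
    rw [mul_inv, mul_assoc, inv_mul_cancel, mul_one]
  have hJ'2 : ∀ C, CoprimeTo E m (J' C) := fun C => (hJ2 _).mul hc
  obtain ⟨B₁, hB₁0, hB₁⟩ := exists_totalSum_sub_le χ J hJ1 hJ2
  obtain ⟨B₂, hB₂0, hB₂⟩ := exists_totalSum_sub_le χ J' hJ'1 hJ'2
  set S₀ : ℂ := ∑ C, (χ ((absNorm (J C : Ideal (𝓞 E)) : ℕ) : ZMod m))⁻¹ with hS₀
  have hS' : ∑ C, (χ ((absNorm (J' C : Ideal (𝓞 E)) : ℕ) : ZMod m))⁻¹ = ω⁻¹ * S₀ := by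
    rw [hS₀, Finset.mul_sum, ← Equiv.sum_comp (Equiv.mulRight g)
      (fun C => ω⁻¹ * (χ ((absNorm (J C : Ideal (𝓞 E)) : ℕ) : ZMod m))⁻¹)]
    refine Finset.sum_congr rfl fun C _ => ?_
    show (χ ((absNorm ((J (C * g) * c : (Ideal (𝓞 E))⁰) : Ideal (𝓞 E)) : ℕ) : ZMod m))⁻¹ = _
    rw [Submonoid.coe_mul, map_mul, Nat.cast_mul, map_mul, mul_inv, mul_comm]
    rfl
  rw [hS'] at hB₂
  -- the main term vanishes
  have hzero : S₀ * charConst E χ = 0 := by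
    have hkey : ∀ N : ℕ, ‖(1 - ω⁻¹) * (S₀ * charConst E χ)‖ * N ≤
        (B₁ + B₂) * (N : ℝ) ^ (1 - 1 / (finrank ℚ E : ℝ)) := by
      intro N
      have e1 := hB₁ N
      have e2 := hB₂ N
      have : (1 - ω⁻¹) * (S₀ * charConst E χ) * N =
          (∑ n ∈ Finset.Icc 1 N, χ (n : ZMod m) *
              (Nat.card {I : Ideal (𝓞 E) // absNorm I = n} : ℂ) - ω⁻¹ * S₀ * charConst E χ * N) -
          (∑ n ∈ Finset.Icc 1 N, χ (n : ZMod m) *
              (Nat.card {I : Ideal (𝓞 E) // absNorm I = n} : ℂ) - S₀ * charConst E χ * N) := by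
        ring
      calc ‖(1 - ω⁻¹) * (S₀ * charConst E χ)‖ * N
          = ‖(1 - ω⁻¹) * (S₀ * charConst E χ) * N‖ := by
            rw [norm_mul _ (N : ℂ), Complex.norm_natCast]
        _ ≤ _ := by
            rw [this, add_mul]
            exact (norm_sub_le _ _).trans (by linarith)
    have h2 := eq_zero_of_mul_le_rpow (norm_nonneg _) (finrank_pos (R := ℚ) (M := E)) hkey
    have h3 : (1 - ω⁻¹) * (S₀ * charConst E χ) = 0 := norm_eq_zero.mp h2
    rcases mul_eq_zero.mp h3 with h4 | h4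
    · exfalso
      apply h1
      have : ω⁻¹ = 1 := by linear_combination -h4
      rw [inv_eq_one] at this
      exact this
    · exact h4
  refine ⟨B₁, fun N => ?_⟩
  have := hB₁ N
  rwa [hzero, zero_mul, sub_zero] at this


end Fermat.Agent.Density
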