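/-
[CHEBD] (ABEL), helper4: a Dirichlet series whose coefficient sums are `O(n^r)` with `r < 1` has a
finite limit as `s → 1⁺` (Abel summation + dominated convergence).
-/
import Mathlib

open Filter Topology MeasureTheory Finset

namespace Fermat.Agent.Density

/-- **(ABEL)** If the partial sums of the coefficients are `≤ C n^r` with `0 ≤ r < 1`, the
`L`-series (assumed to converge absolutely for real `s > 1`) has a finite limit as `s → 1⁺`. -/
theorem exists_tendsto_LSeries_of_sum_bound (a : ℕ → ℂ) {r C : ℝ} (hr0 : 0 ≤ r) (hr1 : r < 1)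
    (hb : ∀ n : ℕ, ‖∑ k ∈ Finset.Icc 1 n, a k‖ ≤ C * (n : ℝ) ^ r)
    (hS : ∀ s : ℝ, 1 < s → LSeriesSummable a s) :
    ∃ ℓ : ℂ, Tendsto (fun s : ℝ ↦ LSeries a s) (𝓝[>] 1) (𝓝 ℓ) := by
  have hC : 0 ≤ C := by
    have := hb 1
    simp only [Nat.cast_one, Real.one_rpow, mul_one] at this
    exact (norm_nonneg _).trans this
  set A : ℝ → ℂ := fun t ↦ ∑ k ∈ Finset.Icc 1 ⌊t⌋₊, a k with hA
  have hAb : ∀ t : ℝ, 1 ≤ t → ‖A t‖ ≤ C * t ^ r := by
    intro t ht
    refine (hb ⌊t⌋₊).trans (mul_le_mul_of_nonneg_left ?_ hC)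
    exact Real.rpow_le_rpow (Nat.cast_nonneg _) (Nat.floor_le (by linarith)) hr0
  have hO : (fun n : ℕ ↦ ∑ k ∈ Finset.Icc 1 n, a k) =O[atTop] fun n ↦ (n : ℝ) ^ r := by
    refine Asymptotics.IsBigO.of_bound C (Eventually.of_forall fun n ↦ ?_)
    rw [Real.norm_of_nonneg (Real.rpow_nonneg (Nat.cast_nonneg _) _)]
    exact hb n
  -- the integral representation
  have hrep : ∀ s : ℝ, 1 < s → LSeries a s =
      (s : ℂ) * ∫ t in Set.Ioi (1 : ℝ), A t * (t : ℂ) ^ (-((s : ℂ) + 1)) := by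
    intro s hs
    exact LSeries_eq_mul_integral a hr0 (by simpa using hr1.trans hs) (hS s hs) hO
  -- dominated convergence
  have hAmeas : Measurable A := by
    have h1 : Measurable fun n : ℕ ↦ ∑ k ∈ Finset.Icc 1 n, a k := measurable_from_nat
    exact h1.comp Nat.measurable_floor
  have hlim : Tendsto (fun s : ℝ ↦ ∫ t in Set.Ioi (1 : ℝ), A t * (t : ℂ) ^ (-((s : ℂ) + 1)))
      (𝓝[>] 1) (𝓝 (∫ t in Set.Ioi (1 : ℝ), A t * (t : ℂ) ^ (-(((1 : ℝ) : ℂ) + 1)))) := by
    refine tendsto_integral_filter_of_dominated_convergence (fun t ↦ C * t ^ (r - 2)) ?_ ?_ ?_ ?_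
    · refine Eventually.of_forall fun s ↦ Measurable.aestronglyMeasurable ?_
      exact hAmeas.mul (Complex.measurable_ofReal.pow_const _)
    · filter_upwards [self_mem_nhdsWithin] with s hs
      have hs' : (1 : ℝ) < s := hs
      rw [ae_restrict_iff' measurableSet_Ioi]
      refine Eventually.of_forall fun t ht ↦ ?_
      have ht' : (1 : ℝ) < t := ht
      have ht0 : 0 < t := by linarith
      rw [norm_mul, Complex.norm_cpow_eq_rpow_re_of_pos ht0]
      have h1 : (-((s : ℂ) + 1)).re = -(s + 1) := by simp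
      rw [h1]
      have h2 : t ^ (-(s + 1)) ≤ t ^ (-2 : ℝ) :=
        Real.rpow_le_rpow_of_exponent_le ht'.le (by linarith)
      calc ‖A t‖ * t ^ (-(s + 1)) ≤ (C * t ^ r) * t ^ (-2 : ℝ) :=
            mul_le_mul (hAb t ht'.le) h2 (Real.rpow_nonneg ht0.le _)
              (mul_nonneg hC (Real.rpow_nonneg ht0.le _))
        _ = C * t ^ (r - 2) := by
            rw [mul_assoc, ← Real.rpow_add ht0]; congr 2
    · exact (integrableOn_Ioi_rpow_of_lt (by linarith) zero_lt_one).const_mul C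
    · rw [ae_restrict_iff' measurableSet_Ioi]
      refine Eventually.of_forall fun t ht ↦ ?_
      have ht' : (1 : ℝ) < t := ht
      have ht0 : (t : ℂ) ≠ 0 := by
        exact_mod_cast (by linarith : t ≠ 0)
      refine Tendsto.const_mul _ ?_
      have hc : Continuous fun s : ℝ ↦ (t : ℂ) ^ (-((s : ℂ) + 1)) := by
        refine Continuous.const_cpow ?_ (Or.inl ht0)
        fun_prop
      exact tendsto_nhdsWithin_of_tendsto_nhds (hc.tendsto 1)
  refine ⟨((1 : ℝ) : ℂ) * ∫ t in Set.Ioi (1 : ℝ), A t * (t : ℂ) ^ (-(((1 : ℝ) : ℂ) + 1)), ?_⟩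
  have hid : Tendsto (fun s : ℝ ↦ (s : ℂ)) (𝓝[>] 1) (𝓝 ((1 : ℝ) : ℂ)) :=
    tendsto_nhdsWithin_of_tendsto_nhds (Complex.continuous_ofReal.tendsto 1)
  refine (hid.mul hlim).congr' ?_
  filter_upwards [self_mem_nhdsWithin] with s hs
  exact (hrep s hs).symm

end Fermat.Agent.Density
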