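/-
Frobenius density theorem, analytic part (helper4).

For a number field `K`, the sum over the rational primes `q` of
`(number of ideals of 𝓞 K of norm q) * q ^ (-s)` equals `log (1 / (s - 1)) + O(1)` as `s → 1⁺`
(`P1_add_log_isBigO`).  The only analytic input is Mathlib's computation of the residue of the
Dedekind zeta function; the Euler product is replaced by two elementary finite inequalities.
-/
import Mathlib

open NumberField Filter Topology Finset IsDedekindDomain Asymptotics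

namespace Fermat.Agent.Density

/-! ### Generic real inequalities -/

theorem geom_sum_le_inv {x : ℝ} (hx0 : 0 ≤ x) (hx1 : x < 1) (n : ℕ) :
    ∑ i ∈ range n, x ^ i ≤ (1 - x)⁻¹ := by
  rw [geom_sum_eq hx1.ne, ← neg_sub (1 : ℝ) x, ← neg_sub (1 : ℝ) (x ^ n), neg_div_neg_eq,
    div_eq_mul_inv]
  have : 0 ≤ (1 - x)⁻¹ := inv_nonneg.mpr (by linarith)
  have h1 : 1 - x ^ n ≤ 1 := by
    have := pow_nonneg hx0 n; linarith
  nlinarith

theorem sum_piFinset_prod_pow_le {ι : Type*} [Fintype ι] [DecidableEq ι] (x : ι → ℝ)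
    (hx0 : ∀ i, 0 ≤ x i) (hx1 : ∀ i, x i < 1) (E : ℕ) :
    ∑ e ∈ Fintype.piFinset (fun _ : ι ↦ range E), ∏ i, x i ^ e i ≤ ∏ i, (1 - x i)⁻¹ := by
  rw [← Finset.prod_univ_sum (fun _ : ι ↦ range E) (fun i k ↦ x i ^ k)]
  exact Finset.prod_le_prod (fun i _ ↦ Finset.sum_nonneg fun k _ ↦ pow_nonneg (hx0 i) _)
    fun i _ ↦ geom_sum_le_inv (hx0 i) (hx1 i) _

/-- abstract form of the upper bound of a partial zeta sum by a finite Euler product -/
theorem sum_le_prod_inv_of_injOn {α ι : Type*} [Fintype ι] [DecidableEq ι] (𝒮 : Finset α)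
    (z : α → ℝ) (x : ι → ℝ) (hx0 : ∀ i, 0 ≤ x i) (hx1 : ∀ i, x i < 1)
    (φ : α → ι → ℕ) (hφ : Set.InjOn φ (𝒮 : Set α)) (E : ℕ) (hE : ∀ a ∈ 𝒮, ∀ i, φ a i < E)
    (hz : ∀ a ∈ 𝒮, z a = ∏ i, x i ^ φ a i) :
    ∑ a ∈ 𝒮, z a ≤ ∏ i, (1 - x i)⁻¹ := by
  classical
  calc ∑ a ∈ 𝒮, z a = ∑ a ∈ 𝒮, ∏ i, x i ^ φ a i := Finset.sum_congr rfl hz
    _ = ∑ e ∈ 𝒮.image φ, ∏ i, x i ^ e i :=
        (Finset.sum_image (f := fun e : ι → ℕ ↦ ∏ i, x i ^ e i) hφ).symm
    _ ≤ ∑ e ∈ Fintype.piFinset (fun _ : ι ↦ range E), ∏ i, x i ^ e i := by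
        refine Finset.sum_le_sum_of_subset_of_nonneg ?_ ?_
        · intro e he
          obtain ⟨a, ha, rfl⟩ := Finset.mem_image.mp he
          rw [Fintype.mem_piFinset]
          intro i
          exact Finset.mem_range.mpr (hE a ha i)
        · intro e _ _
          exact Finset.prod_nonneg fun i _ ↦ pow_nonneg (hx0 i) _
    _ ≤ _ := sum_piFinset_prod_pow_le x hx0 hx1 E

theorem exp_sub_sq_le {x : ℝ} (h0 : 0 ≤ x) (h1 : x ≤ 1 / 2) : Real.exp (x - x ^ 2) ≤ 1 + x := by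
  have hy0 : 0 ≤ x - x ^ 2 := by nlinarith
  have hy1 : x - x ^ 2 < 1 := by nlinarith
  refine (Real.exp_bound_div_one_sub_of_interval hy0 hy1).trans ?_
  rw [div_le_iff₀ (by nlinarith)]
  nlinarith [pow_nonneg h0 3]

theorem inv_one_sub_le_exp {x : ℝ} (h0 : 0 ≤ x) (h1 : x ≤ 1 / 2) :
    (1 - x)⁻¹ ≤ Real.exp (x + 2 * x ^ 2) := by
  refine le_trans ?_ (Real.add_one_le_exp _)
  rw [inv_le_iff_one_le_mul₀ (by linarith)]
  nlinarith [pow_nonneg h0 3]

variable (K : Type*) [Field K] [NumberField K]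

/-! ### The Dedekind zeta function at real arguments, as a sum over ideals -/

/-- the number of integral ideals of norm `n`. -/
noncomputable def idealCount (n : ℕ) : ℕ := Nat.card {I : Ideal (𝓞 K) // Ideal.absNorm I = n}

theorem dedekindZeta_eq_LSeries (s : ℂ) :
    dedekindZeta K s = LSeries (fun n ↦ (idealCount K n : ℂ)) s := rfl

theorem tendsto_sum_idealCount_div :
    Tendsto (fun n : ℕ ↦ (∑ k ∈ Icc 1 n, (idealCount K k : ℝ)) / (n : ℝ)) atTop
      (𝓝 (dedekindZeta_residue K)) := by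
  refine ((Ideal.tendsto_norm_le_div_atTop₀ K).comp tendsto_natCast_atTop_atTop).congr fun n ↦ ?_
  simp only [Function.comp_apply, Nat.cast_le, ← Nat.cast_sum, idealCount]
  congr
  rw [← add_left_inj 1, ← Ideal.card_norm_le_eq_card_norm_le_add_one,
    show Finset.Icc 1 n = Finset.Ioc 0 n from Finset.Icc_succ_left_eq_Ioc _ _,
    show 1 = Nat.card {I : Ideal (𝓞 K) // Ideal.absNorm I = 0} by simp [Ideal.absNorm_eq_zero_iff],
    Finset.sum_Ioc_add_eq_sum_Icc (n.zero_le),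
    ← Finset.card_preimage_eq_sum_card_image_eq (fun k _ ↦ Ideal.finite_setOfPred_absNorm_eq k)]
  simp [Set.coe_eq_subtype]

theorem lseriesSummable_idealCount {s : ℝ} (hs : 1 < s) :
    LSeriesSummable (fun n ↦ (idealCount K n : ℂ)) s := by
  have := LSeriesSummable_of_sum_norm_bigO_and_nonneg (f := fun n ↦ (idealCount K n : ℝ))
    (r := 1) (s := (s : ℂ)) ?_ (fun _ ↦ Nat.cast_nonneg _) zero_le_one (by simpa using hs)
  · simpa using this
  · exact Asymptotics.isBigO_atTop_natCast_rpow_of_tendsto_div_rpow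
      (by simpa using tendsto_sum_idealCount_div K)

/-- the term of the Dedekind zeta function at an ideal -/
noncomputable def zterm (s : ℝ) (I : Ideal (𝓞 K)) : ℝ := ((Ideal.absNorm I : ℝ) ^ s)⁻¹

theorem zterm_nonneg (s : ℝ) (I : Ideal (𝓞 K)) : 0 ≤ zterm K s I := by
  unfold zterm; positivity

instance finite_absNorm_eq (n : ℕ) : Finite {I : Ideal (𝓞 K) // Ideal.absNorm I = n} :=
  (Ideal.finite_setOfPred_absNorm_eq n).to_subtype

/-- regrouping a sum over ideals according to the norm -/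
theorem hasSum_comp_absNorm {w : ℕ → ℝ} (hw : ∀ n, 0 ≤ w n)
    (hs : Summable fun n : ℕ ↦ (idealCount K n : ℝ) * w n) :
    HasSum (fun I : Ideal (𝓞 K) ↦ w (Ideal.absNorm I)) (∑' n : ℕ, (idealCount K n : ℝ) * w n) := by
  let e := Equiv.sigmaFiberEquiv (fun I : Ideal (𝓞 K) ↦ Ideal.absNorm I)
  rw [← e.hasSum_iff]
  have hfib : ∀ n : ℕ, HasSum (fun I : {I : Ideal (𝓞 K) // Ideal.absNorm I = n} ↦
      ((fun I : Ideal (𝓞 K) ↦ w (Ideal.absNorm I)) ∘ e) ⟨n, I⟩) ((idealCount K n : ℝ) * w n) := by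
    intro n
    have : (fun I : {I : Ideal (𝓞 K) // Ideal.absNorm I = n} ↦
      ((fun I : Ideal (𝓞 K) ↦ w (Ideal.absNorm I)) ∘ e) ⟨n, I⟩) = fun _ ↦ w n := by
      funext I
      simp [e, I.2]
    rw [this]
    let _ : Fintype {I : Ideal (𝓞 K) // Ideal.absNorm I = n} := Fintype.ofFinite _
    convert hasSum_fintype (fun _ : {I : Ideal (𝓞 K) // Ideal.absNorm I = n} ↦ w n) using 1
    simp [idealCount, Nat.card_eq_fintype_card]
  have hsum : Summable ((fun I : Ideal (𝓞 K) ↦ w (Ideal.absNorm I)) ∘ e) := by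
    refine (summable_sigma_of_nonneg (fun x ↦ hw _)).mpr ⟨fun n ↦ (hfib n).summable, ?_⟩
    convert hs using 1
    funext n
    exact (hfib n).tsum_eq
  exact HasSum.sigma_of_hasSum hs.hasSum hfib hsum

theorem term_eq_ofReal {s : ℝ} (hs : s ≠ 0) (n : ℕ) :
    LSeries.term (fun n ↦ (idealCount K n : ℂ)) s n =
      (((idealCount K n : ℝ) * ((n : ℝ) ^ s)⁻¹ : ℝ) : ℂ) := by
  rcases Nat.eq_zero_or_pos n with rfl | hn
  · simp [Real.zero_rpow hs]
  · rw [LSeries.term_of_ne_zero hn.ne']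
    push_cast
    rw [Complex.ofReal_cpow (Nat.cast_nonneg n) s, div_eq_mul_inv]
    simp

theorem summable_idealCount_mul {s : ℝ} (hs : 1 < s) :
    Summable fun n : ℕ ↦ (idealCount K n : ℝ) * ((n : ℝ) ^ s)⁻¹ := by
  have h := lseriesSummable_idealCount K hs
  unfold LSeriesSummable at h
  have h2 : Summable fun n : ℕ ↦ (((idealCount K n : ℝ) * ((n : ℝ) ^ s)⁻¹ : ℝ) : ℂ) := by
    convert h using 1
    funext n
    exact (term_eq_ofReal K (by linarith) n).symm
  exact Complex.summable_ofReal.mp h2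

/-- the Dedekind zeta function at real `s`, as a sum over ideals -/
noncomputable def zetaR (s : ℝ) : ℝ := ∑' I : Ideal (𝓞 K), zterm K s I

theorem hasSum_zterm {s : ℝ} (hs : 1 < s) :
    HasSum (zterm K s) (∑' n : ℕ, (idealCount K n : ℝ) * ((n : ℝ) ^ s)⁻¹) :=
  hasSum_comp_absNorm K (w := fun n ↦ ((n : ℝ) ^ s)⁻¹) (fun n ↦ by positivity)
    (summable_idealCount_mul K hs)

theorem summable_zterm {s : ℝ} (hs : 1 < s) : Summable (zterm K s) := (hasSum_zterm K hs).summable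

theorem zetaR_eq {s : ℝ} (hs : 1 < s) :
    zetaR K s = ∑' n : ℕ, (idealCount K n : ℝ) * ((n : ℝ) ^ s)⁻¹ := (hasSum_zterm K hs).tsum_eq

theorem dedekindZeta_eq_zetaR {s : ℝ} (hs : 1 < s) : dedekindZeta K s = (zetaR K s : ℂ) := by
  rw [dedekindZeta_eq_LSeries, LSeries, zetaR_eq K hs, Complex.ofReal_tsum]
  exact tsum_congr fun n ↦ term_eq_ofReal K (by linarith) n

theorem tendsto_sub_one_mul_zetaR :
    Tendsto (fun s : ℝ ↦ (s - 1) * zetaR K s) (𝓝[>] 1) (𝓝 (dedekindZeta_residue K)) := by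
  have h := (Complex.continuous_re.tendsto _).comp (tendsto_sub_one_mul_dedekindZeta_nhdsGT K)
  simp only [Complex.ofReal_re] at h
  refine h.congr' ?_
  filter_upwards [self_mem_nhdsWithin] with s hs
  simp only [Function.comp_apply]
  rw [dedekindZeta_eq_zetaR K hs, ← Complex.ofReal_one, ← Complex.ofReal_sub, ← Complex.ofReal_mul,
    Complex.ofReal_re]

theorem one_le_zetaR {s : ℝ} (hs : 1 < s) : 1 ≤ zetaR K s := by
  have := (summable_zterm K hs).le_tsum (⊤ : Ideal (𝓞 K)) (fun I _ ↦ zterm_nonneg K s I)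
  simpa [zterm, zetaR] using this

theorem zetaR_pos {s : ℝ} (hs : 1 < s) : 0 < zetaR K s := lt_of_lt_of_le one_pos (one_le_zetaR K hs)

/-- `log ζ_K(s) = log (1/(s-1)) + O(1)` as `s → 1⁺` -/
theorem tendsto_log_zetaR :
    Tendsto (fun s : ℝ ↦ Real.log (zetaR K s) + Real.log (s - 1)) (𝓝[>] 1)
      (𝓝 (Real.log (dedekindZeta_residue K))) := by
  have h := (Real.continuousAt_log (dedekindZeta_residue_ne_zero K)).tendsto.comp
    (tendsto_sub_one_mul_zetaR K)
  refine h.congr' ?_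
  filter_upwards [self_mem_nhdsWithin] with s hs
  have hs' : (1 : ℝ) < s := hs
  simp only [Function.comp_apply]
  rw [Real.log_mul (by linarith) (zetaR_pos K hs').ne', add_comm]

/-! ### Multiplicativity -/

theorem zterm_one (s : ℝ) : zterm K s 1 = 1 := by
  simp [zterm]

theorem zterm_bot {s : ℝ} (hs : s ≠ 0) : zterm K s ⊥ = 0 := by
  simp [zterm, Real.zero_rpow hs]

theorem zterm_mul (s : ℝ) (I J : Ideal (𝓞 K)) : zterm K s (I * J) = zterm K s I * zterm K s J := by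
  simp only [zterm, map_mul, Nat.cast_mul]
  rw [Real.mul_rpow (Nat.cast_nonneg _) (Nat.cast_nonneg _), mul_inv]

/-- `zterm` as a monoid homomorphism -/
noncomputable def ztermHom (s : ℝ) : Ideal (𝓞 K) →* ℝ where
  toFun := zterm K s
  map_one' := zterm_one K s
  map_mul' := zterm_mul K s

@[simp] theorem ztermHom_apply (s : ℝ) (I : Ideal (𝓞 K)) : ztermHom K s I = zterm K s I := rfl

theorem zterm_prod {ι : Type*} (s : ℝ) (T : Finset ι) (f : ι → Ideal (𝓞 K)) :
    zterm K s (∏ i ∈ T, f i) = ∏ i ∈ T, zterm K s (f i) :=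
  map_prod (ztermHom K s) f T

theorem zterm_pow (s : ℝ) (I : Ideal (𝓞 K)) (n : ℕ) : zterm K s (I ^ n) = zterm K s I ^ n :=
  map_pow (ztermHom K s) I n

/-! ### Primes -/

/-- the zeta-term of a prime -/
noncomputable def pterm (s : ℝ) (v : HeightOneSpectrum (𝓞 K)) : ℝ := zterm K s v.asIdeal

theorem pterm_nonneg (s : ℝ) (v : HeightOneSpectrum (𝓞 K)) : 0 ≤ pterm K s v := zterm_nonneg K s _

theorem two_le_absNorm (v : HeightOneSpectrum (𝓞 K)) : 2 ≤ Ideal.absNorm v.asIdeal := by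
  have h0 : Ideal.absNorm v.asIdeal ≠ 0 := by
    rw [Ne, Ideal.absNorm_eq_zero_iff]; exact v.ne_bot
  have h1 : Ideal.absNorm v.asIdeal ≠ 1 := by
    rw [Ne, Ideal.absNorm_eq_one_iff]; exact v.isPrime.ne_top
  omega

theorem pterm_le_half {s : ℝ} (hs : 1 ≤ s) (v : HeightOneSpectrum (𝓞 K)) : pterm K s v ≤ 1 / 2 := by
  unfold pterm zterm
  have h2 : (2 : ℝ) ≤ (Ideal.absNorm v.asIdeal : ℝ) := by exact_mod_cast two_le_absNorm K v
  have : (2 : ℝ) ≤ (Ideal.absNorm v.asIdeal : ℝ) ^ s := by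
    calc (2 : ℝ) ≤ (Ideal.absNorm v.asIdeal : ℝ) ^ (1 : ℝ) := by simpa using h2
      _ ≤ (Ideal.absNorm v.asIdeal : ℝ) ^ s :=
        Real.rpow_le_rpow_of_exponent_le (by linarith) hs
  rw [one_div]
  exact inv_anti₀ (by norm_num) this

theorem pterm_sq_le {s : ℝ} (hs : 1 ≤ s) (v : HeightOneSpectrum (𝓞 K)) :
    pterm K s v ^ 2 ≤ pterm K 2 v := by
  unfold pterm zterm
  have h1 : (1 : ℝ) ≤ (Ideal.absNorm v.asIdeal : ℝ) := by
    have := two_le_absNorm K v
    exact_mod_cast (by omega : 1 ≤ Ideal.absNorm v.asIdeal)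
  have hpos : (0 : ℝ) < (Ideal.absNorm v.asIdeal : ℝ) := by linarith
  rw [inv_pow, ← Real.rpow_natCast _ 2, ← Real.rpow_mul hpos.le]
  refine inv_anti₀ (Real.rpow_pos_of_pos hpos _) ?_
  refine Real.rpow_le_rpow_of_exponent_le h1 ?_
  push_cast; linarith

omit [NumberField K] in
theorem asIdeal_injective :
    Function.Injective fun v : HeightOneSpectrum (𝓞 K) ↦ v.asIdeal :=
  fun _ _ h ↦ HeightOneSpectrum.ext h

theorem asIdeal_dvd_prod_iff (U : Finset (HeightOneSpectrum (𝓞 K))) (v : HeightOneSpectrum (𝓞 K)) :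
    v.asIdeal ∣ ∏ w ∈ U, w.asIdeal ↔ v ∈ U := by
  constructor
  · intro h
    obtain ⟨w, hw, hvw⟩ := (Prime.dvd_finsetProd_iff v.prime _).mp h
    have : w.asIdeal ≤ v.asIdeal := Ideal.dvd_iff_le.mp hvw
    have := w.isMaximal.eq_of_le v.isPrime.ne_top this
    rwa [HeightOneSpectrum.ext this.symm]
  · intro h
    exact Finset.dvd_prod_of_mem _ h

theorem prod_asIdeal_injective :
    Function.Injective fun U : Finset (HeightOneSpectrum (𝓞 K)) ↦ ∏ w ∈ U, w.asIdeal := by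
  intro U U' h
  ext v
  rw [← asIdeal_dvd_prod_iff, ← asIdeal_dvd_prod_iff K U']
  simp only at h
  rw [h]

/-- **Euler product, lower bound**: finite products of `1 + N(v)^(-s)` are bounded by `ζ_K(s)`. -/
theorem prod_one_add_pterm_le {s : ℝ} (hs : 1 < s) (T : Finset (HeightOneSpectrum (𝓞 K))) :
    ∏ v ∈ T, (1 + pterm K s v) ≤ zetaR K s := by
  classical
  rw [Finset.prod_one_add]
  have h1 : ∑ U ∈ T.powerset, ∏ v ∈ U, pterm K s v =
      ∑ I ∈ T.powerset.image (fun U ↦ ∏ w ∈ U, w.asIdeal), zterm K s I := by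
    rw [Finset.sum_image (fun U _ U' _ h ↦ prod_asIdeal_injective K h)]
    refine Finset.sum_congr rfl fun U _ ↦ ?_
    rw [zterm_prod]; rfl
  rw [h1]
  exact (summable_zterm K hs).sum_le_tsum _ (fun I _ ↦ zterm_nonneg K s I)

/-- the multiplicity of a prime in an ideal is bounded by the norm of the ideal. -/
theorem multiplicity_le_absNorm (v : HeightOneSpectrum (𝓞 K)) {I : Ideal (𝓞 K)} (hI : I ≠ ⊥) :
    multiplicity v.asIdeal I ≤ Ideal.absNorm I := by
  have hdvd : v.asIdeal ^ multiplicity v.asIdeal I ∣ I := pow_multiplicity_dvd _ _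
  have h2 : Ideal.absNorm (v.asIdeal ^ multiplicity v.asIdeal I) ∣ Ideal.absNorm I :=
    map_dvd Ideal.absNorm hdvd
  rw [map_pow] at h2
  have hpos : 0 < Ideal.absNorm I := Nat.pos_of_ne_zero (by rwa [Ne, Ideal.absNorm_eq_zero_iff])
  have h3 := Nat.le_of_dvd hpos h2
  calc multiplicity v.asIdeal I ≤ 2 ^ multiplicity v.asIdeal I := Nat.lt_two_pow_self.le
    _ ≤ Ideal.absNorm v.asIdeal ^ multiplicity v.asIdeal I :=
        Nat.pow_le_pow_left (two_le_absNorm K v) _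
    _ ≤ _ := h3

theorem prod_pow_multiplicity_eq {I : Ideal (𝓞 K)} (hI : I ≠ ⊥)
    {T : Finset (HeightOneSpectrum (𝓞 K))}
    (hT : ∀ v : HeightOneSpectrum (𝓞 K), v.asIdeal ∣ I → v ∈ T) :
    ∏ v ∈ T, v.asIdeal ^ multiplicity v.asIdeal I = I := by
  rw [← finprod_eq_prod_of_mulSupport_subset, Ideal.finprod_heightOneSpectrum_pow_multiplicity hI]
  intro v hv
  simp only [Function.mem_mulSupport, ne_eq] at hv
  apply hT
  by_contra h
  exact hv (by rw [multiplicity_eq_zero.mpr h, pow_zero])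

/-- **Euler product, upper bound**: a finite partial sum of `ζ_K(s)` is bounded by a finite
Euler product. -/
theorem exists_sum_zterm_le_prod {s : ℝ} (hs : 1 ≤ s) (𝒮 : Finset (Ideal (𝓞 K)))
    (h𝒮 : ∀ I ∈ 𝒮, I ≠ ⊥) :
    ∃ T : Finset (HeightOneSpectrum (𝓞 K)),
      ∑ I ∈ 𝒮, zterm K s I ≤ ∏ v ∈ T, (1 - pterm K s v)⁻¹ := by
  classical
  let T : Finset (HeightOneSpectrum (𝓞 K)) :=
    𝒮.attach.biUnion fun I ↦ (Ideal.finite_factors (h𝒮 I.1 I.2)).toFinset
  have hT : ∀ I ∈ 𝒮, ∀ v : HeightOneSpectrum (𝓞 K), v.asIdeal ∣ I → v ∈ T := by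
    intro I hI v hv
    simp only [T, Finset.mem_biUnion, Finset.mem_attach, true_and, Set.Finite.mem_toFinset,
      Set.mem_ofPred_eq, Subtype.exists]
    exact ⟨I, hI, hv⟩
  refine ⟨T, ?_⟩
  rw [← Finset.prod_attach T (fun v ↦ (1 - pterm K s v)⁻¹)]
  refine sum_le_prod_inv_of_injOn (ι := T) 𝒮 (zterm K s) (fun v ↦ pterm K s v.1)
    (fun v ↦ pterm_nonneg K s v.1)
    (fun v ↦ lt_of_le_of_lt (pterm_le_half K hs v.1) (by norm_num))
    (fun I v ↦ multiplicity v.1.asIdeal I) ?_ (𝒮.sup (fun I ↦ Ideal.absNorm I) + 1) ?_ ?_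
  · intro I hI J hJ h
    rw [← prod_pow_multiplicity_eq K (h𝒮 I hI) (hT I hI),
      ← prod_pow_multiplicity_eq K (h𝒮 J hJ) (hT J hJ),
      ← Finset.prod_attach T, ← Finset.prod_attach T (fun v ↦ v.asIdeal ^ multiplicity v.asIdeal J)]
    refine Finset.prod_congr rfl fun v _ ↦ ?_
    have := congrFun h v
    simp only at this
    rw [this]
  · intro I hI v
    rw [Nat.lt_succ_iff]
    exact (multiplicity_le_absNorm K v.1 (h𝒮 I hI)).trans
      (Finset.le_sup (f := fun I ↦ Ideal.absNorm I) hI)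
  · intro I hI
    conv_lhs => rw [← prod_pow_multiplicity_eq K (h𝒮 I hI) (hT I hI)]
    rw [zterm_prod, ← Finset.prod_attach T]
    refine Finset.prod_congr rfl fun v _ ↦ ?_
    rw [zterm_pow]; rfl

theorem sum_pterm_le_zetaR {s : ℝ} (hs : 1 < s) (T : Finset (HeightOneSpectrum (𝓞 K))) :
    ∑ v ∈ T, pterm K s v ≤ zetaR K s := by
  classical
  have : ∑ v ∈ T, pterm K s v = ∑ I ∈ T.image (fun v ↦ v.asIdeal), zterm K s I := by
    rw [Finset.sum_image (fun v _ w _ h ↦ asIdeal_injective K h)]; rfl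
  rw [this]
  exact (summable_zterm K hs).sum_le_tsum _ (fun I _ ↦ zterm_nonneg K s I)

theorem sum_pterm_le {s : ℝ} (hs : 1 < s) (T : Finset (HeightOneSpectrum (𝓞 K))) :
    ∑ v ∈ T, pterm K s v ≤ Real.log (zetaR K s) + zetaR K 2 := by
  have h1 : Real.exp (∑ v ∈ T, (pterm K s v - pterm K s v ^ 2)) ≤ zetaR K s := by
    rw [Real.exp_sum]
    refine le_trans (Finset.prod_le_prod (fun v _ ↦ (Real.exp_pos _).le) fun v _ ↦ ?_)
      (prod_one_add_pterm_le K hs T)
    exact exp_sub_sq_le (pterm_nonneg K s v) (pterm_le_half K hs.le v)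
  have h2 : ∑ v ∈ T, (pterm K s v - pterm K s v ^ 2) ≤ Real.log (zetaR K s) :=
    (Real.le_log_iff_exp_le (zetaR_pos K hs)).mpr h1
  have h3 : ∑ v ∈ T, pterm K s v ^ 2 ≤ zetaR K 2 :=
    (Finset.sum_le_sum fun v _ ↦ pterm_sq_le K hs.le v).trans
      (sum_pterm_le_zetaR K (by norm_num) T)
  rw [Finset.sum_sub_distrib] at h2
  linarith

theorem summable_pterm {s : ℝ} (hs : 1 < s) : Summable (pterm K s) :=
  summable_of_sum_le (fun v ↦ pterm_nonneg K s v) (sum_pterm_le K hs)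

/-- the sum of `N(v)^(-s)` over all primes of `K` -/
noncomputable def primeSum (s : ℝ) : ℝ := ∑' v : HeightOneSpectrum (𝓞 K), pterm K s v

theorem primeSum_le {s : ℝ} (hs : 1 < s) :
    primeSum K s ≤ Real.log (zetaR K s) + zetaR K 2 :=
  Real.tsum_le_of_sum_le (fun v ↦ pterm_nonneg K s v) (sum_pterm_le K hs)

theorem log_zetaR_le {s : ℝ} (hs : 1 < s) :
    Real.log (zetaR K s) ≤ primeSum K s + 2 * zetaR K 2 := by
  classical
  rw [Real.log_le_iff_le_exp (zetaR_pos K hs)]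
  refine Real.tsum_le_of_sum_le (fun I ↦ zterm_nonneg K s I) fun 𝒮 ↦ ?_
  have h0 : ∑ I ∈ 𝒮, zterm K s I = ∑ I ∈ 𝒮.filter (· ≠ ⊥), zterm K s I := by
    rw [Finset.sum_filter]
    refine Finset.sum_congr rfl fun I _ ↦ ?_
    by_cases h : I = ⊥
    · simp [h, zterm_bot K (by linarith : s ≠ 0)]
    · simp [h]
  obtain ⟨T, hT⟩ := exists_sum_zterm_le_prod K hs.le (𝒮.filter (· ≠ ⊥))
    (fun I hI ↦ (Finset.mem_filter.mp hI).2)
  rw [h0]
  refine hT.trans ?_
  have h1 : ∏ v ∈ T, (1 - pterm K s v)⁻¹ ≤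
      Real.exp (∑ v ∈ T, (pterm K s v + 2 * pterm K s v ^ 2)) := by
    rw [Real.exp_sum]
    refine Finset.prod_le_prod (fun v _ ↦ inv_nonneg.mpr ?_) fun v _ ↦ ?_
    · have := pterm_le_half K hs.le v; linarith
    · exact inv_one_sub_le_exp (pterm_nonneg K s v) (pterm_le_half K hs.le v)
  refine h1.trans (Real.exp_le_exp.mpr ?_)
  rw [Finset.sum_add_distrib, ← Finset.mul_sum]
  have h2 : ∑ v ∈ T, pterm K s v ≤ primeSum K s :=
    (summable_pterm K hs).sum_le_tsum _ (fun v _ ↦ pterm_nonneg K s v)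
  have h3 : ∑ v ∈ T, pterm K s v ^ 2 ≤ zetaR K 2 :=
    (Finset.sum_le_sum fun v _ ↦ pterm_sq_le K hs.le v).trans
      (sum_pterm_le_zetaR K (by norm_num) T)
  linarith

/-! ### Primes of degree one -/

/-- the rational prime below a prime of `K` -/
noncomputable def ratPrime (v : HeightOneSpectrum (𝓞 K)) : ℕ :=
  Ideal.absNorm (Ideal.under ℤ v.asIdeal)

omit [NumberField K] in
theorem ratPrime_prime (v : HeightOneSpectrum (𝓞 K)) : (ratPrime K v).Prime := by
  have : NeZero v.asIdeal := ⟨v.ne_bot⟩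
  exact Nat.absNorm_under_prime v.asIdeal

instance liesOver_ratPrime (v : HeightOneSpectrum (𝓞 K)) :
    v.asIdeal.LiesOver (Ideal.span {((ratPrime K v : ℕ) : ℤ)}) :=
  Int.liesOver_span_absNorm v.asIdeal

theorem absNorm_eq_ratPrime_pow (v : HeightOneSpectrum (𝓞 K)) :
    Ideal.absNorm v.asIdeal = ratPrime K v ^ v.asIdeal.inertiaDeg ℤ :=
  (Ideal.pow_inertiaDeg (ratPrime K v) v.asIdeal).symm

theorem card_le_finrank_of_ratPrime_eq (p : ℕ) (T : Finset (HeightOneSpectrum (𝓞 K)))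
    (hT : ∀ v ∈ T, ratPrime K v = p) : T.card ≤ Module.finrank ℚ K := by
  classical
  rcases T.eq_empty_or_nonempty with rfl | ⟨v₀, hv₀⟩
  · simp
  have hp : p.Prime := hT v₀ hv₀ ▸ ratPrime_prime K v₀
  let P : Ideal ℤ := Ideal.span {(p : ℤ)}
  have hP : P.IsPrime := by
    rw [Ideal.span_singleton_prime (by exact_mod_cast hp.ne_zero)]
    exact Nat.prime_iff_prime_int.mp hp
  have hlies : ∀ v ∈ T, v.asIdeal ∈ P.primesOver (𝓞 K) := by
    intro v hv
    refine ⟨v.isPrime, ?_⟩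
    have := liesOver_ratPrime K v
    rwa [hT v hv] at this
  let g : T → P.primesOver (𝓞 K) := fun v ↦ ⟨v.1.asIdeal, hlies v.1 v.2⟩
  have hg : Function.Injective g := by
    intro v w h
    have : v.1.asIdeal = w.1.asIdeal := congrArg Subtype.val h
    exact Subtype.ext (HeightOneSpectrum.ext this)
  have : Fact p.Prime := ⟨hp⟩
  have hPm : P.IsMaximal := Int.ideal_span_isMaximal_of_prime p
  have h1 : T.card ≤ Fintype.card (P.primesOver (𝓞 K)) := by
    have := Fintype.card_le_of_injective g hg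
    simpa using this
  have h2 := Ideal.sum_ramification_inertia_eq_finrank P (𝓞 K)
  have h3 : Fintype.card (P.primesOver (𝓞 K)) ≤
      ∑ q : P.primesOver (𝓞 K), q.1.ramificationIdx ℤ * q.1.inertiaDeg ℤ := by
    rw [Fintype.card_eq_sum_ones]
    refine Finset.sum_le_sum fun q _ ↦ ?_
    have : q.1.IsPrime := q.2.1
    exact Nat.one_le_iff_ne_zero.mpr
      (Nat.mul_ne_zero (Ideal.ramificationIdx_pos q.1 ℤ).ne' (Ideal.inertiaDeg_pos q.1 ℤ).ne')
  rw [h2, RingOfIntegers.rank] at h3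
  exact h1.trans h3

theorem pterm_le_of_not_prime {s : ℝ} (hs : 1 ≤ s) (v : HeightOneSpectrum (𝓞 K))
    (hv : ¬ (Ideal.absNorm v.asIdeal).Prime) :
    pterm K s v ≤ ((ratPrime K v : ℝ) ^ 2)⁻¹ := by
  have hp := ratPrime_prime K v
  have hN := absNorm_eq_ratPrime_pow K v
  have hf : 2 ≤ v.asIdeal.inertiaDeg ℤ := by
    have hpos : 0 < v.asIdeal.inertiaDeg ℤ := Ideal.inertiaDeg_pos v.asIdeal ℤ
    by_contra h
    have h1 : v.asIdeal.inertiaDeg ℤ = 1 := by omega
    rw [h1, pow_one] at hN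
    exact hv (hN ▸ hp)
  have h2 : ratPrime K v ^ 2 ≤ Ideal.absNorm v.asIdeal := by
    rw [hN]; exact Nat.pow_le_pow_right hp.pos hf
  have h2' : ((ratPrime K v : ℝ)) ^ 2 ≤ (Ideal.absNorm v.asIdeal : ℝ) := by exact_mod_cast h2
  have hpos : (0 : ℝ) < (ratPrime K v : ℝ) ^ 2 := by
    have : (0 : ℝ) < ratPrime K v := by exact_mod_cast hp.pos
    positivity
  have h1 : (1 : ℝ) ≤ (Ideal.absNorm v.asIdeal : ℝ) := by
    have := two_le_absNorm K v
    exact_mod_cast (by omega : 1 ≤ Ideal.absNorm v.asIdeal)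
  unfold pterm zterm
  refine inv_anti₀ hpos (h2'.trans ?_)
  calc (Ideal.absNorm v.asIdeal : ℝ) = (Ideal.absNorm v.asIdeal : ℝ) ^ (1 : ℝ) :=
        (Real.rpow_one _).symm
    _ ≤ _ := Real.rpow_le_rpow_of_exponent_le h1 hs

/-- a constant bounding the contribution of the primes of degree at least two -/
noncomputable def highConst : ℝ := (Module.finrank ℚ K : ℝ) * ∑' n : ℕ, ((n : ℝ) ^ 2)⁻¹

theorem highConst_nonneg : 0 ≤ highConst K :=
  mul_nonneg (Nat.cast_nonneg _) (tsum_nonneg fun n ↦ by positivity)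

theorem sum_inv_ratPrime_sq_le (T : Finset (HeightOneSpectrum (𝓞 K))) :
    ∑ v ∈ T, ((ratPrime K v : ℝ) ^ 2)⁻¹ ≤ highConst K := by
  classical
  have hsum : Summable fun n : ℕ ↦ ((n : ℝ) ^ 2)⁻¹ := Real.summable_nat_pow_inv.mpr (by norm_num)
  rw [Finset.sum_comp (fun p : ℕ ↦ ((p : ℝ) ^ 2)⁻¹) (ratPrime K)]
  calc ∑ p ∈ T.image (ratPrime K), (#{v ∈ T | ratPrime K v = p}) • ((p : ℝ) ^ 2)⁻¹
      ≤ ∑ p ∈ T.image (ratPrime K), (Module.finrank ℚ K : ℝ) * ((p : ℝ) ^ 2)⁻¹ := by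
        refine Finset.sum_le_sum fun p _ ↦ ?_
        rw [nsmul_eq_mul]
        refine mul_le_mul_of_nonneg_right ?_ (by positivity)
        exact_mod_cast card_le_finrank_of_ratPrime_eq K p _ (fun v hv ↦ (Finset.mem_filter.mp hv).2)
    _ = (Module.finrank ℚ K : ℝ) * ∑ p ∈ T.image (ratPrime K), ((p : ℝ) ^ 2)⁻¹ := by
        rw [Finset.mul_sum]
    _ ≤ highConst K := by
        refine mul_le_mul_of_nonneg_left ?_ (Nat.cast_nonneg _)
        exact hsum.sum_le_tsum _ (fun n _ ↦ by positivity)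

open Classical in
/-- the terms of degree one primes -/
noncomputable def degOneTerm (s : ℝ) (v : HeightOneSpectrum (𝓞 K)) : ℝ :=
  if (Ideal.absNorm v.asIdeal).Prime then pterm K s v else 0

theorem degOneTerm_nonneg (s : ℝ) (v : HeightOneSpectrum (𝓞 K)) : 0 ≤ degOneTerm K s v := by
  unfold degOneTerm; split_ifs
  · exact pterm_nonneg K s v
  · exact le_rfl

theorem degOneTerm_le (s : ℝ) (v : HeightOneSpectrum (𝓞 K)) : degOneTerm K s v ≤ pterm K s v := by
  unfold degOneTerm; split_ifs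
  · exact le_rfl
  · exact pterm_nonneg K s v

theorem summable_degOneTerm {s : ℝ} (hs : 1 < s) : Summable (degOneTerm K s) :=
  (summable_pterm K hs).of_nonneg_of_le (degOneTerm_nonneg K s) (degOneTerm_le K s)

/-- the sum of `N(v)^(-s)` over the primes of `K` of degree one -/
noncomputable def degOneSum (s : ℝ) : ℝ := ∑' v : HeightOneSpectrum (𝓞 K), degOneTerm K s v

theorem degOneSum_le_primeSum {s : ℝ} (hs : 1 < s) : degOneSum K s ≤ primeSum K s :=
  (summable_degOneTerm K hs).tsum_le_tsum (degOneTerm_le K s) (summable_pterm K hs)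

theorem primeSum_le_degOneSum_add {s : ℝ} (hs : 1 < s) :
    primeSum K s ≤ degOneSum K s + highConst K := by
  have h2 : ∑' v, (pterm K s v - degOneTerm K s v) ≤ highConst K := by
    refine Real.tsum_le_of_sum_le (fun v ↦ sub_nonneg.mpr (degOneTerm_le K s v)) fun T ↦ ?_
    refine le_trans (Finset.sum_le_sum fun v _ ↦ ?_) (sum_inv_ratPrime_sq_le K T)
    unfold degOneTerm
    split_ifs with hv
    · rw [sub_self]; positivity
    · rw [sub_zero]; exact pterm_le_of_not_prime K hs.le v hv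
  have h3 := (summable_pterm K hs).tsum_sub (summable_degOneTerm K hs)
  unfold primeSum degOneSum
  linarith

/-- the degree-one prime sum, regrouped according to the rational prime below. -/
theorem degOneSum_eq {s : ℝ} (hs : 1 < s) :
    degOneSum K s = ∑' q : Nat.Primes, (idealCount K q : ℝ) * (((q : ℕ) : ℝ) ^ s)⁻¹ := by
  classical
  let w : ℕ → ℝ := fun n ↦ if n.Prime then ((n : ℝ) ^ s)⁻¹ else 0
  have hw : ∀ n, 0 ≤ w n := fun n ↦ by
    simp only [w]; split_ifs <;> positivity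
  have hsum : Summable fun n : ℕ ↦ (idealCount K n : ℝ) * w n := by
    refine (summable_idealCount_mul K hs).of_nonneg_of_le
      (fun n ↦ mul_nonneg (Nat.cast_nonneg _) (hw n)) fun n ↦ ?_
    refine mul_le_mul_of_nonneg_left ?_ (Nat.cast_nonneg _)
    simp only [w]; split_ifs
    · exact le_rfl
    · positivity
  have h1 := (hasSum_comp_absNorm K hw hsum).tsum_eq
  have h2 : ∑' v : HeightOneSpectrum (𝓞 K), w (Ideal.absNorm v.asIdeal) =
      ∑' I : Ideal (𝓞 K), w (Ideal.absNorm I) := by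
    refine (asIdeal_injective K).tsum_eq (f := fun I : Ideal (𝓞 K) ↦ w (Ideal.absNorm I)) ?_
    intro I hI
    simp only [Function.mem_support, ne_eq, w] at hI
    have hp : (Ideal.absNorm I).Prime := by
      by_contra h
      exact hI (by simp [h])
    have hprime : I.IsPrime :=
      Ideal.isPrime_of_irreducible_absNorm (Nat.prime_iff.mp hp).irreducible
    have hne : I ≠ ⊥ := by
      rintro rfl
      simp at hp
      exact Nat.not_prime_zero hp
    exact ⟨⟨I, hprime, hne⟩, rfl⟩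
  have h3 : degOneSum K s = ∑' v : HeightOneSpectrum (𝓞 K), w (Ideal.absNorm v.asIdeal) := by
    refine tsum_congr fun v ↦ ?_
    simp only [degOneTerm, w, pterm, zterm]
  have h4 : ∑' q : Nat.Primes, (idealCount K q : ℝ) * w q =
      ∑' n : ℕ, (idealCount K n : ℝ) * w n := by
    refine (Subtype.val_injective (p := Nat.Prime)).tsum_eq
      (f := fun n : ℕ ↦ (idealCount K n : ℝ) * w n) ?_
    intro n hn
    simp only [Function.mem_support, ne_eq, w] at hn
    have hp : n.Prime := by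
      by_contra h
      exact hn (by simp [h])
    exact ⟨⟨n, hp⟩, rfl⟩
  rw [h3, h2, h1, ← h4]
  refine tsum_congr fun q ↦ ?_
  simp only [w, if_pos q.2]

/-- the sum over rational primes `q` of `(number of ideals of K of norm q) * q^(-s)` -/
noncomputable def P1 (s : ℝ) : ℝ :=
  ∑' q : Nat.Primes, (idealCount K q : ℝ) * (((q : ℕ) : ℝ) ^ s)⁻¹

/-- **Theorem A**: `∑_q #{primes of K of norm q} q^(-s) = log (1/(s-1)) + O(1)` as `s → 1⁺`. -/
theorem P1_add_log_isBigO :
    (fun s : ℝ ↦ P1 K s + Real.log (s - 1)) =O[𝓝[>] 1] (fun _ ↦ (1 : ℝ)) := by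
  have h1 := (tendsto_log_zetaR K).isBigO_one ℝ
  have h2 : (fun s : ℝ ↦ P1 K s - Real.log (zetaR K s)) =O[𝓝[>] 1] (fun _ ↦ (1 : ℝ)) := by
    refine IsBigO.of_bound (highConst K + 2 * zetaR K 2 + zetaR K 2) ?_
    filter_upwards [self_mem_nhdsWithin] with s hs
    have hs' : (1 : ℝ) < s := hs
    have e := degOneSum_eq K hs'
    have a1 := primeSum_le K hs'
    have a2 := log_zetaR_le K hs'
    have a3 := degOneSum_le_primeSum K hs'
    have a4 := primeSum_le_degOneSum_add K hs'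
    have hZ : 0 ≤ zetaR K 2 := tsum_nonneg fun I ↦ zterm_nonneg K 2 I
    have hH := highConst_nonneg K
    rw [Real.norm_eq_abs, norm_one, mul_one, P1, ← e, abs_le]
    constructor <;> linarith
  have := h2.add h1
  exact this.congr_left fun s ↦ by ring

end Fermat.Agent.Density
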