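/-
[CHEBD] (EULER), helper4: Euler products over the ideals of a number field for multiplicative
functions dominated by the terms of the Dedekind zeta function, in exponential form.
-/
import Fermat.Agent.Density.Zeta_helper4

set_option linter.unusedSectionVars false

open NumberField Filter Topology Finset IsDedekindDomain

namespace Fermat.Agent.Density

variable (K : Type*) [Field K] [NumberField K]

/-! ### The abstract Euler product -/

section abstractEuler

variable {K}

/-- `I` is prime to all the primes in `T` -/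
def CopTo (T : Finset (HeightOneSpectrum (𝓞 K))) (I : Ideal (𝓞 K)) : Prop :=
  ∀ v ∈ T, ¬ v.asIdeal ∣ I

theorem asIdeal_dvd_asIdeal_iff (v w : HeightOneSpectrum (𝓞 K)) :
    v.asIdeal ∣ w.asIdeal ↔ v = w := by
  constructor
  · intro h
    have h1 : w.asIdeal ≤ v.asIdeal := Ideal.dvd_iff_le.mp h
    exact (HeightOneSpectrum.ext (w.isMaximal.eq_of_le v.isPrime.ne_top h1)).symm
  · rintro rfl
    exact dvd_rfl

theorem copTo_mul_iff {T : Finset (HeightOneSpectrum (𝓞 K))} {v : HeightOneSpectrum (𝓞 K)}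
    (hv : v ∉ T) (J : Ideal (𝓞 K)) : CopTo T (v.asIdeal * J) ↔ CopTo T J := by
  refine forall₂_congr fun w hw ↦ ?_
  rw [not_iff_not, w.prime.dvd_mul, asIdeal_dvd_asIdeal_iff]
  constructor
  · rintro (h | h)
    · exact absurd (h ▸ hw) hv
    · exact h
  · exact Or.inr

theorem copTo_one (T : Finset (HeightOneSpectrum (𝓞 K))) : CopTo T (1 : Ideal (𝓞 K)) := by
  intro v _ h
  exact v.isPrime.ne_top (Ideal.eq_top_of_isUnit_mem _ (Ideal.dvd_iff_le.mp h (by simp)) isUnit_one)

variable (f : Ideal (𝓞 K) → ℂ)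

open Classical in
/-- the sum of `f` over the ideals prime to `T` -/
noncomputable def sieveSum (T : Finset (HeightOneSpectrum (𝓞 K))) : ℂ :=
  ∑' I : Ideal (𝓞 K), if CopTo T I then f I else 0

variable {f}

theorem sieveSum_empty : sieveSum f ∅ = ∑' I, f I := by
  unfold sieveSum
  refine tsum_congr fun I ↦ ?_
  rw [if_pos]
  intro v hv
  simp at hv

open Classical in
theorem summable_sieve (hf : Summable f) (T : Finset (HeightOneSpectrum (𝓞 K))) :
    Summable fun I : Ideal (𝓞 K) ↦ if CopTo T I then f I else 0 := by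
  have := hf.indicator {I | CopTo T I}
  refine this.congr fun I ↦ ?_
  simp [Set.indicator]

open Classical in
/-- one step of the sieve -/
theorem sieveSum_insert (hf : Summable f) (hmul : ∀ I J, f (I * J) = f I * f J)
    {T : Finset (HeightOneSpectrum (𝓞 K))} {v : HeightOneSpectrum (𝓞 K)} (hv : v ∉ T) :
    sieveSum f (insert v T) = (1 - f v.asIdeal) * sieveSum f T := by
  have h1 : ∀ I : Ideal (𝓞 K), (if CopTo (insert v T) I then f I else 0) =
      (if CopTo T I then f I else 0) - (if CopTo T I ∧ v.asIdeal ∣ I then f I else 0) := by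
    intro I
    have : CopTo (insert v T) I ↔ CopTo T I ∧ ¬ v.asIdeal ∣ I := by
      unfold CopTo
      simp only [Finset.mem_insert, forall_eq_or_imp]
      tauto
    by_cases hc : CopTo T I <;> by_cases hd : v.asIdeal ∣ I <;> simp [this, hc, hd]
  have hs2 : Summable fun I : Ideal (𝓞 K) ↦ if CopTo T I ∧ v.asIdeal ∣ I then f I else 0 := by
    have := hf.indicator {I | CopTo T I ∧ v.asIdeal ∣ I}
    refine this.congr fun I ↦ ?_
    simp [Set.indicator]
  have h2 : sieveSum f (insert v T) = sieveSum f T -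
      ∑' I : Ideal (𝓞 K), if CopTo T I ∧ v.asIdeal ∣ I then f I else 0 := by
    unfold sieveSum
    rw [← (summable_sieve hf T).tsum_sub hs2]
    exact tsum_congr h1
  have hinj : Function.Injective fun J : Ideal (𝓞 K) ↦ v.asIdeal * J :=
    mul_right_injective₀ v.ne_bot
  have h3 : ∑' I : Ideal (𝓞 K), (if CopTo T I ∧ v.asIdeal ∣ I then f I else 0) =
      ∑' J : Ideal (𝓞 K), (if CopTo T (v.asIdeal * J) ∧ v.asIdeal ∣ v.asIdeal * J
        then f (v.asIdeal * J) else 0) := by
    refine (hinj.tsum_eq (f := fun I : Ideal (𝓞 K) ↦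
      if CopTo T I ∧ v.asIdeal ∣ I then f I else 0) ?_).symm
    intro I hI
    simp only [Function.mem_support, ne_eq, ite_eq_right_iff, not_forall] at hI
    obtain ⟨⟨-, J, rfl⟩, -⟩ := hI
    exact ⟨J, rfl⟩
  have h4 : ∑' J : Ideal (𝓞 K), (if CopTo T (v.asIdeal * J) ∧ v.asIdeal ∣ v.asIdeal * J
        then f (v.asIdeal * J) else 0) = f v.asIdeal * sieveSum f T := by
    unfold sieveSum
    rw [← tsum_mul_left]
    refine tsum_congr fun J ↦ ?_
    rw [copTo_mul_iff hv, hmul]
    by_cases hc : CopTo T J <;> simp [hc]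
  rw [h2, h3, h4]
  ring

theorem sieveSum_eq_prod (hf : Summable f) (hmul : ∀ I J, f (I * J) = f I * f J)
    (T : Finset (HeightOneSpectrum (𝓞 K))) :
    sieveSum f T = (∏ v ∈ T, (1 - f v.asIdeal)) * ∑' I, f I := by
  classical
  induction T using Finset.induction_on with
  | empty => simp [sieveSum_empty]
  | insert v T hv ih => rw [sieveSum_insert hf hmul hv, ih, Finset.prod_insert hv, mul_assoc]

/-- a nonzero proper ideal has a prime factor -/
theorem exists_asIdeal_dvd {I : Ideal (𝓞 K)} (hI0 : I ≠ ⊥) (hI1 : I ≠ 1) :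
    ∃ v : HeightOneSpectrum (𝓞 K), v.asIdeal ∣ I := by
  obtain ⟨M, hM, hIM⟩ := Ideal.exists_le_maximal I (by rwa [Ideal.one_eq_top] at hI1)
  have hM0 : M ≠ ⊥ := by
    rintro rfl
    exact hI0 (le_bot_iff.mp hIM)
  exact ⟨⟨M, hM.isPrime, hM0⟩, Ideal.dvd_iff_le.mpr hIM⟩

/-- the sieved sums tend to `f 1 = 1` -/
theorem tendsto_sieveSum (hf : Summable fun I ↦ ‖f I‖) (h1 : f 1 = 1) (h0 : f ⊥ = 0) :
    Tendsto (sieveSum f) atTop (𝓝 1) := by
  classical
  rw [Metric.tendsto_atTop]
  intro ε hε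
  have hvan := tendsto_tsum_compl_atTop_zero (fun I : Ideal (𝓞 K) ↦ ‖f I‖)
  rw [Metric.tendsto_atTop] at hvan
  obtain ⟨𝒮, h𝒮⟩ := hvan ε hε
  -- the primes dividing the members of `𝒮`
  let T₀ : Finset (HeightOneSpectrum (𝓞 K)) :=
    (𝒮.filter (· ≠ ⊥)).attach.biUnion fun I ↦
      (Ideal.finite_factors (Finset.mem_filter.mp I.2).2).toFinset
  refine ⟨T₀, fun T hT ↦ ?_⟩
  -- the terms of `sieveSum f T - 1`
  let g : Ideal (𝓞 K) → ℂ := fun I ↦ if CopTo T I ∧ I ≠ 1 then f I else 0
  have hfc : Summable f := hf.of_norm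
  have hg : ∀ I, (if CopTo T I then f I else 0) = g I + (if I = 1 then (1 : ℂ) else 0) := by
    intro I
    by_cases hI : I = 1
    · subst hI
      have : g 1 = 0 := if_neg (fun h ↦ h.2 rfl)
      rw [if_pos (copTo_one T), h1, this, if_pos rfl, zero_add]
    · by_cases hc : CopTo T I
      · have : g I = f I := if_pos ⟨hc, hI⟩
        rw [if_pos hc, this, if_neg hI, add_zero]
      · have : g I = 0 := if_neg (fun h ↦ hc h.1)
        rw [if_neg hc, this, if_neg hI, add_zero]
  have hgs : Summable g := by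
    have := hfc.indicator {I | CopTo T I ∧ I ≠ 1}
    refine this.congr fun I ↦ ?_
    simp [Set.indicator, g]
  have hone : HasSum (fun I : Ideal (𝓞 K) ↦ if I = 1 then (1 : ℂ) else 0) 1 := by
    convert hasSum_ite_eq (1 : Ideal (𝓞 K)) (1 : ℂ) using 1
  have e1 : sieveSum f T = (∑' I, g I) + 1 := by
    unfold sieveSum
    rw [tsum_congr hg, hgs.tsum_add hone.summable, hone.tsum_eq]
  rw [e1, dist_eq_norm, add_sub_cancel_right]
  -- `g` vanishes on `𝒮`
  have hgz : ∀ I ∈ 𝒮, g I = 0 := by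
    intro I hI
    by_cases hI0 : I = ⊥
    · subst hI0
      show (if CopTo T ⊥ ∧ (⊥ : Ideal (𝓞 K)) ≠ 1 then f ⊥ else 0) = 0
      rw [h0, ite_self]
    by_cases hI1 : I = 1
    · exact if_neg (fun h ↦ h.2 hI1)
    obtain ⟨v, hv⟩ := exists_asIdeal_dvd hI0 hI1
    have hvT : v ∈ T := by
      refine hT ?_
      simp only [T₀, Finset.mem_biUnion, Finset.mem_attach, true_and, Set.Finite.mem_toFinset,
        Set.mem_ofPred_eq, Subtype.exists, Finset.mem_filter]
      exact ⟨I, ⟨hI, hI0⟩, hv⟩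
    have : ¬ CopTo T I := fun hc ↦ hc v hvT hv
    exact if_neg (fun h ↦ this h.1)
  have hgn : ∀ I, ‖g I‖ ≤ if I ∈ 𝒮 then 0 else ‖f I‖ := by
    intro I
    by_cases hI : I ∈ 𝒮
    · simp [hgz I hI, hI]
    · simp only [hI, if_false, g]
      split_ifs
      · exact le_rfl
      · simp
  have hind : Summable fun I : Ideal (𝓞 K) ↦ if I ∈ 𝒮 then 0 else ‖f I‖ := by
    have := hf.indicator {I | I ∉ 𝒮}
    refine this.congr fun I ↦ ?_
    by_cases hI : I ∈ 𝒮 <;> simp [Set.indicator, hI]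
  have hle : ‖∑' I, g I‖ ≤ ∑' I : Ideal (𝓞 K), if I ∈ 𝒮 then 0 else ‖f I‖ :=
    tsum_of_norm_bounded hind.hasSum hgn
  have heq : (∑' I : Ideal (𝓞 K), if I ∈ 𝒮 then 0 else ‖f I‖) =
      ∑' I : {x // x ∉ 𝒮}, ‖f I‖ := by
    have := tsum_subtype {x : Ideal (𝓞 K) | x ∉ 𝒮} (fun I ↦ ‖f I‖)
    refine Eq.trans (tsum_congr fun I ↦ ?_) this.symm
    by_cases hI : I ∈ 𝒮 <;> simp [Set.indicator, hI]
  have h3 := h𝒮 𝒮 le_rfl
  rw [dist_eq_norm, sub_zero, Real.norm_eq_abs, abs_lt] at h3
  calc ‖∑' I, g I‖ ≤ _ := hle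
    _ = _ := heq
    _ < ε := h3.2

/-- **Euler product in exponential form** for a multiplicative function on the ideals of `𝓞 K`
with summable norms and values of norm at most `1/2` at the primes. -/
theorem tsum_eq_exp_tsum_log (hf : Summable fun I ↦ ‖f I‖) (h1 : f 1 = 1) (h0 : f ⊥ = 0)
    (hmul : ∀ I J, f (I * J) = f I * f J)
    (hhalf : ∀ v : HeightOneSpectrum (𝓞 K), ‖f v.asIdeal‖ ≤ 1 / 2) :
    Summable (fun v : HeightOneSpectrum (𝓞 K) ↦ Complex.log (1 - f v.asIdeal)) ∧
    ∑' I, f I = Complex.exp (∑' v : HeightOneSpectrum (𝓞 K), -Complex.log (1 - f v.asIdeal)) := by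
  classical
  have hfc : Summable f := hf.of_norm
  -- summability over the primes
  have hfv : Summable fun v : HeightOneSpectrum (𝓞 K) ↦ ‖f v.asIdeal‖ :=
    hf.comp_injective (asIdeal_injective K)
  have hlog : Summable fun v : HeightOneSpectrum (𝓞 K) ↦ Complex.log (1 - f v.asIdeal) := by
    refine Summable.of_norm_bounded (hfv.mul_left (3 / 2)) fun v ↦ ?_
    have := Complex.norm_log_one_add_half_le_self (z := -f v.asIdeal) (by simpa using hhalf v)
    simpa [sub_eq_add_neg] using this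
  refine ⟨hlog, ?_⟩
  have hne : ∀ v : HeightOneSpectrum (𝓞 K), 1 - f v.asIdeal ≠ 0 := by
    intro v h
    have h2 : f v.asIdeal = 1 := (sub_eq_zero.mp h).symm
    have := hhalf v
    rw [h2, norm_one] at this
    norm_num at this
  -- the finite products converge
  have hprod : Tendsto (fun T : Finset (HeightOneSpectrum (𝓞 K)) ↦ ∏ v ∈ T, (1 - f v.asIdeal))
      atTop (𝓝 (Complex.exp (∑' v : HeightOneSpectrum (𝓞 K), Complex.log (1 - f v.asIdeal)))) := by
    have := (Complex.continuous_exp.tendsto _).comp hlog.hasSum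
    refine this.congr fun T ↦ ?_
    rw [Function.comp_apply, Complex.exp_sum]
    exact Finset.prod_congr rfl fun v _ ↦ Complex.exp_log (hne v)
  have hlim : Tendsto (sieveSum f) atTop
      (𝓝 (Complex.exp (∑' v : HeightOneSpectrum (𝓞 K), Complex.log (1 - f v.asIdeal)) *
        ∑' I, f I)) := by
    refine (hprod.mul_const _).congr fun T ↦ ?_
    exact (sieveSum_eq_prod hfc hmul T).symm
  have huniq := tendsto_nhds_unique hlim (tendsto_sieveSum hf h1 h0)
  rw [tsum_neg, Complex.exp_neg]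
  exact eq_inv_of_mul_eq_one_right huniq

end abstractEuler

/-! ### Regrouping complex sums over ideals according to the norm -/

/-- regrouping a sum over ideals according to the norm, complex version -/
theorem hasSum_comp_absNorm_complex {w : ℕ → ℂ}
    (hs : Summable fun n : ℕ ↦ (idealCount K n : ℝ) * ‖w n‖) :
    HasSum (fun I : Ideal (𝓞 K) ↦ w (Ideal.absNorm I)) (∑' n : ℕ, (idealCount K n : ℂ) * w n) := by
  have hn : Summable fun I : Ideal (𝓞 K) ↦ ‖w (Ideal.absNorm I)‖ :=
    (hasSum_comp_absNorm K (w := fun n ↦ ‖w n‖) (fun n ↦ norm_nonneg _) hs).summable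
  have hsum : Summable fun I : Ideal (𝓞 K) ↦ w (Ideal.absNorm I) := hn.of_norm
  let e := Equiv.sigmaFiberEquiv (fun I : Ideal (𝓞 K) ↦ Ideal.absNorm I)
  rw [← e.hasSum_iff]
  have hfib : ∀ n : ℕ, HasSum (fun I : {I : Ideal (𝓞 K) // Ideal.absNorm I = n} ↦
      ((fun I : Ideal (𝓞 K) ↦ w (Ideal.absNorm I)) ∘ e) ⟨n, I⟩) ((idealCount K n : ℂ) * w n) := by
    intro n
    have : (fun I : {I : Ideal (𝓞 K) // Ideal.absNorm I = n} ↦
      ((fun I : Ideal (𝓞 K) ↦ w (Ideal.absNorm I)) ∘ e) ⟨n, I⟩) = fun _ ↦ w n := by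
      funext I
      simp [e, I.2]
    rw [this]
    let _ : Fintype {I : Ideal (𝓞 K) // Ideal.absNorm I = n} := Fintype.ofFinite _
    convert hasSum_fintype (fun _ : {I : Ideal (𝓞 K) // Ideal.absNorm I = n} ↦ w n) using 1
    simp [idealCount, Nat.card_eq_fintype_card]
  have hsum' : Summable ((fun I : Ideal (𝓞 K) ↦ w (Ideal.absNorm I)) ∘ e) :=
    (e.summable_iff).mpr hsum
  have h2 : HasSum (fun n : ℕ ↦ (idealCount K n : ℂ) * w n)
      (∑' n : ℕ, (idealCount K n : ℂ) * w n) := by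
    refine Summable.hasSum (Summable.of_norm ?_)
    refine hs.congr fun n ↦ ?_
    rw [norm_mul, Complex.norm_natCast]
  exact HasSum.sigma_of_hasSum h2 hfib hsum'

/-! ### The `L`-function of `χ ∘ N` -/

section lfunction

variable {m : ℕ} [NeZero m] (χ : DirichletCharacter ℂ m)

/-- the term of `L(s, χ ∘ N)` at an ideal -/
noncomputable def lterm (s : ℝ) (I : Ideal (𝓞 K)) : ℂ :=
  χ ((Ideal.absNorm I : ℕ) : ZMod m) * ((zterm K s I : ℝ) : ℂ)

theorem norm_lterm_le (s : ℝ) (I : Ideal (𝓞 K)) : ‖lterm K χ s I‖ ≤ zterm K s I := by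
  unfold lterm
  rw [norm_mul, Complex.norm_real, Real.norm_of_nonneg (zterm_nonneg K s I)]
  exact mul_le_of_le_one_left (zterm_nonneg K s I) (χ.norm_le_one _)

theorem lterm_one (s : ℝ) : lterm K χ s 1 = 1 := by
  unfold lterm
  rw [zterm_one]
  simp

theorem lterm_bot {s : ℝ} (hs : s ≠ 0) : lterm K χ s ⊥ = 0 := by
  unfold lterm
  rw [zterm_bot K hs]
  simp

theorem lterm_mul (s : ℝ) (I J : Ideal (𝓞 K)) :
    lterm K χ s (I * J) = lterm K χ s I * lterm K χ s J := by
  unfold lterm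
  rw [zterm_mul, map_mul, Nat.cast_mul, map_mul]
  push_cast
  ring

theorem summable_norm_lterm {s : ℝ} (hs : 1 < s) : Summable fun I ↦ ‖lterm K χ s I‖ :=
  (summable_zterm K hs).of_nonneg_of_le (fun _ ↦ norm_nonneg _) (norm_lterm_le K χ s)

theorem norm_lterm_prime_le {s : ℝ} (_hs : 1 ≤ s) (v : HeightOneSpectrum (𝓞 K)) :
    ‖lterm K χ s v.asIdeal‖ ≤ pterm K s v := norm_lterm_le K χ s _

/-- the logarithm of `L(s, χ ∘ N)` -/
noncomputable def logL (s : ℝ) : ℂ :=
  ∑' v : HeightOneSpectrum (𝓞 K), -Complex.log (1 - lterm K χ s v.asIdeal)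

/-- `L(s, χ ∘ N)` as a sum over ideals -/
noncomputable def lfun (s : ℝ) : ℂ := ∑' I : Ideal (𝓞 K), lterm K χ s I

/-- **Euler product**: `L(s, χ ∘ N) = exp (logL s)` for real `s > 1`. -/
theorem lfun_eq_exp_logL {s : ℝ} (hs : 1 < s) : lfun K χ s = Complex.exp (logL K χ s) :=
  (tsum_eq_exp_tsum_log (summable_norm_lterm K χ hs) (lterm_one K χ s)
    (lterm_bot K χ (by linarith)) (lterm_mul K χ s)
    (fun v ↦ (norm_lterm_prime_le K χ hs.le v).trans (pterm_le_half K hs.le v))).2

theorem summable_log_lterm {s : ℝ} (hs : 1 < s) :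
    Summable fun v : HeightOneSpectrum (𝓞 K) ↦ Complex.log (1 - lterm K χ s v.asIdeal) :=
  (tsum_eq_exp_tsum_log (summable_norm_lterm K χ hs) (lterm_one K χ s)
    (lterm_bot K χ (by linarith)) (lterm_mul K χ s)
    (fun v ↦ (norm_lterm_prime_le K χ hs.le v).trans (pterm_le_half K hs.le v))).1

/-- `L(s, χ ∘ N)` is the Dirichlet series with coefficients `χ(n) · #{ideals of norm n}`. -/
theorem lfun_eq_LSeries {s : ℝ} (hs : 1 < s) :
    lfun K χ s = LSeries (fun n ↦ χ ((n : ℕ) : ZMod m) * (idealCount K n : ℂ)) s := by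
  have h1 : Summable fun n : ℕ ↦ (idealCount K n : ℝ) *
      ‖χ ((n : ℕ) : ZMod m) * (((n : ℝ) ^ s)⁻¹ : ℝ)‖ := by
    refine (summable_idealCount_mul K hs).of_nonneg_of_le
      (fun n ↦ mul_nonneg (Nat.cast_nonneg _) (norm_nonneg _)) fun n ↦ ?_
    refine mul_le_mul_of_nonneg_left ?_ (Nat.cast_nonneg _)
    rw [norm_mul, Complex.norm_real, Real.norm_of_nonneg (by positivity)]
    exact mul_le_of_le_one_left (by positivity) (χ.norm_le_one _)
  have h2 := (hasSum_comp_absNorm_complex K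
    (w := fun n ↦ χ ((n : ℕ) : ZMod m) * (((n : ℝ) ^ s)⁻¹ : ℝ)) h1).tsum_eq
  unfold lfun LSeries
  rw [show (fun I : Ideal (𝓞 K) ↦ lterm K χ s I) = fun I : Ideal (𝓞 K) ↦
    (fun n : ℕ ↦ χ ((n : ℕ) : ZMod m) * (((n : ℝ) ^ s)⁻¹ : ℝ)) (Ideal.absNorm I) from rfl, h2]
  refine tsum_congr fun n ↦ ?_
  rcases Nat.eq_zero_or_pos n with rfl | hn
  · simp [Real.zero_rpow (by linarith : s ≠ 0)]
  · rw [LSeries.term_of_ne_zero hn.ne']
    push_cast
    rw [Complex.ofReal_cpow (Nat.cast_nonneg n) s, div_eq_mul_inv]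
    simp
    ring

/-- the sum over the rational primes `q` of `χ(q) · #{primes of norm q} · q^(-s)` -/
noncomputable def primeCharSum (s : ℝ) : ℂ :=
  ∑' q : Nat.Primes, χ (((q : ℕ) : ℕ) : ZMod m) * (idealCount K q : ℂ) *
    (((((q : ℕ) : ℝ) ^ s)⁻¹ : ℝ) : ℂ)

theorem summable_lterm_prime {s : ℝ} (hs : 1 < s) :
    Summable fun v : HeightOneSpectrum (𝓞 K) ↦ lterm K χ s v.asIdeal :=
  Summable.of_norm_bounded (summable_pterm K hs) (norm_lterm_prime_le K χ hs.le)

theorem tsum_pterm_two_le : ∑' v : HeightOneSpectrum (𝓞 K), pterm K 2 v ≤ zetaR K 2 :=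
  Real.tsum_le_of_sum_le (fun v ↦ pterm_nonneg K 2 v) (sum_pterm_le_zetaR K (by norm_num))

/-- first step: `logL` is the sum of the terms at the primes, up to a bounded error -/
theorem norm_logL_sub_tsum_le {s : ℝ} (hs : 1 < s) :
    ‖logL K χ s - ∑' v : HeightOneSpectrum (𝓞 K), lterm K χ s v.asIdeal‖ ≤ zetaR K 2 := by
  have hlog := (summable_log_lterm K χ hs).neg
  have ht := summable_lterm_prime K χ hs
  unfold logL
  rw [← hlog.tsum_sub ht]
  have hb : ∀ v : HeightOneSpectrum (𝓞 K),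
      ‖-Complex.log (1 - lterm K χ s v.asIdeal) - lterm K χ s v.asIdeal‖ ≤ pterm K 2 v := by
    intro v
    set z := lterm K χ s v.asIdeal with hz
    have hz1 : ‖z‖ ≤ pterm K s v := norm_lterm_prime_le K χ hs.le v
    have hz2 : ‖z‖ ≤ 1 / 2 := hz1.trans (pterm_le_half K hs.le v)
    have h1 := Complex.norm_log_one_add_sub_self_le (z := -z) (by rw [norm_neg]; linarith)
    rw [norm_neg] at h1
    have h2 : ‖-Complex.log (1 - z) - z‖ = ‖Complex.log (1 + -z) - -z‖ := by
      rw [← norm_neg]; congr 1; ring_nf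
    rw [h2]
    refine h1.trans ?_
    have h3 : (1 - ‖z‖)⁻¹ ≤ 2 := by
      rw [inv_le_comm₀ (by linarith) (by norm_num)]; linarith
    have h4 : ‖z‖ ^ 2 ≤ pterm K s v ^ 2 := pow_le_pow_left₀ (norm_nonneg _) hz1 2
    calc ‖z‖ ^ 2 * (1 - ‖z‖)⁻¹ / 2 ≤ ‖z‖ ^ 2 * 2 / 2 := by
          gcongr
      _ = ‖z‖ ^ 2 := by ring
      _ ≤ pterm K s v ^ 2 := h4
      _ ≤ pterm K 2 v := pterm_sq_le K hs.le v
  have hsum2 : Summable (pterm K 2) := summable_pterm K (by norm_num)
  exact (tsum_of_norm_bounded hsum2.hasSum hb).trans (tsum_pterm_two_le K)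

open Classical in
/-- the weight selecting prime norms -/
noncomputable def primeWeight (s : ℝ) (n : ℕ) : ℂ :=
  if n.Prime then χ ((n : ℕ) : ZMod m) * ((((n : ℝ) ^ s)⁻¹ : ℝ) : ℂ) else 0

theorem norm_primeWeight_le (s : ℝ) (n : ℕ) : ‖primeWeight χ s n‖ ≤ ((n : ℝ) ^ s)⁻¹ := by
  unfold primeWeight
  split_ifs
  · rw [norm_mul, Complex.norm_real, Real.norm_of_nonneg (by positivity)]
    exact mul_le_of_le_one_left (by positivity) (χ.norm_le_one _)
  · rw [norm_zero]; positivity

theorem primeWeight_absNorm_of_prime (s : ℝ) {v : HeightOneSpectrum (𝓞 K)}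
    (hv : (Ideal.absNorm v.asIdeal).Prime) :
    primeWeight χ s (Ideal.absNorm v.asIdeal) = lterm K χ s v.asIdeal := by
  unfold primeWeight lterm zterm
  rw [if_pos hv]

/-- the degree-one part of the prime sum, regrouped according to the rational prime below -/
theorem tsum_primeWeight_eq {s : ℝ} (hs : 1 < s) :
    ∑' v : HeightOneSpectrum (𝓞 K), primeWeight χ s (Ideal.absNorm v.asIdeal) =
      primeCharSum K χ s := by
  classical
  have hsum : Summable fun n : ℕ ↦ (idealCount K n : ℝ) * ‖primeWeight χ s n‖ :=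
    (summable_idealCount_mul K hs).of_nonneg_of_le
      (fun n ↦ mul_nonneg (Nat.cast_nonneg _) (norm_nonneg _))
      fun n ↦ mul_le_mul_of_nonneg_left (norm_primeWeight_le χ s n) (Nat.cast_nonneg _)
  have h1 := (hasSum_comp_absNorm_complex K hsum).tsum_eq
  have h2 : ∑' v : HeightOneSpectrum (𝓞 K), primeWeight χ s (Ideal.absNorm v.asIdeal) =
      ∑' I : Ideal (𝓞 K), primeWeight χ s (Ideal.absNorm I) := by
    refine (asIdeal_injective K).tsum_eq
      (f := fun I : Ideal (𝓞 K) ↦ primeWeight χ s (Ideal.absNorm I)) ?_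
    intro I hI
    simp only [Function.mem_support, ne_eq, primeWeight] at hI
    have hp : (Ideal.absNorm I).Prime := by
      by_contra h
      exact hI (by simp [h])
    have hprime : I.IsPrime :=
      Ideal.isPrime_of_irreducible_absNorm (Nat.prime_iff.mp hp).irreducible
    have hne : I ≠ ⊥ := by
      rintro rfl
      simp at hp
      exact Nat.not_prime_zero hp
    exact ⟨⟨I, hprime, hne⟩, rfl⟩
  have h4 : ∑' q : Nat.Primes, (idealCount K q : ℂ) * primeWeight χ s q =
      ∑' n : ℕ, (idealCount K n : ℂ) * primeWeight χ s n := by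
    refine (Subtype.val_injective (p := Nat.Prime)).tsum_eq
      (f := fun n : ℕ ↦ (idealCount K n : ℂ) * primeWeight χ s n) ?_
    intro n hn
    simp only [Function.mem_support, ne_eq, primeWeight] at hn
    have hp : n.Prime := by
      by_contra h
      exact hn (by simp [h])
    exact ⟨⟨n, hp⟩, rfl⟩
  rw [h2, h1, ← h4]
  unfold primeCharSum
  refine tsum_congr fun q ↦ ?_
  simp only [primeWeight, if_pos q.2]
  ring

/-- second step: the primes of degree at least two contribute a bounded amount -/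
theorem norm_tsum_lterm_sub_primeCharSum_le {s : ℝ} (hs : 1 < s) :
    ‖(∑' v : HeightOneSpectrum (𝓞 K), lterm K χ s v.asIdeal) - primeCharSum K χ s‖ ≤
      highConst K := by
  classical
  have ht := summable_lterm_prime K χ hs
  have hw : Summable fun v : HeightOneSpectrum (𝓞 K) ↦
      primeWeight χ s (Ideal.absNorm v.asIdeal) := by
    refine Summable.of_norm_bounded (summable_pterm K hs) fun v ↦ ?_
    exact norm_primeWeight_le χ s _
  rw [← tsum_primeWeight_eq K χ hs, ← ht.tsum_sub hw]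
  have hb : ∀ v : HeightOneSpectrum (𝓞 K),
      ‖lterm K χ s v.asIdeal - primeWeight χ s (Ideal.absNorm v.asIdeal)‖ ≤
        pterm K s v - degOneTerm K s v := by
    intro v
    by_cases hv : (Ideal.absNorm v.asIdeal).Prime
    · rw [primeWeight_absNorm_of_prime K χ s hv, sub_self, norm_zero, degOneTerm, if_pos hv,
        sub_self]
    · have : primeWeight χ s (Ideal.absNorm v.asIdeal) = 0 := if_neg hv
      rw [this, sub_zero, degOneTerm, if_neg hv, sub_zero]
      exact norm_lterm_prime_le K χ hs.le v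
  have hsum : Summable fun v ↦ pterm K s v - degOneTerm K s v :=
    (summable_pterm K hs).sub (summable_degOneTerm K hs)
  refine (tsum_of_norm_bounded hsum.hasSum hb).trans ?_
  rw [(summable_pterm K hs).tsum_sub (summable_degOneTerm K hs)]
  have := primeSum_le_degOneSum_add K hs
  unfold primeSum degOneSum at this
  linarith

/-- **(E2)** `logL(s) = ∑_q χ(q) #{primes of norm q} q^(-s) + O(1)` on `s > 1`. -/
theorem norm_logL_sub_primeCharSum_le {s : ℝ} (hs : 1 < s) :
    ‖logL K χ s - primeCharSum K χ s‖ ≤ zetaR K 2 + highConst K := by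
  have h1 := norm_logL_sub_tsum_le K χ hs
  have h2 := norm_tsum_lterm_sub_primeCharSum_le K χ hs
  calc ‖logL K χ s - primeCharSum K χ s‖
      = ‖(logL K χ s - ∑' v : HeightOneSpectrum (𝓞 K), lterm K χ s v.asIdeal) +
          ((∑' v : HeightOneSpectrum (𝓞 K), lterm K χ s v.asIdeal) - primeCharSum K χ s)‖ := by
        congr 1; ring
    _ ≤ _ := norm_add_le _ _
    _ ≤ zetaR K 2 + highConst K := add_le_add h1 h2

theorem pterm_anti {a s : ℝ} (has : a ≤ s) (v : HeightOneSpectrum (𝓞 K)) :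
    pterm K s v ≤ pterm K a v := by
  unfold pterm zterm
  have h1 : (1 : ℝ) ≤ (Ideal.absNorm v.asIdeal : ℝ) := by
    have := two_le_absNorm K v
    exact_mod_cast (by omega : 1 ≤ Ideal.absNorm v.asIdeal)
  have hpos : (0 : ℝ) < (Ideal.absNorm v.asIdeal : ℝ) := by linarith
  exact inv_anti₀ (Real.rpow_pos_of_pos hpos _) (Real.rpow_le_rpow_of_exponent_le h1 has)

theorem continuous_lterm (I : Ideal (𝓞 K)) (hI : I ≠ ⊥) : Continuous fun s : ℝ ↦ lterm K χ s I := by
  unfold lterm zterm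
  have hpos : (0 : ℝ) < (Ideal.absNorm I : ℝ) := by
    have : Ideal.absNorm I ≠ 0 := by rwa [Ne, Ideal.absNorm_eq_zero_iff]
    exact_mod_cast Nat.pos_of_ne_zero this
  refine continuous_const.mul (Complex.continuous_ofReal.comp ?_)
  exact (Real.continuous_const_rpow hpos.ne').inv₀ fun s ↦ (Real.rpow_pos_of_pos hpos s).ne'

/-- **(E3)** `logL` is continuous on `s > 1`. -/
theorem continuousOn_logL : ContinuousOn (logL K χ) (Set.Ioi 1) := by
  intro s₀ hs₀
  have hs₀' : (1 : ℝ) < s₀ := hs₀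
  set a : ℝ := (1 + s₀) / 2 with ha
  have ha1 : 1 < a := by rw [ha]; linarith
  have has : a < s₀ := by rw [ha]; linarith
  have hcont : ContinuousOn (logL K χ) (Set.Ici a) := by
    unfold logL
    refine continuousOn_tsum (u := fun v ↦ 3 / 2 * pterm K a v) (fun v ↦ ?_)
      ((summable_pterm K ha1).mul_left _) (fun v s hs ↦ ?_)
    · refine ContinuousOn.neg (ContinuousOn.clog ?_ fun s hs ↦ ?_)
      · exact (continuous_const.sub (continuous_lterm K χ v.asIdeal v.ne_bot)).continuousOn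
      · have hs1 : 1 ≤ s := ha1.le.trans hs
        have h1 : ‖-lterm K χ s v.asIdeal‖ < 1 := by
          rw [norm_neg]
          refine lt_of_le_of_lt ((norm_lterm_prime_le K χ hs1 v).trans (pterm_le_half K hs1 v)) ?_
          norm_num
        have := Complex.mem_slitPlane_of_norm_lt_one h1
        rwa [← sub_eq_add_neg] at this
    · have hs' : a ≤ s := hs
      have hs1 : 1 ≤ s := ha1.le.trans hs'
      have hz1 : ‖lterm K χ s v.asIdeal‖ ≤ pterm K s v := norm_lterm_prime_le K χ hs1 v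
      have hz2 : ‖-lterm K χ s v.asIdeal‖ ≤ 1 / 2 := by
        rw [norm_neg]; exact hz1.trans (pterm_le_half K hs1 v)
      have h1 := Complex.norm_log_one_add_half_le_self hz2
      rw [norm_neg, ← sub_eq_add_neg] at *
      refine h1.trans ?_
      have := pterm_anti K hs' v
      nlinarith [norm_nonneg (lterm K χ s v.asIdeal)]
  exact (hcont.continuousAt (Ici_mem_nhds has)).continuousWithinAt

end lfunction

end Fermat.Agent.Density
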