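import Fermat.Agent.Density.Count_helper4
import Fermat.Agent.Density.Mass_helper4

/-!
# Frobenius density theorem, existence form (S56 leaf (G))

`F/ℚ` finite Galois, `σ ∈ Gal(F/ℚ)`, `T` a finite set of natural numbers.  Then there is a prime
`q ∉ T`, unramified in `F`, and a prime `Q` of `𝓞 F` above `q` whose decomposition group
`stabilizer Gal(F/ℚ) Q` is exactly `⟨σ⟩` (`exists_prime_stabilizer_eq_zpowers`).
-/

open NumberField Pointwise MulAction Filter Topology Asymptotics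

namespace Fermat.Agent.Density

variable {F : Type*} [Field F] [NumberField F] [IsGalois ℚ F]

/-- `q` is unramified in `F` -/
def Unram (F : Type*) [Field F] [NumberField F] (q : ℕ) : Prop :=
  ∀ Q ∈ (pZ q).primesOver (𝓞 F), Q.ramificationIdx ℤ = 1

omit [IsGalois ℚ F] in
theorem unram_of_not_dvd_discr {q : ℕ} (hq : q.Prime) (h : ¬ (q : ℤ) ∣ discr F) : Unram F q := by
  intro Q hQ
  have : Q.IsPrime := hQ.1
  have : Q.LiesOver (pZ q) := hQ.2
  have hmem : ((q : ℤ) : 𝓞 F) ∈ Q := by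
    have h1 : (q : ℤ) ∈ Q.under ℤ := by
      rw [← Ideal.LiesOver.over (p := pZ q) (P := Q)]
      exact Ideal.mem_span_singleton_self _
    simpa [Ideal.under, Ideal.mem_comap] using h1
  have h2 := (NumberField.not_dvd_discr_iff_forall_mem F (𝓞 F)
    (Nat.prime_iff_prime_int.mp hq)).mp h Q hQ.1 hmem
  have hne : Q.under ℤ ≠ ⊥ := by
    rw [← Ideal.LiesOver.over (p := pZ q) (P := Q)]
    exact pZ_ne_bot hq
  have : (Q.under ℤ).IsMaximal := Ideal.IsPrime.isMaximal inferInstance hne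
  have : Finite (ℤ ⧸ Q.under ℤ) := Ideal.finiteQuotientOfFreeOfNeBot _ hne
  exact Ideal.ramificationIdx_eq_one_iff.mpr h2

/-- the cyclic subgroup of order `d` of the group generated by `σ` -/
noncomputable abbrev cycSub (σ : Gal(F/ℚ)) (d : ℕ) : Subgroup Gal(F/ℚ) :=
  Subgroup.zpowers (σ ^ (orderOf σ / d))

theorem card_stabilizer_of_unram {q : ℕ} (hq : q.Prime) (hunr : Unram F q) {Q : Ideal (𝓞 F)}
    (hQ : Q ∈ (pZ q).primesOver (𝓞 F)) :
    Nat.card (stabilizer Gal(F/ℚ) Q) = (pZ q).inertiaDegIn (𝓞 F) := by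
  have : Q.IsPrime := hQ.1
  rw [card_stabilizer_rat Q (ne_bot_of_mem_primesOver hq hQ), hunr Q hQ, one_mul,
    inertiaDeg_eq_inertiaDegIn hq hQ]

theorem decompIn_cycSub (σ : Gal(F/ℚ)) {d : ℕ} (hd : d ∣ orderOf σ) {q : ℕ} (hq : q.Prime)
    (hunr : Unram F q) [Decidable ((pZ q).inertiaDegIn (𝓞 F) ∣ d)] :
    decompIn (cycSub σ d) q =
      if (pZ q).inertiaDegIn (𝓞 F) ∣ d then decompIn (Subgroup.zpowers σ) q else ∅ := by
  ext Q
  rw [mem_decompIn]
  by_cases hQ : Q ∈ (pZ q).primesOver (𝓞 F)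
  · rw [le_zpowers_pow_div_iff σ hd, card_stabilizer_of_unram hq hunr hQ]
    split_ifs with h
    · rw [mem_decompIn]; tauto
    · simp [h]
  · split_ifs with h
    · rw [mem_decompIn]; tauto
    · simp [hQ]

theorem idealCount_cycSub (σ : Gal(F/ℚ)) {d : ℕ} (hd : d ∣ orderOf σ) {q : ℕ} (hq : q.Prime)
    (hunr : Unram F q) [Decidable ((pZ q).inertiaDegIn (𝓞 F) ∣ d)] :
    idealCount (fixedF F (cycSub σ d)) q * d =
      (if (pZ q).inertiaDegIn (𝓞 F) ∣ d then (decompIn (Subgroup.zpowers σ) q).card else 0) *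
        (pZ q).inertiaDegIn (𝓞 F) := by
  have h := idealCount_mul_card (cycSub σ d) hq hunr
  rw [card_zpowers_pow_div σ hd, decompIn_cycSub σ hd hq hunr] at h
  rw [h]
  split_ifs <;> simp

/-- the coefficient function: number of primes above `q` with decomposition group inside `⟨σ⟩`,
if `q` is unramified of inertia degree `d`. -/
noncomputable def cdens (σ : Gal(F/ℚ)) (d q : ℕ) : ℝ := by
  classical
  exact if Unram F q ∧ (pZ q).inertiaDegIn (𝓞 F) = d then
    ((decompIn (Subgroup.zpowers σ) q).card : ℝ) else 0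

theorem cdens_nonneg (σ : Gal(F/ℚ)) (d q : ℕ) : 0 ≤ cdens σ d q := by
  unfold cdens
  split_ifs
  · positivity
  · exact le_rfl

theorem card_decompIn_le (H : Subgroup Gal(F/ℚ)) {q : ℕ} (hq : q.Prime) :
    (decompIn H q).card ≤ Nat.card Gal(F/ℚ) := by
  classical
  have : (pZ q).IsPrime := pZ_isPrime hq
  have h := Ideal.ncard_primesOver_mul_ramificationIdxIn_mul_inertiaDegIn (pZ q) (𝓞 F) Gal(F/ℚ)
  have h1 : (decompIn H q).card ≤ ((pZ q).primesOver (𝓞 F)).ncard := by
    rw [Set.ncard_eq_toFinset_card _ (Algebra.QuasiFinite.finite_primesOver (S := 𝓞 F) (pZ q))]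
    exact Finset.card_le_card (Finset.filter_subset _ _)
  have h2 : 0 < (pZ q).ramificationIdxIn (𝓞 F) * (pZ q).inertiaDegIn (𝓞 F) :=
    Nat.mul_pos (Nat.pos_of_ne_zero (Ideal.ramificationIdxIn_ne_zero Gal(F/ℚ)))
      (Nat.pos_of_ne_zero (Ideal.inertiaDegIn_ne_zero Gal(F/ℚ)))
  calc (decompIn H q).card ≤ ((pZ q).primesOver (𝓞 F)).ncard := h1
    _ ≤ ((pZ q).primesOver (𝓞 F)).ncard *
        ((pZ q).ramificationIdxIn (𝓞 F) * (pZ q).inertiaDegIn (𝓞 F)) :=
      Nat.le_mul_of_pos_right _ h2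
    _ = Nat.card Gal(F/ℚ) := h

theorem abs_cdens_le (σ : Gal(F/ℚ)) (d : ℕ) (q : Nat.Primes) :
    |cdens σ d q| ≤ (Nat.card Gal(F/ℚ) : ℝ) := by
  rw [abs_of_nonneg (cdens_nonneg σ d q)]
  unfold cdens
  split_ifs
  · exact_mod_cast card_decompIn_le _ q.2
  · positivity

theorem sum_divisors_cdens (σ : Gal(F/ℚ)) {d : ℕ} (hd : d ∣ orderOf σ) {q : ℕ} (hq : q.Prime)
    (hunr : Unram F q) :
    ∑ d' ∈ d.divisors, (d' : ℝ) * cdens σ d' q =
      (d : ℝ) * (idealCount (fixedF F (cycSub σ d)) q : ℝ) := by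
  classical
  have hd0 : d ≠ 0 := fun h ↦ (orderOf_pos σ).ne' (by simpa [h] using hd)
  have h := idealCount_cycSub σ hd hq hunr
  have h' : (idealCount (fixedF F (cycSub σ d)) q : ℝ) * (d : ℝ) =
      (if (pZ q).inertiaDegIn (𝓞 F) ∣ d then ((decompIn (Subgroup.zpowers σ) q).card : ℝ)
        else 0) * ((pZ q).inertiaDegIn (𝓞 F) : ℝ) := by
    have := congrArg (Nat.cast : ℕ → ℝ) h
    push_cast at this
    rw [this]
  rw [mul_comm, h']
  unfold cdens
  simp only [hunr, true_and, mul_ite, mul_zero]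
  rw [Finset.sum_ite_eq]
  simp only [Nat.mem_divisors, hd0, ne_eq, not_false_eq_true, and_true]
  split_ifs
  · ring
  · ring

/-- the primes dividing the discriminant -/
noncomputable def badPrimes (F : Type*) [Field F] [NumberField F] : Finset ℕ :=
  (discr F).natAbs.primeFactors

omit [IsGalois ℚ F] in
theorem unram_of_not_mem_badPrimes {q : ℕ} (hq : q.Prime) (h : q ∉ badPrimes F) : Unram F q := by
  refine unram_of_not_dvd_discr hq fun hdvd ↦ h ?_
  rw [badPrimes, Nat.mem_primeFactors]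
  refine ⟨hq, Int.natCast_dvd.mp hdvd, ?_⟩
  simpa using discr_ne_zero F

theorem summable_cdens (σ : Gal(F/ℚ)) (d : ℕ) {s : ℝ} (hs : 1 < s) :
    Summable fun q : Nat.Primes ↦ cdens σ d q * (((q : ℕ) : ℝ) ^ s)⁻¹ :=
  summable_mass_of_bdd (abs_cdens_le σ d) hs

theorem summable_idealCount_primes (K : Type*) [Field K] [NumberField K] {s : ℝ} (hs : 1 < s) :
    Summable fun q : Nat.Primes ↦ (idealCount K q : ℝ) * (((q : ℕ) : ℝ) ^ s)⁻¹ :=
  (summable_idealCount_mul K hs).subtype _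

/-- **Key asymptotic**: `d * ∑_q c_d(q) q^(-s) = φ(d) log (1/(s-1)) + O(1)`. -/
theorem cdens_mass_isBigO (σ : Gal(F/ℚ)) : ∀ d : ℕ, d ∣ orderOf σ →
    (fun s : ℝ ↦ (d : ℝ) * mass (cdens σ d) s + (Nat.totient d : ℝ) * Real.log (s - 1))
      =O[𝓝[>] 1] (fun _ ↦ (1 : ℝ)) := by
  intro d
  induction d using Nat.strong_induction_on with
  | _ d ih =>
    intro hd
    have hd0 : d ≠ 0 := fun h ↦ (orderOf_pos σ).ne' (by simpa [h] using hd)
    set K := fixedF F (cycSub σ d) with hK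
    -- the error term, supported on the bad primes
    let e : ℕ → ℝ := fun q ↦ (d : ℝ) * (idealCount K q : ℝ) -
      ∑ d' ∈ d.divisors, (d' : ℝ) * cdens σ d' q
    have he : (fun s ↦ mass e s) =O[𝓝[>] 1] (fun _ ↦ (1 : ℝ)) := by
      refine mass_isBigO_of_support e (badPrimes F) fun q hq ↦ ?_
      simp only [e]
      rw [sum_divisors_cdens σ hd q.2 (unram_of_not_mem_badPrimes q.2 hq), sub_self]
    -- Theorem A for the fixed field
    have hA : (fun s : ℝ ↦ (d : ℝ) * (P1 K s + Real.log (s - 1))) =O[𝓝[>] 1]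
        (fun _ ↦ (1 : ℝ)) := (P1_add_log_isBigO K).const_mul_left _
    -- induction hypothesis
    have hI : (fun s : ℝ ↦ ∑ d' ∈ d.properDivisors,
        ((d' : ℝ) * mass (cdens σ d') s + (Nat.totient d' : ℝ) * Real.log (s - 1))) =O[𝓝[>] 1]
        (fun _ ↦ (1 : ℝ)) := by
      refine IsBigO.fun_sum (A := fun (d' : ℕ) (s : ℝ) ↦
        ((d' : ℝ) * mass (cdens σ d') s + (Nat.totient d' : ℝ) * Real.log (s - 1)))
        (g := fun _ ↦ (1 : ℝ)) fun d' hd' ↦ ?_
      rw [Nat.mem_properDivisors] at hd'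
      exact ih d' hd'.2 (hd'.1.trans hd)
    refine ((hA.sub hI).sub he).congr' ?_ EventuallyEq.rfl
    filter_upwards [self_mem_nhdsWithin] with s hs
    have hs' : (1 : ℝ) < s := hs
    have h1 : mass e s = (d : ℝ) * P1 K s -
        ∑ d' ∈ d.divisors, (d' : ℝ) * mass (cdens σ d') s :=
      mass_sub_sum d.divisors (d : ℝ) (fun q ↦ (idealCount K q : ℝ)) (fun d' ↦ (d' : ℝ))
        (fun d' q ↦ cdens σ d' q) (summable_idealCount_primes K hs')
        (fun d' _ ↦ summable_cdens σ d' hs')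
    have h2 : (d : ℝ) = ∑ d' ∈ d.divisors, (Nat.totient d' : ℝ) := by
      exact_mod_cast (Nat.sum_totient d).symm
    rw [h1, ← Nat.insert_self_properDivisors hd0, Finset.sum_insert Nat.self_notMem_properDivisors]
    rw [← Nat.insert_self_properDivisors hd0,
      Finset.sum_insert Nat.self_notMem_properDivisors] at h2
    rw [Finset.sum_add_distrib, ← Finset.sum_mul]
    have h3 : (Nat.totient d : ℝ) = (d : ℝ) - ∑ d' ∈ d.properDivisors, (Nat.totient d' : ℝ) := by
      linarith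
    rw [h3]
    ring

/-- **Frobenius density theorem (existence form)**: for every element `σ` of the Galois group of
a finite Galois extension `F/ℚ` and every finite set `T` there is a prime `q ∉ T`, unramified in
`F`, and a prime `Q` of `F` above `q` whose decomposition group is exactly `⟨σ⟩`. -/
theorem exists_prime_stabilizer_eq_zpowers (σ : Gal(F/ℚ)) (T : Finset ℕ) :
    ∃ q : ℕ, q.Prime ∧ q ∉ T ∧ Unram F q ∧
      ∃ Q ∈ (pZ q).primesOver (𝓞 F), stabilizer Gal(F/ℚ) Q = Subgroup.zpowers σ := by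
  classical
  by_contra hcon
  push Not at hcon
  have hsupp : ∀ q : Nat.Primes, (q : ℕ) ∉ T → cdens σ (orderOf σ) q = 0 := by
    intro q hqT
    unfold cdens
    split_ifs with h
    · obtain ⟨hunr, hf⟩ := h
      rw [Nat.cast_eq_zero, Finset.card_eq_zero, Finset.eq_empty_iff_forall_notMem]
      intro Q hQ
      obtain ⟨hQ1, hQ2⟩ := (mem_decompIn _).mp hQ
      refine hcon q q.2 hqT hunr Q hQ1 (Subgroup.eq_of_le_of_card_ge hQ2 ?_)
      rw [card_stabilizer_of_unram q.2 hunr hQ1, hf, Nat.card_zpowers]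
    · rfl
  have h1 := mass_isBigO_of_support (cdens σ (orderOf σ)) T hsupp
  have h2 := cdens_mass_isBigO σ (orderOf σ) dvd_rfl
  have h3 : (fun s : ℝ ↦ ((orderOf σ).totient : ℝ) * Real.log (s - 1)) =O[𝓝[>] 1]
      (fun _ ↦ (1 : ℝ)) := by
    refine (h2.sub (h1.const_mul_left (orderOf σ : ℝ))).congr_left fun s ↦ ?_
    ring
  refine not_isBigO_log ?_ h3
  exact_mod_cast (Nat.totient_pos.mpr (orderOf_pos σ)).ne'

end Fermat.Agent.Density
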