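/-
[CHEBD] (CYC), helper4: Dirichlet density of the primes of degree one in the classes mod `m`,
over an arbitrary number field, from the partial-sum bound (C) for the coefficients of
`L(s, χ ∘ N)`.
-/
import Fermat.Agent.Density.CHEBD_helper4_Euler
import Fermat.Agent.Density.CHEBD_helper4_Abel
import Fermat.Agent.Density.Main_helper4

set_option linter.unusedSectionVars false

open NumberField Filter Topology Finset IsDedekindDomain Asymptotics

namespace Fermat.Agent.Density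

variable (K : Type*) [Field K] [NumberField K] {m : ℕ} [NeZero m]

/-- the conclusion of the interface theorem (C) (helper3's `charSum_ideal_le`) -/
def CharSumBound (χ : DirichletCharacter ℂ m) : Prop :=
  ∃ C : ℝ, ∀ N : ℕ, ‖∑ n ∈ Finset.Icc 1 N, χ ((n : ℕ) : ZMod m) *
    (Nat.card {I : Ideal (𝓞 K) // Ideal.absNorm I = n} : ℂ)‖ ≤
      C * (N : ℝ) ^ (1 - 1 / (Module.finrank ℚ K : ℝ))

/-- `χ ∘ N` is nontrivial -/
def NormNontrivial (χ : DirichletCharacter ℂ m) : Prop :=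
  ∃ I : Ideal (𝓞 K), χ ((Ideal.absNorm I : ℕ) : ZMod m) ≠ 0 ∧
    χ ((Ideal.absNorm I : ℕ) : ZMod m) ≠ 1

/-! ### (A) the limit of `L(s, χ ∘ N)` at `1⁺` -/

theorem lseriesSummable_char (χ : DirichletCharacter ℂ m) {s : ℝ} (hs : 1 < s) :
    LSeriesSummable (fun n ↦ χ ((n : ℕ) : ZMod m) * (idealCount K n : ℂ)) s := by
  have h := lseriesSummable_idealCount K hs
  unfold LSeriesSummable at h ⊢
  refine Summable.of_norm_bounded h.norm fun n ↦ ?_
  rcases Nat.eq_zero_or_pos n with rfl | hn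
  · simp [LSeries.term]
  · rw [LSeries.term_of_ne_zero hn.ne', LSeries.term_of_ne_zero hn.ne', norm_div, norm_div,
      norm_mul]
    refine div_le_div_of_nonneg_right ?_ (norm_nonneg _)
    exact mul_le_of_le_one_left (norm_nonneg _) (χ.norm_le_one _)

theorem exists_tendsto_lfun (χ : DirichletCharacter ℂ m) (h : CharSumBound K χ) :
    ∃ ℓ : ℂ, Tendsto (lfun K χ) (𝓝[>] 1) (𝓝 ℓ) := by
  obtain ⟨C, hC⟩ := h
  have hd : (1 : ℝ) ≤ (Module.finrank ℚ K : ℝ) := by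
    exact_mod_cast Module.finrank_pos (R := ℚ) (M := K)
  have hr0 : (0 : ℝ) ≤ 1 - 1 / (Module.finrank ℚ K : ℝ) := by
    rw [sub_nonneg, div_le_one (by linarith)]
    exact hd
  have hr1 : 1 - 1 / (Module.finrank ℚ K : ℝ) < 1 := by
    have : (0 : ℝ) < 1 / (Module.finrank ℚ K : ℝ) := by positivity
    linarith
  obtain ⟨ℓ, hℓ⟩ := exists_tendsto_LSeries_of_sum_bound
    (fun n ↦ χ ((n : ℕ) : ZMod m) * (idealCount K n : ℂ)) hr0 hr1 hC
    (fun s hs ↦ lseriesSummable_char K χ hs)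
  refine ⟨ℓ, hℓ.congr' ?_⟩
  filter_upwards [self_mem_nhdsWithin] with s hs
  exact (lfun_eq_LSeries K χ hs).symm

/-! ### (B) a continuous logarithm of a function with a nonzero limit is bounded -/

theorem isDiscrete_range_intCast : IsDiscrete (Set.range ((↑) : ℤ → ℝ)) := by
  have h := (IsDiscrete.univ (X := ℤ)).image Int.isClosedEmbedding_coe_real.isInducing
  rwa [Set.image_univ] at h

omit [NumberField K] [NeZero m] in
theorem exists_bound_of_tendsto_exp {Λ : ℝ → ℂ} {ℓ : ℂ} (hℓ : ℓ ≠ 0)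
    (hc : ContinuousOn Λ (Set.Ioi 1))
    (hlim : Tendsto (fun s ↦ Complex.exp (Λ s)) (𝓝[>] 1) (𝓝 ℓ)) :
    ∃ δ > 0, ∃ B : ℝ, ∀ s ∈ Set.Ioo (1 : ℝ) (1 + δ), ‖Λ s‖ ≤ B := by
  have hℓ' : 0 < ‖ℓ‖ / 2 := by positivity
  have hev := (Metric.tendsto_nhds.mp hlim) (‖ℓ‖ / 2) hℓ'
  obtain ⟨u, hu, huS⟩ := mem_nhdsGT_iff_exists_Ioo_subset.mp hev
  have hu' : (1 : ℝ) < u := hu
  refine ⟨u - 1, by linarith, ?_⟩
  rw [add_sub_cancel]
  set S : Set ℝ := Set.Ioo 1 u with hS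
  have hSsub : S ⊆ Set.Ioi 1 := fun s hs ↦ hs.1
  -- the normalised values
  set w : ℝ → ℂ := fun s ↦ Complex.exp (Λ s) * ℓ⁻¹ with hw
  have hw1 : ∀ s ∈ S, ‖w s - 1‖ ≤ 1 / 2 := by
    intro s hs
    have h1 : dist (Complex.exp (Λ s)) ℓ < ‖ℓ‖ / 2 := huS hs
    rw [dist_eq_norm] at h1
    have h2 : w s - 1 = (Complex.exp (Λ s) - ℓ) * ℓ⁻¹ := by
      rw [hw, sub_mul, mul_inv_cancel₀ hℓ]
    rw [h2, norm_mul, norm_inv, ← div_eq_mul_inv, div_le_iff₀ (norm_pos_iff.mpr hℓ)]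
    linarith
  have hwslit : ∀ s ∈ S, w s ∈ Complex.slitPlane := by
    intro s hs
    have := Complex.mem_slitPlane_of_norm_lt_one
      (lt_of_le_of_lt (hw1 s hs) (by norm_num : (1 : ℝ) / 2 < 1))
    rwa [add_sub_cancel] at this
  have hwc : ContinuousOn w S :=
    ((Complex.continuous_exp.comp_continuousOn (hc.mono hSsub))).mul continuousOn_const
  set g : ℝ → ℂ := fun s ↦ Λ s - Complex.log (w s) with hg
  have hgc : ContinuousOn g S := (hc.mono hSsub).sub (hwc.clog hwslit)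
  have hgexp : ∀ s ∈ S, Complex.exp (g s) = ℓ := by
    intro s hs
    have hne : w s ≠ 0 := Complex.slitPlane_ne_zero (hwslit s hs)
    rw [hg, Complex.exp_sub, Complex.exp_log hne, hw]
    field_simp
  -- `g` is constant
  have hmid : (1 + u) / 2 ∈ S := ⟨by linarith, by linarith⟩
  set s₀ : ℝ := (1 + u) / 2 with hs₀
  have hconst : ∀ s ∈ S, g s = g s₀ := by
    intro s hs
    set φ : ℝ → ℝ := fun t ↦ ((g t - g s₀) / (2 * Real.pi * Complex.I)).re with hφ
    have hφc : ContinuousOn φ S :=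
      Complex.continuous_re.comp_continuousOn ((hgc.sub continuousOn_const).div_const _)
    have hint : ∀ t ∈ S, ∃ n : ℤ, g t = g s₀ + n * (2 * Real.pi * Complex.I) := by
      intro t ht
      exact Complex.exp_eq_exp_iff_exists_int.mp ((hgexp t ht).trans (hgexp s₀ hmid).symm)
    have h2pi : (2 * Real.pi * Complex.I : ℂ) ≠ 0 := by
      simp [Real.pi_ne_zero]
    have hφn : ∀ t ∈ S, ∀ n : ℤ, g t = g s₀ + n * (2 * Real.pi * Complex.I) → φ t = n := by
      intro t _ n hn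
      rw [hφ]
      simp only
      rw [hn, add_sub_cancel_left, mul_div_assoc, div_self h2pi, mul_one]
      simp
    have hmaps : Set.MapsTo φ S (Set.range ((↑) : ℤ → ℝ)) := by
      intro t ht
      obtain ⟨n, hn⟩ := hint t ht
      exact ⟨n, (hφn t ht n hn).symm⟩
    have heq := isPreconnected_Ioo.constant_of_mapsTo isDiscrete_range_intCast hφc hmaps hs hmid
    obtain ⟨n, hn⟩ := hint s hs
    have h0 : φ s₀ = 0 := by
      rw [hφ]; simp
    have : (n : ℝ) = 0 := by rw [← hφn s hs n hn, heq, h0]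
    have hn0 : n = 0 := by exact_mod_cast this
    rw [hn, hn0]; simp
  refine ⟨‖g s₀‖ + 3 / 4, fun s hs ↦ ?_⟩
  have h1 : Λ s = g s₀ + Complex.log (w s) := by
    rw [← hconst s hs, hg]; ring
  have h2 : ‖Complex.log (w s)‖ ≤ 3 / 4 := by
    have := Complex.norm_log_one_add_half_le_self (hw1 s hs)
    rw [add_sub_cancel] at this
    refine this.trans ?_
    have := hw1 s hs
    linarith
  rw [h1]
  exact (norm_add_le _ _).trans (by linarith)

/-! ### (C) orthogonality -/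

open Classical in
/-- the coefficient function of the degree-one primes in the class `a` mod `m` -/
noncomputable def classCoeff (a : ZMod m) (q : ℕ) : ℝ :=
  if ((q : ℕ) : ZMod m) = a then (idealCount K q : ℝ) else 0

theorem abs_classCoeff_le (a : ZMod m) (q : ℕ) : |classCoeff K a q| ≤ idealCount K q := by
  unfold classCoeff
  split_ifs
  · rw [abs_of_nonneg (Nat.cast_nonneg _)]
  · rw [abs_zero]; exact Nat.cast_nonneg _

theorem summable_classCoeff (a : ZMod m) {s : ℝ} (hs : 1 < s) :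
    Summable fun q : Nat.Primes ↦ classCoeff K a q * (((q : ℕ) : ℝ) ^ s)⁻¹ := by
  refine Summable.of_norm_bounded (summable_idealCount_primes K hs) fun q ↦ ?_
  rw [norm_mul, Real.norm_eq_abs, Real.norm_of_nonneg (by positivity)]
  exact mul_le_mul_of_nonneg_right (abs_classCoeff_le K a q) (by positivity)

theorem summable_primeCharSum_terms (χ : DirichletCharacter ℂ m) {s : ℝ} (hs : 1 < s) :
    Summable fun q : Nat.Primes ↦ χ (((q : ℕ) : ℕ) : ZMod m) * (idealCount K q : ℂ) *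
      (((((q : ℕ) : ℝ) ^ s)⁻¹ : ℝ) : ℂ) := by
  refine Summable.of_norm_bounded (summable_idealCount_primes K hs) fun q ↦ ?_
  rw [norm_mul, norm_mul, Complex.norm_natCast, Complex.norm_real,
    Real.norm_of_nonneg (by positivity), mul_assoc]
  exact mul_le_of_le_one_left (by positivity) (χ.norm_le_one _)

/-- **orthogonality**: `∑_χ χ(a)⁻¹ S_χ(s) = φ(m) · ∑_{q ≡ a} #{primes of norm q} q^(-s)` -/
theorem sum_char_inv_mul_primeCharSum {a : ZMod m} (ha : IsUnit a) {s : ℝ} (hs : 1 < s) :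
    ∑ χ : DirichletCharacter ℂ m, χ a⁻¹ * primeCharSum K χ s =
      (m.totient : ℂ) * ((mass (classCoeff K a) s : ℝ) : ℂ) := by
  classical
  unfold primeCharSum mass
  simp_rw [← tsum_mul_left]
  rw [← Summable.tsum_finsetSum fun χ _ ↦ (summable_primeCharSum_terms K χ hs).mul_left _]
  rw [Complex.ofReal_tsum, ← tsum_mul_left]
  refine tsum_congr fun q ↦ ?_
  have h1 : ∑ χ : DirichletCharacter ℂ m, χ a⁻¹ * (χ (((q : ℕ) : ℕ) : ZMod m) *
      (idealCount K q : ℂ) * (((((q : ℕ) : ℝ) ^ s)⁻¹ : ℝ) : ℂ)) =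
      (∑ χ : DirichletCharacter ℂ m, χ a⁻¹ * χ (((q : ℕ) : ℕ) : ZMod m)) *
        ((idealCount K q : ℂ) * (((((q : ℕ) : ℝ) ^ s)⁻¹ : ℝ) : ℂ)) := by
    rw [Finset.sum_mul]
    refine Finset.sum_congr rfl fun χ _ ↦ ?_
    ring
  rw [h1, DirichletCharacter.sum_char_inv_mul_char_eq ℂ ha]
  unfold classCoeff
  by_cases h : a = (((q : ℕ) : ℕ) : ZMod m)
  · rw [if_pos h, if_pos h.symm]
    push_cast
    ring
  · rw [if_neg h, if_neg (Ne.symm h)]
    push_cast
    ring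

/-! ### (D) characters trivial on the subgroup `H` -/

/-- `χ` is trivial on the subgroup `H` of `(ℤ/m)ˣ` -/
def TrivOn (H : Subgroup (ZMod m)ˣ) (χ : DirichletCharacter ℂ m) : Prop :=
  ∀ a ∈ H, χ ((a : (ZMod m)ˣ) : ZMod m) = 1

/-- (h1): for almost all primes `q` which are the norm of a prime of `K`, `q mod m ∈ H` -/
def NormsIn (H : Subgroup (ZMod m)ˣ) : Prop :=
  ∃ T : Finset ℕ, ∀ q : ℕ, q.Prime → q ∉ T → idealCount K q ≠ 0 →
    ∃ a ∈ H, ((a : (ZMod m)ˣ) : ZMod m) = ((q : ℕ) : ZMod m)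

omit [NumberField K] in
theorem card_trivOn_mul_card (H : Subgroup (ZMod m)ˣ) :
    Nat.card {χ : DirichletCharacter ℂ m // TrivOn H χ} * Nat.card H = m.totient := by
  have h1 : Nat.card {χ : DirichletCharacter ℂ m // TrivOn H χ} =
      Nat.card (MonoidHom.domRestrictHom H ℂˣ).ker := by
    refine Nat.card_congr ((MulChar.equivToUnitHom (R := ZMod m) (R' := ℂ)).subtypeEquiv
      fun χ ↦ ?_)
    rw [MonoidHom.mem_ker]
    constructor
    · intro h
      ext a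
      simp only [MonoidHom.domRestrictHom_apply, MonoidHom.domRestrict_apply, MonoidHom.one_apply,
        Units.val_one]
      exact (MulChar.coe_toUnitHom χ a).trans (h a a.2)
    · intro h a ha
      have := congrArg (fun f : H →* ℂˣ ↦ ((f ⟨a, ha⟩ : ℂˣ) : ℂ)) h
      simp only [MonoidHom.domRestrictHom_apply, MonoidHom.domRestrict_apply,
        MonoidHom.one_apply, Units.val_one] at this
      rw [← this]
      exact (MulChar.coe_toUnitHom χ a).symm
  rw [h1, CommGroup.card_domRestrictHom_ker (M := ℂ) H,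
    ← Subgroup.card_eq_card_quotient_mul_card_subgroup, Nat.card_eq_fintype_card,
    ZMod.card_units_eq_totient]

theorem primeCharSum_sub_P1_isBigO {H : Subgroup (ZMod m)ˣ} (h1 : NormsIn K H)
    {χ : DirichletCharacter ℂ m} (hχ : TrivOn H χ) :
    (fun s : ℝ ↦ primeCharSum K χ s - ((P1 K s : ℝ) : ℂ)) =O[𝓝[>] 1] (fun _ ↦ (1 : ℝ)) := by
  classical
  obtain ⟨T, hT⟩ := h1
  let T' : Finset Nat.Primes := T.subtype Nat.Prime
  refine IsBigO.of_bound (∑ q ∈ T', 2 * (idealCount K q : ℝ)) ?_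
  filter_upwards [self_mem_nhdsWithin] with s hs
  have hs' : (1 : ℝ) < s := hs
  have e1 : primeCharSum K χ s - ((P1 K s : ℝ) : ℂ) =
      ∑' q : Nat.Primes, (χ (((q : ℕ) : ℕ) : ZMod m) - 1) * (idealCount K q : ℂ) *
        (((((q : ℕ) : ℝ) ^ s)⁻¹ : ℝ) : ℂ) := by
    unfold primeCharSum P1
    rw [Complex.ofReal_tsum, ← (summable_primeCharSum_terms K χ hs').tsum_sub]
    · refine tsum_congr fun q ↦ ?_
      push_cast
      ring
    · have := (summable_idealCount_primes K hs')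
      exact (Complex.summable_ofReal.mpr this)
  have e2 : ∑' q : Nat.Primes, (χ (((q : ℕ) : ℕ) : ZMod m) - 1) * (idealCount K q : ℂ) *
        (((((q : ℕ) : ℝ) ^ s)⁻¹ : ℝ) : ℂ) =
      ∑ q ∈ T', (χ (((q : ℕ) : ℕ) : ZMod m) - 1) * (idealCount K q : ℂ) *
        (((((q : ℕ) : ℝ) ^ s)⁻¹ : ℝ) : ℂ) := by
    refine tsum_eq_sum fun q hq ↦ ?_
    have hqT : (q : ℕ) ∉ T := fun hmem ↦ hq (Finset.mem_subtype.mpr hmem)
    by_cases h0 : idealCount K q = 0
    · simp [h0]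
    · obtain ⟨a, ha, hqa⟩ := hT q q.2 hqT h0
      rw [← hqa, hχ a ha, sub_self, zero_mul, zero_mul]
  rw [e1, e2, norm_one, mul_one]
  refine (norm_sum_le _ _).trans (Finset.sum_le_sum fun q _ ↦ ?_)
  rw [norm_mul, norm_mul, Complex.norm_natCast, Complex.norm_real,
    Real.norm_of_nonneg (by positivity)]
  have hq1 : (1 : ℝ) ≤ ((q : ℕ) : ℝ) := by exact_mod_cast q.2.one_lt.le
  have h2 : (1 : ℝ) ≤ ((q : ℕ) : ℝ) ^ s := Real.one_le_rpow hq1 (by linarith)
  have h3 : (((q : ℕ) : ℝ) ^ s)⁻¹ ≤ 1 := inv_le_one_of_one_le₀ h2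
  have h4 : ‖χ (((q : ℕ) : ℕ) : ZMod m) - 1‖ ≤ 2 := by
    refine (norm_sub_le _ _).trans ?_
    rw [norm_one]
    have := χ.norm_le_one (((q : ℕ) : ℕ) : ZMod m)
    linarith
  calc ‖χ (((q : ℕ) : ℕ) : ZMod m) - 1‖ * (idealCount K q : ℝ) * (((q : ℕ) : ℝ) ^ s)⁻¹
      ≤ 2 * (idealCount K q : ℝ) * 1 := by
        gcongr
    _ = 2 * (idealCount K q : ℝ) := mul_one _

/-! ### (F) non-vanishing and the density statement -/

section main

variable (H : Subgroup (ZMod m)ˣ)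

open Classical in
/-- the characters trivial on `H` -/
noncomputable def trivChars : Finset (DirichletCharacter ℂ m) :=
  Finset.univ.filter (TrivOn H)

omit [NumberField K] in
theorem mem_trivChars {χ : DirichletCharacter ℂ m} : χ ∈ trivChars H ↔ TrivOn H χ := by
  classical
  simp [trivChars]

omit [NumberField K] in
theorem card_trivChars_mul_card : (trivChars H).card * Nat.card H = m.totient := by
  classical
  have : (trivChars H).card = Nat.card {χ : DirichletCharacter ℂ m // TrivOn H χ} := by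
    rw [Nat.card_eq_fintype_card, Fintype.card_subtype]
    rfl
  rw [this, card_trivOn_mul_card H]

omit [NumberField K] in
theorem card_trivChars_pos : 0 < (trivChars H).card := by
  have h := card_trivChars_mul_card H
  have : 0 < m.totient := Nat.totient_pos.mpr (Nat.pos_of_ne_zero (NeZero.ne m))
  rcases Nat.eq_zero_or_pos (trivChars H).card with h0 | h0
  · rw [h0, zero_mul] at h; omega
  · exact h0

variable {H}

/-- Step 3: the sum of the prime sums over the characters nontrivial on `H` is bounded -/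
theorem sum_primeCharSum_compl_isBigO (h1 : NormsIn K H)
    (h3 : (fun s : ℝ ↦ (Nat.card H : ℝ) * mass (classCoeff K (1 : ZMod m)) s + Real.log (s - 1))
      =O[𝓝[>] 1] (fun _ ↦ (1 : ℝ))) :
    (fun s : ℝ ↦ ∑ χ ∈ (trivChars H)ᶜ, primeCharSum K χ s) =O[𝓝[>] 1] (fun _ ↦ (1 : ℝ)) := by
  classical
  set nX : ℝ := ((trivChars H).card : ℝ) with hnX
  have hcard : nX * (Nat.card H : ℝ) = (m.totient : ℝ) := by
    rw [hnX]; exact_mod_cast card_trivChars_mul_card H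
  -- the three bounded pieces
  have b1 : (fun s : ℝ ↦ ((nX * ((Nat.card H : ℝ) * mass (classCoeff K (1 : ZMod m)) s +
      Real.log (s - 1)) : ℝ) : ℂ)) =O[𝓝[>] 1] (fun _ ↦ (1 : ℝ)) := by
    have := h3.const_mul_left nX
    refine IsBigO.trans (IsBigO.of_bound 1 (Eventually.of_forall fun s ↦ ?_)) this
    rw [Complex.norm_real, one_mul]
  have b2 : (fun s : ℝ ↦ ((nX * (P1 K s + Real.log (s - 1)) : ℝ) : ℂ))
      =O[𝓝[>] 1] (fun _ ↦ (1 : ℝ)) := by
    have := (P1_add_log_isBigO K).const_mul_left nX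
    refine IsBigO.trans (IsBigO.of_bound 1 (Eventually.of_forall fun s ↦ ?_)) this
    rw [Complex.norm_real, one_mul]
  have b3 : (fun s : ℝ ↦ ∑ χ ∈ trivChars H, (primeCharSum K χ s - ((P1 K s : ℝ) : ℂ)))
      =O[𝓝[>] 1] (fun _ ↦ (1 : ℝ)) :=
    IsBigO.fun_sum (A := fun (χ : DirichletCharacter ℂ m) (s : ℝ) ↦
      primeCharSum K χ s - ((P1 K s : ℝ) : ℂ)) (g := fun _ ↦ (1 : ℝ))
      fun χ hχ ↦ primeCharSum_sub_P1_isBigO K h1 ((mem_trivChars H).mp hχ)
  refine ((b1.sub b2).sub b3).congr' ?_ EventuallyEq.rfl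
  filter_upwards [self_mem_nhdsWithin] with s hs
  have hs' : (1 : ℝ) < s := hs
  have horth := sum_char_inv_mul_primeCharSum K (a := (1 : ZMod m)) isUnit_one hs'
  simp only [ZMod.inv_one, map_one, one_mul] at horth
  have hsplit : ∑ χ : DirichletCharacter ℂ m, primeCharSum K χ s =
      ∑ χ ∈ trivChars H, primeCharSum K χ s + ∑ χ ∈ (trivChars H)ᶜ, primeCharSum K χ s :=
    (Finset.sum_add_sum_compl _ _).symm
  have hX : ∑ χ ∈ trivChars H, (primeCharSum K χ s - ((P1 K s : ℝ) : ℂ)) =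
      ∑ χ ∈ trivChars H, primeCharSum K χ s - nX * ((P1 K s : ℝ) : ℂ) := by
    rw [Finset.sum_sub_distrib, Finset.sum_const, nsmul_eq_mul, hnX]
    push_cast
    ring
  rw [hX]
  have : ∑ χ ∈ (trivChars H)ᶜ, primeCharSum K χ s =
      (m.totient : ℂ) * ((mass (classCoeff K (1 : ZMod m)) s : ℝ) : ℂ) -
        ∑ χ ∈ trivChars H, primeCharSum K χ s := by
    rw [← horth, hsplit]; ring
  rw [this]
  have hc : ((m.totient : ℝ) : ℂ) = ((nX * (Nat.card H : ℝ) : ℝ) : ℂ) := by rw [hcard]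
  push_cast at hc ⊢
  rw [hc]
  ring

/-- Steps 4-6: the product of the limits of the `L(s, χ ∘ N)`, `χ` nontrivial on `H`, is nonzero -/
theorem prod_limit_ne_zero (h1 : NormsIn K H)
    (h3 : (fun s : ℝ ↦ (Nat.card H : ℝ) * mass (classCoeff K (1 : ZMod m)) s + Real.log (s - 1))
      =O[𝓝[>] 1] (fun _ ↦ (1 : ℝ)))
    (ℓ : DirichletCharacter ℂ m → ℂ)
    (hℓ : ∀ χ ∈ (trivChars H)ᶜ, Tendsto (lfun K χ) (𝓝[>] 1) (𝓝 (ℓ χ))) :
    ∏ χ ∈ (trivChars H)ᶜ, ℓ χ ≠ 0 := by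
  classical
  -- the sum of the `logL` is bounded
  have hS := sum_primeCharSum_compl_isBigO K h1 h3
  have hL : (fun s : ℝ ↦ ∑ χ ∈ (trivChars H)ᶜ, logL K χ s) =O[𝓝[>] 1] (fun _ ↦ (1 : ℝ)) := by
    have hd : (fun s : ℝ ↦ ∑ χ ∈ (trivChars H)ᶜ, (logL K χ s - primeCharSum K χ s))
        =O[𝓝[>] 1] (fun _ ↦ (1 : ℝ)) := by
      refine IsBigO.fun_sum (A := fun (χ : DirichletCharacter ℂ m) (s : ℝ) ↦
        logL K χ s - primeCharSum K χ s) (g := fun _ ↦ (1 : ℝ)) fun χ _ ↦ ?_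
      refine IsBigO.of_bound (zetaR K 2 + highConst K) ?_
      filter_upwards [self_mem_nhdsWithin] with s hs
      rw [norm_one, mul_one]
      exact norm_logL_sub_primeCharSum_le K χ hs
    refine (hd.add hS).congr_left fun s ↦ ?_
    rw [← Finset.sum_add_distrib]
    exact Finset.sum_congr rfl fun χ _ ↦ by ring
  obtain ⟨B, hB⟩ := hL.bound
  -- lower bound for the product
  have hlow : ∀ᶠ s in 𝓝[>] (1 : ℝ), Real.exp (-B) ≤ ‖∏ χ ∈ (trivChars H)ᶜ, lfun K χ s‖ := by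
    filter_upwards [hB, self_mem_nhdsWithin] with s hs hs1
    have hs1' : (1 : ℝ) < s := hs1
    have e : ∏ χ ∈ (trivChars H)ᶜ, lfun K χ s =
        Complex.exp (∑ χ ∈ (trivChars H)ᶜ, logL K χ s) := by
      rw [Complex.exp_sum]
      exact Finset.prod_congr rfl fun χ _ ↦ lfun_eq_exp_logL K χ hs1'
    rw [e, Complex.norm_exp, Real.exp_le_exp]
    rw [norm_one, mul_one] at hs
    have := Complex.abs_re_le_norm (∑ χ ∈ (trivChars H)ᶜ, logL K χ s)
    have h2 := (abs_le.mp (this.trans hs)).1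
    linarith
  have hprod : Tendsto (fun s : ℝ ↦ ‖∏ χ ∈ (trivChars H)ᶜ, lfun K χ s‖) (𝓝[>] 1)
      (𝓝 ‖∏ χ ∈ (trivChars H)ᶜ, ℓ χ‖) :=
    (tendsto_finsetProd _ hℓ).norm
  have hge : Real.exp (-B) ≤ ‖∏ χ ∈ (trivChars H)ᶜ, ℓ χ‖ := ge_of_tendsto hprod hlow
  intro h0
  rw [h0, norm_zero] at hge
  exact absurd hge (not_le.mpr (Real.exp_pos _))

/-- Step 7: the prime sums of the characters nontrivial on `H` are bounded -/
theorem primeCharSum_isBigO_of_not_trivOn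
    (hC : ∀ χ : DirichletCharacter ℂ m, NormNontrivial K χ → CharSumBound K χ)
    (h1 : NormsIn K H)
    (h2 : ∀ χ : DirichletCharacter ℂ m, ¬ TrivOn H χ → NormNontrivial K χ)
    (h3 : (fun s : ℝ ↦ (Nat.card H : ℝ) * mass (classCoeff K (1 : ZMod m)) s + Real.log (s - 1))
      =O[𝓝[>] 1] (fun _ ↦ (1 : ℝ)))
    {χ₀ : DirichletCharacter ℂ m} (hχ₀ : ¬ TrivOn H χ₀) :
    (fun s : ℝ ↦ primeCharSum K χ₀ s) =O[𝓝[>] 1] (fun _ ↦ (1 : ℝ)) := by
  classical
  have hex : ∀ χ : DirichletCharacter ℂ m, ∃ ℓ : ℂ, χ ∈ (trivChars H)ᶜ →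
      Tendsto (lfun K χ) (𝓝[>] 1) (𝓝 ℓ) := by
    intro χ
    by_cases hχ : χ ∈ (trivChars H)ᶜ
    · have hχ' : ¬ TrivOn H χ := fun h ↦
        (Finset.mem_compl.mp hχ) ((mem_trivChars H).mpr h)
      obtain ⟨ℓ, hℓ⟩ := exists_tendsto_lfun K χ (hC χ (h2 χ hχ'))
      exact ⟨ℓ, fun _ ↦ hℓ⟩
    · exact ⟨0, fun h ↦ absurd h hχ⟩
  choose ℓ hℓ using hex
  have hne := prod_limit_ne_zero K h1 h3 ℓ fun χ hχ ↦ hℓ χ hχ
  have hmem : χ₀ ∈ (trivChars H)ᶜ :=
    Finset.mem_compl.mpr fun h ↦ hχ₀ ((mem_trivChars H).mp h)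
  have hℓ₀ : ℓ χ₀ ≠ 0 := (Finset.prod_ne_zero_iff.mp hne) χ₀ hmem
  have hlim : Tendsto (fun s ↦ Complex.exp (logL K χ₀ s)) (𝓝[>] 1) (𝓝 (ℓ χ₀)) := by
    refine (hℓ χ₀ hmem).congr' ?_
    filter_upwards [self_mem_nhdsWithin] with s hs
    exact lfun_eq_exp_logL K χ₀ hs
  obtain ⟨δ, hδ, B, hB⟩ := exists_bound_of_tendsto_exp hℓ₀ (continuousOn_logL K χ₀) hlim
  refine IsBigO.of_bound (B + (zetaR K 2 + highConst K)) ?_
  have hmemI : Set.Ioo (1 : ℝ) (1 + δ) ∈ 𝓝[>] (1 : ℝ) := Ioo_mem_nhdsGT (by linarith)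
  filter_upwards [hmemI] with s hs
  rw [norm_one, mul_one]
  have h4 := norm_logL_sub_primeCharSum_le K χ₀ hs.1
  have h5 := hB s hs
  calc ‖primeCharSum K χ₀ s‖ = ‖logL K χ₀ s - (logL K χ₀ s - primeCharSum K χ₀ s)‖ := by
        congr 1; ring
    _ ≤ ‖logL K χ₀ s‖ + ‖logL K χ₀ s - primeCharSum K χ₀ s‖ := norm_sub_le _ _
    _ ≤ B + (zetaR K 2 + highConst K) := add_le_add h5 h4

/-- **(CYC)** Dirichlet density of the degree-one primes in a class of `H` modulo `m`: if the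
norms of almost all degree-one primes lie in `H` (h1), `χ ∘ N` is nontrivial for every `χ`
nontrivial on `H` (h2), and the class of `1` has density `1/|H|` (h3), then so has every class
of `H`. -/
theorem classMass_isBigO
    (hC : ∀ χ : DirichletCharacter ℂ m, NormNontrivial K χ → CharSumBound K χ)
    (h1 : NormsIn K H)
    (h2 : ∀ χ : DirichletCharacter ℂ m, ¬ TrivOn H χ → NormNontrivial K χ)
    (h3 : (fun s : ℝ ↦ (Nat.card H : ℝ) * mass (classCoeff K (1 : ZMod m)) s + Real.log (s - 1))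
      =O[𝓝[>] 1] (fun _ ↦ (1 : ℝ)))
    {a : (ZMod m)ˣ} (ha : a ∈ H) :
    (fun s : ℝ ↦ (Nat.card H : ℝ) * mass (classCoeff K ((a : (ZMod m)ˣ) : ZMod m)) s +
      Real.log (s - 1)) =O[𝓝[>] 1] (fun _ ↦ (1 : ℝ)) := by
  classical
  set nX : ℝ := ((trivChars H).card : ℝ) with hnX
  have hnXpos : 0 < nX := by
    rw [hnX]; exact_mod_cast card_trivChars_pos H
  have hcard : nX * (Nat.card H : ℝ) = (m.totient : ℝ) := by
    rw [hnX]; exact_mod_cast card_trivChars_mul_card H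
  -- bounded pieces
  have b2 : (fun s : ℝ ↦ ((nX * (P1 K s + Real.log (s - 1)) : ℝ) : ℂ))
      =O[𝓝[>] 1] (fun _ ↦ (1 : ℝ)) := by
    have := (P1_add_log_isBigO K).const_mul_left nX
    refine IsBigO.trans (IsBigO.of_bound 1 (Eventually.of_forall fun s ↦ ?_)) this
    rw [Complex.norm_real, one_mul]
  have b3 : (fun s : ℝ ↦ ∑ χ ∈ trivChars H, (primeCharSum K χ s - ((P1 K s : ℝ) : ℂ)))
      =O[𝓝[>] 1] (fun _ ↦ (1 : ℝ)) :=
    IsBigO.fun_sum (A := fun (χ : DirichletCharacter ℂ m) (s : ℝ) ↦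
      primeCharSum K χ s - ((P1 K s : ℝ) : ℂ)) (g := fun _ ↦ (1 : ℝ))
      fun χ hχ ↦ primeCharSum_sub_P1_isBigO K h1 ((mem_trivChars H).mp hχ)
  have b4 : (fun s : ℝ ↦ ∑ χ ∈ (trivChars H)ᶜ,
      χ ((a : (ZMod m)ˣ) : ZMod m)⁻¹ * primeCharSum K χ s) =O[𝓝[>] 1] (fun _ ↦ (1 : ℝ)) := by
    refine IsBigO.fun_sum (A := fun (χ : DirichletCharacter ℂ m) (s : ℝ) ↦
      χ ((a : (ZMod m)ˣ) : ZMod m)⁻¹ * primeCharSum K χ s) (g := fun _ ↦ (1 : ℝ)) fun χ hχ ↦ ?_
    have hχ' : ¬ TrivOn H χ := fun h ↦ (Finset.mem_compl.mp hχ) ((mem_trivChars H).mpr h)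
    exact (primeCharSum_isBigO_of_not_trivOn K hC h1 h2 h3 hχ').const_mul_left _
  -- combine
  have hmain : (fun s : ℝ ↦ ((nX * ((Nat.card H : ℝ) *
      mass (classCoeff K ((a : (ZMod m)ˣ) : ZMod m)) s + Real.log (s - 1)) : ℝ) : ℂ))
      =O[𝓝[>] 1] (fun _ ↦ (1 : ℝ)) := by
    refine ((b2.add b3).add b4).congr' ?_ EventuallyEq.rfl
    filter_upwards [self_mem_nhdsWithin] with s hs
    have hs' : (1 : ℝ) < s := hs
    have horth := sum_char_inv_mul_primeCharSum K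
      (a := ((a : (ZMod m)ˣ) : ZMod m)) a.isUnit hs'
    rw [← Finset.sum_add_sum_compl (trivChars H)] at horth
    have hX : ∑ χ ∈ trivChars H, χ ((a : (ZMod m)ˣ) : ZMod m)⁻¹ * primeCharSum K χ s =
        ∑ χ ∈ trivChars H, primeCharSum K χ s := by
      refine Finset.sum_congr rfl fun χ hχ ↦ ?_
      rw [ZMod.inv_coe_unit, (mem_trivChars H).mp hχ _ (H.inv_mem ha), one_mul]
    rw [hX] at horth
    have hX2 : ∑ χ ∈ trivChars H, (primeCharSum K χ s - ((P1 K s : ℝ) : ℂ)) =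
        ∑ χ ∈ trivChars H, primeCharSum K χ s - nX * ((P1 K s : ℝ) : ℂ) := by
      rw [Finset.sum_sub_distrib, Finset.sum_const, nsmul_eq_mul, hnX]
      push_cast
      ring
    rw [hX2]
    have hc : ((m.totient : ℝ) : ℂ) = ((nX * (Nat.card H : ℝ) : ℝ) : ℂ) := by rw [hcard]
    push_cast at hc horth ⊢
    rw [hc] at horth
    linear_combination horth
  have hreal : (fun s : ℝ ↦ nX * ((Nat.card H : ℝ) *
      mass (classCoeff K ((a : (ZMod m)ˣ) : ZMod m)) s + Real.log (s - 1)))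
      =O[𝓝[>] 1] (fun _ ↦ (1 : ℝ)) := by
    refine IsBigO.trans (IsBigO.of_bound 1 (Eventually.of_forall fun s ↦ ?_)) hmain
    rw [Complex.norm_real, one_mul]
  refine (hreal.const_mul_left nX⁻¹).congr_left fun s ↦ ?_
  rw [← mul_assoc, inv_mul_cancel₀ hnXpos.ne', one_mul]

end main

end Fermat.Agent.Density
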