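import Fermat.Agent.Density.Main_helper4

/-!
# Frobenius density (S56 leaf (G)): Frobenius elements at unramified primes

* `zpowers_eq_stabilizer_of_frobenius`: an element of the decomposition group of an unramified
  prime `Q` inducing `x ↦ x ^ q` on the residue field generates the decomposition group.
* `eq_one_of_mem_inertia`: the inertia group of an unramified prime is trivial.
* `exists_prime_forall_stabilizer_conj`: the density theorem, for all primes above `q`.
-/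

open NumberField Pointwise MulAction

namespace Fermat.Agent.Density

variable {F : Type*} [Field F] [NumberField F] [IsGalois ℚ F]

/-- iterating the Frobenius congruence -/
theorem pow_smul_sub_pow_mem {q : ℕ} {Q : Ideal (𝓞 F)} (g : Gal(F/ℚ))
    (hg : g • Q = Q) (hfrob : ∀ x : 𝓞 F, g • x - x ^ q ∈ Q) (k : ℕ) (x : 𝓞 F) :
    g ^ k • x - x ^ (q ^ k) ∈ Q := by
  induction k generalizing x with
  | zero => simp
  | succ k ih =>
    have h1 : g • (g ^ k • x - x ^ (q ^ k)) ∈ Q := by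
      rw [← hg]
      exact Ideal.smul_mem_pointwise_smul _ _ _ (ih x)
    have h2 := hfrob (x ^ (q ^ k))
    have e : g ^ (k + 1) • x - x ^ (q ^ (k + 1)) =
        g • (g ^ k • x - x ^ (q ^ k)) + (g • (x ^ (q ^ k)) - (x ^ (q ^ k)) ^ q) := by
      rw [pow_succ', mul_smul, smul_sub, pow_succ, pow_mul]
      ring
    rw [e]
    exact Q.add_mem h1 h2

/-- a Frobenius element at an unramified prime generates the decomposition group -/
theorem zpowers_eq_stabilizer_of_frobenius {q : ℕ} (hq : q.Prime) (hunr : Unram F q)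
    {Q : Ideal (𝓞 F)} (hQ : Q ∈ (pZ q).primesOver (𝓞 F)) (g : Gal(F/ℚ))
    (hg : g • Q = Q) (hfrob : ∀ x : 𝓞 F, g • x - x ^ q ∈ Q) :
    Subgroup.zpowers g = stabilizer Gal(F/ℚ) Q := by
  have : Q.IsPrime := hQ.1
  have : Q.LiesOver (pZ q) := hQ.2
  have hQ0 : Q ≠ ⊥ := ne_bot_of_mem_primesOver hq hQ
  have hle : Subgroup.zpowers g ≤ stabilizer Gal(F/ℚ) Q := by
    rw [Subgroup.zpowers_le]
    exact hg
  refine Subgroup.eq_of_le_of_card_ge hle ?_
  rw [Nat.card_zpowers, card_stabilizer_of_unram hq hunr hQ, ← inertiaDeg_eq_inertiaDegIn hq hQ]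
  set m := orderOf g with hm
  have hm0 : 0 < m := orderOf_pos g
  -- every element of the residue field is fixed by the `q^m`-power map
  have hfix : ∀ x : 𝓞 F, x ^ (q ^ m) - x ∈ Q := by
    intro x
    have h := pow_smul_sub_pow_mem g hg hfrob m x
    rw [hm, pow_orderOf_eq_one, one_smul] at h
    have := Q.neg_mem h
    rwa [neg_sub] at this
  have : Q.IsMaximal := Ideal.IsPrime.isMaximal inferInstance hQ0
  let _ : Field (𝓞 F ⧸ Q) := Ideal.Quotient.field Q
  have : Finite (𝓞 F ⧸ Q) := Ideal.finiteQuotientOfFreeOfNeBot Q hQ0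
  have : Fintype (𝓞 F ⧸ Q) := Fintype.ofFinite _
  have hcard : Nat.card (𝓞 F ⧸ Q) = q ^ Q.inertiaDeg ℤ := by
    have h4 := Ideal.pow_inertiaDeg q Q
    rw [h4]
    rfl
  -- count the roots of `X^(q^m) - X`
  have hq1 : 1 < q ^ m := Nat.one_lt_pow hm0.ne' hq.one_lt
  have hroots : Nat.card (𝓞 F ⧸ Q) ≤ q ^ m := by
    classical
    let P : Polynomial (𝓞 F ⧸ Q) := Polynomial.X ^ (q ^ m) - Polynomial.X
    have hP : P ≠ 0 := FiniteField.X_pow_card_sub_X_ne_zero _ hq1
    have hdeg : P.natDegree = q ^ m := FiniteField.X_pow_card_sub_X_natDegree_eq _ hq1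
    have hall : ∀ y : 𝓞 F ⧸ Q, y ∈ P.roots.toFinset := by
      intro y
      obtain ⟨x, rfl⟩ := Ideal.Quotient.mk_surjective y
      rw [Multiset.mem_toFinset, Polynomial.mem_roots hP]
      simp only [P, Polynomial.IsRoot.def, Polynomial.eval_sub, Polynomial.eval_pow,
        Polynomial.eval_X]
      rw [← map_pow, ← map_sub]
      exact Ideal.Quotient.eq_zero_iff_mem.mpr (hfix x)
    calc Nat.card (𝓞 F ⧸ Q) = Fintype.card (𝓞 F ⧸ Q) := Nat.card_eq_fintype_card
      _ = (Finset.univ : Finset (𝓞 F ⧸ Q)).card := rfl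
      _ ≤ P.roots.toFinset.card := Finset.card_le_card fun y _ ↦ hall y
      _ ≤ Multiset.card P.roots := Multiset.toFinset_card_le _
      _ ≤ P.natDegree := Polynomial.card_roots' P
      _ = q ^ m := hdeg
  rw [hcard] at hroots
  exact (Nat.pow_le_pow_iff_right hq.one_lt).mp hroots

/-- at an unramified prime the inertia group is trivial -/
theorem eq_one_of_mem_inertia {q : ℕ} (hq : q.Prime) (hunr : Unram F q)
    {Q : Ideal (𝓞 F)} (hQ : Q ∈ (pZ q).primesOver (𝓞 F)) (g : Gal(F/ℚ))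
    (hg : ∀ x : 𝓞 F, g • x - x ∈ Q) : g = 1 := by
  have : (pZ q).IsPrime := pZ_isPrime hq
  have : Q.IsPrime := hQ.1
  have : Q.LiesOver (pZ q) := hQ.2
  have : (pZ q).IsMaximal := (pZ_isPrime hq).isMaximal (pZ_ne_bot hq)
  have : Finite (ℤ ⧸ pZ q) := Ideal.finiteQuotientOfFreeOfNeBot _ (pZ_ne_bot hq)
  have h1 : Nat.card (Q.toAddSubgroup.inertia Gal(F/ℚ)) = 1 := by
    rw [Ideal.card_inertia_eq_ramificationIdxIn (G := Gal(F/ℚ)) (pZ q) Q,
      Ideal.ramificationIdxIn_eq_ramificationIdx (pZ q) Q Gal(F/ℚ), hunr Q hQ]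
  have h2 : Q.toAddSubgroup.inertia Gal(F/ℚ) = ⊥ := Subgroup.card_eq_one.mp h1
  have h3 : g ∈ Q.toAddSubgroup.inertia Gal(F/ℚ) := hg
  rw [h2, Subgroup.mem_bot] at h3
  exact h3

/-- **Frobenius density, conjugacy form**: all primes `Q'` above the prime `q` produced by the
density theorem have decomposition group conjugate to `⟨σ⟩`. -/
theorem exists_prime_forall_stabilizer_conj (σ : Gal(F/ℚ)) (T : Finset ℕ) :
    ∃ q : ℕ, q.Prime ∧ q ∉ T ∧ Unram F q ∧
      ∀ Q ∈ (pZ q).primesOver (𝓞 F), ∃ τ : Gal(F/ℚ),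
        stabilizer Gal(F/ℚ) Q = Subgroup.zpowers (τ * σ * τ⁻¹) := by
  obtain ⟨q, hq, hqT, hunr, Q₀, hQ₀, hstab⟩ := exists_prime_stabilizer_eq_zpowers σ T
  refine ⟨q, hq, hqT, hunr, fun Q hQ ↦ ?_⟩
  have : (pZ q).IsPrime := pZ_isPrime hq
  have : Q.IsPrime := hQ.1
  have : Q.LiesOver (pZ q) := hQ.2
  have : Q₀.IsPrime := hQ₀.1
  have : Q₀.LiesOver (pZ q) := hQ₀.2
  obtain ⟨τ, rfl⟩ := Ideal.exists_smul_eq_of_isGaloisGroup (pZ q) Q₀ Q Gal(F/ℚ)
  refine ⟨τ, ?_⟩
  rw [MulAction.stabilizer_smul_eq_stabilizer_map_conj, hstab, MonoidHom.map_zpowers]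
  rfl

end Fermat.Agent.Density
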