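/-
[CHEBD] (CORE), helper4: Frobenius elements in a finite Galois extension `F/ℚ` containing the
`m`-th roots of unity; for `g` generating a cyclic subgroup which meets the kernel of the
cyclotomic character trivially, the primes `Q` with Frobenius element exactly `g` have
Dirichlet density `1/orderOf g` (exact `O(1)` form).
-/
import Fermat.Agent.Density.Frob_helper4
import Fermat.Agent.Density.CHEBD_helper4_Cyc

set_option linter.unusedSectionVars false

open NumberField Pointwise MulAction Filter Topology Asymptotics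

namespace Fermat.Agent.Density

variable {F : Type*} [Field F] [NumberField F] [IsGalois ℚ F]

/-! ### Frobenius elements -/

/-- `σ` is a Frobenius element at the prime `Q` above `q` -/
def IsFrobAt (σ : Gal(F/ℚ)) (Q : Ideal (𝓞 F)) (q : ℕ) : Prop :=
  ∀ x : 𝓞 F, σ • x - x ^ q ∈ Q

theorem card_quot_under {q : ℕ} (_hq : q.Prime) {Q : Ideal (𝓞 F)}
    (hQ : Q ∈ (pZ q).primesOver (𝓞 F)) : Nat.card (ℤ ⧸ Q.under ℤ) = q := by
  have : Q.LiesOver (pZ q) := hQ.2
  rw [← Ideal.LiesOver.over (p := pZ q) (P := Q)]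
  have h := Ideal.absNorm_apply (pZ q)
  rw [Submodule.cardQuot_apply] at h
  rw [← h, Ideal.absNorm_span_singleton]
  simp

theorem isFrobAt_iff_isArithFrobAt {q : ℕ} (hq : q.Prime) {Q : Ideal (𝓞 F)}
    (hQ : Q ∈ (pZ q).primesOver (𝓞 F)) (σ : Gal(F/ℚ)) :
    IsFrobAt σ Q q ↔ IsArithFrobAt ℤ σ Q := by
  unfold IsFrobAt IsArithFrobAt AlgHom.IsArithFrobAt
  rw [card_quot_under hq hQ]
  rfl

theorem exists_isFrobAt {q : ℕ} (hq : q.Prime) {Q : Ideal (𝓞 F)}
    (hQ : Q ∈ (pZ q).primesOver (𝓞 F)) : ∃ σ : Gal(F/ℚ), IsFrobAt σ Q q := by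
  have : Q.IsPrime := hQ.1
  have : Finite (𝓞 F ⧸ Q) := Ideal.finiteQuotientOfFreeOfNeBot Q (ne_bot_of_mem_primesOver hq hQ)
  obtain ⟨σ, hσ⟩ := IsArithFrobAt.exists_of_isInvariant ℤ Gal(F/ℚ) Q
  exact ⟨σ, (isFrobAt_iff_isArithFrobAt hq hQ σ).mpr hσ⟩

theorem IsFrobAt.smul_eq {q : ℕ} (hq : q.Prime) {Q : Ideal (𝓞 F)}
    (hQ : Q ∈ (pZ q).primesOver (𝓞 F)) {σ : Gal(F/ℚ)} (h : IsFrobAt σ Q q) : σ • Q = Q := by
  have : Q.IsPrime := hQ.1
  exact ((isFrobAt_iff_isArithFrobAt hq hQ σ).mp h).mem_stabilizer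

theorem IsFrobAt.zpowers_eq {q : ℕ} (hq : q.Prime) (hunr : Unram F q) {Q : Ideal (𝓞 F)}
    (hQ : Q ∈ (pZ q).primesOver (𝓞 F)) {σ : Gal(F/ℚ)} (h : IsFrobAt σ Q q) :
    Subgroup.zpowers σ = stabilizer Gal(F/ℚ) Q :=
  zpowers_eq_stabilizer_of_frobenius hq hunr hQ σ (h.smul_eq hq hQ) h

theorem IsFrobAt.unique {q : ℕ} (hq : q.Prime) (hunr : Unram F q) {Q : Ideal (𝓞 F)}
    (hQ : Q ∈ (pZ q).primesOver (𝓞 F)) {σ σ' : Gal(F/ℚ)} (h : IsFrobAt σ Q q)
    (h' : IsFrobAt σ' Q q) : σ = σ' := by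
  have hs' := h'.smul_eq hq hQ
  have h1 : ∀ x : 𝓞 F, (σ'⁻¹ * σ) • x - x ∈ Q := by
    intro x
    have e : (σ'⁻¹ * σ) • x - x = σ'⁻¹ • ((σ • x - x ^ q) - (σ' • x - x ^ q)) := by
      rw [mul_smul, sub_sub_sub_cancel_right, smul_sub, inv_smul_smul]
    rw [e]
    have hmem : (σ • x - x ^ q) - (σ' • x - x ^ q) ∈ Q := Q.sub_mem (h x) (h' x)
    have : σ'⁻¹ • Q = Q := by
      conv_lhs => rw [← hs']
      rw [inv_smul_smul]
    rw [← this]
    exact Ideal.smul_mem_pointwise_smul _ _ _ hmem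
  have := eq_one_of_mem_inertia hq hunr hQ (σ'⁻¹ * σ) h1
  exact (inv_mul_eq_one.mp this).symm

theorem IsFrobAt.conj {q : ℕ} {Q : Ideal (𝓞 F)} {σ : Gal(F/ℚ)} (h : IsFrobAt σ Q q)
    (τ : Gal(F/ℚ)) : IsFrobAt (τ * σ * τ⁻¹) (τ • Q) q := by
  intro x
  have e : (τ * σ * τ⁻¹) • x - x ^ q = τ • (σ • (τ⁻¹ • x) - (τ⁻¹ • x) ^ q) := by
    rw [mul_smul, mul_smul, smul_sub, smul_pow', smul_inv_smul]
  rw [e]
  exact Ideal.smul_mem_pointwise_smul _ _ _ (h _)

/-! ### The cyclotomic character at Frobenius elements -/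

section cyclo

variable {m : ℕ} [NeZero m] {ζ : F} (hζ : IsPrimitiveRoot ζ m)

theorem natCast_notMem_of_not_dvd {q : ℕ} (_hq : q.Prime) {Q : Ideal (𝓞 F)}
    (hQ : Q ∈ (pZ q).primesOver (𝓞 F)) {n : ℕ} (hn : ¬ q ∣ n) : ((n : ℕ) : 𝓞 F) ∉ Q := by
  intro h
  have : Q.LiesOver (pZ q) := hQ.2
  have h1 : ((n : ℕ) : ℤ) ∈ Q.under ℤ := by
    rw [Ideal.under, Ideal.mem_comap]
    simpa using h
  rw [← Ideal.LiesOver.over (p := pZ q) (P := Q), Ideal.mem_span_singleton] at h1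
  exact hn (by exact_mod_cast h1)

/-- the cyclotomic character of a Frobenius element at a prime above `q ∤ m` is `q mod m` -/
theorem IsFrobAt.autToPow_eq {q : ℕ} (hq : q.Prime) (hqm : ¬ q ∣ m) {Q : Ideal (𝓞 F)}
    (hQ : Q ∈ (pZ q).primesOver (𝓞 F)) {σ : Gal(F/ℚ)} (h : IsFrobAt σ Q q) :
    ((hζ.autToPow ℚ σ : (ZMod m)ˣ) : ZMod m) = ((q : ℕ) : ZMod m) := by
  have hm0 : m ≠ 0 := NeZero.ne m
  have hA := (isFrobAt_iff_isArithFrobAt hq hQ σ).mp h
  have hζ' : IsPrimitiveRoot hζ.toInteger m := hζ.toInteger_isPrimitiveRoot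
  have h1 := AlgHom.IsArithFrobAt.apply_of_pow_eq_one hA hζ'.pow_eq_one
    (natCast_notMem_of_not_dvd hq hQ hqm)
  rw [card_quot_under hq hQ] at h1
  -- in `F`
  have h2 : σ ζ = ζ ^ q := by
    have := congrArg (fun x : 𝓞 F ↦ (x : F)) h1
    exact this
  have h3 := hζ.autToPow_spec ℚ σ
  rw [h2] at h3
  have hmod : ζ ^ q = ζ ^ (q % m) := by
    conv_lhs => rw [← Nat.div_add_mod q m, pow_add, pow_mul, hζ.pow_eq_one, one_pow, one_mul]
  have h4 := (hζ.pow_inj (ZMod.val_lt _) (Nat.mod_lt q (Nat.pos_of_ne_zero hm0))) (by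
    rw [h3, hmod] : ζ ^ ((hζ.autToPow ℚ σ : (ZMod m)ˣ) : ZMod m).val = ζ ^ (q % m))
  rw [← ZMod.natCast_zmod_val ((hζ.autToPow ℚ σ : (ZMod m)ˣ) : ZMod m), h4, ZMod.natCast_mod]

end cyclo

/-! ### Counting the primes with a given Frobenius element -/

open Classical in
/-- the primes of `F` above `q` with Frobenius element `σ` -/
noncomputable def frobSet (σ : Gal(F/ℚ)) (q : ℕ) : Finset (Ideal (𝓞 F)) :=
  (Algebra.QuasiFinite.finite_primesOver (S := 𝓞 F) (pZ q)).toFinset.filter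
    (fun Q ↦ IsFrobAt σ Q q)

theorem mem_frobSet {σ : Gal(F/ℚ)} {q : ℕ} {Q : Ideal (𝓞 F)} :
    Q ∈ frobSet σ q ↔ Q ∈ (pZ q).primesOver (𝓞 F) ∧ IsFrobAt σ Q q := by
  classical
  simp [frobSet]

open Classical in
/-- the number of primes above `q` with Frobenius element `σ`, for `q` unramified -/
noncomputable def frobCount (σ : Gal(F/ℚ)) (q : ℕ) : ℝ :=
  if Unram F q then ((frobSet σ q).card : ℝ) else 0

theorem frobCount_nonneg (σ : Gal(F/ℚ)) (q : ℕ) : 0 ≤ frobCount σ q := by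
  unfold frobCount
  split_ifs
  · positivity
  · exact le_rfl

theorem card_frobSet_le (σ : Gal(F/ℚ)) {q : ℕ} (hq : q.Prime) :
    (frobSet σ q).card ≤ Nat.card Gal(F/ℚ) := by
  classical
  refine le_trans (Finset.card_le_card ?_) (card_decompIn_le (⊤ : Subgroup Gal(F/ℚ)) hq)
  intro Q hQ
  rw [mem_decompIn]
  exact ⟨(mem_frobSet.mp hQ).1, le_top⟩

theorem abs_frobCount_le (σ : Gal(F/ℚ)) (q : Nat.Primes) :
    |frobCount σ q| ≤ (Nat.card Gal(F/ℚ) : ℝ) := by
  rw [abs_of_nonneg (frobCount_nonneg σ q)]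
  unfold frobCount
  split_ifs
  · exact_mod_cast card_frobSet_le σ q.2
  · positivity

theorem summable_frobCount (σ : Gal(F/ℚ)) {s : ℝ} (hs : 1 < s) :
    Summable fun q : Nat.Primes ↦ frobCount σ q * (((q : ℕ) : ℝ) ^ s)⁻¹ :=
  summable_mass_of_bdd (abs_frobCount_le σ) hs

section core

variable {m : ℕ} [NeZero m] {ζ : F} (hζ : IsPrimitiveRoot ζ m) (g : Gal(F/ℚ))

/-- the exceptional primes -/
noncomputable def coreBad (F : Type*) [Field F] [NumberField F] (m : ℕ) : Finset ℕ :=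
  badPrimes F ∪ m.primeFactors

omit [IsGalois ℚ F] in
theorem unram_of_not_mem_coreBad {q : ℕ} (hq : q.Prime) (h : q ∉ coreBad F m) : Unram F q :=
  unram_of_not_mem_badPrimes hq fun h' ↦ h (Finset.mem_union_left _ h')

omit [IsGalois ℚ F] in
theorem not_dvd_of_not_mem_coreBad {q : ℕ} (hq : q.Prime) (h : q ∉ coreBad F m) : ¬ q ∣ m := by
  intro hd
  exact h (Finset.mem_union_right _ (Nat.mem_primeFactors.mpr ⟨hq, hd, NeZero.ne m⟩))

/-- a prime with decomposition group inside `Γ` has its Frobenius element in `Γ` -/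
theorem exists_isFrobAt_mem {Γ : Subgroup Gal(F/ℚ)} {q : ℕ} (hq : q.Prime) (hunr : Unram F q)
    {Q : Ideal (𝓞 F)} (hQ : Q ∈ decompIn Γ q) : ∃ σ ∈ Γ, IsFrobAt σ Q q := by
  obtain ⟨hQ1, hQ2⟩ := (mem_decompIn Γ).mp hQ
  obtain ⟨σ, hσ⟩ := exists_isFrobAt hq hQ1
  refine ⟨σ, hQ2 ?_, hσ⟩
  rw [← hσ.zpowers_eq hq hunr hQ1]
  exact Subgroup.mem_zpowers σ

/-- for `q ≡ cyc g`, the primes with decomposition group in `⟨g⟩` are those with Frobenius `g` -/
theorem decompIn_zpowers_eq_frobSet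
    (hinj : ∀ γ ∈ Subgroup.zpowers g, hζ.autToPow ℚ γ = 1 → γ = 1)
    {q : ℕ} (hq : q.Prime) (hbad : q ∉ coreBad F m)
    (hqg : ((hζ.autToPow ℚ g : (ZMod m)ˣ) : ZMod m) = ((q : ℕ) : ZMod m)) :
    decompIn (Subgroup.zpowers g) q = frobSet g q := by
  have hunr := unram_of_not_mem_coreBad hq hbad
  have hqm := not_dvd_of_not_mem_coreBad hq hbad
  ext Q
  rw [mem_frobSet]
  constructor
  · intro hQ
    obtain ⟨σ, hσΓ, hσ⟩ := exists_isFrobAt_mem hq hunr hQ
    have hQ1 := ((mem_decompIn _).mp hQ).1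
    refine ⟨hQ1, ?_⟩
    have h1 := hσ.autToPow_eq hζ hq hqm hQ1
    have h2 : hζ.autToPow ℚ (σ * g⁻¹) = 1 := by
      rw [map_mul, map_inv, mul_inv_eq_one]
      exact Units.ext (h1.trans hqg.symm)
    have h3 := hinj (σ * g⁻¹) (Subgroup.mul_mem _ hσΓ (Subgroup.inv_mem _ (Subgroup.mem_zpowers g))) h2
    rw [mul_inv_eq_one] at h3
    rwa [← h3]
  · rintro ⟨hQ1, hσ⟩
    rw [mem_decompIn]
    exact ⟨hQ1, (hσ.zpowers_eq hq hunr hQ1).ge⟩

/-- primes with Frobenius `g` only exist above `q ≡ cyc g` -/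
theorem frobSet_eq_empty {q : ℕ} (hq : q.Prime) (hbad : q ∉ coreBad F m)
    (hqg : ((hζ.autToPow ℚ g : (ZMod m)ˣ) : ZMod m) ≠ ((q : ℕ) : ZMod m)) :
    frobSet g q = ∅ := by
  rw [Finset.eq_empty_iff_forall_notMem]
  intro Q hQ
  obtain ⟨hQ1, hσ⟩ := mem_frobSet.mp hQ
  exact hqg (hσ.autToPow_eq hζ hq (not_dvd_of_not_mem_coreBad hq hbad) hQ1)

/-- **Lemma B**: outside the exceptional primes, `frobCount g q` is the number of degree-one
primes of the fixed field of `⟨g⟩` above `q`, if `q ≡ cyc g`, and `0` otherwise. -/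
theorem frobCount_eq_classCoeff
    (hinj : ∀ γ ∈ Subgroup.zpowers g, hζ.autToPow ℚ γ = 1 → γ = 1)
    {q : ℕ} (hq : q.Prime) (hbad : q ∉ coreBad F m) :
    frobCount g q = classCoeff (fixedF F (Subgroup.zpowers g))
      ((hζ.autToPow ℚ g : (ZMod m)ˣ) : ZMod m) q := by
  classical
  have hunr := unram_of_not_mem_coreBad hq hbad
  unfold frobCount classCoeff
  rw [if_pos hunr]
  by_cases hqg : ((q : ℕ) : ZMod m) = ((hζ.autToPow ℚ g : (ZMod m)ˣ) : ZMod m)
  · rw [if_pos hqg]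
    have hcount := idealCount_mul_card (Subgroup.zpowers g) hq hunr
    rw [decompIn_zpowers_eq_frobSet hζ g hinj hq hbad hqg.symm] at hcount
    rcases (frobSet g q).eq_empty_or_nonempty with hemp | ⟨Q, hQ⟩
    · rw [hemp, Finset.card_empty, zero_mul] at hcount
      have h0 : idealCount (fixedF F (Subgroup.zpowers g)) q = 0 := by
        rcases Nat.mul_eq_zero.mp hcount with h | h
        · exact h
        · exact absurd h (Nat.card_pos).ne'
      rw [hemp, h0]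
      simp
    · obtain ⟨hQ1, hσ⟩ := mem_frobSet.mp hQ
      have hf : (pZ q).inertiaDegIn (𝓞 F) = Nat.card (Subgroup.zpowers g) := by
        rw [← card_stabilizer_of_unram hq hunr hQ1, ← hσ.zpowers_eq hq hunr hQ1]
      rw [hf] at hcount
      have := Nat.eq_of_mul_eq_mul_right Nat.card_pos hcount
      rw [this]
  · rw [if_neg hqg, frobSet_eq_empty hζ g hq hbad (Ne.symm hqg)]
    simp

/-- **Lemma C**: outside the exceptional primes, `|⟨g⟩| · #{degree-one primes of the fixed field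
above q ≡ 1}` is the number of primes of `F` above a completely split `q`. -/
theorem card_mul_classCoeff_one_eq_cdens
    (hinj : ∀ γ ∈ Subgroup.zpowers g, hζ.autToPow ℚ γ = 1 → γ = 1)
    {q : ℕ} (hq : q.Prime) (hbad : q ∉ coreBad F m) :
    (Nat.card (Subgroup.zpowers g) : ℝ) *
      classCoeff (fixedF F (Subgroup.zpowers g)) (1 : ZMod m) q =
        cdens (1 : Gal(F/ℚ)) 1 q := by
  classical
  have hunr := unram_of_not_mem_coreBad hq hbad
  have hqm := not_dvd_of_not_mem_coreBad hq hbad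
  have hz1 : Subgroup.zpowers (1 : Gal(F/ℚ)) = ⊥ := Subgroup.zpowers_one_eq_bot
  -- Claim 1
  have c1 : ∀ Q ∈ decompIn (Subgroup.zpowers (1 : Gal(F/ℚ))) q, ((q : ℕ) : ZMod m) = 1 := by
    intro Q hQ
    obtain ⟨σ, hσΓ, hσ⟩ := exists_isFrobAt_mem hq hunr hQ
    have hQ1 := ((mem_decompIn _).mp hQ).1
    rw [hz1, Subgroup.mem_bot] at hσΓ
    have h1 := hσ.autToPow_eq hζ hq hqm hQ1
    rw [hσΓ, map_one] at h1
    rw [← h1]; rfl
  -- Claim 2
  have c2 : ((q : ℕ) : ZMod m) = 1 → ∀ Q ∈ decompIn (Subgroup.zpowers g) q,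
      stabilizer Gal(F/ℚ) Q = ⊥ := by
    intro hq1 Q hQ
    obtain ⟨σ, hσΓ, hσ⟩ := exists_isFrobAt_mem hq hunr hQ
    have hQ1 := ((mem_decompIn _).mp hQ).1
    have h1 := hσ.autToPow_eq hζ hq hqm hQ1
    rw [hq1] at h1
    have h2 : hζ.autToPow ℚ σ = 1 := Units.ext h1
    have h3 := hinj σ hσΓ h2
    rw [← hσ.zpowers_eq hq hunr hQ1, h3, hz1]
  have hcount := idealCount_mul_card (Subgroup.zpowers g) hq hunr
  have hsub : decompIn (Subgroup.zpowers (1 : Gal(F/ℚ))) q ⊆ decompIn (Subgroup.zpowers g) q := by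
    intro Q hQ
    rw [mem_decompIn] at hQ ⊢
    exact ⟨hQ.1, hQ.2.trans (by rw [hz1]; exact bot_le)⟩
  unfold classCoeff cdens
  by_cases hq1 : ((q : ℕ) : ZMod m) = 1
  · rw [if_pos hq1]
    rcases (decompIn (Subgroup.zpowers g) q).eq_empty_or_nonempty with hemp | ⟨Q, hQ⟩
    · have h0 : idealCount (fixedF F (Subgroup.zpowers g)) q = 0 := by
        rw [hemp, Finset.card_empty, zero_mul] at hcount
        rcases Nat.mul_eq_zero.mp hcount with h | h
        · exact h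
        · exact absurd h (Nat.card_pos).ne'
      have h1 : decompIn (Subgroup.zpowers (1 : Gal(F/ℚ))) q = ∅ :=
        Finset.subset_empty.mp (hemp ▸ hsub)
      rw [h0, h1]
      simp
    · have hQ1 := ((mem_decompIn _).mp hQ).1
      have hf : (pZ q).inertiaDegIn (𝓞 F) = 1 := by
        rw [← card_stabilizer_of_unram hq hunr hQ1, c2 hq1 Q hQ]
        exact Subgroup.card_bot
      have heq : decompIn (Subgroup.zpowers (1 : Gal(F/ℚ))) q =
          decompIn (Subgroup.zpowers g) q := by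
        refine Finset.Subset.antisymm hsub fun Q' hQ' ↦ ?_
        rw [mem_decompIn]
        exact ⟨((mem_decompIn _).mp hQ').1, by rw [c2 hq1 Q' hQ']; exact bot_le⟩
      rw [if_pos ⟨hunr, hf⟩, heq]
      rw [hf, mul_one] at hcount
      rw [← hcount]
      push_cast
      ring
  · rw [if_neg hq1, mul_zero]
    have h1 : decompIn (Subgroup.zpowers (1 : Gal(F/ℚ))) q = ∅ := by
      rw [Finset.eq_empty_iff_forall_notMem]
      intro Q hQ
      exact hq1 (c1 Q hQ)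
    rw [h1]
    simp

/-- the image of `⟨g⟩` under the cyclotomic character -/
noncomputable abbrev cycImage : Subgroup (ZMod m)ˣ := (Subgroup.zpowers g).map (hζ.autToPow ℚ)

theorem card_cycImage (hinj : ∀ γ ∈ Subgroup.zpowers g, hζ.autToPow ℚ γ = 1 → γ = 1) :
    Nat.card (cycImage hζ g) = orderOf g := by
  have hinj' : Function.Injective ((hζ.autToPow ℚ).domRestrict (Subgroup.zpowers g)) := by
    rw [injective_iff_map_eq_one]
    intro γ hγ
    exact Subtype.ext (hinj γ.1 γ.2 hγ)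
  rw [← Nat.card_zpowers, cycImage, ← MonoidHom.domRestrict_range]
  exact (Nat.card_congr (MonoidHom.ofInjective hinj').toEquiv).symm

/-- (h1) for the fixed field of `⟨g⟩` -/
theorem normsIn_fixedF : NormsIn (fixedF F (Subgroup.zpowers g)) (cycImage hζ g) := by
  classical
  refine ⟨coreBad F m, fun q hq hbad h0 ↦ ?_⟩
  have hunr := unram_of_not_mem_coreBad hq hbad
  have hqm := not_dvd_of_not_mem_coreBad hq hbad
  have hcount := idealCount_mul_card (Subgroup.zpowers g) hq hunr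
  have hne : (decompIn (Subgroup.zpowers g) q).Nonempty := by
    rw [Finset.nonempty_iff_ne_empty]
    intro hemp
    rw [hemp, Finset.card_empty, zero_mul] at hcount
    rcases Nat.mul_eq_zero.mp hcount with h | h
    · exact h0 h
    · exact absurd h (Nat.card_pos).ne'
  obtain ⟨Q, hQ⟩ := hne
  obtain ⟨σ, hσΓ, hσ⟩ := exists_isFrobAt_mem hq hunr hQ
  have hQ1 := ((mem_decompIn _).mp hQ).1
  exact ⟨hζ.autToPow ℚ σ, Subgroup.mem_map_of_mem _ hσΓ, hσ.autToPow_eq hζ hq hqm hQ1⟩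

/-- (h2) for the fixed field of `⟨g⟩` -/
theorem normNontrivial_fixedF {χ : DirichletCharacter ℂ m} (hχ : ¬ TrivOn (cycImage hζ g) χ) :
    NormNontrivial (fixedF F (Subgroup.zpowers g)) χ := by
  classical
  unfold TrivOn at hχ
  push Not at hχ
  obtain ⟨a, ha, hχa⟩ := hχ
  obtain ⟨γ, hγ, rfl⟩ := Subgroup.mem_map.mp ha
  obtain ⟨q, hq, hbad, hunr, Q, hQ1, hstab⟩ := exists_prime_stabilizer_eq_zpowers g (coreBad F m)
  have hqm := not_dvd_of_not_mem_coreBad hq hbad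
  obtain ⟨σ, hσ⟩ := exists_isFrobAt hq hQ1
  have hzp : Subgroup.zpowers σ = Subgroup.zpowers g := (hσ.zpowers_eq hq hunr hQ1).trans hstab
  have hγσ : γ ∈ Subgroup.zpowers σ := hzp ▸ hγ
  obtain ⟨k, rfl⟩ := Subgroup.mem_zpowers_iff.mp hγσ
  have hcσ := hσ.autToPow_eq hζ hq hqm hQ1
  -- `χ (cyc σ) ≠ 1`
  have h1 : χ ((hζ.autToPow ℚ σ : (ZMod m)ˣ) : ZMod m) ≠ 1 := by
    intro h
    apply hχa
    have h2 : MulChar.toUnitHom χ (hζ.autToPow ℚ σ) = 1 := by
      ext; rw [MulChar.coe_toUnitHom, h]; rfl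
    have h3 : MulChar.toUnitHom χ (hζ.autToPow ℚ (σ ^ k)) = 1 := by
      rw [map_zpow, map_zpow, h2, one_zpow]
    rw [← MulChar.coe_toUnitHom, h3]; rfl
  have h0 : χ ((hζ.autToPow ℚ σ : (ZMod m)ˣ) : ZMod m) ≠ 0 := by
    rw [← MulChar.coe_toUnitHom]
    exact Units.ne_zero _
  have hQd : Q ∈ decompIn (Subgroup.zpowers g) q := by
    rw [mem_decompIn]; exact ⟨hQ1, hstab.le⟩
  have hP := under_mem_degOnePrimes (Subgroup.zpowers g) hq hQd
  obtain ⟨hP1, -, hP3⟩ := mem_degOnePrimes.mp hP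
  have hN : Ideal.absNorm (Q.under (𝓞 (fixedF F (Subgroup.zpowers g)))) = q := by
    have : (Q.under (𝓞 (fixedF F (Subgroup.zpowers g)))).IsPrime := hP1.1
    have : (Q.under (𝓞 (fixedF F (Subgroup.zpowers g)))).LiesOver (pZ q) := hP1.2
    have h4 := Ideal.pow_inertiaDeg q (Q.under (𝓞 (fixedF F (Subgroup.zpowers g))))
    rw [hP3, pow_one] at h4
    exact h4.symm
  refine ⟨Q.under (𝓞 (fixedF F (Subgroup.zpowers g))), ?_, ?_⟩
  · rw [hN, ← hcσ]; exact h0
  · rw [hN, ← hcσ]; exact h1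

/-- **(CORE)** If `⟨g⟩` meets the kernel of the cyclotomic character mod `m` trivially, the primes
with Frobenius element `g` have Dirichlet density `1 / orderOf g`, with error `O(1)`. -/
theorem frobCount_mass_isBigO
    (hC : ∀ χ : DirichletCharacter ℂ m, NormNontrivial (fixedF F (Subgroup.zpowers g)) χ →
      CharSumBound (fixedF F (Subgroup.zpowers g)) χ)
    (hinj : ∀ γ ∈ Subgroup.zpowers g, hζ.autToPow ℚ γ = 1 → γ = 1) :
    (fun s : ℝ ↦ (orderOf g : ℝ) * mass (frobCount g) s + Real.log (s - 1))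
      =O[𝓝[>] 1] (fun _ ↦ (1 : ℝ)) := by
  classical
  set K := fixedF F (Subgroup.zpowers g) with hK
  set H := cycImage hζ g with hH
  have hcardH : (Nat.card H : ℝ) = (orderOf g : ℝ) := by
    rw [hH, card_cycImage hζ g hinj]
  have hcardΓ : (Nat.card (Subgroup.zpowers g) : ℝ) = (orderOf g : ℝ) := by
    rw [Nat.card_zpowers]
  -- (h3)
  have h3 : (fun s : ℝ ↦ (Nat.card H : ℝ) * mass (classCoeff K (1 : ZMod m)) s +
      Real.log (s - 1)) =O[𝓝[>] 1] (fun _ ↦ (1 : ℝ)) := by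
    have hA := cdens_mass_isBigO (1 : Gal(F/ℚ)) 1 (one_dvd _)
    simp only [Nat.cast_one, one_mul, Nat.totient_one] at hA
    let e : ℕ → ℝ := fun q ↦ (orderOf g : ℝ) * classCoeff K (1 : ZMod m) q -
      cdens (1 : Gal(F/ℚ)) 1 q
    have he : (fun s ↦ mass e s) =O[𝓝[>] 1] (fun _ ↦ (1 : ℝ)) := by
      refine mass_isBigO_of_support e (coreBad F m) fun q hq ↦ ?_
      simp only [e]
      rw [← hcardΓ, card_mul_classCoeff_one_eq_cdens hζ g hinj q.2 hq, sub_self]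
    refine (he.add hA).congr' ?_ EventuallyEq.rfl
    filter_upwards [self_mem_nhdsWithin] with s hs
    have hs' : (1 : ℝ) < s := hs
    have h1 : mass e s = (orderOf g : ℝ) * mass (classCoeff K (1 : ZMod m)) s -
        mass (cdens (1 : Gal(F/ℚ)) 1) s := by
      rw [← mass_const_mul]
      exact mass_sub ((summable_classCoeff K 1 hs').mul_left _ |>.congr fun q ↦ by ring)
        (summable_cdens 1 1 hs')
    rw [h1, hcardH]
    ring
  have hmain := classMass_isBigO K hC (normsIn_fixedF hζ g)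
    (fun χ hχ ↦ normNontrivial_fixedF hζ g hχ) h3
    (a := hζ.autToPow ℚ g) (Subgroup.mem_map_of_mem _ (Subgroup.mem_zpowers g))
  -- replace `classCoeff` by `frobCount`
  let e : ℕ → ℝ := fun q ↦ frobCount g q -
    classCoeff K ((hζ.autToPow ℚ g : (ZMod m)ˣ) : ZMod m) q
  have he : (fun s ↦ mass e s) =O[𝓝[>] 1] (fun _ ↦ (1 : ℝ)) := by
    refine mass_isBigO_of_support e (coreBad F m) fun q hq ↦ ?_
    simp only [e]
    rw [frobCount_eq_classCoeff hζ g hinj q.2 hq, sub_self]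
  refine ((he.const_mul_left (orderOf g : ℝ)).add hmain).congr' ?_ EventuallyEq.rfl
  filter_upwards [self_mem_nhdsWithin] with s hs
  have hs' : (1 : ℝ) < s := hs
  have h1 : mass e s = mass (frobCount g) s -
      mass (classCoeff K ((hζ.autToPow ℚ g : (ZMod m)ˣ) : ZMod m)) s :=
    mass_sub (summable_frobCount g hs') (summable_classCoeff K _ hs')
  rw [h1, hcardH]
  ring

end core

end Fermat.Agent.Density
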