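/-
[CHEBD] (CROSS-A), helper4: in a finite Galois extension `F/ℚ` containing the `m`-th roots of
unity, the set of primes whose Frobenius class lies in a conjugation-stable set `S` has Dirichlet
density `#S / #G`, up to an error controlled by the number of "bad" elements of the Galois group
(those `h` for which `⟨h⟩` meets the kernel of the cyclotomic character non-trivially).
-/
import Fermat.Agent.Density.CHEBD_helper4_Core

set_option linter.unusedSectionVars false

open NumberField Pointwise MulAction Filter Topology Asymptotics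

namespace Fermat.Agent.Density

variable {F : Type*} [Field F] [NumberField F] [IsGalois ℚ F]

/-! ### The indicator function of a Frobenius class -/

open Classical in
/-- indicator function of the primes, unramified in `F`, with a Frobenius element in `S` -/
noncomputable def frobIndF (S : Finset Gal(F/ℚ)) (q : ℕ) : ℝ :=
  if Unram F q ∧ ∃ Q ∈ (pZ q).primesOver (𝓞 F), ∃ σ ∈ S, IsFrobAt σ Q q then 1 else 0

open Classical in
/-- indicator function of the primes unramified in `F` -/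
noncomputable def unramInd (F : Type*) [Field F] [NumberField F] (q : ℕ) : ℝ :=
  if Unram F q then 1 else 0

theorem frobIndF_nonneg (S : Finset Gal(F/ℚ)) (q : ℕ) : 0 ≤ frobIndF S q := by
  unfold frobIndF
  split_ifs
  · exact zero_le_one
  · exact le_rfl

theorem frobIndF_le_one (S : Finset Gal(F/ℚ)) (q : ℕ) : frobIndF S q ≤ 1 := by
  unfold frobIndF
  split_ifs
  · exact le_rfl
  · exact zero_le_one

theorem abs_frobIndF_le (S : Finset Gal(F/ℚ)) (q : Nat.Primes) : |frobIndF S q| ≤ 1 := by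
  rw [abs_of_nonneg (frobIndF_nonneg S q)]
  exact frobIndF_le_one S q

theorem summable_frobIndF (S : Finset Gal(F/ℚ)) {s : ℝ} (hs : 1 < s) :
    Summable fun q : Nat.Primes ↦ frobIndF S q * (((q : ℕ) : ℝ) ^ s)⁻¹ :=
  summable_mass_of_bdd (abs_frobIndF_le S) hs

theorem orderOf_eq_of_isFrobAt {q : ℕ} (hq : q.Prime) (hunr : Unram F q) {Q : Ideal (𝓞 F)}
    (hQ : Q ∈ (pZ q).primesOver (𝓞 F)) {σ : Gal(F/ℚ)} (h : IsFrobAt σ Q q) :
    orderOf σ = (pZ q).inertiaDegIn (𝓞 F) := by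
  rw [← Nat.card_zpowers, h.zpowers_eq hq hunr hQ, card_stabilizer_of_unram hq hunr hQ]

theorem card_primesOver_mul_inertiaDegIn {q : ℕ} (hq : q.Prime) (hunr : Unram F q) :
    (Algebra.QuasiFinite.finite_primesOver (S := 𝓞 F) (pZ q)).toFinset.card *
      (pZ q).inertiaDegIn (𝓞 F) = Nat.card Gal(F/ℚ) := by
  have : (pZ q).IsPrime := pZ_isPrime hq
  have h := Ideal.ncard_primesOver_mul_ramificationIdxIn_mul_inertiaDegIn (pZ q) (𝓞 F) Gal(F/ℚ)
  obtain ⟨⟨Q, hQ⟩⟩ := (inferInstance : Nonempty ((pZ q).primesOver (𝓞 F)))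
  have : Q.IsPrime := hQ.1
  have : Q.LiesOver (pZ q) := hQ.2
  rw [Ideal.ramificationIdxIn_eq_ramificationIdx (pZ q) Q Gal(F/ℚ), hunr Q hQ, one_mul,
    Set.ncard_eq_toFinset_card _ (Algebra.QuasiFinite.finite_primesOver (S := 𝓞 F) (pZ q))] at h
  exact h

/-- **class equation for Frobenius elements**: for a conjugation-stable `S`, `#G` times the
indicator of the Frobenius class `S` is the weighted number of primes with Frobenius in `S`. -/
theorem card_mul_frobIndF (S : Finset Gal(F/ℚ))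
    (hS : ∀ σ ∈ S, ∀ τ : Gal(F/ℚ), τ * σ * τ⁻¹ ∈ S) {q : ℕ} (hq : q.Prime) :
    (Nat.card Gal(F/ℚ) : ℝ) * frobIndF S q = ∑ h ∈ S, (orderOf h : ℝ) * frobCount h q := by
  classical
  by_cases hunr : Unram F q
  swap
  · simp [frobIndF, frobCount, hunr]
  set P := (Algebra.QuasiFinite.finite_primesOver (S := 𝓞 F) (pZ q)).toFinset with hP
  set f := (pZ q).inertiaDegIn (𝓞 F) with hf
  have hmemP : ∀ Q, Q ∈ P ↔ Q ∈ (pZ q).primesOver (𝓞 F) := by simp [hP]
  have hterm : ∀ h ∈ S, (orderOf h : ℝ) * frobCount h q = (f : ℝ) * ((frobSet h q).card : ℝ) := by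
    intro h _
    rw [frobCount, if_pos hunr]
    rcases (frobSet h q).eq_empty_or_nonempty with he | ⟨Q, hQ⟩
    · simp [he]
    · obtain ⟨hQ1, hQ2⟩ := mem_frobSet.mp hQ
      rw [orderOf_eq_of_isFrobAt hq hunr hQ1 hQ2]
  rw [Finset.sum_congr rfl hterm, ← Finset.mul_sum]
  have hdisj : (S : Set Gal(F/ℚ)).PairwiseDisjoint (fun h ↦ frobSet h q) := by
    intro h _ h' _ hne
    rw [Function.onFun, Finset.disjoint_left]
    intro Q hQ hQ'
    obtain ⟨hQ1, hQ2⟩ := mem_frobSet.mp hQ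
    exact hne (hQ2.unique hq hunr hQ1 (mem_frobSet.mp hQ').2)
  rw [← Nat.cast_sum, ← Finset.card_biUnion hdisj]
  by_cases hex : ∃ Q ∈ (pZ q).primesOver (𝓞 F), ∃ σ ∈ S, IsFrobAt σ Q q
  · have hU : S.biUnion (fun h ↦ frobSet h q) = P := by
      ext Q
      rw [Finset.mem_biUnion, hmemP]
      constructor
      · rintro ⟨h, _, hQ⟩
        exact (mem_frobSet.mp hQ).1
      · intro hQ
        obtain ⟨Q₀, hQ₀, σ, hσS, hσ⟩ := hex
        have : (pZ q).IsPrime := pZ_isPrime hq
        have : Q.IsPrime := hQ.1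
        have : Q.LiesOver (pZ q) := hQ.2
        have : Q₀.IsPrime := hQ₀.1
        have : Q₀.LiesOver (pZ q) := hQ₀.2
        obtain ⟨τ, rfl⟩ := Ideal.exists_smul_eq_of_isGaloisGroup (pZ q) Q₀ Q Gal(F/ℚ)
        exact ⟨τ * σ * τ⁻¹, hS σ hσS τ, mem_frobSet.mpr ⟨hQ, hσ.conj τ⟩⟩
    rw [hU, frobIndF, if_pos ⟨hunr, hex⟩, mul_one, ← Nat.cast_mul, mul_comm,
      card_primesOver_mul_inertiaDegIn hq hunr]
  · have hU : S.biUnion (fun h ↦ frobSet h q) = ∅ := by
      rw [Finset.eq_empty_iff_forall_notMem]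
      intro Q hQ
      obtain ⟨h, hh, hQ⟩ := Finset.mem_biUnion.mp hQ
      exact hex ⟨Q, (mem_frobSet.mp hQ).1, h, hh, (mem_frobSet.mp hQ).2⟩
    rw [hU, frobIndF, if_neg (fun h ↦ hex h.2)]
    simp

theorem frobIndF_univ {q : ℕ} (hq : q.Prime) :
    frobIndF (Finset.univ : Finset Gal(F/ℚ)) q = unramInd F q := by
  classical
  unfold frobIndF unramInd
  by_cases hunr : Unram F q
  · have : (pZ q).IsPrime := pZ_isPrime hq
    obtain ⟨⟨Q, hQ⟩⟩ := (inferInstance : Nonempty ((pZ q).primesOver (𝓞 F)))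
    obtain ⟨σ, hσ⟩ := exists_isFrobAt hq hQ
    rw [if_pos hunr, if_pos ⟨hunr, Q, hQ, σ, Finset.mem_univ _, hσ⟩]
  · rw [if_neg hunr, if_neg (fun h ↦ hunr h.1)]

/-! ### The unramified primes -/

theorem abs_unramInd_le (q : Nat.Primes) : |unramInd F q| ≤ 1 := by
  unfold unramInd
  split_ifs <;> simp

theorem idealCount_fixedF_top {q : ℕ} (hq : q.Prime) (hunr : Unram F q) :
    idealCount (fixedF F (⊤ : Subgroup Gal(F/ℚ))) q = 1 := by
  classical
  have h := idealCount_mul_card (⊤ : Subgroup Gal(F/ℚ)) hq hunr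
  have h1 : decompIn (⊤ : Subgroup Gal(F/ℚ)) q =
      (Algebra.QuasiFinite.finite_primesOver (S := 𝓞 F) (pZ q)).toFinset := by
    ext Q
    rw [mem_decompIn]
    simp
  rw [h1, card_primesOver_mul_inertiaDegIn hq hunr, Subgroup.card_top] at h
  exact Nat.eq_of_mul_eq_mul_right Nat.card_pos (by rw [h, one_mul])

/-- the unramified primes have density one -/
theorem unramInd_mass_isBigO (F : Type*) [Field F] [NumberField F] [IsGalois ℚ F] :
    (fun s : ℝ ↦ mass (unramInd F) s + Real.log (s - 1)) =O[𝓝[>] 1] (fun _ ↦ (1 : ℝ)) := by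
  set K := fixedF F (⊤ : Subgroup Gal(F/ℚ)) with hK
  let e : ℕ → ℝ := fun q ↦ unramInd F q - (idealCount K q : ℝ)
  have he : (fun s ↦ mass e s) =O[𝓝[>] 1] (fun _ ↦ (1 : ℝ)) := by
    refine mass_isBigO_of_support e (badPrimes F) fun q hq ↦ ?_
    have hunr := unram_of_not_mem_badPrimes q.2 hq
    show unramInd F (q : ℕ) - (idealCount K (q : ℕ) : ℝ) = 0
    rw [unramInd, if_pos hunr, idealCount_fixedF_top q.2 hunr]
    simp
  refine (he.add (P1_add_log_isBigO K)).congr' ?_ EventuallyEq.rfl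
  filter_upwards [self_mem_nhdsWithin] with s hs
  have hs' : (1 : ℝ) < s := hs
  have h1 : mass e s = mass (unramInd F) s - P1 K s :=
    mass_sub (summable_mass_of_bdd abs_unramInd_le hs') (summable_idealCount_primes K hs')
  rw [h1]
  ring

/-! ### Density of a Frobenius class, up to the bad elements -/

section crossA

variable {m : ℕ} [NeZero m] {ζ : F} (hζ : IsPrimitiveRoot ζ m)

/-- `h` is good if `⟨h⟩` meets the kernel of the cyclotomic character trivially -/
def IsGoodElt (h : Gal(F/ℚ)) : Prop :=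
  ∀ γ ∈ Subgroup.zpowers h, hζ.autToPow ℚ γ = 1 → γ = 1

theorem mass_frobCount_nonneg (h : Gal(F/ℚ)) (s : ℝ) : 0 ≤ mass (frobCount h) s := by
  unfold mass
  refine tsum_nonneg fun q ↦ mul_nonneg (frobCount_nonneg h q) ?_
  exact inv_nonneg.mpr (Real.rpow_nonneg (Nat.cast_nonneg _) _)

/-- the class equation, summed over the primes -/
theorem card_mul_mass_frobIndF (S : Finset Gal(F/ℚ))
    (hS : ∀ σ ∈ S, ∀ τ : Gal(F/ℚ), τ * σ * τ⁻¹ ∈ S) {s : ℝ} (hs : 1 < s) :
    (Nat.card Gal(F/ℚ) : ℝ) * mass (frobIndF S) s =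
      ∑ h ∈ S, (orderOf h : ℝ) * mass (frobCount h) s := by
  rw [← mass_const_mul]
  have h1 : mass (fun q ↦ (Nat.card Gal(F/ℚ) : ℝ) * frobIndF S q) s =
      mass (fun q ↦ ∑ h ∈ S, (orderOf h : ℝ) * frobCount h q) s := by
    unfold mass
    refine tsum_congr fun q ↦ ?_
    beta_reduce
    rw [card_mul_frobIndF S hS q.2]
  rw [h1, mass_finset_sum S (fun h q ↦ (orderOf h : ℝ) * frobCount h q)
    (fun h _ ↦ ((summable_frobCount h hs).mul_left (orderOf h : ℝ)).congr fun q ↦ by ring)]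
  exact Finset.sum_congr rfl fun h _ ↦ mass_const_mul _ _ _

theorem abs_mass_frobIndF_sub_le
    (hC : ∀ (g : Gal(F/ℚ)) (χ : DirichletCharacter ℂ m),
      NormNontrivial (fixedF F (Subgroup.zpowers g)) χ →
        CharSumBound (fixedF F (Subgroup.zpowers g)) χ)
    (S : Finset Gal(F/ℚ)) (hS : ∀ σ ∈ S, ∀ τ : Gal(F/ℚ), τ * σ * τ⁻¹ ∈ S)
    (Bad : Finset Gal(F/ℚ)) (hBad : ∀ h, h ∉ Bad → IsGoodElt hζ h) :
    ∃ B : ℝ, ∀ᶠ s in 𝓝[>] (1 : ℝ),
      |mass (frobIndF S) s - ((S.card : ℝ) / Nat.card Gal(F/ℚ)) * Real.log (1 / (s - 1))| ≤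
        ((Bad.card : ℝ) / Nat.card Gal(F/ℚ)) * Real.log (1 / (s - 1)) + B := by
  classical
  set n : ℝ := (Nat.card Gal(F/ℚ) : ℝ) with hn
  have hn0 : 0 < n := by
    rw [hn]
    exact_mod_cast Nat.card_pos
  -- the good elements
  have hgood : ∀ h : Gal(F/ℚ), ∃ c : ℝ, h ∉ Bad →
      ∀ᶠ s in 𝓝[>] (1 : ℝ), |(orderOf h : ℝ) * mass (frobCount h) s + Real.log (s - 1)| ≤ c := by
    intro h
    by_cases hh : h ∈ Bad
    · exact ⟨0, fun h' ↦ absurd hh h'⟩
    · obtain ⟨c, hc⟩ := (frobCount_mass_isBigO hζ h (hC h) (hBad h hh)).bound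
      refine ⟨c, fun _ ↦ hc.mono fun s hs ↦ ?_⟩
      simpa using hs
  choose c hc using hgood
  set C : ℝ := ∑ h : Gal(F/ℚ), |c h| with hCdef
  have hC0 : 0 ≤ C := Finset.sum_nonneg fun h _ ↦ abs_nonneg _
  have hcC : ∀ h, c h ≤ C := fun h ↦ (le_abs_self _).trans
    (Finset.single_le_sum (f := fun h ↦ |c h|) (fun h _ ↦ abs_nonneg _) (Finset.mem_univ h))
  have hev : ∀ᶠ s in 𝓝[>] (1 : ℝ), ∀ h : Gal(F/ℚ), h ∉ Bad →
      |(orderOf h : ℝ) * mass (frobCount h) s + Real.log (s - 1)| ≤ C := by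
    rw [Filter.eventually_all]
    intro h
    by_cases hh : h ∈ Bad
    · exact Filter.Eventually.of_forall fun s h' ↦ absurd hh h'
    · exact (hc h hh).mono fun s hs _ ↦ hs.trans (hcC h)
  obtain ⟨C₀, hC₀⟩ := (unramInd_mass_isBigO F).bound
  have hIoo : Set.Ioo (1 : ℝ) 2 ∈ 𝓝[>] (1 : ℝ) := Ioo_mem_nhdsGT (by norm_num)
  -- the lower bound, for any conjugation-stable set
  have hlow : ∀ S' : Finset Gal(F/ℚ), (∀ σ ∈ S', ∀ τ : Gal(F/ℚ), τ * σ * τ⁻¹ ∈ S') →
      ∀ᶠ s in 𝓝[>] (1 : ℝ), ((S'.card : ℝ) - Bad.card) * Real.log (1 / (s - 1)) - n * C ≤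
        n * mass (frobIndF S') s := by
    intro S' hS'
    filter_upwards [hev, hIoo] with s hs hs12
    have hs1 : 1 < s := hs12.1
    have hL : 0 ≤ Real.log (1 / (s - 1)) := by
      refine Real.log_nonneg ?_
      rw [le_div_iff₀ (by linarith)]
      linarith [hs12.2]
    have hLeq : Real.log (1 / (s - 1)) = -Real.log (s - 1) := by
      rw [one_div, Real.log_inv]
    rw [card_mul_mass_frobIndF S' hS' hs1]
    have h1 : ∑ h ∈ S' \ Bad, (Real.log (1 / (s - 1)) - C) ≤
        ∑ h ∈ S' \ Bad, (orderOf h : ℝ) * mass (frobCount h) s := by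
      refine Finset.sum_le_sum fun h hh ↦ ?_
      have := abs_le.mp (hs h (Finset.mem_sdiff.mp hh).2)
      rw [hLeq]
      linarith [this.1]
    have h2 : ∑ h ∈ S' \ Bad, (orderOf h : ℝ) * mass (frobCount h) s ≤
        ∑ h ∈ S', (orderOf h : ℝ) * mass (frobCount h) s :=
      Finset.sum_le_sum_of_subset_of_nonneg Finset.sdiff_subset fun h _ _ ↦
        mul_nonneg (Nat.cast_nonneg _) (mass_frobCount_nonneg h s)
    rw [Finset.sum_const, nsmul_eq_mul] at h1
    have h3 : (S'.card : ℝ) - Bad.card ≤ ((S' \ Bad).card : ℝ) := by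
      have := Finset.le_card_sdiff Bad S'
      have h' : (S'.card : ℝ) ≤ ((S' \ Bad).card : ℝ) + Bad.card := by
        have : S'.card ≤ (S' \ Bad).card + Bad.card := by omega
        exact_mod_cast this
      linarith
    have h4 : ((S' \ Bad).card : ℝ) ≤ n := by
      rw [hn, Nat.card_eq_fintype_card]
      exact_mod_cast Finset.card_le_univ _
    have h5 : ((S'.card : ℝ) - Bad.card) * Real.log (1 / (s - 1)) ≤
        ((S' \ Bad).card : ℝ) * Real.log (1 / (s - 1)) := mul_le_mul_of_nonneg_right h3 hL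
    have h6 : ((S' \ Bad).card : ℝ) * C ≤ n * C := mul_le_mul_of_nonneg_right h4 hC0
    linarith
  have hScompl : ∀ σ ∈ Sᶜ, ∀ τ : Gal(F/ℚ), τ * σ * τ⁻¹ ∈ Sᶜ := by
    intro σ hσ τ
    rw [Finset.mem_compl] at hσ ⊢
    intro h
    apply hσ
    have := hS _ h τ⁻¹
    simpa [mul_assoc] using this
  refine ⟨|C₀| + C, ?_⟩
  filter_upwards [hlow S hS, hlow Sᶜ hScompl, hC₀, hIoo] with s h1 h2 h3 hs12
  have hs1 : 1 < s := hs12.1
  have hLeq : Real.log (1 / (s - 1)) = -Real.log (s - 1) := by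
    rw [one_div, Real.log_inv]
  set L := Real.log (1 / (s - 1)) with hLdef
  -- total mass
  have htot : n * mass (frobIndF S) s + n * mass (frobIndF Sᶜ) s = n * mass (unramInd F) s := by
    rw [card_mul_mass_frobIndF S hS hs1, card_mul_mass_frobIndF Sᶜ hScompl hs1,
      Finset.sum_add_sum_compl]
    have h4 := card_mul_mass_frobIndF (Finset.univ : Finset Gal(F/ℚ))
      (fun _ _ _ ↦ Finset.mem_univ _) hs1
    rw [← h4]
    congr 1
    unfold mass
    exact tsum_congr fun q ↦ by rw [frobIndF_univ q.2]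
  have hun : mass (unramInd F) s ≤ L + |C₀| := by
    have := h3
    rw [norm_one, mul_one, Real.norm_eq_abs] at this
    have h5 := (abs_le.mp this).2
    rw [hLeq]
    linarith [le_abs_self C₀]
  have hcardc : ((Sᶜ : Finset Gal(F/ℚ)).card : ℝ) = n - S.card := by
    rw [Finset.card_compl, hn, Nat.card_eq_fintype_card, Nat.cast_sub (Finset.card_le_univ _)]
  rw [hcardc] at h2
  have hup : n * mass (frobIndF S) s ≤ ((S.card : ℝ) + Bad.card) * L + n * (|C₀| + C) := by
    have h6 : n * mass (unramInd F) s ≤ n * (L + |C₀|) := mul_le_mul_of_nonneg_left hun hn0.le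
    nlinarith
  rw [abs_le]
  have e1 : (S.card : ℝ) / n * L = (S.card : ℝ) * L / n := by ring
  have e2 : (Bad.card : ℝ) / n * L = (Bad.card : ℝ) * L / n := by ring
  constructor
  · have : 0 ≤ n * (mass (frobIndF S) s - (S.card : ℝ) / n * L +
        ((Bad.card : ℝ) / n * L + (|C₀| + C))) := by
      have : n * (mass (frobIndF S) s - (S.card : ℝ) / n * L +
          ((Bad.card : ℝ) / n * L + (|C₀| + C))) =
          n * mass (frobIndF S) s - (S.card : ℝ) * L + (Bad.card : ℝ) * L + n * (|C₀| + C) := by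
        field_simp
        ring
      rw [this]
      have : 0 ≤ n * |C₀| := mul_nonneg hn0.le (abs_nonneg _)
      nlinarith
    have := nonneg_of_mul_nonneg_right this hn0
    linarith
  · have : 0 ≤ n * (((Bad.card : ℝ) / n * L + (|C₀| + C)) -
        (mass (frobIndF S) s - (S.card : ℝ) / n * L)) := by
      have : n * (((Bad.card : ℝ) / n * L + (|C₀| + C)) -
          (mass (frobIndF S) s - (S.card : ℝ) / n * L)) =
          (Bad.card : ℝ) * L + n * (|C₀| + C) - n * mass (frobIndF S) s + (S.card : ℝ) * L := by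
        field_simp
        ring
      rw [this]
      nlinarith
    have := nonneg_of_mul_nonneg_right this hn0
    linarith

end crossA

end Fermat.Agent.Density
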