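/-
[CHEBD] (CROSS-B), helper4: the crossing field.  For a finite Galois `L₀/ℚ` inside `ℚ̄` and a prime
`m ≡ 1 mod (#Gal(L₀/ℚ))^a` unramified in `L₀`, the field `M = L₀(ζ_m)` has Galois group
`Gal(L₀/ℚ) × (ℤ/m)ˣ` (Eisenstein's criterion at a prime above `m`), and all but a proportion
`≤ ω(e)/2^a` of its elements `h` satisfy `⟨h⟩ ∩ ker(cyclotomic character) = 1`.
-/
import Fermat.Agent.Density.CHEBD_helper4_CrossA
import Fermat.Agent.Density.Open_helper4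

set_option linter.unusedSectionVars false

open NumberField Polynomial IntermediateField

namespace Fermat.Agent.Density

local notation "Ω" => AlgebraicClosure ℚ
local notation "GQ" => (AlgebraicClosure ℚ ≃ₐ[ℚ] AlgebraicClosure ℚ)

theorem autToPow_eq_iff {R S : Type*} [CommRing R] [CommRing S] [IsDomain S] [Algebra R S]
    {m : ℕ} [NeZero m] {ζ : S} (hζ : IsPrimitiveRoot ζ m) (σ : S ≃ₐ[R] S) (u : (ZMod m)ˣ) :
    hζ.autToPow R σ = u ↔ σ ζ = ζ ^ (u : ZMod m).val := by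
  constructor
  · rintro rfl
    exact (hζ.autToPow_spec R σ).symm
  · intro h
    have h1 := hζ.autToPow_spec R σ
    rw [h] at h1
    exact Units.ext (ZMod.val_injective m (hζ.pow_inj (ZMod.val_lt _) (ZMod.val_lt _) h1))


/-- if `e ∤ o`, `o ∣ n` and `e ^ a ∣ n`, then `o ∣ n / ℓ ^ a` for some prime `ℓ ∣ e` -/
theorem exists_prime_dvd_div_pow {o n e a : ℕ} (hn : n ≠ 0) (ha : 1 ≤ a) (hon : o ∣ n)
    (hen : e ^ a ∣ n) (heo : ¬ e ∣ o) : ∃ ℓ ∈ e.primeFactors, ℓ ^ a ∣ n ∧ o ∣ n / ℓ ^ a := by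
  have ho : o ≠ 0 := fun h => hn (by rw [h] at hon; exact Nat.eq_zero_of_zero_dvd hon)
  have he : e ≠ 0 := by
    rintro rfl
    rw [zero_pow (by omega)] at hen
    exact hn (Nat.eq_zero_of_zero_dvd hen)
  have h1 : ¬ e.factorization ≤ o.factorization := fun h =>
    heo ((Nat.factorization_le_iff_dvd he ho).mp h)
  rw [Finsupp.le_def] at h1
  obtain ⟨ℓ, hℓ⟩ := not_forall.mp h1
  have hℓe : ℓ ∈ e.primeFactors := by
    rw [← Nat.support_factorization, Finsupp.mem_support_iff]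
    omega
  have hℓp : ℓ.Prime := Nat.prime_of_mem_primeFactors hℓe
  have hℓa : ℓ ^ a ∣ n := (pow_dvd_pow_of_dvd (Nat.dvd_of_mem_primeFactors hℓe) a).trans hen
  refine ⟨ℓ, hℓe, hℓa, ?_⟩
  have hdiv0 : n / ℓ ^ a ≠ 0 := by
    obtain ⟨k, hk⟩ := hℓa
    rw [hk, Nat.mul_div_cancel_left _ (pow_pos hℓp.pos a)]
    rintro rfl
    exact hn (by rw [hk, mul_zero])
  rw [← Nat.factorization_le_iff_dvd ho hdiv0, Nat.factorization_div hℓa,
    hℓp.factorization_pow, Finsupp.le_def]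
  intro q
  have h2 : o.factorization q ≤ n.factorization q :=
    ((Nat.factorization_le_iff_dvd ho hn).mpr hon) q
  rw [Finsupp.coe_tsub, Pi.sub_apply]
  by_cases hq : q = ℓ
  · subst hq
    rw [Finsupp.single_eq_same]
    have h3 : a * e.factorization q ≤ n.factorization q := by
      have := ((Nat.factorization_le_iff_dvd (pow_ne_zero a he) hn).mpr hen) q
      rwa [Nat.factorization_pow, Finsupp.smul_apply, smul_eq_mul] at this
    have hb : 1 ≤ e.factorization q := by omega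
    have h4 : o.factorization q + a ≤ a * e.factorization q := by
      obtain ⟨b, hb'⟩ : ∃ b, e.factorization q = b + 1 := ⟨e.factorization q - 1, by omega⟩
      obtain ⟨a', rfl⟩ : ∃ a', a = a' + 1 := ⟨a - 1, by omega⟩
      rw [hb'] at hℓ ⊢
      have : o.factorization q ≤ b := by omega
      nlinarith
    omega
  · rw [Finsupp.single_eq_of_ne (by exact hq)]
    omega

open Classical in
/-- in a cyclic group of order divisible by `e ^ a`, few elements have order not divisible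
by `e` -/
theorem card_not_dvd_orderOf_mul_le {C : Type*} [Group C] [Fintype C] [IsCyclic C] {e a : ℕ}
    (ha : 1 ≤ a) (hen : e ^ a ∣ Fintype.card C) :
    (Finset.univ.filter fun c : C => ¬ e ∣ orderOf c).card * 2 ^ a ≤
      e.primeFactors.card * Fintype.card C := by
  set n := Fintype.card C with hn
  have hn0 : n ≠ 0 := Fintype.card_ne_zero
  have hsub : (Finset.univ.filter fun c : C => ¬ e ∣ orderOf c) ⊆
      e.primeFactors.biUnion fun ℓ => Finset.univ.filter fun c : C => c ^ (n / ℓ ^ a) = 1 := by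
    intro c hc
    rw [Finset.mem_filter] at hc
    obtain ⟨ℓ, hℓ, -, hdvd⟩ := exists_prime_dvd_div_pow hn0 ha (orderOf_dvd_card (x := c)) hen hc.2
    rw [Finset.mem_biUnion]
    exact ⟨ℓ, hℓ, Finset.mem_filter.mpr ⟨Finset.mem_univ _, orderOf_dvd_iff_pow_eq_one.mp hdvd⟩⟩
  calc (Finset.univ.filter fun c : C => ¬ e ∣ orderOf c).card * 2 ^ a
      ≤ (e.primeFactors.biUnion fun ℓ =>
          Finset.univ.filter fun c : C => c ^ (n / ℓ ^ a) = 1).card * 2 ^ a :=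
        Nat.mul_le_mul_right _ (Finset.card_le_card hsub)
    _ ≤ (∑ ℓ ∈ e.primeFactors, (Finset.univ.filter fun c : C => c ^ (n / ℓ ^ a) = 1).card) *
          2 ^ a := Nat.mul_le_mul_right _ Finset.card_biUnion_le
    _ = ∑ ℓ ∈ e.primeFactors,
          (Finset.univ.filter fun c : C => c ^ (n / ℓ ^ a) = 1).card * 2 ^ a := Finset.sum_mul _ _ _
    _ ≤ ∑ _ℓ ∈ e.primeFactors, n := by
        refine Finset.sum_le_sum fun ℓ hℓ => ?_
        have hℓp : ℓ.Prime := Nat.prime_of_mem_primeFactors hℓ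
        have hℓa : ℓ ^ a ∣ n := (pow_dvd_pow_of_dvd (Nat.dvd_of_mem_primeFactors hℓ) a).trans hen
        have hpos : 0 < n / ℓ ^ a :=
          Nat.div_pos (Nat.le_of_dvd (Nat.pos_of_ne_zero hn0) hℓa) (pow_pos hℓp.pos a)
        calc (Finset.univ.filter fun c : C => c ^ (n / ℓ ^ a) = 1).card * 2 ^ a
            ≤ (n / ℓ ^ a) * 2 ^ a := Nat.mul_le_mul_right _ (IsCyclic.card_pow_eq_one_le hpos)
          _ ≤ (n / ℓ ^ a) * ℓ ^ a := Nat.mul_le_mul_left _ (Nat.pow_le_pow_left hℓp.two_le a)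
          _ = n := Nat.div_mul_cancel hℓa
    _ = e.primeFactors.card * n := by rw [Finset.sum_const, smul_eq_mul]



/-- the `p`-th cyclotomic polynomial stays irreducible over a number field in which `p` is
unramified (Eisenstein at a prime above `p`) -/
theorem irreducible_cyclotomic_of_unram (K : Type*) [Field K] [NumberField K] {p : ℕ}
    (hp : p.Prime) (hunr : Unram K p) : Irreducible (cyclotomic p K) := by
  have : Fact p.Prime := ⟨hp⟩
  have : (pZ p).IsPrime := pZ_isPrime hp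
  obtain ⟨⟨Q, hQ⟩⟩ := (inferInstance : Nonempty ((pZ p).primesOver (𝓞 K)))
  have hQp : Q.IsPrime := hQ.1
  have : Q.LiesOver (pZ p) := hQ.2
  set g : ℤ[X] := (cyclotomic p ℤ).comp (X + 1) with hg
  have hgE : g.IsEisensteinAt (Submodule.span ℤ {(p : ℤ)}) :=
    cyclotomic_comp_X_add_one_isEisensteinAt p
  have hgm : g.Monic := by
    rw [hg, show (X + 1 : ℤ[X]) = X + C 1 by simp]
    refine (cyclotomic.monic p ℤ).comp (monic_X_add_C 1) fun h => ?_
    rw [natDegree_X_add_C] at h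
    exact zero_ne_one h.symm
  set f : (𝓞 K)[X] := g.map (algebraMap ℤ (𝓞 K)) with hf
  have hfm : f.Monic := hgm.map _
  have hdeg : 0 < f.natDegree := by
    rw [hf, hgm.natDegree_map, hg, natDegree_comp, natDegree_cyclotomic,
      show (X + 1 : ℤ[X]) = X + C 1 by simp, natDegree_X_add_C, mul_one]
    exact Nat.totient_pos.mpr hp.pos
  have hfE : f.IsEisensteinAt Q :=
    { leading := by
        rw [hfm.leadingCoeff]
        exact fun h => hQp.ne_top ((Ideal.eq_top_iff_one _).mpr h)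
      mem := by
        intro n hn
        rw [hf, coeff_map]
        have hn' : n < g.natDegree := by rwa [hf, hgm.natDegree_map] at hn
        have h1 : g.coeff n ∈ pZ p := hgE.mem hn'
        exact (Ideal.mem_of_liesOver Q (pZ p) _).mp h1
      notMem := by
        rw [hf, coeff_map]
        have h0 : g.coeff 0 = (p : ℤ) := by
          rw [coeff_zero_eq_eval_zero, hg, eval_comp]
          simp [eval_one_cyclotomic_prime]
        rw [h0]
        intro hmem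
        have h1 : (pZ p).ramificationIdx' Q = 1 := by
          rw [Ideal.ramificationIdx'_eq_ramificationIdx (pZ p) Q (pZ_ne_bot hp)]
          exact hunr Q hQ
        have h2 : (pZ p).map (algebraMap ℤ (𝓞 K)) ≤ Q := by
          rw [Ideal.map_le_iff_le_comap, ← Ideal.under_def, ← Ideal.over_def Q (pZ p)]
        have h3 : (pZ p).map (algebraMap ℤ (𝓞 K)) ≤ Q ^ 2 := by
          rw [pZ, Ideal.map_span, Set.image_singleton, Ideal.span_le, Set.singleton_subset_iff]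
          exact hmem
        exact (Ideal.ramificationIdx'_ne_one_iff h2).mpr h3 h1 }
  have hirr : Irreducible f := hfE.irreducible hQp hfm.isPrimitive hdeg
  have hirrK : Irreducible (f.map (algebraMap (𝓞 K) K)) :=
    (hfm.irreducible_iff_irreducible_map_fraction_map (K := K)).mp hirr
  have e1 : f.map (algebraMap (𝓞 K) K) = algEquivAevalXAddC (1 : K) (cyclotomic p K) := by
    rw [hf, Polynomial.map_map, hg, map_comp, map_cyclotomic, algEquivAevalXAddC_apply, comp_eq_aeval]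
    simp
  rw [e1] at hirrK
  exact (MulEquiv.irreducible_iff (algEquivAevalXAddC (1 : K)).toMulEquiv).mp hirrK


section gq

variable {m : ℕ} [NeZero m] {ζ : Ω} (hζ : IsPrimitiveRoot ζ m)

/-- if the `m`-th cyclotomic polynomial is irreducible over `L₀`, the cyclotomic character is
surjective on `Gal(ℚ̄/L₀)` -/
theorem exists_fixing_autToPow_eq (L₀ : IntermediateField ℚ Ω)
    (hirr : Irreducible (cyclotomic m L₀)) (u : (ZMod m)ˣ) :
    ∃ ρ : GQ, (∀ x ∈ L₀, ρ x = x) ∧ hζ.autToPow ℚ ρ = u := by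
  set ζ' : Ω := ζ ^ (u : ZMod m).val with hζ'def
  have hζ' : IsPrimitiveRoot ζ' m := hζ.pow_of_coprime _ (ZMod.val_coe_unit_coprime u)
  have hroot : ∀ x : Ω, IsPrimitiveRoot x m → aeval x (cyclotomic m L₀) = 0 := by
    intro x hx
    rw [aeval_def, eval₂_eq_eval_map, map_cyclotomic]
    exact hx.isRoot_cyclotomic (NeZero.pos m)
  have hmin : cyclotomic m L₀ = minpoly L₀ ζ' :=
    minpoly.eq_of_irreducible_of_monic hirr (hroot ζ' hζ') (cyclotomic.monic m L₀)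
  have halgQ : Algebra.IsAlgebraic ℚ Ω := AlgebraicClosure.isAlgebraic ℚ
  have halg : Algebra.IsAlgebraic L₀ Ω := Algebra.IsAlgebraic.tower_top (K := ℚ) L₀
  have : IsAlgClosure L₀ Ω := ⟨inferInstance, halg⟩
  have : Normal L₀ Ω := IsAlgClosure.normal L₀ Ω
  obtain ⟨ρ₀, hρ₀⟩ := minpoly.exists_algEquiv_of_root (K := L₀) (x := ζ) (y := ζ')
    (Algebra.IsAlgebraic.isAlgebraic ζ') (by rw [← hmin]; exact hroot ζ hζ)
  refine ⟨ρ₀.restrictScalars ℚ, fun x hx => ?_, ?_⟩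
  · exact ρ₀.commutes ⟨x, hx⟩
  · rw [autToPow_eq_iff]
    exact hρ₀

theorem restrictNormalHom_ker_eq (E : IntermediateField ℚ Ω) [h : Normal ℚ E] :
    (AlgEquiv.restrictNormalHom (F := ℚ) (K₁ := Ω) E).ker = E.fixingSubgroup := by
  have h' : @Normal ℚ E _ _ (IntermediateField.algebra' E) := h
  exact @IntermediateField.restrictNormalHom_ker ℚ Ω _ _ _ E h'

theorem restrictNormalHom_eq_one_iff (E : IntermediateField ℚ Ω) [Normal ℚ E] (τ : GQ) :
    AlgEquiv.restrictNormalHom (F := ℚ) (K₁ := Ω) E τ = 1 ↔ ∀ x ∈ E, τ x = x := by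
  rw [← MonoidHom.mem_ker, restrictNormalHom_ker_eq, IntermediateField.mem_fixingSubgroup_iff]

theorem restrictNormalHom_surj (E : IntermediateField ℚ Ω) [Normal ℚ E] :
    Function.Surjective (AlgEquiv.restrictNormalHom (F := ℚ) (K₁ := Ω) E) := by
  have := normal_algebraicClosure_rat
  exact AlgEquiv.restrictNormalHom_surjective Ω

theorem exists_restrict_autToPow_eq (L₀ : IntermediateField ℚ Ω) [Normal ℚ L₀]
    (hirr : Irreducible (cyclotomic m L₀)) (σ' : L₀ ≃ₐ[ℚ] L₀) (u : (ZMod m)ˣ) :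
    ∃ τ : GQ, AlgEquiv.restrictNormalHom L₀ τ = σ' ∧ hζ.autToPow ℚ τ = u := by
  obtain ⟨σ, rfl⟩ := restrictNormalHom_surj L₀ σ'
  obtain ⟨ρ, hρ1, hρ2⟩ := exists_fixing_autToPow_eq hζ L₀ hirr ((hζ.autToPow ℚ σ)⁻¹ * u)
  refine ⟨σ * ρ, ?_, ?_⟩
  · rw [map_mul, (restrictNormalHom_eq_one_iff L₀ ρ).mpr hρ1, mul_one]
  · rw [map_mul, hρ2, mul_inv_cancel_left]

/-! ### A finite Galois extension `M ⊇ L₀(ζ)` -/

section level

variable (L₀ M : IntermediateField ℚ Ω) [Normal ℚ L₀] [Normal ℚ M] (hLM : L₀ ≤ M)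

/-- restriction `Gal(M/ℚ) → Gal(L₀/ℚ)` -/
noncomputable def resTo : (M ≃ₐ[ℚ] M) →* (L₀ ≃ₐ[ℚ] L₀) :=
  (AlgEquiv.restrictNormalHom (F := ℚ) (K₁ := Ω) M).liftOfSurjective (restrictNormalHom_surj M)
    ⟨AlgEquiv.restrictNormalHom (F := ℚ) (K₁ := Ω) L₀, by
      rw [restrictNormalHom_ker_eq, restrictNormalHom_ker_eq]
      exact IntermediateField.fixingSubgroup_antitone hLM⟩

theorem resTo_apply (τ : GQ) :
    resTo L₀ M hLM (AlgEquiv.restrictNormalHom (F := ℚ) (K₁ := Ω) M τ) =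
      AlgEquiv.restrictNormalHom (F := ℚ) (K₁ := Ω) L₀ τ :=
  MonoidHom.liftOfRightInverse_comp_apply _ _ _ _ τ

variable (hζM : ζ ∈ M)

include hζ in
theorem isPrimitiveRoot_mk : IsPrimitiveRoot (⟨ζ, hζM⟩ : M) m :=
  IsPrimitiveRoot.coe_submonoidClass_iff.mp hζ

theorem autToPow_restrict (τ : GQ) :
    (isPrimitiveRoot_mk hζ M hζM).autToPow ℚ (AlgEquiv.restrictNormalHom (F := ℚ) (K₁ := Ω) M τ) =
      hζ.autToPow ℚ τ := by
  rw [autToPow_eq_iff]
  apply Subtype.ext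
  have h1 : ((AlgEquiv.restrictNormalHom (F := ℚ) (K₁ := Ω) M τ (⟨ζ, hζM⟩ : M) : M) : Ω) = τ ζ :=
    AlgEquiv.restrictNormal_commutes τ M ⟨ζ, hζM⟩
  rw [h1, SubmonoidClass.coe_pow]
  exact (hζ.autToPow_spec ℚ τ).symm

/-- the map `Gal(M/ℚ) → Gal(L₀/ℚ) × (ℤ/m)ˣ` is injective when `M` is generated by `L₀` and `ζ` -/
theorem eq_one_of_resTo_eq_one
    (hgen : ∀ τ : GQ, (∀ x ∈ L₀, τ x = x) → τ ζ = ζ → ∀ x ∈ M, τ x = x)
    (h : M ≃ₐ[ℚ] M) (h1 : resTo L₀ M hLM h = 1)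
    (h2 : (isPrimitiveRoot_mk hζ M hζM).autToPow ℚ h = 1) : h = 1 := by
  obtain ⟨τ, rfl⟩ := restrictNormalHom_surj M h
  rw [resTo_apply] at h1
  rw [autToPow_restrict hζ M hζM] at h2
  have hτL := (restrictNormalHom_eq_one_iff L₀ τ).mp h1
  have hτζ : τ ζ = ζ := by
    have h3 := hζ.autToPow_spec ℚ τ
    have h4 := hζ.autToPow_spec ℚ (1 : GQ)
    rw [map_one] at h4
    rw [h2, h4] at h3
    exact h3.symm
  exact (restrictNormalHom_eq_one_iff M τ).mpr (hgen τ hτL hτζ)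

/-- the product map `Gal(M/ℚ) → Gal(L₀/ℚ) × (ℤ/m)ˣ` -/
noncomputable def crossHom : (M ≃ₐ[ℚ] M) →* (L₀ ≃ₐ[ℚ] L₀) × (ZMod m)ˣ :=
  (resTo L₀ M hLM).prod ((isPrimitiveRoot_mk hζ M hζM).autToPow ℚ)

theorem crossHom_injective
    (hgen : ∀ τ : GQ, (∀ x ∈ L₀, τ x = x) → τ ζ = ζ → ∀ x ∈ M, τ x = x) :
    Function.Injective (crossHom hζ L₀ M hLM hζM) := by
  rw [injective_iff_map_eq_one]
  intro h hh
  have h' := Prod.ext_iff.mp hh
  exact eq_one_of_resTo_eq_one hζ L₀ M hLM hζM hgen h h'.1 h'.2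

theorem crossHom_surjective (hirr : Irreducible (cyclotomic m L₀)) :
    Function.Surjective (crossHom hζ L₀ M hLM hζM) := by
  rintro ⟨σ', u⟩
  obtain ⟨τ, h1, h2⟩ := exists_restrict_autToPow_eq hζ L₀ hirr σ' u
  refine ⟨AlgEquiv.restrictNormalHom (F := ℚ) (K₁ := Ω) M τ, Prod.ext ?_ ?_⟩
  · exact (resTo_apply L₀ M hLM τ).trans h1
  · exact (autToPow_restrict hζ M hζM τ).trans h2

include hLM in
/-- elements whose cyclotomic character has order divisible by `#Gal(L₀/ℚ)` are good -/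
theorem good_of_card_dvd_orderOf [FiniteDimensional ℚ L₀]
    (hgen : ∀ τ : GQ, (∀ x ∈ L₀, τ x = x) → τ ζ = ζ → ∀ x ∈ M, τ x = x)
    (h : M ≃ₐ[ℚ] M)
    (hdvd : Nat.card (L₀ ≃ₐ[ℚ] L₀) ∣ orderOf ((isPrimitiveRoot_mk hζ M hζM).autToPow ℚ h)) :
    ∀ γ ∈ Subgroup.zpowers h, (isPrimitiveRoot_mk hζ M hζM).autToPow ℚ γ = 1 → γ = 1 := by
  intro γ hγ hγ1
  obtain ⟨k, rfl⟩ := Subgroup.mem_zpowers_iff.mp hγ
  rw [map_zpow] at hγ1
  have h1 : ((orderOf ((isPrimitiveRoot_mk hζ M hζM).autToPow ℚ h) : ℕ) : ℤ) ∣ k :=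
    orderOf_dvd_iff_zpow_eq_one.mpr hγ1
  have h2 : ((Nat.card (L₀ ≃ₐ[ℚ] L₀) : ℕ) : ℤ) ∣ k := (Int.natCast_dvd_natCast.mpr hdvd).trans h1
  have h3 : ((orderOf (resTo L₀ M hLM h) : ℕ) : ℤ) ∣ k :=
    (Int.natCast_dvd_natCast.mpr (orderOf_dvd_natCard _)).trans h2
  have h4 : (resTo L₀ M hLM h) ^ k = 1 := orderOf_dvd_iff_zpow_eq_one.mp h3
  refine eq_one_of_resTo_eq_one hζ L₀ M hLM hζM hgen _ ?_ ?_
  · rw [map_zpow, h4]
  · rw [map_zpow, hγ1]

include hLM in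
open Classical in
/-- there are few bad elements -/
theorem exists_bad_finset [FiniteDimensional ℚ L₀] [FiniteDimensional ℚ M] (hm : m.Prime)
    (hgen : ∀ τ : GQ, (∀ x ∈ L₀, τ x = x) → τ ζ = ζ → ∀ x ∈ M, τ x = x)
    (hirr : Irreducible (cyclotomic m L₀)) {a : ℕ} (ha : 1 ≤ a)
    (hea : Nat.card (L₀ ≃ₐ[ℚ] L₀) ^ a ∣ m - 1) :
    ∃ Bad : Finset (M ≃ₐ[ℚ] M),
      (∀ h, h ∉ Bad → ∀ γ ∈ Subgroup.zpowers h,
        (isPrimitiveRoot_mk hζ M hζM).autToPow ℚ γ = 1 → γ = 1) ∧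
      Bad.card * 2 ^ a ≤
        (Nat.card (L₀ ≃ₐ[ℚ] L₀)).primeFactors.card * Nat.card (M ≃ₐ[ℚ] M) := by
  have : Fact m.Prime := ⟨hm⟩
  set e := Nat.card (L₀ ≃ₐ[ℚ] L₀) with he
  set ι := crossHom hζ L₀ M hLM hζM with hι
  have hinj : Function.Injective ι := crossHom_injective hζ L₀ M hLM hζM hgen
  have hsurj : Function.Surjective ι := crossHom_surjective hζ L₀ M hLM hζM hirr
  set BadC : Finset (ZMod m)ˣ := Finset.univ.filter fun c => ¬ e ∣ orderOf c with hBadC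
  have hcardC : Fintype.card (ZMod m)ˣ = m - 1 := by
    rw [ZMod.card_units_eq_totient, Nat.totient_prime hm]
  have hC : BadC.card * 2 ^ a ≤ e.primeFactors.card * (m - 1) := by
    have := card_not_dvd_orderOf_mul_le (C := (ZMod m)ˣ) (e := e) ha (by rw [hcardC]; exact hea)
    rw [hcardC] at this
    convert this using 3
  refine ⟨Finset.univ.filter fun h : M ≃ₐ[ℚ] M =>
    ¬ e ∣ orderOf ((isPrimitiveRoot_mk hζ M hζM).autToPow ℚ h), fun h hh => ?_, ?_⟩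
  · rw [Finset.mem_filter, not_and, not_not] at hh
    exact good_of_card_dvd_orderOf hζ L₀ M hLM hζM hgen h (hh (Finset.mem_univ _))
  · have hBad : (Finset.univ.filter fun h : M ≃ₐ[ℚ] M =>
        ¬ e ∣ orderOf ((isPrimitiveRoot_mk hζ M hζM).autToPow ℚ h)).card ≤ e * BadC.card := by
      have h1 : (Finset.univ.filter fun h : M ≃ₐ[ℚ] M =>
          ¬ e ∣ orderOf ((isPrimitiveRoot_mk hζ M hζM).autToPow ℚ h)).card ≤
          ((Finset.univ : Finset (L₀ ≃ₐ[ℚ] L₀)) ×ˢ BadC).card := by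
        refine Finset.card_le_card_of_injOn ι (fun h hh => ?_) hinj.injOn
        rw [Finset.mem_coe, Finset.mem_filter] at hh
        rw [Finset.mem_coe, Finset.mem_product]
        exact ⟨Finset.mem_univ _, Finset.mem_filter.mpr ⟨Finset.mem_univ _, hh.2⟩⟩
      rwa [Finset.card_product, Finset.card_univ, ← Nat.card_eq_fintype_card] at h1
    have hG : Nat.card (M ≃ₐ[ℚ] M) = e * (m - 1) := by
      rw [Nat.card_congr (Equiv.ofBijective ι ⟨hinj, hsurj⟩), Nat.card_prod,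
        Nat.card_eq_fintype_card (α := (ZMod m)ˣ), hcardC]
    calc _ ≤ e * BadC.card * 2 ^ a := Nat.mul_le_mul_right _ hBad
      _ = e * (BadC.card * 2 ^ a) := mul_assoc _ _ _
      _ ≤ e * (e.primeFactors.card * (m - 1)) := Nat.mul_le_mul_left _ hC
      _ = e.primeFactors.card * Nat.card (M ≃ₐ[ℚ] M) := by rw [hG]; ring

end level

end gq

/-! ### The choice of the auxiliary prime and the crossing field -/

theorem exists_prime_pow_dvd_pred {e : ℕ} (he : 0 < e) (a : ℕ) (T : Finset ℕ) :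
    ∃ m : ℕ, m.Prime ∧ m ∉ T ∧ e ^ a ∣ m - 1 := by
  have : NeZero (e ^ a) := ⟨(pow_pos he a).ne'⟩
  have hinf := Nat.infinite_setOfPred_prime_and_eq_mod (q := e ^ a) (a := 1) isUnit_one
  obtain ⟨m, ⟨hm, hm1⟩, hmT⟩ := hinf.exists_notMem_finset T
  refine ⟨m, hm, hmT, ?_⟩
  rw [← ZMod.natCast_eq_zero_iff, Nat.cast_sub hm.one_lt.le, hm1]
  simp

section sup

variable {m : ℕ} [NeZero m] {ζ : Ω} (hζ : IsPrimitiveRoot ζ m) (L₀ : IntermediateField ℚ Ω)

include hζ in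
theorem normal_adjoin_zeta : Normal ℚ ℚ⟮ζ⟯ := by
  have halgQ : Algebra.IsAlgebraic ℚ Ω := AlgebraicClosure.isAlgebraic ℚ
  have h1 := hζ.intermediateField_adjoin_isCyclotomicExtension ℚ
  have h2 := @IsCyclotomicExtension.isGalois {m} ℚ ↥ℚ⟮ζ⟯ _ _ _ h1
  exact h2.to_normal

include hζ in
theorem finiteDimensional_adjoin_zeta : FiniteDimensional ℚ ℚ⟮ζ⟯ := by
  have halgQ : Algebra.IsAlgebraic ℚ Ω := AlgebraicClosure.isAlgebraic ℚ
  have h1 := hζ.intermediateField_adjoin_isCyclotomicExtension ℚ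
  have h2 := @IsCyclotomicExtension.finiteDimensional {m} ℚ _ ↥ℚ⟮ζ⟯ _ _ _ _ h1
  exact h2

include hζ in
theorem normal_sup_zeta [h : Normal ℚ L₀] : Normal ℚ ↥(L₀ ⊔ ℚ⟮ζ⟯) := by
  have h' : @Normal ℚ L₀ _ _ (IntermediateField.algebra' L₀) := h
  have h2 : @Normal ℚ ℚ⟮ζ⟯ _ _ (IntermediateField.algebra' ℚ⟮ζ⟯) := normal_adjoin_zeta hζ
  exact @IntermediateField.normal_sup ℚ Ω _ _ _ L₀ ℚ⟮ζ⟯ h' h2

include hζ in
theorem finiteDimensional_sup_zeta [h : FiniteDimensional ℚ L₀] :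
    FiniteDimensional ℚ ↥(L₀ ⊔ ℚ⟮ζ⟯) := by
  have h2 := finiteDimensional_adjoin_zeta hζ
  exact IntermediateField.finiteDimensional_sup L₀ ℚ⟮ζ⟯

theorem fixes_sup_zeta (τ : GQ) (h1 : ∀ x ∈ L₀, τ x = x) (h2 : τ ζ = ζ) :
    ∀ x ∈ L₀ ⊔ ℚ⟮ζ⟯, τ x = x := by
  have hle : L₀ ⊔ ℚ⟮ζ⟯ ≤ IntermediateField.fixedField (Subgroup.zpowers τ) := by
    refine sup_le (fun x hx => ?_) ?_
    · rw [IntermediateField.mem_fixedField_iff]
      intro g hg
      obtain ⟨k, rfl⟩ := Subgroup.mem_zpowers_iff.mp hg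
      have : (τ ^ k) • x = x := by
        have hst : τ ∈ MulAction.stabilizer GQ x := h1 x hx
        exact (Subgroup.zpow_mem _ hst k)
      exact this
    · rw [IntermediateField.adjoin_le_iff, Set.singleton_subset_iff, SetLike.mem_coe,
        IntermediateField.mem_fixedField_iff]
      intro g hg
      obtain ⟨k, rfl⟩ := Subgroup.mem_zpowers_iff.mp hg
      have hst : τ ∈ MulAction.stabilizer GQ ζ := h2
      exact (Subgroup.zpow_mem _ hst k)
  intro x hx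
  exact (IntermediateField.mem_fixedField_iff _ x).mp (hle hx) τ (Subgroup.mem_zpowers τ)

end sup

/-- **the crossing field**: for a finite Galois `L₀/ℚ` and `ε > 0` there are a prime `m`, a
primitive `m`-th root of unity `ζ` and the finite Galois extension `M = L₀(ζ)`, such that all
elements of `Gal(M/ℚ)` outside a set `Bad` of proportion at most `ε` generate a cyclic group meeting
the kernel of the cyclotomic character trivially. -/
theorem exists_cross (L₀ : IntermediateField ℚ Ω) [FiniteDimensional ℚ L₀] [Normal ℚ L₀]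
    {ε : ℝ} (hε : 0 < ε) :
    ∃ (m : ℕ) (_ : NeZero m) (M : IntermediateField ℚ Ω) (_ : FiniteDimensional ℚ M)
      (_ : Normal ℚ M) (ζ : M) (hζ : IsPrimitiveRoot ζ m) (Bad : Finset (M ≃ₐ[ℚ] M)),
      L₀ ≤ M ∧ (∀ h, h ∉ Bad → ∀ γ ∈ Subgroup.zpowers h, hζ.autToPow ℚ γ = 1 → γ = 1) ∧
      (Bad.card : ℝ) ≤ ε * Nat.card (M ≃ₐ[ℚ] M) := by
  have : NumberField L₀ := numberField_of_finiteDimensional L₀
  set e := Nat.card (L₀ ≃ₐ[ℚ] L₀) with he
  have he0 : 0 < e := Nat.card_pos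
  obtain ⟨n, hn⟩ := pow_unbounded_of_one_lt ((e.primeFactors.card : ℝ) / ε) one_lt_two
  set a := n + 1 with ha
  obtain ⟨m, hm, hmT, hma⟩ := exists_prime_pow_dvd_pred he0 a (badPrimes L₀)
  have : NeZero m := ⟨hm.ne_zero⟩
  obtain ⟨ζ, hζ⟩ := HasEnoughRootsOfUnity.exists_primitiveRoot Ω m
  have hunr : Unram L₀ m := unram_of_not_mem_badPrimes hm hmT
  have hirr := irreducible_cyclotomic_of_unram L₀ hm hunr
  have hN := normal_sup_zeta hζ L₀
  have hF := finiteDimensional_sup_zeta hζ L₀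
  have hLM : L₀ ≤ L₀ ⊔ ℚ⟮ζ⟯ := le_sup_left
  have hζM : ζ ∈ L₀ ⊔ ℚ⟮ζ⟯ := (le_sup_right : ℚ⟮ζ⟯ ≤ _) (mem_adjoin_simple_self ℚ ζ)
  obtain ⟨Bad, hBad1, hBad2⟩ := exists_bad_finset hζ L₀ (L₀ ⊔ ℚ⟮ζ⟯) hLM hζM hm
    (fixes_sup_zeta L₀) hirr (by omega) hma
  refine ⟨m, ‹_›, L₀ ⊔ ℚ⟮ζ⟯, hF, hN, ⟨ζ, hζM⟩, isPrimitiveRoot_mk hζ _ hζM, Bad, hLM, hBad1, ?_⟩
  have h1 : (Bad.card : ℝ) * 2 ^ a ≤
      (e.primeFactors.card : ℝ) * Nat.card (↥(L₀ ⊔ ℚ⟮ζ⟯) ≃ₐ[ℚ] ↥(L₀ ⊔ ℚ⟮ζ⟯)) := by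
    exact_mod_cast hBad2
  have h2 : (e.primeFactors.card : ℝ) ≤ ε * 2 ^ a := by
    have h3 : (e.primeFactors.card : ℝ) / ε < 2 ^ a :=
      hn.trans_le (pow_le_pow_right₀ one_le_two (by omega))
    rw [div_lt_iff₀ hε] at h3
    linarith
  have h3 : (0 : ℝ) < 2 ^ a := by positivity
  have h4 : (0 : ℝ) ≤ Nat.card (↥(L₀ ⊔ ℚ⟮ζ⟯) ≃ₐ[ℚ] ↥(L₀ ⊔ ℚ⟮ζ⟯)) := Nat.cast_nonneg _
  have h5 : (Bad.card : ℝ) * 2 ^ a ≤
      (ε * Nat.card (↥(L₀ ⊔ ℚ⟮ζ⟯) ≃ₐ[ℚ] ↥(L₀ ⊔ ℚ⟮ζ⟯))) * 2 ^ a := by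
    have := mul_le_mul_of_nonneg_right h2 h4
    linarith
  exact le_of_mul_le_mul_right h5 h3

end Fermat.Agent.Density
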