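/-
[CHEBD] (CROSS-C), helper4: from the number field level to `G_ℚ`.  For a finite Galois `M ⊆ ℚ̄` the
primes having a Frobenius element (in the Prelude's `ValuationSubring.IsFrobeniusAt` sense) in a
conjugation-stable union `S` of cosets of `Gal(ℚ̄/M)` are, up to finitely many, the primes whose
Frobenius class in `Gal(M/ℚ)` meets the image of `S`; combined with the crossing field this gives
Chebotarev's density theorem for `G_ℚ` modulo the interface hypothesis `CharSumHyp`.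
-/
import Fermat.Agent.Density.CHEBD_helper4_CrossB
import Fermat.Agent.TW.Kill_helper1_Frob

set_option linter.unusedSectionVars false

open NumberField Pointwise MulAction Filter Topology Asymptotics

namespace Fermat.Agent.Density

local notation "Ω" => AlgebraicClosure ℚ
local notation "GQ" => (AlgebraicClosure ℚ ≃ₐ[ℚ] AlgebraicClosure ℚ)

/-- the primes outside `T` having a Frobenius element in `S` -/
def frobPrimes (S : Set GQ) (T : Finset ℕ) : Set ℕ :=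
  {p | p.Prime ∧ p ∉ T ∧ ∃ (A : ValuationSubring Ω) (φ : GQ),
    A.LiesOverPrime p ∧ A.IsFrobeniusAt φ p ∧ φ ∈ S}

open Classical in
/-- the indicator function of `frobPrimes S T` -/
noncomputable def frobInd (S : Set GQ) (T : Finset ℕ) (p : ℕ) : ℝ :=
  if p ∈ frobPrimes S T then 1 else 0

theorem abs_frobInd_le (S : Set GQ) (T : Finset ℕ) (q : Nat.Primes) : |frobInd S T q| ≤ 1 := by
  unfold frobInd
  split_ifs <;> simp


/-- fibres of a surjective group homomorphism -/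
noncomputable def preimageEquivProdKer {G H : Type*} [Group G] [Group H] (f : G →* H)
    (hf : Function.Surjective f) (X : Set H) : (f ⁻¹' X) ≃ X × f.ker where
  toFun g := (⟨f g, g.2⟩, ⟨(Function.surjInv hf (f g))⁻¹ * g, by
    rw [MonoidHom.mem_ker, map_mul, map_inv, Function.surjInv_eq hf, inv_mul_cancel]⟩)
  invFun xk := ⟨Function.surjInv hf xk.1 * xk.2, by
    rw [Set.mem_preimage, map_mul, Function.surjInv_eq hf, MonoidHom.mem_ker.mp xk.2.2, mul_one]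
    exact xk.1.2⟩
  left_inv g := by
    apply Subtype.ext
    simp
  right_inv xk := by
    obtain ⟨⟨x, hx⟩, ⟨k, hk⟩⟩ := xk
    have hk' : f k = 1 := MonoidHom.mem_ker.mp hk
    apply Prod.ext
    · apply Subtype.ext
      simp [Function.surjInv_eq hf, hk']
    · apply Subtype.ext
      simp [Function.surjInv_eq hf, hk']

theorem card_preimage_mul_card {G H : Type*} [Group G] [Group H] (f : G →* H)
    (hf : Function.Surjective f) (X : Set H) :
    Nat.card (f ⁻¹' X) * Nat.card H = Nat.card X * Nat.card G := by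
  have hA : ∀ Y : Set H, Nat.card (f ⁻¹' Y) = Nat.card Y * Nat.card f.ker := fun Y => by
    rw [Nat.card_congr (preimageEquivProdKer f hf Y), Nat.card_prod]
  have hB : Nat.card G = Nat.card H * Nat.card f.ker := by
    have := hA Set.univ
    rwa [Set.preimage_univ, Nat.card_congr (Equiv.Set.univ G),
      Nat.card_congr (Equiv.Set.univ H)] at this
  rw [hA X, hB]
  ring


section bridge

variable (M : IntermediateField ℚ Ω) [NumberField M] [IsGalois ℚ M]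

/-- the image of a subset of `G_ℚ` in `Gal(M/ℚ)` -/
noncomputable def imgFinset (S : Set GQ) : Finset (M ≃ₐ[ℚ] M) := by
  classical
  exact Finset.univ.filter fun σ => ∃ ψ ∈ S, AlgEquiv.restrictNormalHom (F := ℚ) (K₁ := Ω) M ψ = σ

theorem mem_imgFinset {S : Set GQ} {σ : M ≃ₐ[ℚ] M} :
    σ ∈ imgFinset M S ↔ ∃ ψ ∈ S, AlgEquiv.restrictNormalHom (F := ℚ) (K₁ := Ω) M ψ = σ := by
  classical
  simp [imgFinset]

theorem imgFinset_conj {S : Set GQ} (hSc : ∀ g ∈ S, ∀ τ : GQ, τ * g * τ⁻¹ ∈ S) :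
    ∀ σ ∈ imgFinset M S, ∀ τ : M ≃ₐ[ℚ] M, τ * σ * τ⁻¹ ∈ imgFinset M S := by
  intro σ hσ τ
  obtain ⟨ψ, hψ, rfl⟩ := (mem_imgFinset M).mp hσ
  obtain ⟨t, rfl⟩ := restrictNormalHom_surj M τ
  refine (mem_imgFinset M).mpr ⟨t * ψ * t⁻¹, hSc ψ hψ t, ?_⟩
  rw [map_mul, map_mul, map_inv]

theorem frobPrimes_iff {S : Set GQ}
    (hSN : ∀ g ∈ S, ∀ n : GQ, (∀ x ∈ M, n x = x) → g * n ∈ S)
    (hSc : ∀ g ∈ S, ∀ τ : GQ, τ * g * τ⁻¹ ∈ S) {p : ℕ} (hp : p.Prime) (hunr : Unram M p) :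
    (∃ (A : ValuationSubring Ω) (φ : GQ), A.LiesOverPrime p ∧ A.IsFrobeniusAt φ p ∧ φ ∈ S) ↔
      ∃ Q ∈ (pZ p).primesOver (𝓞 M), ∃ σ ∈ imgFinset M S, IsFrobAt σ Q p := by
  constructor
  · rintro ⟨A, φ, hA, hφ, hφS⟩
    exact ⟨primeAt M A, primeAt_mem_primesOver M A hp hA, AlgEquiv.restrictNormalHom M φ,
      (mem_imgFinset M).mpr ⟨φ, hφS, rfl⟩, restrictNormal_smul_sub_pow_mem M hφ⟩
  · rintro ⟨Q, hQ, σ, hσ, hσQ⟩
    obtain ⟨ψ, hψ, rfl⟩ := (mem_imgFinset M).mp hσ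
    have : Fact p.Prime := ⟨hp⟩
    have hA₀ : (padicPlace p).LiesOverPrime p := Fermat.Agent.TW.Kill.padicPlace_liesOverPrime p
    obtain ⟨φ₀, hφ₀⟩ := Fermat.Agent.TW.Kill.exists_isFrobeniusAt (padicPlace p) hp hA₀
    refine ⟨padicPlace p, φ₀, hA₀, hφ₀, ?_⟩
    have hQ₀ := primeAt_mem_primesOver M (padicPlace p) hp hA₀
    have hσ₀ : IsFrobAt (AlgEquiv.restrictNormalHom M φ₀) (primeAt M (padicPlace p)) p :=
      restrictNormal_smul_sub_pow_mem M hφ₀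
    have : (pZ p).IsPrime := pZ_isPrime hp
    have : Q.IsPrime := hQ.1
    have : Q.LiesOver (pZ p) := hQ.2
    have : (primeAt M (padicPlace p)).LiesOver (pZ p) := hQ₀.2
    obtain ⟨τ', hτ'⟩ := Ideal.exists_smul_eq_of_isGaloisGroup (pZ p) (primeAt M (padicPlace p)) Q
      (M ≃ₐ[ℚ] M)
    obtain ⟨τ, rfl⟩ := restrictNormalHom_surj M τ'
    have h1 := hσ₀.conj (AlgEquiv.restrictNormalHom M τ)
    rw [hτ'] at h1
    have h2 := hσQ.unique hp hunr hQ h1
    -- `ψ` and `τ φ₀ τ⁻¹` have the same restriction to `M`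
    have h3 : AlgEquiv.restrictNormalHom (F := ℚ) (K₁ := Ω) M (ψ⁻¹ * (τ * φ₀ * τ⁻¹)) = 1 := by
      rw [map_mul, map_inv, h2, map_mul, map_mul, map_inv, inv_mul_cancel]
    have h4 := hSN ψ hψ _ ((restrictNormalHom_eq_one_iff M _).mp h3)
    rw [mul_inv_cancel_left] at h4
    have h5 := hSc _ h4 τ⁻¹
    simpa [mul_assoc] using h5

theorem frobInd_eq_frobIndF {S : Set GQ}
    (hSN : ∀ g ∈ S, ∀ n : GQ, (∀ x ∈ M, n x = x) → g * n ∈ S)
    (hSc : ∀ g ∈ S, ∀ τ : GQ, τ * g * τ⁻¹ ∈ S) (T : Finset ℕ) {p : ℕ} (hp : p.Prime)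
    (hpT : p ∉ T) (hunr : Unram M p) :
    frobInd S T p = frobIndF (imgFinset M S) p := by
  classical
  unfold frobInd frobIndF frobPrimes
  by_cases h : ∃ (A : ValuationSubring Ω) (φ : GQ),
      A.LiesOverPrime p ∧ A.IsFrobeniusAt φ p ∧ φ ∈ S
  · rw [if_pos ⟨hp, hpT, h⟩, if_pos ⟨hunr, (frobPrimes_iff M hSN hSc hp hunr).mp h⟩]
  · rw [if_neg (fun h' => h h'.2.2),
      if_neg (fun h' => h ((frobPrimes_iff M hSN hSc hp hunr).mpr h'.2))]

/-- the two prime sums differ by a bounded amount -/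
theorem exists_mass_frobInd_sub_le {S : Set GQ}
    (hSN : ∀ g ∈ S, ∀ n : GQ, (∀ x ∈ M, n x = x) → g * n ∈ S)
    (hSc : ∀ g ∈ S, ∀ τ : GQ, τ * g * τ⁻¹ ∈ S) (T : Finset ℕ) :
    ∃ B : ℝ, ∀ᶠ s in 𝓝[>] (1 : ℝ),
      |mass (frobInd S T) s - mass (frobIndF (imgFinset M S)) s| ≤ B := by
  let e : ℕ → ℝ := fun q ↦ frobInd S T q - frobIndF (imgFinset M S) q
  have he : (fun s ↦ mass e s) =O[𝓝[>] 1] (fun _ ↦ (1 : ℝ)) := by
    refine mass_isBigO_of_support e (T ∪ badPrimes M) fun q hq ↦ ?_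
    rw [Finset.notMem_union] at hq
    show frobInd S T (q : ℕ) - frobIndF (imgFinset M S) (q : ℕ) = 0
    rw [frobInd_eq_frobIndF M hSN hSc T q.2 hq.1 (unram_of_not_mem_badPrimes q.2 hq.2), sub_self]
  obtain ⟨B, hB⟩ := he.bound
  refine ⟨B, ?_⟩
  filter_upwards [hB, self_mem_nhdsWithin] with s hs hs1
  have hs1' : (1 : ℝ) < s := hs1
  have h1 : mass e s = mass (frobInd S T) s - mass (frobIndF (imgFinset M S)) s :=
    mass_sub (summable_mass_of_bdd (abs_frobInd_le S T) hs1') (summable_frobIndF _ hs1')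
  rw [norm_one, mul_one, Real.norm_eq_abs, h1] at hs
  exact hs

section quot

variable (N : Subgroup GQ) [N.Normal] (hMN : ∀ n : GQ, (∀ x ∈ M, n x = x) → n ∈ N)

/-- the projection `Gal(M/ℚ) → G_ℚ/N`, for `N ⊇ Gal(ℚ̄/M)` -/
noncomputable def toQuot : (M ≃ₐ[ℚ] M) →* GQ ⧸ N :=
  (AlgEquiv.restrictNormalHom (F := ℚ) (K₁ := Ω) M).liftOfSurjective (restrictNormalHom_surj M)
    ⟨QuotientGroup.mk' N, by
      intro n hn
      rw [MonoidHom.mem_ker] at hn ⊢
      exact (QuotientGroup.eq_one_iff n).mpr (hMN n ((restrictNormalHom_eq_one_iff M n).mp hn))⟩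

theorem toQuot_apply (τ : GQ) :
    toQuot M N hMN (AlgEquiv.restrictNormalHom (F := ℚ) (K₁ := Ω) M τ) = QuotientGroup.mk' N τ :=
  MonoidHom.liftOfRightInverse_comp_apply _ _ _ _ τ

theorem toQuot_surjective : Function.Surjective (toQuot M N hMN) := by
  intro x
  obtain ⟨τ, rfl⟩ := QuotientGroup.mk'_surjective N x
  exact ⟨_, toQuot_apply M N hMN τ⟩

theorem coe_imgFinset_eq {S : Set GQ} (hSN : ∀ g ∈ S, ∀ n ∈ N, g * n ∈ S) :
    (imgFinset M S : Set (M ≃ₐ[ℚ] M)) = toQuot M N hMN ⁻¹' (QuotientGroup.mk' N '' S) := by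
  ext σ
  rw [Finset.mem_coe, mem_imgFinset, Set.mem_preimage]
  constructor
  · rintro ⟨ψ, hψ, rfl⟩
    rw [toQuot_apply]
    exact ⟨ψ, hψ, rfl⟩
  · intro h
    obtain ⟨φ, rfl⟩ := restrictNormalHom_surj M σ
    rw [toQuot_apply] at h
    obtain ⟨ψ, hψ, hψφ⟩ := h
    refine ⟨φ, ?_, rfl⟩
    have h1 : ψ⁻¹ * φ ∈ N := QuotientGroup.eq.mp hψφ
    have h2 := hSN ψ hψ _ h1
    rwa [mul_inv_cancel_left] at h2

include M hMN in
theorem finite_quot : Finite (GQ ⧸ N) :=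
  Finite.of_surjective _ (toQuot_surjective M N hMN)

include hMN in
theorem card_imgFinset_div {S : Set GQ} (hSN : ∀ g ∈ S, ∀ n ∈ N, g * n ∈ S) :
    ((imgFinset M S).card : ℝ) / Nat.card (M ≃ₐ[ℚ] M) =
      (Nat.card (QuotientGroup.mk' N '' S) : ℝ) / Nat.card (GQ ⧸ N) := by
  have := finite_quot M N hMN
  have h1 := card_preimage_mul_card (toQuot M N hMN) (toQuot_surjective M N hMN)
    (QuotientGroup.mk' N '' S)
  rw [← coe_imgFinset_eq M N hMN hSN, Nat.card_coe_set_eq, Set.ncard_coe_finset] at h1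
  have h2 : (0 : ℝ) < Nat.card (M ≃ₐ[ℚ] M) := by exact_mod_cast Nat.card_pos
  have h3 : (0 : ℝ) < Nat.card (GQ ⧸ N) := by exact_mod_cast Nat.card_pos
  rw [div_eq_div_iff h2.ne' h3.ne']
  exact_mod_cast h1

end quot

end bridge

/-- the interface hypothesis: helper3's theorem (C) for all number fields -/
def CharSumHyp : Prop :=
  ∀ (E : Type) [Field E] [NumberField E] (m : ℕ) [NeZero m] (χ : DirichletCharacter ℂ m),
    NormNontrivial E χ → CharSumBound E χ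

/-- **Chebotarev's density theorem, level form** (modulo the interface hypothesis): if `S ⊆ G_ℚ` is
a conjugation-stable union of cosets of the normal subgroup `N ⊇ Gal(ℚ̄/L₀)`, then the primes with
Frobenius class in `S` have Dirichlet density `#(S/N) / #(G_ℚ/N)`. -/
theorem frobInd_density (hC : CharSumHyp) (N : Subgroup GQ) [N.Normal]
    (L₀ : IntermediateField ℚ Ω) [FiniteDimensional ℚ L₀] [Normal ℚ L₀]
    (hL₀N : ∀ n : GQ, (∀ x ∈ L₀, n x = x) → n ∈ N)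
    (S : Set GQ) (hSN : ∀ g ∈ S, ∀ n ∈ N, g * n ∈ S)
    (hSc : ∀ g ∈ S, ∀ τ : GQ, τ * g * τ⁻¹ ∈ S) (T : Finset ℕ) {ε : ℝ} (hε : 0 < ε) :
    ∃ B : ℝ, ∀ᶠ s in 𝓝[>] (1 : ℝ),
      |mass (frobInd S T) s - ((Nat.card (QuotientGroup.mk' N '' S) : ℝ) / Nat.card (GQ ⧸ N)) *
        Real.log (1 / (s - 1))| ≤ ε * Real.log (1 / (s - 1)) + B := by
  obtain ⟨m, hm, M, hF, hNorm, ζ, hζ, Bad, hLM, hBad1, hBad2⟩ := exists_cross L₀ hε
  have : NumberField M := numberField_of_finiteDimensional M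
  have : IsGalois ℚ M := { to_normal := hNorm }
  have hMN : ∀ n : GQ, (∀ x ∈ M, n x = x) → n ∈ N :=
    fun n hn => hL₀N n (fun x hx => hn x (hLM hx))
  have hSN' : ∀ g ∈ S, ∀ n : GQ, (∀ x ∈ M, n x = x) → g * n ∈ S :=
    fun g hg n hn => hSN g hg n (hMN n hn)
  obtain ⟨B₁, hB₁⟩ := abs_mass_frobIndF_sub_le (F := M) hζ (fun g χ => hC _ m χ)
    (imgFinset M S) (imgFinset_conj M hSc) Bad (fun h hh => hBad1 h hh)
  obtain ⟨B₂, hB₂⟩ := exists_mass_frobInd_sub_le M hSN' hSc T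
  refine ⟨B₁ + B₂, ?_⟩
  have hIoo : Set.Ioo (1 : ℝ) 2 ∈ 𝓝[>] (1 : ℝ) := Ioo_mem_nhdsGT (by norm_num)
  filter_upwards [hB₁, hB₂, hIoo] with s h1 h2 hs12
  have hL : 0 ≤ Real.log (1 / (s - 1)) := by
    refine Real.log_nonneg ?_
    rw [le_div_iff₀ (by linarith [hs12.1])]
    linarith [hs12.2]
  rw [card_imgFinset_div M N hMN hSN] at h1
  have hG : (0 : ℝ) < Nat.card (M ≃ₐ[ℚ] M) := by exact_mod_cast Nat.card_pos
  have h3 : (Bad.card : ℝ) / Nat.card (M ≃ₐ[ℚ] M) ≤ ε := by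
    rw [div_le_iff₀ hG]
    exact hBad2
  have h4 := mul_le_mul_of_nonneg_right h3 hL
  have h5 := abs_sub_le (mass (frobInd S T) s) (mass (frobIndF (imgFinset M S)) s)
    (((Nat.card (QuotientGroup.mk' N '' S) : ℝ) / Nat.card (GQ ⧸ N)) * Real.log (1 / (s - 1)))
  linarith

end Fermat.Agent.Density
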