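/-
[CHEBD] (FINAL), helper4: **Chebotarev's density theorem for `G_ℚ = Gal(ℚ̄/ℚ)`**, unconditional.
`chebotarev_density`: for an open normal subgroup `N` of `G_ℚ`, a conjugation-stable union `S` of
`N`-cosets, a finite set `T` of primes and `ε > 0` there is `B` with
`|∑_{p ∉ T, Frob_p ∈ S} p^(-s) - (#(S/N) / #(G_ℚ/N)) log (1/(s-1))| ≤ ε log (1/(s-1)) + B` on `(1, 2]`.
Proof: Chebotarev's original crossing argument with cyclotomic fields (no class field theory):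
helper3's lattice point count (`charSum_ideal_le`) ⇒ `L(s, χ ∘ N)` continuous at `1` (Abel, Cyc) ⇒
cyclic cyclotomic case with `O(1)` error (Core) ⇒ crossing with `ℚ(ζ_m)` (CrossA, CrossB, CrossC).
-/
import Fermat.Agent.Density.CHEBD_helper4_CrossC
import Fermat.Agent.Density.CHEBD_helper3_CharSum
import Fermat.Prelude.Def_GaloisRep_Residual

set_option linter.unusedSectionVars false

open NumberField Pointwise MulAction Filter Topology Asymptotics

namespace Fermat.Agent.Density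

local notation "Ω" => AlgebraicClosure ℚ
local notation "GQ" => (AlgebraicClosure ℚ ≃ₐ[ℚ] AlgebraicClosure ℚ)

/-- helper3's lattice point theorem discharges the interface hypothesis -/
theorem charSumHyp : CharSumHyp :=
  fun E _ _ m _ χ hχ => charSum_ideal_le E m χ hχ

/-! ### From `s → 1⁺` to the interval `(1, 2]` -/

theorem abs_mass_le_of_le {c : ℕ → ℝ} (hc : ∀ q : Nat.Primes, |c q| ≤ 1) {u s : ℝ} (hu : 1 < u)
    (hus : u ≤ s) : |mass c s| ≤ mass (fun _ => 1) u := by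
  have hs : 1 < s := lt_of_lt_of_le hu hus
  have h1 := summable_mass_of_bdd hc hs
  have h2 : Summable fun q : Nat.Primes ↦ (fun _ : ℕ => (1 : ℝ)) q * (((q : ℕ) : ℝ) ^ u)⁻¹ :=
    summable_mass_of_bdd (c := fun _ => (1 : ℝ)) (B := 1) (fun q => by simp) hu
  unfold mass
  rw [← Real.norm_eq_abs]
  refine (norm_tsum_le_tsum_norm h1.norm).trans ?_
  refine Summable.tsum_le_tsum (fun q => ?_) h1.norm h2
  have hq1 : (1 : ℝ) ≤ ((q : ℕ) : ℝ) := by exact_mod_cast q.2.one_lt.le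
  have hpos : (0 : ℝ) < ((q : ℕ) : ℝ) ^ u := Real.rpow_pos_of_pos (by linarith) _
  have hle : ((q : ℕ) : ℝ) ^ u ≤ ((q : ℕ) : ℝ) ^ s := Real.rpow_le_rpow_of_exponent_le hq1 hus
  rw [norm_mul, Real.norm_eq_abs, Real.norm_eq_abs, one_mul,
    abs_of_nonneg (inv_nonneg.mpr (hpos.le.trans hle))]
  calc |c q| * (((q : ℕ) : ℝ) ^ s)⁻¹ ≤ 1 * (((q : ℕ) : ℝ) ^ s)⁻¹ :=
        mul_le_mul_of_nonneg_right (hc q) (inv_nonneg.mpr (hpos.le.trans hle))
    _ = (((q : ℕ) : ℝ) ^ s)⁻¹ := one_mul _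
    _ ≤ (((q : ℕ) : ℝ) ^ u)⁻¹ := inv_anti₀ hpos hle

theorem log_inv_nonneg {s : ℝ} (hs1 : 1 < s) (hs2 : s ≤ 2) : 0 ≤ Real.log (1 / (s - 1)) := by
  refine Real.log_nonneg ?_
  rw [le_div_iff₀ (by linarith)]
  linarith

/-- a density estimate valid as `s → 1⁺` holds on all of `(1, 2]` with a larger constant -/
theorem exists_bound_Ioc {c : ℕ → ℝ} (hc : ∀ q : Nat.Primes, |c q| ≤ 1) (δ : ℝ) {ε : ℝ}
    (hε : 0 ≤ ε)
    (h : ∃ B : ℝ, ∀ᶠ s in 𝓝[>] (1 : ℝ),
      |mass c s - δ * Real.log (1 / (s - 1))| ≤ ε * Real.log (1 / (s - 1)) + B) :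
    ∃ B : ℝ, ∀ s : ℝ, 1 < s → s ≤ 2 →
      |mass c s - δ * Real.log (1 / (s - 1))| ≤ ε * Real.log (1 / (s - 1)) + B := by
  obtain ⟨B₀, hB₀⟩ := h
  obtain ⟨u₀, hu₀, hsub⟩ := mem_nhdsGT_iff_exists_Ioo_subset.mp hB₀
  have hu₀' : (1 : ℝ) < u₀ := hu₀
  set u := min u₀ 2 with hu
  have hu1 : 1 < u := lt_min hu₀' (by norm_num)
  have hu2 : u ≤ 2 := min_le_right _ _
  set B₁ := mass (fun _ => 1) u + |δ| * Real.log (1 / (u - 1)) with hB₁
  refine ⟨max B₀ B₁, fun s hs1 hs2 => ?_⟩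
  have hL := log_inv_nonneg hs1 hs2
  by_cases hsu : s < u
  · have := hsub ⟨hs1, lt_of_lt_of_le hsu (min_le_left _ _)⟩
    have h1 : |mass c s - δ * Real.log (1 / (s - 1))| ≤ ε * Real.log (1 / (s - 1)) + B₀ := this
    linarith [le_max_left B₀ B₁]
  · rw [not_lt] at hsu
    have h1 := abs_mass_le_of_le hc hu1 hsu
    have h2 : Real.log (1 / (s - 1)) ≤ Real.log (1 / (u - 1)) := by
      refine Real.log_le_log (one_div_pos.mpr (sub_pos.mpr hs1)) ?_
      exact one_div_le_one_div_of_le (by linarith) (by linarith)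
    have h3 : |δ * Real.log (1 / (s - 1))| ≤ |δ| * Real.log (1 / (u - 1)) := by
      rw [abs_mul, abs_of_nonneg hL]
      exact mul_le_mul_of_nonneg_left h2 (abs_nonneg _)
    have h4 := abs_sub (mass c s) (δ * Real.log (1 / (s - 1)))
    have h5 : 0 ≤ ε * Real.log (1 / (s - 1)) := mul_nonneg hε hL
    linarith [le_max_right B₀ B₁]

/-! ### Chebotarev's density theorem for `G_ℚ` -/

/-- an open normal subgroup of `G_ℚ` contains `Gal(ℚ̄/L₀)` for a finite Galois `L₀/ℚ` -/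
theorem exists_level_of_isOpen (N : Subgroup GQ) (hN : IsOpen (N : Set GQ)) :
    ∃ (L₀ : IntermediateField ℚ Ω) (_ : FiniteDimensional ℚ L₀) (_ : Normal ℚ L₀),
      ∀ n : GQ, (∀ x ∈ L₀, n x = x) → n ∈ N := by
  have := normal_algebraicClosure_rat
  have h1 : (N : Set GQ) ∈ 𝓝 (1 : GQ) := hN.mem_nhds N.one_mem
  obtain ⟨E, hfin, hnorm, hE⟩ := (krullTopology_mem_nhds_one_iff_of_normal ℚ Ω _).mp h1
  have hnorm' : Normal ℚ E := hnorm
  refine ⟨E, hfin, hnorm', fun n hn => hE ?_⟩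
  rw [SetLike.mem_coe, IntermediateField.mem_fixingSubgroup_iff]
  exact hn

/-- **Chebotarev's density theorem**, open normal subgroup form: for an open normal subgroup `N` of
`G_ℚ` and a conjugation-stable union `S` of `N`-cosets, the primes `p ∉ T` having a Frobenius
element in `S` have Dirichlet density `#(S/N) / #(G_ℚ/N)`. -/
theorem chebotarev_density (N : Subgroup GQ) [N.Normal] (hN : IsOpen (N : Set GQ))
    (S : Set GQ) (hSN : ∀ g ∈ S, ∀ n ∈ N, g * n ∈ S)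
    (hSc : ∀ g ∈ S, ∀ τ : GQ, τ * g * τ⁻¹ ∈ S) (T : Finset ℕ) {ε : ℝ} (hε : 0 < ε) :
    ∃ B : ℝ, ∀ s : ℝ, 1 < s → s ≤ 2 →
      |mass (frobInd S T) s - ((Nat.card (QuotientGroup.mk' N '' S) : ℝ) / Nat.card (GQ ⧸ N)) *
        Real.log (1 / (s - 1))| ≤ ε * Real.log (1 / (s - 1)) + B := by
  obtain ⟨L₀, hfd, hnorm, hL₀N⟩ := exists_level_of_isOpen N hN
  exact exists_bound_Ioc (abs_frobInd_le S T) _ hε.le
    (frobInd_density charSumHyp N L₀ hL₀N S hSN hSc T hε)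

/-- outside a finite set of primes, inertia groups lie in a given open normal subgroup -/
theorem exists_finset_inertia_le (N : Subgroup GQ) (hN : IsOpen (N : Set GQ)) :
    ∃ T₀ : Finset ℕ, ∀ p : ℕ, p.Prime → p ∉ T₀ → ∀ A : ValuationSubring Ω, A.LiesOverPrime p →
      A.inertiaSubgroupIn ℚ ≤ N := by
  obtain ⟨L₀, hfd, hnorm, hL₀N⟩ := exists_level_of_isOpen N hN
  have : NumberField L₀ := numberField_of_finiteDimensional L₀
  have : IsGalois ℚ L₀ := { to_normal := hnorm }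
  refine ⟨badPrimes L₀, fun p hp hpT A hA τ hτ => hL₀N τ ?_⟩
  have hunr := unram_of_not_mem_badPrimes hp hpT
  have h1 := eq_one_of_mem_inertia hp hunr (primeAt_mem_primesOver L₀ A hp hA) _
    (restrictNormal_smul_sub_mem_of_mem_inertia L₀ hτ)
  exact (restrictNormalHom_eq_one_iff L₀ τ).mp h1

end Fermat.Agent.Density
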