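/-
[CHEBD] (RHO), helper4: Chebotarev's density theorem in representation form, and the two
consequences used by the Deligne–Serre argument.
* `chebotarev_density_rho`: `ρ : G_ℚ →* M` of finite level, `C ⊆ M` stable under conjugation by the
  image: the primes `p ∉ T` with `ρ(Frob_p) ∈ C` have density `#(C ∩ im ρ) / #(im ρ)`.
* `card_range_le_of_density` (Use 1): if the Frobenius elements of all primes outside a set of upper
  density `≤ η` land in the conjugation-stable set `H`, then `#(H ∩ im ρ) ≥ (1 - η) #(im ρ)`.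
* `norm_tsum_char_frob_le`, `abs_mass_re_char_frob_le` (Use 2): for a non-trivial character `χ` of
  finite level, `∑_p χ(Frob_p) p^(-s) = o(log (1/(s-1)))`.
-/
import Fermat.Agent.Density.CHEBD_helper4_Final
import Fermat.Agent.TW.Kill_helper1_Frob

set_option linter.unusedSectionVars false

open NumberField Pointwise MulAction Filter Topology Asymptotics

namespace Fermat.Agent.Density

local notation "Ω" => AlgebraicClosure ℚ
local notation "GQ" => (AlgebraicClosure ℚ ≃ₐ[ℚ] AlgebraicClosure ℚ)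

section rho

variable {M : Type} [Group M] (ρ : GQ →* M)

theorem isOpen_ker_of_factors (hρ : GaloisFactorsThroughFiniteLevel ρ) :
    IsOpen (ρ.ker : Set GQ) := by
  obtain ⟨L, hfd, hL⟩ := hρ
  have h1 : IsOpen (L.fixingSubgroup : Set GQ) :=
    @IntermediateField.fixingSubgroup_isOpen ℚ Ω _ _ _ L hfd
  refine Subgroup.isOpen_mono (H₁ := L.fixingSubgroup) (fun σ hσ => ?_) h1
  rw [MonoidHom.mem_ker]
  exact hL σ ((IntermediateField.mem_fixingSubgroup_iff _ _).mp hσ)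

theorem card_image_mk_preimage (C : Set M) :
    Nat.card (QuotientGroup.mk' ρ.ker '' (ρ ⁻¹' C)) = Nat.card ↥(C ∩ Set.range ρ) := by
  have hinj := QuotientGroup.kerLift_injective ρ
  have himg : QuotientGroup.kerLift ρ '' (QuotientGroup.mk' ρ.ker '' (ρ ⁻¹' C)) =
      C ∩ Set.range ρ := by
    ext y
    constructor
    · rintro ⟨x, ⟨g, hg, rfl⟩, rfl⟩
      exact ⟨hg, g, rfl⟩
    · rintro ⟨hy, g, rfl⟩
      exact ⟨QuotientGroup.mk' ρ.ker g, ⟨g, hy, rfl⟩, rfl⟩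
  rw [← himg]
  exact Nat.card_congr (Equiv.Set.image _ _ hinj)

theorem card_quot_ker : Nat.card (GQ ⧸ ρ.ker) = Nat.card ↥(Set.range ρ) := by
  have h := card_image_mk_preimage ρ Set.univ
  rw [Set.preimage_univ, Set.image_univ, Set.univ_inter,
    Set.range_eq_univ.mpr (QuotientGroup.mk'_surjective ρ.ker)] at h
  rw [← h]
  exact (Nat.card_congr (Equiv.Set.univ _)).symm

/-- **Chebotarev's density theorem, representation form.** -/
theorem chebotarev_density_rho (hρ : GaloisFactorsThroughFiniteLevel ρ) (C : Set M)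
    (hC : ∀ g ∈ C, ∀ τ : GQ, ρ τ * g * (ρ τ)⁻¹ ∈ C) (T : Finset ℕ) {ε : ℝ} (hε : 0 < ε) :
    ∃ B : ℝ, ∀ s : ℝ, 1 < s → s ≤ 2 →
      |mass (frobInd (ρ ⁻¹' C) T) s -
        ((Nat.card ↥(C ∩ Set.range ρ) : ℝ) / Nat.card ↥(Set.range ρ)) *
          Real.log (1 / (s - 1))| ≤ ε * Real.log (1 / (s - 1)) + B := by
  have h := chebotarev_density ρ.ker (isOpen_ker_of_factors ρ hρ) (ρ ⁻¹' C)
    (fun g hg n hn => by
      rw [Set.mem_preimage, map_mul, MonoidHom.mem_ker.mp hn, mul_one]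
      exact hg)
    (fun g hg τ => by
      rw [Set.mem_preimage, map_mul, map_mul, map_inv]
      exact hC _ hg τ) T hε
  rwa [card_image_mk_preimage, card_quot_ker] at h

theorem mem_frobPrimes_preimage (C : Set M) (T : Finset ℕ) (p : ℕ) :
    p ∈ frobPrimes (ρ ⁻¹' C) T ↔ p.Prime ∧ p ∉ T ∧ ∃ (A : ValuationSubring Ω) (φ : GQ),
      A.LiesOverPrime p ∧ A.IsFrobeniusAt φ p ∧ ρ φ ∈ C := Iff.rfl

theorem exists_finset_inertia_rho (hρ : GaloisFactorsThroughFiniteLevel ρ) :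
    ∃ T₀ : Finset ℕ, ∀ p : ℕ, p.Prime → p ∉ T₀ → ∀ A : ValuationSubring Ω, A.LiesOverPrime p →
      ∀ σ ∈ A.inertiaSubgroupIn ℚ, ρ σ = 1 := by
  obtain ⟨T₀, hT₀⟩ := exists_finset_inertia_le ρ.ker (isOpen_ker_of_factors ρ hρ)
  exact ⟨T₀, fun p hp hpT A hA σ hσ => MonoidHom.mem_ker.mp (hT₀ p hp hpT A hA hσ)⟩

/-! ### Use 1: a lower bound for the size of a subset of the image -/

theorem exists_log_gt {c : ℝ} (hc : 0 < c) (B : ℝ) :
    ∃ s : ℝ, 1 < s ∧ s ≤ 2 ∧ B < c * Real.log (1 / (s - 1)) := by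
  set t := |B| / c + 1 with ht
  have ht0 : 0 ≤ |B| / c := by positivity
  refine ⟨1 + Real.exp (-t), by linarith [Real.exp_pos (-t)], ?_, ?_⟩
  · have : Real.exp (-t) ≤ 1 := Real.exp_le_one_iff.mpr (by linarith)
    linarith
  · rw [add_sub_cancel_left, one_div, ← Real.exp_neg, neg_neg, Real.log_exp]
    have h1 : c * t = |B| + c := by
      rw [ht]
      field_simp
    linarith [le_abs_self B]

theorem finite_range_of_factors (hρ : GaloisFactorsThroughFiniteLevel ρ) :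
    (Set.range ρ).Finite := by
  obtain ⟨L₀, hfd, hnorm, hL₀N⟩ := exists_level_of_isOpen ρ.ker (isOpen_ker_of_factors ρ hρ)
  have : NumberField L₀ := numberField_of_finiteDimensional L₀
  have : IsGalois ℚ L₀ := { to_normal := hnorm }
  have : Finite (GQ ⧸ ρ.ker) := finite_quot L₀ ρ.ker hL₀N
  have h : Set.range ρ = Set.range (QuotientGroup.kerLift ρ) := by
    ext y
    constructor
    · rintro ⟨g, rfl⟩
      exact ⟨QuotientGroup.mk' ρ.ker g, rfl⟩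
    · rintro ⟨x, rfl⟩
      obtain ⟨g, rfl⟩ := QuotientGroup.mk'_surjective ρ.ker x
      exact ⟨g, rfl⟩
  rw [h]
  exact Set.finite_range _

/-- **Use 1**: if all primes outside a set of upper density `≤ η` have their Frobenius elements in
the conjugation-stable set `H`, then `H` contains at least `(1 - η) · #(image of ρ)` elements of the
image of `ρ`. -/
theorem card_range_le_of_density (hρ : GaloisFactorsThroughFiniteLevel ρ) (H : Set M)
    (hH : ∀ g ∈ H, ∀ τ : GQ, ρ τ * g * (ρ τ)⁻¹ ∈ H) (T : Finset ℕ)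
    (x : ℕ → ℝ) {W : ℝ} (hx0 : ∀ p, 0 ≤ x p) (hxW : ∀ p, x p ≤ W) {η B₀ : ℝ}
    (hX : ∀ s : ℝ, 1 < s → s ≤ 2 → mass x s ≤ η * Real.log (1 / (s - 1)) + B₀)
    (hFrob : ∀ p : ℕ, p.Prime → p ∉ T → x p < 1 → ∀ (A : ValuationSubring Ω) (φ : GQ),
      A.LiesOverPrime p → A.IsFrobeniusAt φ p → ρ φ ∈ H) :
    (1 - η) * (Nat.card ↥(Set.range ρ) : ℝ) ≤ (Nat.card ↥(H ∩ Set.range ρ) : ℝ) := by
  classical
  have hfin := finite_range_of_factors ρ hρ
  have hHc : ∀ g ∈ Hᶜ, ∀ τ : GQ, ρ τ * g * (ρ τ)⁻¹ ∈ Hᶜ := by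
    intro g hg τ hmem
    apply hg
    have := hH _ hmem τ⁻¹
    simpa [mul_assoc] using this
  have hle : ∀ p : ℕ, frobInd (ρ ⁻¹' Hᶜ) T p ≤ x p := by
    intro p
    unfold frobInd
    split_ifs with h
    · obtain ⟨hp, hpT, A, φ, hA, hφ, hφC⟩ := h
      by_contra hlt
      rw [not_le] at hlt
      exact hφC (hFrob p hp hpT hlt A φ hA hφ)
    · exact hx0 p
  have hmass : ∀ s : ℝ, 1 < s → mass (frobInd (ρ ⁻¹' Hᶜ) T) s ≤ mass x s := by
    intro s hs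
    unfold mass
    refine Summable.tsum_le_tsum (fun q => mul_le_mul_of_nonneg_right (hle q) ?_)
      (summable_mass_of_bdd (abs_frobInd_le _ T) hs)
      (summable_mass_of_bdd (B := W) (fun q => by rw [abs_of_nonneg (hx0 q)]; exact hxW q) hs)
    exact inv_nonneg.mpr (Real.rpow_nonneg (Nat.cast_nonneg _) _)
  set n := (Nat.card ↥(Set.range ρ) : ℝ) with hn
  set k := (Nat.card ↥(Hᶜ ∩ Set.range ρ) : ℝ) with hk
  have hkn : (Nat.card ↥(H ∩ Set.range ρ) : ℝ) + k = n := by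
    have h1 := Set.ncard_inter_add_ncard_sdiff_eq_ncard (Set.range ρ) H hfin
    rw [hk, hn, Nat.card_coe_set_eq, Nat.card_coe_set_eq, Nat.card_coe_set_eq, ← h1,
      Set.inter_comm H, Set.inter_comm Hᶜ, ← Set.sdiff_eq]
    push_cast
    ring
  have hn0 : 0 < n := by
    have : Finite ↥(Set.range ρ) := hfin.to_subtype
    have : Nonempty ↥(Set.range ρ) := ⟨⟨ρ 1, 1, rfl⟩⟩
    rw [hn]
    exact_mod_cast Nat.card_pos
  have hδ : k / n ≤ η := by
    refine le_of_forall_pos_le_add fun ε hε => ?_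
    obtain ⟨B, hB⟩ := chebotarev_density_rho ρ hρ Hᶜ hHc T hε
    by_contra hlt
    rw [not_le] at hlt
    obtain ⟨s, hs1, hs2, hs⟩ := exists_log_gt (c := k / n - (η + ε)) (by linarith) (B + B₀)
    have h1 := (abs_le.mp (hB s hs1 hs2)).1
    have h2 := hX s hs1 hs2
    have h3 := hmass s hs1
    nlinarith
  have h4 : k ≤ η * n := by rwa [div_le_iff₀ hn0] at hδ
  linarith

end rho

/-! ### Use 2: characters -/

section char

variable (χ : GQ →* ℂˣ)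

theorem sum_range_eq_zero (hfin : (Set.range χ).Finite) (hne : ∃ g, χ g ≠ 1) :
    ∑ g ∈ hfin.toFinset, (g : ℂ) = 0 := by
  obtain ⟨g₁, hg₁⟩ := hne
  have h1 : ∑ g ∈ hfin.toFinset, ((χ g₁ : ℂˣ) : ℂ) * (g : ℂ) = ∑ g ∈ hfin.toFinset, (g : ℂ) := by
    refine Finset.sum_bij (fun g _ => χ g₁ * g) (fun g hg => ?_) (fun g _ g' _ h => ?_)
      (fun g hg => ?_) (fun g _ => ?_)
    · rw [Set.Finite.mem_toFinset] at hg ⊢
      obtain ⟨h, rfl⟩ := hg
      exact ⟨g₁ * h, map_mul _ _ _⟩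
    · exact mul_left_cancel h
    · rw [Set.Finite.mem_toFinset] at hg
      obtain ⟨h, rfl⟩ := hg
      refine ⟨χ (g₁⁻¹ * h), ?_, ?_⟩
      · rw [Set.Finite.mem_toFinset]
        exact ⟨_, rfl⟩
      · rw [← map_mul, mul_inv_cancel_left]
    · rw [Units.val_mul]
  rw [← Finset.mul_sum] at h1
  have h2 : (((χ g₁ : ℂˣ) : ℂ) - 1) * ∑ g ∈ hfin.toFinset, (g : ℂ) = 0 := by
    rw [sub_mul, h1, one_mul, sub_self]
  rcases mul_eq_zero.mp h2 with h3 | h3
  · exact absurd (Units.ext (by simpa using sub_eq_zero.mp h3)) hg₁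
  · exact h3

theorem summable_cmass {c : ℕ → ℂ} {W : ℝ} (hc : ∀ q : Nat.Primes, ‖c q‖ ≤ W) {s : ℝ}
    (hs : 1 < s) :
    Summable fun q : Nat.Primes ↦ c q * (((((q : ℕ) : ℝ) ^ s)⁻¹ : ℝ) : ℂ) := by
  have h1 : Summable fun q : Nat.Primes ↦ W * (((q : ℕ) : ℝ) ^ s)⁻¹ := by
    have h2 : Summable fun n : ℕ ↦ ((n : ℝ) ^ s)⁻¹ := Real.summable_nat_rpow_inv.mpr hs
    exact (h2.subtype _).mul_left W
  refine Summable.of_norm_bounded h1 fun q ↦ ?_
  have hpos : (0 : ℝ) ≤ (((q : ℕ) : ℝ) ^ s)⁻¹ :=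
    inv_nonneg.mpr (Real.rpow_nonneg (Nat.cast_nonneg _) _)
  rw [norm_mul, Complex.norm_real, Real.norm_eq_abs, abs_of_nonneg hpos]
  exact mul_le_mul_of_nonneg_right (hc q) hpos

theorem ofReal_mass (c : ℕ → ℝ) (s : ℝ) :
    ((mass c s : ℝ) : ℂ) =
      ∑' q : Nat.Primes, ((c q : ℝ) : ℂ) * (((((q : ℕ) : ℝ) ^ s)⁻¹ : ℝ) : ℂ) := by
  unfold mass
  rw [Complex.ofReal_tsum]
  exact tsum_congr fun q => by push_cast; ring

/-- a sum over primes supported on a finite set is bounded -/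
theorem norm_tsum_le_card {r : ℕ → ℂ} (T : Finset ℕ) (hr : ∀ p, p ∉ T → r p = 0)
    (hr1 : ∀ p, ‖r p‖ ≤ 1) {s : ℝ} (hs : 1 < s) :
    ‖∑' q : Nat.Primes, r q * (((((q : ℕ) : ℝ) ^ s)⁻¹ : ℝ) : ℂ)‖ ≤ T.card := by
  classical
  let T' : Finset Nat.Primes := T.subtype Nat.Prime
  have h1 : ∑' q : Nat.Primes, r q * (((((q : ℕ) : ℝ) ^ s)⁻¹ : ℝ) : ℂ) =
      ∑ q ∈ T', r q * (((((q : ℕ) : ℝ) ^ s)⁻¹ : ℝ) : ℂ) := by
    refine tsum_eq_sum fun q hq ↦ ?_
    rw [hr q (fun hmem ↦ hq (Finset.mem_subtype.mpr hmem)), zero_mul]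
  rw [h1]
  refine (norm_sum_le _ _).trans ?_
  have h2 : ∀ q ∈ T', ‖r q * (((((q : ℕ) : ℝ) ^ s)⁻¹ : ℝ) : ℂ)‖ ≤ 1 := by
    intro q _
    have hq1 : (1 : ℝ) ≤ ((q : ℕ) : ℝ) := by exact_mod_cast q.2.one_lt.le
    have h3 : (1 : ℝ) ≤ ((q : ℕ) : ℝ) ^ s := Real.one_le_rpow hq1 (by linarith)
    have hpos : (0 : ℝ) ≤ (((q : ℕ) : ℝ) ^ s)⁻¹ := by positivity
    rw [norm_mul, Complex.norm_real, Real.norm_eq_abs, abs_of_nonneg hpos]
    calc ‖r q‖ * (((q : ℕ) : ℝ) ^ s)⁻¹ ≤ 1 * 1 :=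
          mul_le_mul (hr1 q) (inv_le_one_of_one_le₀ h3) hpos zero_le_one
      _ = 1 := one_mul 1
  calc ∑ q ∈ T', ‖r q * (((((q : ℕ) : ℝ) ^ s)⁻¹ : ℝ) : ℂ)‖ ≤ ∑ _q ∈ T', (1 : ℝ) :=
        Finset.sum_le_sum h2
    _ = T'.card := by simp
    _ ≤ T.card := by
        have : T'.card ≤ T.card := by
          show (Finset.subtype Nat.Prime T).card ≤ T.card
          rw [Finset.card_subtype]
          exact Finset.card_filter_le _ _
        exact_mod_cast this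

/-- the pointwise decomposition of a Frobenius-character sequence into indicator functions -/
theorem eq_sum_frobInd_add (hfin : (Set.range χ).Finite) (T : Finset ℕ) (a : ℕ → ℂ)
    (haF : ∀ p : ℕ, p.Prime → p ∉ T → ∀ (A : ValuationSubring Ω) (φ : GQ),
      A.LiesOverPrime p → A.IsFrobeniusAt φ p → a p = χ φ) (q : Nat.Primes) :
    a q = ∑ g ∈ hfin.toFinset, (g : ℂ) * ((frobInd (χ ⁻¹' {g}) T q : ℝ) : ℂ) +
      (if (q : ℕ) ∈ T then a q else 0) := by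
  classical
  by_cases hqT : (q : ℕ) ∈ T
  · have h0 : ∀ g ∈ hfin.toFinset, (g : ℂ) * ((frobInd (χ ⁻¹' {g}) T q : ℝ) : ℂ) = 0 := by
      intro g _
      have : frobInd (χ ⁻¹' {g}) T q = 0 := by
        unfold frobInd
        rw [if_neg]
        rintro ⟨-, h, -⟩
        exact h hqT
      rw [this]
      simp
    rw [Finset.sum_eq_zero h0, if_pos hqT, zero_add]
  · have : Fact (q : ℕ).Prime := ⟨q.2⟩
    have hA₀ := Fermat.Agent.TW.Kill.padicPlace_liesOverPrime (q : ℕ)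
    obtain ⟨φ₀, hφ₀⟩ := Fermat.Agent.TW.Kill.exists_isFrobeniusAt (padicPlace (q : ℕ)) q.2 hA₀
    have ha := haF q q.2 hqT _ φ₀ hA₀ hφ₀
    have hg₀ : χ φ₀ ∈ hfin.toFinset := hfin.mem_toFinset.mpr ⟨φ₀, rfl⟩
    have hind : ∀ g ∈ hfin.toFinset, (g : ℂ) * ((frobInd (χ ⁻¹' {g}) T q : ℝ) : ℂ) =
        if g = χ φ₀ then (g : ℂ) else 0 := by
      intro g _
      by_cases hgg : g = χ φ₀
      · have : frobInd (χ ⁻¹' {g}) T q = 1 := by
          unfold frobInd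
          rw [if_pos]
          exact ⟨q.2, hqT, _, φ₀, hA₀, hφ₀, hgg.symm⟩
        rw [this, if_pos hgg]
        simp
      · have : frobInd (χ ⁻¹' {g}) T q = 0 := by
          unfold frobInd
          rw [if_neg]
          rintro ⟨-, -, A, φ, hA, hφ, hφg⟩
          have h1 := haF q q.2 hqT A φ hA hφ
          have h2 : χ φ = g := hφg
          apply hgg
          apply Units.ext
          rw [← h2, ← h1, ha]
        rw [this, if_neg hgg]
        simp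
    rw [Finset.sum_congr rfl hind, Finset.sum_ite_eq' hfin.toFinset (χ φ₀) (fun g => (g : ℂ)),
      if_pos hg₀, if_neg hqT, add_zero, ha]

/-- **Use 2**: for a non-trivial character `χ` of `G_ℚ` of finite level, the sum of the values
`χ(Frob_p) p^(-s)` is `o(log (1/(s-1)))`. -/
theorem norm_tsum_char_frob_le (hχ : GaloisFactorsThroughFiniteLevel χ) (hne : ∃ g, χ g ≠ 1)
    (T : Finset ℕ) (a : ℕ → ℂ) (ha1 : ∀ p, ‖a p‖ ≤ 1)
    (haF : ∀ p : ℕ, p.Prime → p ∉ T → ∀ (A : ValuationSubring Ω) (φ : GQ),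
      A.LiesOverPrime p → A.IsFrobeniusAt φ p → a p = χ φ) {ε : ℝ} (hε : 0 < ε) :
    ∃ B : ℝ, ∀ s : ℝ, 1 < s → s ≤ 2 →
      ‖∑' q : Nat.Primes, a q * (((((q : ℕ) : ℝ) ^ s)⁻¹ : ℝ) : ℂ)‖ ≤
        ε * Real.log (1 / (s - 1)) + B := by
  classical
  have hfin := finite_range_of_factors χ hχ
  set G := hfin.toFinset with hG
  set Γ : ℝ := ∑ g ∈ G, ‖(g : ℂ)‖ with hΓ
  have hΓ0 : 0 ≤ Γ := Finset.sum_nonneg fun g _ => norm_nonneg _
  set ε' := ε / (Γ + 1) with hε'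
  have hε'0 : 0 < ε' := div_pos hε (by linarith)
  have hdens : ∀ g : ℂˣ, ∃ B : ℝ, g ∈ G → ∀ s : ℝ, 1 < s → s ≤ 2 →
      |mass (frobInd (χ ⁻¹' {g}) T) s - (1 / (G.card : ℝ)) * Real.log (1 / (s - 1))| ≤
        ε' * Real.log (1 / (s - 1)) + B := by
    intro g
    by_cases hg : g ∈ G
    · obtain ⟨B, hB⟩ := chebotarev_density_rho χ hχ {g} (fun x hx τ => by
        rw [Set.mem_singleton_iff] at hx ⊢
        rw [hx, mul_comm, inv_mul_cancel_left]) T hε'0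
      refine ⟨B, fun _ => ?_⟩
      have h1 : ({g} : Set ℂˣ) ∩ Set.range χ = {g} :=
        Set.inter_eq_left.mpr (Set.singleton_subset_iff.mpr (hfin.mem_toFinset.mp hg))
      have h2 : Nat.card ↥(Set.range χ) = G.card := by
        rw [Nat.card_coe_set_eq, Set.ncard_eq_toFinset_card _ hfin]
      rw [h1, h2, Nat.card_coe_set_eq, Set.ncard_singleton] at hB
      simpa using hB
    · exact ⟨0, fun h => absurd h hg⟩
  choose Bg hBg using hdens
  set B' : ℝ := ∑ g ∈ G, |Bg g| with hB'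
  have hBgB' : ∀ g ∈ G, Bg g ≤ B' := fun g hg => (le_abs_self _).trans
    (Finset.single_le_sum (f := fun g => |Bg g|) (fun g _ => abs_nonneg _) hg)
  have hB'0 : 0 ≤ B' := Finset.sum_nonneg fun g _ => abs_nonneg _
  refine ⟨Γ * B' + T.card, fun s hs1 hs2 => ?_⟩
  have hL := log_inv_nonneg hs1 hs2
  set L := Real.log (1 / (s - 1)) with hLdef
  -- decomposition of the sum
  let r : ℕ → ℂ := fun p => if p ∈ T then a p else 0
  have hr0 : ∀ p, p ∉ T → r p = 0 := fun p hp => by simp [r, hp]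
  have hr1 : ∀ p, ‖r p‖ ≤ 1 := fun p => by
    simp only [r]
    split_ifs
    · exact ha1 p
    · simp
  have hsg : ∀ g ∈ G, Summable fun q : Nat.Primes ↦
      ((g : ℂ) * ((frobInd (χ ⁻¹' {g}) T q : ℝ) : ℂ)) * (((((q : ℕ) : ℝ) ^ s)⁻¹ : ℝ) : ℂ) := by
    intro g _
    refine summable_cmass (W := ‖(g : ℂ)‖) (c := fun p => (g : ℂ) * ((frobInd (χ ⁻¹' {g}) T p : ℝ) : ℂ))
      (fun q => ?_) hs1
    rw [norm_mul, Complex.norm_real, Real.norm_eq_abs]
    calc ‖(g : ℂ)‖ * |frobInd (χ ⁻¹' {g}) T q| ≤ ‖(g : ℂ)‖ * 1 :=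
          mul_le_mul_of_nonneg_left (abs_frobInd_le _ T q) (norm_nonneg _)
      _ = ‖(g : ℂ)‖ := mul_one _
  have hsr : Summable fun q : Nat.Primes ↦ r q * (((((q : ℕ) : ℝ) ^ s)⁻¹ : ℝ) : ℂ) :=
    summable_cmass (W := 1) (fun q => hr1 q) hs1
  have hdecomp : ∑' q : Nat.Primes, a q * (((((q : ℕ) : ℝ) ^ s)⁻¹ : ℝ) : ℂ) =
      ∑ g ∈ G, (g : ℂ) * ((mass (frobInd (χ ⁻¹' {g}) T) s : ℝ) : ℂ) +
        ∑' q : Nat.Primes, r q * (((((q : ℕ) : ℝ) ^ s)⁻¹ : ℝ) : ℂ) := by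
    have h1 : ∀ q : Nat.Primes, a q * (((((q : ℕ) : ℝ) ^ s)⁻¹ : ℝ) : ℂ) =
        ∑ g ∈ G, ((g : ℂ) * ((frobInd (χ ⁻¹' {g}) T q : ℝ) : ℂ)) *
          (((((q : ℕ) : ℝ) ^ s)⁻¹ : ℝ) : ℂ) + r q * (((((q : ℕ) : ℝ) ^ s)⁻¹ : ℝ) : ℂ) := by
      intro q
      rw [← Finset.sum_mul, ← add_mul]
      congr 1
      exact eq_sum_frobInd_add χ hfin T a haF q
    rw [tsum_congr h1, Summable.tsum_add (summable_sum hsg) hsr, Summable.tsum_finsetSum hsg]
    congr 1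
    refine Finset.sum_congr rfl fun g _ => ?_
    rw [ofReal_mass, ← tsum_mul_left]
    exact tsum_congr fun q => by ring
  rw [hdecomp]
  -- the main term
  have hzero := sum_range_eq_zero χ hfin hne
  have hmain : ∑ g ∈ G, (g : ℂ) * ((mass (frobInd (χ ⁻¹' {g}) T) s : ℝ) : ℂ) =
      ∑ g ∈ G, (g : ℂ) * (((mass (frobInd (χ ⁻¹' {g}) T) s - (1 / (G.card : ℝ)) * L : ℝ)) : ℂ) := by
    have h2 : ∑ g ∈ G, (g : ℂ) * (((mass (frobInd (χ ⁻¹' {g}) T) s -
        (1 / (G.card : ℝ)) * L : ℝ)) : ℂ) =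
        ∑ g ∈ G, (g : ℂ) * ((mass (frobInd (χ ⁻¹' {g}) T) s : ℝ) : ℂ) -
          (∑ g ∈ G, (g : ℂ)) * (((1 / (G.card : ℝ)) * L : ℝ) : ℂ) := by
      rw [Finset.sum_mul, ← Finset.sum_sub_distrib]
      refine Finset.sum_congr rfl fun g _ => ?_
      push_cast
      ring
    rw [h2, hzero, zero_mul, sub_zero]
  rw [hmain]
  have hb1 : ‖∑ g ∈ G, (g : ℂ) * (((mass (frobInd (χ ⁻¹' {g}) T) s -
      (1 / (G.card : ℝ)) * L : ℝ)) : ℂ)‖ ≤ Γ * (ε' * L + B') := by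
    refine (norm_sum_le _ _).trans ?_
    rw [hΓ, Finset.sum_mul]
    refine Finset.sum_le_sum fun g hg => ?_
    rw [norm_mul, Complex.norm_real, Real.norm_eq_abs]
    refine mul_le_mul_of_nonneg_left ?_ (norm_nonneg _)
    have := hBg g hg s hs1 hs2
    linarith [hBgB' g hg]
  have hb2 := norm_tsum_le_card T hr0 hr1 hs1
  have hb3 : Γ * ε' ≤ ε := by
    rw [hε', mul_div_assoc', div_le_iff₀ (by linarith)]
    nlinarith
  have hb4 : Γ * (ε' * L + B') ≤ ε * L + Γ * B' := by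
    have := mul_le_mul_of_nonneg_right hb3 hL
    nlinarith
  calc _ ≤ ‖∑ g ∈ G, (g : ℂ) * (((mass (frobInd (χ ⁻¹' {g}) T) s -
          (1 / (G.card : ℝ)) * L : ℝ)) : ℂ)‖ +
        ‖∑' q : Nat.Primes, r q * (((((q : ℕ) : ℝ) ^ s)⁻¹ : ℝ) : ℂ)‖ := norm_add_le _ _
    _ ≤ ε * L + (Γ * B' + T.card) := by linarith

/-- real-part form of **Use 2**, in the `mass` currency -/
theorem abs_mass_re_char_frob_le (hχ : GaloisFactorsThroughFiniteLevel χ) (hne : ∃ g, χ g ≠ 1)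
    (T : Finset ℕ) (a : ℕ → ℂ) (ha1 : ∀ p, ‖a p‖ ≤ 1)
    (haF : ∀ p : ℕ, p.Prime → p ∉ T → ∀ (A : ValuationSubring Ω) (φ : GQ),
      A.LiesOverPrime p → A.IsFrobeniusAt φ p → a p = χ φ) {ε : ℝ} (hε : 0 < ε) :
    ∃ B : ℝ, ∀ s : ℝ, 1 < s → s ≤ 2 →
      |mass (fun p => (a p).re) s| ≤ ε * Real.log (1 / (s - 1)) + B := by
  obtain ⟨B, hB⟩ := norm_tsum_char_frob_le χ hχ hne T a ha1 haF hε
  refine ⟨B, fun s hs1 hs2 => le_trans ?_ (hB s hs1 hs2)⟩
  have hsum := summable_cmass (c := a) (W := 1) (fun q => ha1 q) hs1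
  have h1 : mass (fun p => (a p).re) s =
      (∑' q : Nat.Primes, a q * (((((q : ℕ) : ℝ) ^ s)⁻¹ : ℝ) : ℂ)).re := by
    rw [Complex.re_tsum hsum]
    unfold mass
    exact tsum_congr fun q => by rw [Complex.re_mul_ofReal]
  rw [h1]
  exact Complex.abs_re_le_norm _

end char

end Fermat.Agent.Density
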