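import Fermat.Agent.Density.Zeta_helper4

/-!
# Frobenius density (S56 leaf (G)), part B: counting primes of degree one of fixed fields

`F/ℚ` finite Galois, `H ≤ Gal(F/ℚ)`, `K = F^H`.  For a rational prime `q` unramified in `F`:
`#{primes of K over q of degree one} * #H = f_q * #{primes Q of F over q with D_Q ≤ H}`.
-/

open NumberField Pointwise MulAction

namespace Fermat.Agent.Density

variable (F : Type*) [Field F] [NumberField F] [IsGalois ℚ F] (H : Subgroup Gal(F/ℚ))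

/-- the fixed field of a subgroup of the Galois group -/
noncomputable abbrev fixedF : IntermediateField ℚ F := FixedPoints.intermediateField H

instance smulDistrib_sub : SMulDistribClass H (𝓞 F) F :=
  ⟨fun h b l ↦ smul_distrib_smul (h : Gal(F/ℚ)) b l⟩

noncomputable instance isGaloisGroup_sub : IsGaloisGroup H (𝓞 (fixedF F H)) (𝓞 F) :=
  IsGaloisGroup.of_isFractionRing H (𝓞 (fixedF F H)) (𝓞 F) (fixedF F H) F

variable {F}

/-- the order of the decomposition group over `ℚ` -/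
theorem card_stabilizer_rat (Q : Ideal (𝓞 F)) [Q.IsPrime] (hQ : Q ≠ ⊥) :
    Nat.card (stabilizer Gal(F/ℚ) Q) = Q.ramificationIdx ℤ * Q.inertiaDeg ℤ := by
  have hne : Q.under ℤ ≠ ⊥ := mt Ideal.eq_bot_of_comap_eq_bot hQ
  have : (Q.under ℤ).IsMaximal := Ideal.IsPrime.isMaximal inferInstance hne
  have : Finite (ℤ ⧸ Q.under ℤ) := Ideal.finiteQuotientOfFreeOfNeBot _ hne
  rw [Ideal.card_stabilizer_eq (G := Gal(F/ℚ)) (Q.under ℤ) Q,
    Ideal.ramificationIdxIn_eq_ramificationIdx (Q.under ℤ) Q Gal(F/ℚ),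
    Ideal.inertiaDegIn_eq_inertiaDeg (Q.under ℤ) Q Gal(F/ℚ)]

theorem card_stabilizer_sub (Q : Ideal (𝓞 F)) [Q.IsPrime] (hQ : Q ≠ ⊥) :
    Nat.card ((stabilizer Gal(F/ℚ) Q).subgroupOf H) =
      Q.ramificationIdx (𝓞 (fixedF F H)) * Q.inertiaDeg (𝓞 (fixedF F H)) := by
  have hne : Q.under (𝓞 (fixedF F H)) ≠ ⊥ := mt Ideal.eq_bot_of_comap_eq_bot hQ
  have : (Q.under (𝓞 (fixedF F H))).IsMaximal := Ideal.IsPrime.isMaximal inferInstance hne
  have : Finite ((𝓞 (fixedF F H)) ⧸ Q.under (𝓞 (fixedF F H))) :=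
    Ideal.finiteQuotientOfFreeOfNeBot _ hne
  have h := Ideal.card_stabilizer_eq (G := H) (Q.under (𝓞 (fixedF F H))) Q
  rw [Ideal.ramificationIdxIn_eq_ramificationIdx (Q.under (𝓞 (fixedF F H))) Q H,
    Ideal.inertiaDegIn_eq_inertiaDeg (Q.under (𝓞 (fixedF F H))) Q H] at h
  rw [← h]
  refine Nat.card_congr (Equiv.subtypeEquivRight fun x ↦ ?_)
  simp only [Subgroup.mem_subgroupOf, mem_stabilizer_iff]
  rfl

omit [NumberField F] [IsGalois ℚ F] in
theorem le_iff_card_subgroupOf_eq {G : Type*} [Group G] [Finite G] (S H : Subgroup G) :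
    S ≤ H ↔ Nat.card (S.subgroupOf H) = Nat.card S := by
  have e : (S.subgroupOf H) ≃ (H.subgroupOf S) :=
    { toFun := fun x ↦ ⟨⟨x.1.1, x.2⟩, x.1.2⟩
      invFun := fun x ↦ ⟨⟨x.1.1, x.2⟩, x.1.2⟩
      left_inv := fun x ↦ rfl
      right_inv := fun x ↦ rfl }
  rw [Nat.card_congr e, Subgroup.card_eq_iff_eq_top, Subgroup.subgroupOf_eq_top]

/-- the decomposition group of `Q` is contained in `H` iff the prime of the fixed field of `H`
below `Q` has degree one and is unramified over `ℚ`. -/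
theorem stabilizer_le_iff (Q : Ideal (𝓞 F)) [Q.IsPrime] (hQ : Q ≠ ⊥) :
    stabilizer Gal(F/ℚ) Q ≤ H ↔
      (Q.under (𝓞 (fixedF F H))).ramificationIdx ℤ = 1 ∧
        (Q.under (𝓞 (fixedF F H))).inertiaDeg ℤ = 1 := by
  rw [le_iff_card_subgroupOf_eq, card_stabilizer_sub H Q hQ, card_stabilizer_rat Q hQ,
    Ideal.ramificationIdx_tower (R := ℤ) (Q.under (𝓞 (fixedF F H))) Q,
    Ideal.inertiaDeg_tower (R := ℤ) (Q.under (𝓞 (fixedF F H))) Q]
  have he : 0 < Q.ramificationIdx (𝓞 (fixedF F H)) := Ideal.ramificationIdx_pos Q _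
  have hf : 0 < Q.inertiaDeg (𝓞 (fixedF F H)) := Ideal.inertiaDeg_pos Q _
  set e := Q.ramificationIdx (𝓞 (fixedF F H))
  set f := Q.inertiaDeg (𝓞 (fixedF F H))
  set e' := (Q.under (𝓞 (fixedF F H))).ramificationIdx ℤ
  set f' := (Q.under (𝓞 (fixedF F H))).inertiaDeg ℤ
  constructor
  · intro h
    have h1 : e' * f' * (e * f) = 1 * (e * f) := by
      rw [one_mul]
      calc e' * f' * (e * f) = e' * e * (f' * f) := by ring
        _ = e * f := h.symm
    have h2 := Nat.eq_of_mul_eq_mul_right (Nat.mul_pos he hf) h1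
    exact mul_eq_one.mp h2
  · rintro ⟨h1, h2⟩
    rw [h1, h2]; ring

/-- the ideal of `ℤ` generated by a natural number -/
noncomputable abbrev pZ (q : ℕ) : Ideal ℤ := Ideal.span {(q : ℤ)}

theorem pZ_isPrime {q : ℕ} (hq : q.Prime) : (pZ q).IsPrime := by
  rw [pZ, Ideal.span_singleton_prime (by exact_mod_cast hq.ne_zero)]
  exact Nat.prime_iff_prime_int.mp hq

theorem pZ_ne_bot {q : ℕ} (hq : q.Prime) : pZ q ≠ ⊥ := by
  rw [pZ, Ne, Ideal.span_singleton_eq_bot]
  exact_mod_cast hq.ne_zero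

/-- primes over a nonzero prime are nonzero -/
theorem ne_bot_of_mem_primesOver {E : Type*} [Field E] [NumberField E] {q : ℕ} (hq : q.Prime)
    {Q : Ideal (𝓞 E)} (hQ : Q ∈ (pZ q).primesOver (𝓞 E)) : Q ≠ ⊥ := by
  rintro rfl
  have h := hQ.2.over
  rw [Ideal.under_bot] at h
  exact pZ_ne_bot hq h

/-- the primes over `q` of degree one and ramification index one -/
noncomputable def degOnePrimes (E : Type*) [Field E] [NumberField E] (q : ℕ) :
    Finset (Ideal (𝓞 E)) := by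
  classical
  exact (Algebra.QuasiFinite.finite_primesOver (S := 𝓞 E) (pZ q)).toFinset.filter
    (fun P ↦ P.ramificationIdx ℤ = 1 ∧ P.inertiaDeg ℤ = 1)

theorem mem_degOnePrimes {E : Type*} [Field E] [NumberField E] {q : ℕ} {P : Ideal (𝓞 E)} :
    P ∈ degOnePrimes E q ↔ P ∈ (pZ q).primesOver (𝓞 E) ∧
      P.ramificationIdx ℤ = 1 ∧ P.inertiaDeg ℤ = 1 := by
  classical
  simp [degOnePrimes]

/-- an ideal of prime norm `q` is a prime over `q` of degree one -/
theorem mem_primesOver_of_absNorm_eq {E : Type*} [Field E] [NumberField E] {q : ℕ} (hq : q.Prime)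
    {I : Ideal (𝓞 E)} (hI : Ideal.absNorm I = q) :
    I ∈ (pZ q).primesOver (𝓞 E) ∧ I.inertiaDeg ℤ = 1 := by
  have hprime : I.IsPrime :=
    Ideal.isPrime_of_irreducible_absNorm (hI ▸ (Nat.prime_iff.mp hq).irreducible)
  have hne : I ≠ ⊥ := by
    rintro rfl
    rw [Ideal.absNorm_bot] at hI
    exact hq.ne_zero hI.symm
  have : NeZero I := ⟨hne⟩
  have h1 : (Ideal.absNorm (Ideal.under ℤ I)).Prime := Nat.absNorm_under_prime I
  have h2 : Ideal.absNorm (Ideal.under ℤ I) ∣ q := hI ▸ Int.absNorm_under_dvd_absNorm I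
  have h3 : Ideal.absNorm (Ideal.under ℤ I) = q := (Nat.prime_dvd_prime_iff_eq h1 hq).mp h2
  have hlies : I.LiesOver (pZ q) := by
    have := Int.liesOver_span_absNorm I
    rwa [h3] at this
  refine ⟨⟨hprime, hlies⟩, ?_⟩
  have h4 := Ideal.pow_inertiaDeg q I
  rw [hI] at h4
  exact Nat.pow_right_injective hq.two_le (by simpa using h4)

/-- a prime of a subfield below an unramified prime is unramified -/
theorem ramificationIdx_eq_one_of_unramified (E : IntermediateField ℚ F) {q : ℕ}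
    (hunr : ∀ Q ∈ (pZ q).primesOver (𝓞 F), Q.ramificationIdx ℤ = 1)
    {P : Ideal (𝓞 E)} (hP : P ∈ (pZ q).primesOver (𝓞 E)) : P.ramificationIdx ℤ = 1 := by
  have : P.IsPrime := hP.1
  have : P.LiesOver (pZ q) := hP.2
  obtain ⟨⟨Q, hQ1, hQ2⟩⟩ := (inferInstance : Nonempty (P.primesOver (𝓞 F)))
  have hQ : Q ∈ (pZ q).primesOver (𝓞 F) := ⟨hQ1, Ideal.LiesOver.trans Q P (pZ q)⟩
  have h := hunr Q hQ
  rw [Ideal.ramificationIdx_tower (R := ℤ) P Q] at h
  exact Nat.eq_one_of_mul_eq_one_right h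

theorem idealCount_eq_card_degOnePrimes (E : IntermediateField ℚ F) {q : ℕ} (hq : q.Prime)
    (hunr : ∀ Q ∈ (pZ q).primesOver (𝓞 F), Q.ramificationIdx ℤ = 1) :
    idealCount E q = (degOnePrimes E q).card := by
  classical
  unfold idealCount
  rw [← Nat.card_eq_finsetCard]
  refine Nat.card_congr (Equiv.subtypeEquivRight fun I ↦ ?_)
  rw [mem_degOnePrimes]
  constructor
  · intro hI
    obtain ⟨h1, h2⟩ := mem_primesOver_of_absNorm_eq hq hI
    exact ⟨h1, ramificationIdx_eq_one_of_unramified E hunr h1, h2⟩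
  · rintro ⟨h1, _, h3⟩
    have : I.IsPrime := h1.1
    have : I.LiesOver (pZ q) := h1.2
    have h4 := Ideal.pow_inertiaDeg q I
    rw [h3, pow_one] at h4
    exact h4.symm

/-- the primes of `F` over `q` whose decomposition group is contained in `H` -/
noncomputable def decompIn (q : ℕ) : Finset (Ideal (𝓞 F)) := by
  classical
  exact (Algebra.QuasiFinite.finite_primesOver (S := 𝓞 F) (pZ q)).toFinset.filter
    (fun Q ↦ stabilizer Gal(F/ℚ) Q ≤ H)

theorem mem_decompIn {q : ℕ} {Q : Ideal (𝓞 F)} :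
    Q ∈ decompIn H q ↔ Q ∈ (pZ q).primesOver (𝓞 F) ∧ stabilizer Gal(F/ℚ) Q ≤ H := by
  classical
  simp [decompIn]

/-- the primes of `F` above a prime of degree one of the fixed field of `H` -/
theorem filter_decompIn_eq {q : ℕ} (hq : q.Prime) {P : Ideal (𝓞 (fixedF F H))}
    (hP : P ∈ degOnePrimes (fixedF F H) q) [DecidableEq (Ideal (𝓞 (fixedF F H)))] :
    (decompIn H q).filter (fun Q ↦ Q.under (𝓞 (fixedF F H)) = P) =
      (Algebra.QuasiFinite.finite_primesOver (S := 𝓞 F) P).toFinset := by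
  obtain ⟨hP1, hP2, hP3⟩ := mem_degOnePrimes.mp hP
  have : P.IsPrime := hP1.1
  have : P.LiesOver (pZ q) := hP1.2
  ext Q
  simp only [Finset.mem_filter, mem_decompIn, Set.Finite.mem_toFinset]
  constructor
  · rintro ⟨⟨hQ1, _⟩, hQ3⟩
    exact ⟨hQ1.1, ⟨hQ3.symm⟩⟩
  · rintro ⟨hQ1, hQ2⟩
    have hQ : Q ∈ (pZ q).primesOver (𝓞 F) := ⟨hQ1, Ideal.LiesOver.trans Q P (pZ q)⟩
    have hu : Q.under (𝓞 (fixedF F H)) = P := hQ2.over.symm
    refine ⟨⟨hQ, ?_⟩, hu⟩
    rw [stabilizer_le_iff H Q (ne_bot_of_mem_primesOver hq hQ), hu]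
    exact ⟨hP2, hP3⟩

/-- the inertia degree of an unramified prime above `q` -/
theorem inertiaDeg_eq_inertiaDegIn {q : ℕ} (hq : q.Prime) {Q : Ideal (𝓞 F)}
    (hQ : Q ∈ (pZ q).primesOver (𝓞 F)) :
    Q.inertiaDeg ℤ = (pZ q).inertiaDegIn (𝓞 F) := by
  have : (pZ q).IsPrime := pZ_isPrime hq
  have : Q.IsPrime := hQ.1
  have : Q.LiesOver (pZ q) := hQ.2
  exact (Ideal.inertiaDegIn_eq_inertiaDeg (pZ q) Q Gal(F/ℚ)).symm

theorem under_mem_degOnePrimes {q : ℕ} (hq : q.Prime) {Q : Ideal (𝓞 F)}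
    (hQ : Q ∈ decompIn H q) : Q.under (𝓞 (fixedF F H)) ∈ degOnePrimes (fixedF F H) q := by
  obtain ⟨hQ1, hQ2⟩ := (mem_decompIn H).mp hQ
  have : Q.IsPrime := hQ1.1
  have : Q.LiesOver (pZ q) := hQ1.2
  rw [mem_degOnePrimes]
  refine ⟨⟨inferInstance, ?_⟩, (stabilizer_le_iff H Q (ne_bot_of_mem_primesOver hq hQ1)).mp hQ2⟩
  exact Ideal.LiesOver.tower_bot Q (Q.under (𝓞 (fixedF F H))) (pZ q)

theorem ncard_primesOver_mul {q : ℕ} (hq : q.Prime)
    (hunr : ∀ Q ∈ (pZ q).primesOver (𝓞 F), Q.ramificationIdx ℤ = 1)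
    {P : Ideal (𝓞 (fixedF F H))} (hP : P ∈ degOnePrimes (fixedF F H) q) :
    (P.primesOver (𝓞 F)).ncard * (pZ q).inertiaDegIn (𝓞 F) = Nat.card H := by
  obtain ⟨hP1, hP2, hP3⟩ := mem_degOnePrimes.mp hP
  have : P.IsPrime := hP1.1
  have : P.LiesOver (pZ q) := hP1.2
  obtain ⟨⟨Q, hQ1, hQ2⟩⟩ := (inferInstance : Nonempty (P.primesOver (𝓞 F)))
  have hQ : Q ∈ (pZ q).primesOver (𝓞 F) := ⟨hQ1, Ideal.LiesOver.trans Q P (pZ q)⟩
  have h := Ideal.ncard_primesOver_mul_ramificationIdxIn_mul_inertiaDegIn P (𝓞 F) H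
  rw [Ideal.ramificationIdxIn_eq_ramificationIdx P Q H,
    Ideal.inertiaDegIn_eq_inertiaDeg P Q H] at h
  have he := hunr Q hQ
  rw [Ideal.ramificationIdx_tower (R := ℤ) P Q, hP2, one_mul] at he
  have hf := inertiaDeg_eq_inertiaDegIn hq hQ
  rw [Ideal.inertiaDeg_tower (R := ℤ) P Q, hP3, one_mul] at hf
  rw [he, hf, one_mul] at h
  exact h

/-- **Counting lemma**: for `q` unramified in `F`, the number of degree-one primes of `F^H`
above `q` times `#H` is `f_q` times the number of primes of `F` above `q` whose decomposition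
group is contained in `H`. -/
theorem idealCount_mul_card {q : ℕ} (hq : q.Prime)
    (hunr : ∀ Q ∈ (pZ q).primesOver (𝓞 F), Q.ramificationIdx ℤ = 1) :
    idealCount (fixedF F H) q * Nat.card H =
      (decompIn H q).card * (pZ q).inertiaDegIn (𝓞 F) := by
  classical
  rw [idealCount_eq_card_degOnePrimes (fixedF F H) hq hunr,
    Finset.card_eq_sum_card_fiberwise (f := fun Q ↦ Q.under (𝓞 (fixedF F H)))
      (t := degOnePrimes (fixedF F H) q) (fun Q hQ ↦ under_mem_degOnePrimes H hq hQ),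
    Finset.sum_mul, Finset.card_eq_sum_ones, Finset.sum_mul]
  refine Finset.sum_congr rfl fun P hP ↦ ?_
  rw [one_mul, filter_decompIn_eq H hq hP, ← ncard_primesOver_mul H hq hunr hP,
    Set.ncard_eq_toFinset_card _ (Algebra.QuasiFinite.finite_primesOver (S := 𝓞 F) P)]


end Fermat.Agent.Density
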