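import Fermat.Agent.Density.Frob_helper4
import Fermat.Prelude.Def_EllipticCurve_FrobeniusTrace
import Fermat.Prelude.Def_FLTPrelim_Ramification

/-!
# Frobenius density theorem in the Prelude's language (S56 leaf (G))

`L` a field of characteristic zero (e.g. `AlgebraicClosure ℚ`), `E : IntermediateField ℚ L` a
finite Galois extension of `ℚ`, `σ ∈ Gal(E/ℚ)`, `T` a finite set.  Then there is a prime `q ∉ T`
such that for every valuation subring `P` of `L` over `q`: the inertia group of `P` acts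
trivially on `E`, and every Frobenius element `φ` at `P` restricts to a generator of a conjugate
of `⟨σ⟩` (`exists_prime_frobenius_conj`).
-/

open NumberField Pointwise MulAction

namespace Fermat.Agent.Density

variable {L : Type*} [Field L] [CharZero L] (E : IntermediateField ℚ L) [NumberField E]

omit [CharZero L] in
theorem mem_valuationSubring_of_isIntegral_int (P : ValuationSubring L) {x : L}
    (hx : IsIntegral ℤ x) : x ∈ P := by
  have h1 : IsIntegral P x := hx.tower_top
  obtain ⟨y, rfl⟩ := IsIntegrallyClosedIn.isIntegral_iff.mp h1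
  exact y.2

theorem coe_mem_valuationSubring (P : ValuationSubring L) (x : 𝓞 E) : ((x : E) : L) ∈ P := by
  refine mem_valuationSubring_of_isIntegral_int P ?_
  have h1 : IsIntegral ℤ (x : E) := RingOfIntegers.isIntegral_coe x
  exact h1.map (IsScalarTower.toAlgHom ℤ E L)

/-- the ring homomorphism from the ring of integers of a number field `E ⊆ L` into a valuation
subring of `L` -/
noncomputable def toValuationSubring (P : ValuationSubring L) : 𝓞 E →+* P :=
  RingHom.codRestrict ((algebraMap E L).comp (algebraMap (𝓞 E) E)) P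
    (fun x ↦ coe_mem_valuationSubring E P x)

theorem coe_toValuationSubring (P : ValuationSubring L) (x : 𝓞 E) :
    ((toValuationSubring E P x : P) : L) = ((x : E) : L) := rfl

/-- the prime of `𝓞 E` below a valuation subring of `L` -/
noncomputable def primeAt (P : ValuationSubring L) : Ideal (𝓞 E) :=
  Ideal.comap (toValuationSubring E P) (IsLocalRing.maximalIdeal P)

instance primeAt_isPrime (P : ValuationSubring L) : (primeAt E P).IsPrime :=
  Ideal.comap_isPrime _ _

theorem mem_primeAt (P : ValuationSubring L) (x : 𝓞 E) :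
    x ∈ primeAt E P ↔ ((x : E) : L) ∈ P.nonunits := by
  rw [primeAt, Ideal.mem_comap, P.valuation_lt_one_iff, P.mem_nonunits_iff,
    coe_toValuationSubring]

theorem primeAt_mem_primesOver (P : ValuationSubring L) {q : ℕ} (hq : q.Prime)
    (hP : P.LiesOverPrime q) : primeAt E P ∈ (pZ q).primesOver (𝓞 E) := by
  refine ⟨inferInstance, ⟨?_⟩⟩
  have : (pZ q).IsMaximal := (pZ_isPrime hq).isMaximal (pZ_ne_bot hq)
  refine this.eq_of_le (Ideal.IsPrime.ne_top (Ideal.comap_isPrime _ _)) ?_
  rw [pZ, Ideal.span_singleton_le_iff_mem, Ideal.under, Ideal.mem_comap, mem_primeAt]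
  have : ((algebraMap ℤ (𝓞 E) (q : ℤ) : E) : L) = (q : L) := by simp
  rw [this]
  exact hP

section galois


omit [CharZero L] in
theorem mem_iff_of_mem_decompositionSubgroup {K : Type*} [Field K] [Algebra K L]
    {P : ValuationSubring L} {φ : L ≃ₐ[K] L}
    (hφ : φ ∈ P.decompositionSubgroup K) (x : L) : φ x ∈ P ↔ x ∈ P := by
  have h : φ • P = P := hφ
  constructor
  · intro hx
    rw [← h] at hx
    exact (ValuationSubring.smul_mem_pointwise_smul_iff (g := φ)).mp hx
  · intro hx
    rw [← h]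
    exact (ValuationSubring.smul_mem_pointwise_smul_iff (g := φ) (x := x)).mpr hx

omit [CharZero L] in
theorem mem_nonunits_iff_of_mem_decompositionSubgroup {K : Type*} [Field K] [Algebra K L]
    {P : ValuationSubring L} {φ : L ≃ₐ[K] L}
    (hφ : φ ∈ P.decompositionSubgroup K) (x : L) : φ x ∈ P.nonunits ↔ x ∈ P.nonunits := by
  have key : ∀ y : L, y ∈ P.nonunits ↔ (y = 0 ∨ y⁻¹ ∉ P) := by
    intro y
    rw [P.mem_nonunits_iff]
    by_cases hy : y = 0
    · simp [hy]
    · simp only [hy, false_or]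
      rw [← P.valuation_le_one_iff, map_inv₀, inv_le_one₀ (by
        exact lt_of_le_of_ne zero_le (Ne.symm ((map_ne_zero _).mpr hy))), not_le]
  rw [key, key, ← map_inv₀, mem_iff_of_mem_decompositionSubgroup hφ, map_eq_zero_iff _ φ.injective]

variable [IsGalois ℚ E]

theorem coe_restrictNormal_smul (φ : L ≃ₐ[ℚ] L) (x : 𝓞 E) :
    (((φ.restrictNormal E • x : 𝓞 E) : E) : L) = φ ((x : E) : L) :=
  AlgEquiv.restrictNormal_commutes φ E (x : E)

theorem restrictNormal_smul_primeAt {P : ValuationSubring L} {φ : L ≃ₐ[ℚ] L}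
    (hφ : φ ∈ P.decompositionSubgroup ℚ) :
    φ.restrictNormal E • primeAt E P = primeAt E P := by
  ext x
  rw [Ideal.mem_pointwise_smul_iff_inv_smul_mem, mem_primeAt, mem_primeAt]
  have h1 : (φ.restrictNormal E)⁻¹ = (φ⁻¹).restrictNormal E := by
    show (AlgEquiv.restrictNormalHom E φ)⁻¹ = AlgEquiv.restrictNormalHom E φ⁻¹
    rw [map_inv]
  rw [h1, coe_restrictNormal_smul]
  exact mem_nonunits_iff_of_mem_decompositionSubgroup (inv_mem hφ) _

theorem restrictNormal_smul_sub_pow_mem {P : ValuationSubring L} {φ : L ≃ₐ[ℚ] L} {q : ℕ}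
    (hφ : P.IsFrobeniusAt φ q) (x : 𝓞 E) :
    φ.restrictNormal E • x - x ^ q ∈ primeAt E P := by
  rw [mem_primeAt]
  obtain ⟨hφ1, hφ2⟩ := hφ
  let a : P := toValuationSubring E P x
  have h1 := hφ2 (IsLocalRing.residue P a)
  rw [← IsLocalRing.ResidueField.residue_smul, ← map_pow, ← sub_eq_zero, ← map_sub,
    IsLocalRing.residue_eq_zero_iff, P.valuation_lt_one_iff, ← P.mem_nonunits_iff] at h1
  have h2 : ((((⟨φ, hφ1⟩ : P.decompositionSubgroup ℚ) • a - a ^ q : P)) : L) =
      φ ((x : E) : L) - ((x : E) : L) ^ q := rfl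
  have h3 : (((φ.restrictNormal E • x - x ^ q : 𝓞 E) : E) : L) =
      φ ((x : E) : L) - ((x : E) : L) ^ q := by
    rw [← coe_restrictNormal_smul]
    rfl
  rw [h3, ← h2]
  exact h1

theorem restrictNormal_smul_sub_mem_of_mem_inertia {P : ValuationSubring L} {φ : L ≃ₐ[ℚ] L}
    (hφ : φ ∈ P.inertiaSubgroupIn ℚ) (x : 𝓞 E) :
    φ.restrictNormal E • x - x ∈ primeAt E P := by
  rw [mem_primeAt]
  obtain ⟨φ', hφ', rfl⟩ := Subgroup.mem_map.mp hφ
  let a : P := toValuationSubring E P x
  have h0 : ∀ y : IsLocalRing.ResidueField P, φ' • y = y := fun y ↦ by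
    have := MonoidHom.mem_ker.mp hφ'
    exact congrArg (fun f : RingAut (IsLocalRing.ResidueField P) ↦ f y) this
  have h1 := h0 (IsLocalRing.residue P a)
  rw [← IsLocalRing.ResidueField.residue_smul, ← sub_eq_zero, ← map_sub,
    IsLocalRing.residue_eq_zero_iff, P.valuation_lt_one_iff, ← P.mem_nonunits_iff] at h1
  have h2 : (((φ' • a - a : P)) : L) =
      (φ' : L ≃ₐ[ℚ] L) ((x : E) : L) - ((x : E) : L) := rfl
  have h3 : ((((φ' : L ≃ₐ[ℚ] L).restrictNormal E • x - x : 𝓞 E) : E) : L) =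
      (φ' : L ≃ₐ[ℚ] L) ((x : E) : L) - ((x : E) : L) := by
    rw [← coe_restrictNormal_smul]
    rfl
  show ((((φ' : L ≃ₐ[ℚ] L).restrictNormal E • x - x : 𝓞 E) : E) : L) ∈ P.nonunits
  rw [h3, ← h2]
  exact h1

/-- **Frobenius density theorem, Prelude form.** -/
theorem exists_prime_frobenius_conj (σ : Gal(E/ℚ)) (T : Finset ℕ) :
    ∃ q : ℕ, q.Prime ∧ q ∉ T ∧ Unram E q ∧ ∀ P : ValuationSubring L, P.LiesOverPrime q →
      (∀ τ ∈ P.inertiaSubgroupIn ℚ, τ.restrictNormal E = 1) ∧
      ∀ φ : L ≃ₐ[ℚ] L, P.IsFrobeniusAt φ q → ∃ τ : Gal(E/ℚ),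
        Subgroup.zpowers (φ.restrictNormal E) = Subgroup.zpowers (τ * σ * τ⁻¹) := by
  obtain ⟨q, hq, hqT, hunr, hall⟩ := exists_prime_forall_stabilizer_conj σ T
  refine ⟨q, hq, hqT, hunr, fun P hP ↦ ⟨fun τ hτ ↦ ?_, fun φ hφ ↦ ?_⟩⟩
  · exact eq_one_of_mem_inertia hq hunr (primeAt_mem_primesOver E P hq hP) _
      (restrictNormal_smul_sub_mem_of_mem_inertia E hτ)
  · obtain ⟨τ, hτ⟩ := hall _ (primeAt_mem_primesOver E P hq hP)
    refine ⟨τ, ?_⟩
    rw [← hτ]
    exact zpowers_eq_stabilizer_of_frobenius hq hunr (primeAt_mem_primesOver E P hq hP) _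
      (restrictNormal_smul_primeAt E hφ.mem_decompositionSubgroup)
      (restrictNormal_smul_sub_pow_mem E hφ)

end galois

end Fermat.Agent.Density
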